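import Fermat.Agent.TWP.FlatLoc.Val

set_option autoImplicit false
set_option linter.style.haveILetI false
set_option linter.unusedVariables false

/-!
# Tame extensions of the maximal unramified extension, inside `ℚ̄`
-/

open Pointwise

namespace Fermat.Agent.TWFlat

/-- A tame uniformiser `π = p ^ (1 / e)`, `e = e₁ (p - 1)`, and a primitive `p`-th root of unity. -/
structure Tame (p : ℕ) (P : ValuationSubring Om) where
  hp : p.Prime
  hp2 : p ≠ 2
  hP : P.LiesOverPrime p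
  e₁ : ℕ
  he₁ : 0 < e₁
  hcop : ¬ p ∣ e₁
  π : Om
  hπ : π ^ (e₁ * (p - 1)) = p
  ζ : Om
  hζ : IsPrimitiveRoot ζ p

theorem exists_tame {p : ℕ} {P : ValuationSubring Om} (hp : p.Prime) (hp2 : p ≠ 2)
    (hP : P.LiesOverPrime p) {e₁ : ℕ} (he₁ : 0 < e₁) (hcop : ¬ p ∣ e₁) :
    ∃ T : Tame p P, T.e₁ = e₁ := by
  obtain ⟨π, hπ⟩ := IsAlgClosed.exists_pow_nat_eq (p : Om) (n := e₁ * (p - 1))
    (Nat.mul_pos he₁ (by have := hp.two_le; omega))
  haveI : NeZero ((p : ℕ) : Om) := ⟨by exact_mod_cast hp.ne_zero⟩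
  obtain ⟨ζ, hζ⟩ := HasEnoughRootsOfUnity.exists_primitiveRoot Om p
  exact ⟨⟨hp, hp2, hP, e₁, he₁, hcop, π, hπ, ζ, hζ⟩, rfl⟩

namespace Tame

variable {p : ℕ} {P : ValuationSubring Om} (T : Tame p P)

/-- the ramification index -/
def e : ℕ := T.e₁ * (p - 1)

/-- the value of the uniformiser -/
noncomputable def v : P.ValueGroup := P.valuation T.π

include T in
theorem three_le : 3 ≤ p := by
  have := T.hp.two_le
  have := T.hp2
  omega

theorem e_pos : 0 < T.e := Nat.mul_pos T.he₁ (by have := T.three_le; omega)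

theorem not_dvd_e : ¬ p ∣ T.e := by
  intro h
  rcases (Nat.Prime.dvd_mul T.hp).mp h with h | h
  · exact T.hcop h
  · have := Nat.le_of_dvd (by have := T.three_le; omega) h
    have := T.three_le
    omega

theorem pi_pow : T.π ^ T.e = p := T.hπ

theorem pi_ne : T.π ≠ 0 := by
  intro h
  have h1 := T.pi_pow
  rw [h, zero_pow T.e_pos.ne'] at h1
  exact T.hp.ne_zero (by exact_mod_cast h1.symm)

theorem v_pos : 0 < T.v := zero_lt_iff.mpr ((map_ne_zero _).mpr T.pi_ne)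

theorem v_ne : T.v ≠ 0 := T.v_pos.ne'

theorem v_pow_e : T.v ^ T.e = P.valuation (p : Om) := by
  rw [v, ← map_pow, T.pi_pow]

theorem v_lt : T.v < 1 := by
  by_contra hcon
  push Not at hcon
  have h1 := val_p_lt T.hP
  rw [← T.v_pow_e] at h1
  exact absurd h1 (not_lt.mpr (one_le_pow₀ hcon))

theorem zle {m n : ℤ} : T.v ^ m ≤ T.v ^ n ↔ n ≤ m := zpow_le_iff T.v_pos T.v_lt

theorem zlt {m n : ℤ} : T.v ^ m < T.v ^ n ↔ n < m := zpow_lt_iff T.v_pos T.v_lt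

theorem zeq {m n : ℤ} : T.v ^ m = T.v ^ n ↔ n = m := zpow_inj_iff T.v_pos T.v_lt

/-! ### the tame character -/

/-- the tame character -/
noncomputable def th (g : GQ) : Om := g T.π / T.π

theorem apply_pi (g : GQ) : g T.π = T.th g * T.π := by
  rw [th, div_mul_cancel₀ _ T.pi_ne]

theorem th_pow (g : GQ) : T.th g ^ T.e = 1 := by
  rw [th, div_pow, ← map_pow, T.pi_pow, map_natCast, div_self]
  exact_mod_cast T.hp.ne_zero

theorem th_ne (g : GQ) : T.th g ≠ 0 := by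
  intro h
  have := T.th_pow g
  rw [h, zero_pow T.e_pos.ne'] at this
  exact zero_ne_one this

theorem val_th (g : GQ) : P.valuation (T.th g) = 1 := val_root T.e_pos.ne' (T.th_pow g)

theorem th_fixed {g : GQ} (hg : g ∈ P.inertiaSubgroupIn ℚ) (h : GQ) : g (T.th h) = T.th h :=
  root_fixed T.hp T.hP hg T.not_dvd_e (T.th_pow h)

theorem th_mul {g : GQ} (hg : g ∈ P.inertiaSubgroupIn ℚ) (h : GQ) :
    T.th (g * h) = T.th g * T.th h := by
  have h1 : (g * h) T.π = g (h T.π) := rfl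
  rw [th, h1, T.apply_pi h, map_mul, T.th_fixed hg, T.apply_pi g]
  field_simp [T.pi_ne]

theorem th_one : T.th 1 = 1 := by
  have : (1 : GQ) T.π = T.π := rfl
  rw [th, this, div_self T.pi_ne]

theorem th_pow_apply {g : GQ} (hg : g ∈ P.inertiaSubgroupIn ℚ) (n : ℕ) :
    T.th (g ^ n) = T.th g ^ n := by
  induction n with
  | zero => rw [pow_zero, pow_zero, T.th_one]
  | succ n ih => rw [pow_succ', pow_succ', T.th_mul hg, ih]

theorem th_inv {g : GQ} (hg : g ∈ P.inertiaSubgroupIn ℚ) : T.th g⁻¹ = (T.th g)⁻¹ := by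
  refine eq_inv_of_mul_eq_one_left ?_
  rw [← T.th_mul ((P.inertiaSubgroupIn ℚ).inv_mem hg), inv_mul_cancel, T.th_one]

/-- the tame character on inertia as a homomorphism -/
noncomputable def thHom : P.inertiaSubgroupIn ℚ →* Omˣ where
  toFun g := Units.mk0 (T.th g) (T.th_ne g)
  map_one' := Units.ext T.th_one
  map_mul' g h := Units.ext (T.th_mul g.2 h)

theorem coe_thHom (g : P.inertiaSubgroupIn ℚ) : (T.thHom g : Om) = T.th g := rfl

theorem exists_tame_gen : ∃ τ ∈ P.inertiaSubgroupIn ℚ, IsPrimitiveRoot (T.th τ) T.e := by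
  let H := T.thHom.range
  have hH : ∀ h ∈ H, h ^ T.e = 1 := by
    rintro _ ⟨g, rfl⟩
    exact Units.ext (T.th_pow g)
  haveI : Finite H := by
    haveI : NeZero T.e := ⟨T.e_pos.ne'⟩
    refine Finite.of_injective (β := rootsOfUnity T.e Om)
      (fun h => ⟨h.1, (mem_rootsOfUnity T.e h.1).mpr (hH h.1 h.2)⟩) ?_
    intro a b h
    exact Subtype.ext (congrArg (fun z : rootsOfUnity T.e Om => (z : Omˣ)) h)
  obtain ⟨⟨h0, g0, hg0⟩, hgen⟩ := IsCyclic.exists_generator (α := H)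
  set m := Nat.card H with hm
  have hmpos : 0 < m := Nat.card_pos
  have hord : orderOf (⟨h0, g0, hg0⟩ : H) = m := orderOf_eq_card_of_forall_mem_zpowers hgen
  have hcard : ∀ g ∈ P.inertiaSubgroupIn ℚ, T.th g ^ m = 1 := by
    intro g hg
    have h1 : (⟨T.thHom ⟨g, hg⟩, ⟨g, hg⟩, rfl⟩ : H) ^ m = 1 := pow_card_eq_one'
    have h2 := congrArg (fun z : H => ((z : Omˣ) : Om)) h1
    simpa [coe_thHom] using h2
  obtain ⟨n, hn⟩ := exists_val_eq_zpow (P := P) T.hp T.hP (x := T.π ^ m)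
    (pow_ne_zero _ T.pi_ne) (fun g hg => by rw [map_pow, T.apply_pi, mul_pow, hcard g hg, one_mul])
  rw [map_pow, ← T.v_pow_e] at hn
  have h3 : (m : ℤ) = T.e * n := by
    have h4 : T.v ^ (m : ℤ) = T.v ^ ((T.e : ℤ) * n) := by
      rw [zpow_natCast, zpow_mul, zpow_natCast]; exact hn
    exact (T.zeq.mp h4).symm
  have h5 : T.e ∣ m := by
    have : (T.e : ℤ) ∣ m := ⟨n, h3⟩
    exact_mod_cast this
  have h6 : m ∣ T.e := by
    rw [← hord]
    exact orderOf_dvd_of_pow_eq_one (Subtype.ext (hH h0 ⟨g0, hg0⟩))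
  have h7 : m = T.e := Nat.dvd_antisymm h6 h5
  refine ⟨g0, g0.2, ?_⟩
  have h8 : orderOf h0 = orderOf (⟨h0, g0, hg0⟩ : H) :=
    orderOf_injective H.subtype Subtype.val_injective (⟨h0, g0, hg0⟩ : H)
  rw [← coe_thHom, hg0, IsPrimitiveRoot.coe_units_iff, IsPrimitiveRoot.iff_orderOf, ← h7, h8, hord]

/-! ### the group `I_e` and the field `K` -/

/-- the Galois group of `ℚ̄` over `K = ℚ_p^nr(π)` -/
def G : Subgroup GQ where
  carrier := {g | g ∈ P.inertiaSubgroupIn ℚ ∧ g T.π = T.π}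
  one_mem' := ⟨one_mem _, rfl⟩
  mul_mem' := fun {a b} ha hb => ⟨mul_mem ha.1 hb.1, by
    show a (b T.π) = _
    rw [hb.2, ha.2]⟩
  inv_mem' := fun {a} ha => ⟨inv_mem ha.1, by
    have h1 : a⁻¹ (a T.π) = T.π := by
      have : a⁻¹ (a T.π) = (a⁻¹ * a) T.π := rfl
      rw [this, inv_mul_cancel]; rfl
    rwa [ha.2] at h1⟩

theorem mem_G {g : GQ} : g ∈ T.G ↔ g ∈ P.inertiaSubgroupIn ℚ ∧ g T.π = T.π := Iff.rfl

theorem mem_G' {g : GQ} : g ∈ T.G ↔ g ∈ P.inertiaSubgroupIn ℚ ∧ T.th g = 1 := by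
  rw [mem_G, th, div_eq_one_iff_eq T.pi_ne]

theorem inv_apply (s : GQ) (x : Om) : s (s⁻¹ x) = x := by
  have : s (s⁻¹ x) = (s * s⁻¹) x := rfl
  rw [this, mul_inv_cancel]; rfl

theorem apply_inv (s : GQ) (x : Om) : s⁻¹ (s x) = x := by
  have : s⁻¹ (s x) = (s⁻¹ * s) x := rfl
  rw [this, inv_mul_cancel]; rfl

theorem conj_mem {s g : GQ} (hs : s ∈ P.decompositionSubgroup ℚ) (hg : g ∈ T.G) :
    s * g * s⁻¹ ∈ T.G := by
  refine ⟨conj_inertia hs hg.1, ?_⟩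
  show s (g (s⁻¹ T.π)) = T.π
  rw [T.apply_pi s⁻¹, map_mul, T.th_fixed hg.1, hg.2, ← T.apply_pi, inv_apply]

theorem conj_mem' {s g : GQ} (hs : s ∈ P.decompositionSubgroup ℚ) (hg : g ∈ T.G) :
    s⁻¹ * g * s ∈ T.G := by
  have := T.conj_mem (inv_mem hs) hg
  rwa [inv_inv] at this

/-- the field `K` -/
def K : Subfield Om where
  carrier := {x | ∀ g ∈ T.G, g x = x}
  mul_mem' := fun {a b} ha hb g hg => by rw [map_mul, ha g hg, hb g hg]
  one_mem' := fun g _ => map_one g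
  add_mem' := fun {a b} ha hb g hg => by rw [map_add, ha g hg, hb g hg]
  zero_mem' := fun g _ => map_zero g
  neg_mem' := fun {a} ha g hg => by rw [map_neg, ha g hg]
  inv_mem' := fun a ha g hg => by rw [map_inv₀, ha g hg]

theorem mem_K {x : Om} : x ∈ T.K ↔ ∀ g ∈ T.G, g x = x := Iff.rfl

theorem pi_mem : T.π ∈ T.K := fun _ hg => hg.2

theorem mem_K_of_inertia {x : Om} (h : ∀ g ∈ P.inertiaSubgroupIn ℚ, g x = x) : x ∈ T.K :=
  fun g hg => h g hg.1

theorem apply_mem_K {s : GQ} (hs : s ∈ P.decompositionSubgroup ℚ) {x : Om} (hx : x ∈ T.K) :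
    s x ∈ T.K := by
  intro g hg
  have h1 := hx _ (T.conj_mem' hs hg)
  have h2 : (s⁻¹ * g * s) x = s⁻¹ (g (s x)) := rfl
  rw [h2] at h1
  have h3 := congrArg s h1
  rwa [inv_apply] at h3

/-- every element of inertia is a power of the generator times an element of `G` -/
theorem exists_decomp {τ : GQ} (hτ : τ ∈ P.inertiaSubgroupIn ℚ)
    (hprim : IsPrimitiveRoot (T.th τ) T.e) {g : GQ} (hg : g ∈ P.inertiaSubgroupIn ℚ) :
    ∃ j : ℕ, ∃ h ∈ T.G, g = τ ^ j * h := by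
  haveI : NeZero T.e := ⟨T.e_pos.ne'⟩
  obtain ⟨j, -, hj⟩ := hprim.eq_pow_of_pow_eq_one (T.th_pow g)
  have hτj := (P.inertiaSubgroupIn ℚ).pow_mem hτ j
  refine ⟨j, (τ ^ j)⁻¹ * g, ?_, by group⟩
  rw [mem_G']
  refine ⟨mul_mem (inv_mem hτj) hg, ?_⟩
  rw [T.th_mul (inv_mem hτj), T.th_inv hτj, T.th_pow_apply hτ, ← hj,
    inv_mul_cancel₀ (pow_ne_zero _ (T.th_ne τ))]

/-- the value group of `K` is generated by the value of `π` -/
theorem exists_val_K {x : Om} (hx0 : x ≠ 0) (hx : x ∈ T.K) : ∃ n : ℤ, P.valuation x = T.v ^ n := by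
  obtain ⟨τ, hτ, hprim⟩ := T.exists_tame_gen
  have hτp : ∀ i : ℕ, τ ^ i ∈ P.inertiaSubgroupIn ℚ := fun i => pow_mem hτ i
  set N : Om := ∏ i ∈ Finset.range T.e, (τ ^ i) x with hN
  have hτe : (τ ^ T.e) x = x := by
    apply hx
    rw [mem_G']
    exact ⟨hτp _, by rw [T.th_pow_apply hτ, T.th_pow]⟩
  have h1 : τ N = N := by
    have h2 : τ N = ∏ i ∈ Finset.range T.e, (τ ^ (i + 1)) x := by
      rw [hN, map_prod]
      refine Finset.prod_congr rfl fun i _ => ?_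
      rw [pow_succ']; rfl
    have h3 := Finset.prod_range_succ' (fun i => (τ ^ i) x) T.e
    have h4 := Finset.prod_range_succ (fun i => (τ ^ i) x) T.e
    rw [h3] at h4
    simp only [pow_zero, hτe] at h4
    have h5 : (1 : GQ) x = x := rfl
    rw [h5] at h4
    rw [h2, hN]
    exact mul_right_cancel₀ hx0 h4
  have h1' : ∀ j : ℕ, (τ ^ j) N = N := by
    intro j
    induction j with
    | zero => rfl
    | succ j ih =>
      have : (τ ^ (j + 1)) N = (τ ^ j) (τ N) := by rw [pow_succ]; rfl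
      rw [this, h1, ih]
  have h2 : ∀ h ∈ T.G, h N = N := by
    intro h hh
    rw [hN, map_prod]
    refine Finset.prod_congr rfl fun i _ => ?_
    exact T.apply_mem_K (mem_dec_of_inertia (hτp i)) hx h hh
  have hfix : ∀ g ∈ P.inertiaSubgroupIn ℚ, g N = N := by
    intro g hg
    obtain ⟨j, h, hh, rfl⟩ := T.exists_decomp hτ hprim hg
    show (τ ^ j) (h N) = N
    rw [h2 h hh, h1']
  have hN0 : N ≠ 0 := by
    rw [hN, Finset.prod_ne_zero_iff]
    exact fun i _ => (map_ne_zero _).mpr hx0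
  obtain ⟨n, hn⟩ := exists_val_eq_zpow T.hp T.hP hN0 hfix
  refine ⟨n, pow_inj T.e_pos.ne' ?_⟩
  have h3 : P.valuation N = P.valuation x ^ T.e := by
    rw [hN, map_prod]
    rw [Finset.prod_congr rfl fun i _ => val_inertia (hτp i) x, Finset.prod_const,
      Finset.card_range]
  rw [← h3, hn, ← T.v_pow_e, ← zpow_natCast, ← zpow_natCast, ← zpow_mul, ← zpow_mul, mul_comm]

theorem val_le_of_lt {x : Om} (hx : x ∈ T.K) {n : ℤ} (h : P.valuation x < T.v ^ n) :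
    P.valuation x ≤ T.v ^ (n + 1) := by
  by_cases hx0 : x = 0
  · rw [hx0, map_zero]; exact zero_le
  · obtain ⟨m, hm⟩ := T.exists_val_K hx0 hx
    rw [hm, T.zlt] at h
    rw [hm, T.zle]
    omega

theorem val_le_v {x : Om} (hx : x ∈ T.K) (h : P.valuation x < 1) : P.valuation x ≤ T.v := by
  have := T.val_le_of_lt hx (n := 0) (by simpa using h)
  simpa using this

/-- digits -/
theorem exists_digit {x : Om} (hx : x ∈ T.K) {n : ℤ} (h : P.valuation x ≤ T.v ^ n) :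
    ∃ ξ : Om, (∀ g ∈ P.inertiaSubgroupIn ℚ, g ξ = ξ) ∧ P.valuation ξ ≤ 1 ∧
      P.valuation (x - ξ * T.π ^ n) ≤ T.v ^ (n + 1) := by
  have hpn : P.valuation (T.π ^ n) = T.v ^ n := by rw [map_zpow₀]; rfl
  have hpn0 : T.π ^ n ≠ 0 := zpow_ne_zero _ T.pi_ne
  have h1 : P.valuation (x / T.π ^ n) ≤ 1 := by
    rw [map_div₀, hpn]
    exact div_le_one_of_le₀ h zero_le
  obtain ⟨ξ, hξ, hξ1, hξx⟩ := exists_teich T.hp T.hP h1
  refine ⟨ξ, hξ, hξ1, T.val_le_of_lt ?_ ?_⟩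
  · exact T.K.sub_mem hx (T.K.mul_mem (T.mem_K_of_inertia hξ) (zpow_mem T.pi_mem n))
  · have h2 : x - ξ * T.π ^ n = (x / T.π ^ n - ξ) * T.π ^ n := by
      rw [sub_mul, div_mul_cancel₀ _ hpn0]
    rw [h2, map_mul, hpn]
    exact mul_lt_of_lt_one_left (zpow_pos T.v_pos n) hξx

/-! ### the root of unity `ζ` -/

theorem val_zeta : P.valuation T.ζ = 1 := val_root T.hp.ne_zero T.hζ.pow_eq_one

theorem val_zeta_pow_sub_le (j : ℕ) : P.valuation (T.ζ ^ j - 1) ≤ P.valuation (T.ζ - 1) := by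
  rw [← geom_sum_mul, map_mul]
  refine mul_le_of_le_one_left zero_le ?_
  refine Valuation.map_sum_le _ fun i _ => ?_
  rw [map_pow, T.val_zeta, one_pow]

theorem val_zeta_pow_sub {j : ℕ} (hj : ¬ p ∣ j) :
    P.valuation (T.ζ ^ j - 1) = P.valuation (T.ζ - 1) := by
  refine le_antisymm (T.val_zeta_pow_sub_le j) ?_
  have hcop : j.Coprime p := ((Nat.Prime.coprime_iff_not_dvd T.hp).mpr hj).symm
  obtain ⟨i, hi⟩ : ∃ i : ℕ, T.ζ = (T.ζ ^ j) ^ i := by
    obtain ⟨i, hi⟩ := Nat.exists_mul_mod_eq_one_of_coprime hcop T.hp.one_lt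
    refine ⟨i, ?_⟩
    rw [← pow_mul, ← Nat.div_add_mod (j * i) p, hi.2, pow_add, pow_mul, T.hζ.pow_eq_one, one_pow,
      one_mul, pow_one]
  conv_lhs => rw [hi]
  rw [← geom_sum_mul, map_mul]
  refine mul_le_of_le_one_left zero_le ?_
  refine Valuation.map_sum_le _ fun i _ => ?_
  rw [map_pow, map_pow, T.val_zeta, one_pow, one_pow]

omit T in
theorem prod_aux {p : ℕ} (hp : 0 < p) {ζ : Om} (h : IsPrimitiveRoot ζ p) :
    ∏ k ∈ Finset.range (p - 1), (1 - ζ ^ (k + 1)) = (p : Om) := by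
  obtain ⟨n, rfl⟩ : ∃ n, p = n + 1 := ⟨p - 1, by omega⟩
  simpa using h.prod_one_sub_pow_eq_order

theorem val_zeta_sub : P.valuation (T.ζ - 1) = T.v ^ T.e₁ := by
  obtain ⟨n, hn⟩ : ∃ n, n = p - 1 := ⟨p - 1, rfl⟩
  have hn0 : n ≠ 0 := by have := T.three_le; omega
  have h1 : ∏ k ∈ Finset.range n, (1 - T.ζ ^ (k + 1)) = (p : Om) := by
    rw [hn]; exact prod_aux T.hp.pos T.hζ
  have h2 := congrArg P.valuation h1
  rw [map_prod, ← T.v_pow_e] at h2
  have h3 : ∏ k ∈ Finset.range n, P.valuation (1 - T.ζ ^ (k + 1)) = P.valuation (T.ζ - 1) ^ n := by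
    rw [Finset.prod_congr rfl (g := fun _ => P.valuation (T.ζ - 1)), Finset.prod_const,
      Finset.card_range]
    intro k hk
    rw [Finset.mem_range] at hk
    rw [P.valuation.map_sub_swap]
    refine T.val_zeta_pow_sub fun h => ?_
    have := Nat.le_of_dvd (by omega) h
    omega
  rw [h3] at h2
  have h4 : T.e = T.e₁ * n := by rw [hn]; rfl
  rw [h4, pow_mul] at h2
  exact pow_inj hn0 h2

theorem zeta_sub_ne : T.ζ - 1 ≠ 0 := by
  intro h
  have := T.val_zeta_sub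
  rw [h, map_zero] at this
  exact (pow_ne_zero _ T.v_ne) this.symm

theorem exists_apply_zeta (g : GQ) : ∃ a : ℕ, g T.ζ = T.ζ ^ a := by
  haveI : NeZero p := ⟨T.hp.ne_zero⟩
  obtain ⟨a, -, ha⟩ := T.hζ.eq_pow_of_pow_eq_one (ξ := g T.ζ)
    (by rw [← map_pow, T.hζ.pow_eq_one, map_one])
  exact ⟨a, ha.symm⟩

theorem val_pow_sub_div (a : ℕ) : P.valuation ((T.ζ ^ a - 1) / (T.ζ - 1) - a) < 1 := by
  have h1 : (T.ζ ^ a - 1) / (T.ζ - 1) = ∑ i ∈ Finset.range a, T.ζ ^ i := by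
    rw [← geom_sum_mul, mul_div_cancel_right₀ _ T.zeta_sub_ne]
  have h2 : (T.ζ ^ a - 1) / (T.ζ - 1) - a = ∑ i ∈ Finset.range a, (T.ζ ^ i - 1) := by
    rw [h1, Finset.sum_sub_distrib]; simp
  rw [h2]
  refine Valuation.map_sum_lt _ one_ne_zero fun i _ => ?_
  refine lt_of_le_of_lt (T.val_zeta_pow_sub_le i) ?_
  rw [T.val_zeta_sub]
  exact pow_lt_one₀ zero_le T.v_lt T.he₁.ne'

/-- the cyclotomic character is `θ ^ e₁` modulo the maximal ideal -/
theorem cyc_eq {g : GQ} (hg : g ∈ P.inertiaSubgroupIn ℚ) {a : ℕ} (ha : g T.ζ = T.ζ ^ a) :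
    P.valuation ((a : Om) - T.th g ^ T.e₁) < 1 := by
  have hpe0 : T.π ^ T.e₁ ≠ 0 := pow_ne_zero _ T.pi_ne
  have hval : P.valuation (T.ζ - 1) = P.valuation (T.π ^ T.e₁) := by
    rw [T.val_zeta_sub, map_pow]; rfl
  have h1 := val_div_sub_lt hg (x := T.ζ - 1) (y := T.π ^ T.e₁) hpe0 hval.le
  have h2 : g (T.ζ - 1) = T.ζ ^ a - 1 := by rw [map_sub, map_one, ha]
  have h3 : g (T.π ^ T.e₁) = T.th g ^ T.e₁ * T.π ^ T.e₁ := by
    rw [map_pow, T.apply_pi, mul_pow]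
  rw [h2, h3] at h1
  have hth : P.valuation (T.th g ^ T.e₁) = 1 := by rw [map_pow, T.val_th, one_pow]
  have hth0 : T.th g ^ T.e₁ ≠ 0 := pow_ne_zero _ (T.th_ne g)
  -- divide by the unit `(ζ - 1) / π ^ e₁`
  have h4 : P.valuation ((T.ζ ^ a - 1) / (T.ζ - 1) - T.th g ^ T.e₁) < 1 := by
    have h5 : (T.ζ ^ a - 1) / (T.ζ - 1) - T.th g ^ T.e₁ =
        ((T.ζ ^ a - 1) / (T.th g ^ T.e₁ * T.π ^ T.e₁) - (T.ζ - 1) / T.π ^ T.e₁) *
          (T.th g ^ T.e₁ * (T.π ^ T.e₁ / (T.ζ - 1))) := by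
      have := T.zeta_sub_ne
      field_simp
    rw [h5, map_mul, map_mul, hth, one_mul, map_div₀, ← hval,
      div_self ((map_ne_zero _).mpr T.zeta_sub_ne), mul_one]
    exact h1
  have h6 : (a : Om) - T.th g ^ T.e₁ = ((T.ζ ^ a - 1) / (T.ζ - 1) - T.th g ^ T.e₁) -
      ((T.ζ ^ a - 1) / (T.ζ - 1) - a) := by ring
  rw [h6]
  exact lt_of_le_of_lt (P.valuation.map_sub _ _) (max_lt h4 (T.val_pow_sub_div a))

theorem zeta_mem : T.ζ ∈ T.K := by
  intro g hg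
  obtain ⟨a, ha⟩ := T.exists_apply_zeta g
  have h1 := T.cyc_eq hg.1 ha
  rw [(T.mem_G'.mp hg).2, one_pow] at h1
  have h2 : P.valuation (((a - 1 : ℤ)) : Om) < 1 := by push_cast; exact h1
  rw [val_intCast_lt_iff T.hp T.hP] at h2
  rw [ha]
  obtain ⟨c, hc⟩ := h2
  have h3 : T.ζ ^ ((a : ℤ)) = T.ζ ^ (1 : ℤ) := by
    have : (a : ℤ) = p * c + 1 := by omega
    rw [this, zpow_add₀ (T.hζ.ne_zero T.hp.ne_zero), zpow_mul, zpow_natCast, T.hζ.pow_eq_one,
      one_zpow, one_mul]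
  simpa using h3

/-! ### `p`-th powers -/

theorem pow_sub_one_eq_prod (y : Om) :
    y ^ p - 1 = ∏ i ∈ Finset.range p, (y - T.ζ ^ i) := by
  haveI : NeZero p := ⟨T.hp.ne_zero⟩
  have h : y ^ p - 1 = ∏ ξ ∈ Polynomial.nthRootsFinset p (1 : Om), (y - ξ) := by
    have h1 := Polynomial.X_pow_sub_one_eq_prod T.hp.pos T.hζ
    have h2 := congrArg (Polynomial.eval y) h1
    simpa [Polynomial.eval_prod] using h2
  rw [h]
  symm
  refine Finset.prod_bij (fun i _ => T.ζ ^ i) ?_ ?_ ?_ ?_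
  · intro i _
    rw [Polynomial.mem_nthRootsFinset T.hp.pos, ← pow_mul, mul_comm, pow_mul, T.hζ.pow_eq_one,
      one_pow]
  · intro i hi j hj hij
    rw [Finset.mem_range] at hi hj
    exact T.hζ.pow_inj hi hj hij
  · intro ξ hξ
    rw [Polynomial.mem_nthRootsFinset T.hp.pos] at hξ
    obtain ⟨i, hi, h⟩ := T.hζ.eq_pow_of_pow_eq_one hξ
    exact ⟨i, Finset.mem_range.mpr hi, h⟩
  · intro i _
    rfl

theorem val_pow_sub_one_of_gt {y : Om} (hy : T.v ^ T.e₁ < P.valuation (y - 1)) :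
    P.valuation (y ^ p - 1) = P.valuation (y - 1) ^ p := by
  rw [T.pow_sub_one_eq_prod, map_prod,
    Finset.prod_congr rfl (g := fun _ => P.valuation (y - 1)), Finset.prod_const,
    Finset.card_range]
  intro i _
  have h1 : y - T.ζ ^ i = (y - 1) - (T.ζ ^ i - 1) := by ring
  rw [h1]
  refine Valuation.map_sub_eq_of_lt_left _ ?_
  refine lt_of_le_of_lt (T.val_zeta_pow_sub_le i) ?_
  rwa [T.val_zeta_sub]

theorem val_pow_sub_one_of_le {y : Om} (hy : P.valuation (y - 1) ≤ T.v ^ T.e₁) :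
    P.valuation (y ^ p - 1) ≤ T.v ^ (T.e₁ * p) := by
  rw [T.pow_sub_one_eq_prod, map_prod, pow_mul]
  calc _ ≤ ∏ i ∈ Finset.range p, T.v ^ T.e₁ := ?_
    _ = _ := by rw [Finset.prod_const, Finset.card_range]
  refine Finset.prod_le_prod (fun _ _ => zero_le) fun i _ => ?_
  have h1 : y - T.ζ ^ i = (y - 1) - (T.ζ ^ i - 1) := by ring
  rw [h1]
  refine (P.valuation.map_sub _ _).trans (max_le hy ?_)
  rw [← T.val_zeta_sub]
  exact T.val_zeta_pow_sub_le i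

end Tame

end Fermat.Agent.TWFlat
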