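import Mathlib
import Fermat.Agent.TWP.FlatLoc.Tame
import Fermat.Agent.FlatOrd.InertiaLift

set_option autoImplicit false
set_option linter.style.haveILetI false
set_option linter.unusedVariables false

/-!
# The decomposition group is topologically generated by inertia and a Frobenius element
-/

open Pointwise

namespace Fermat.Agent.TWFlat

open FrobExists

section

variable {P : ValuationSubring Om} {p : ℕ}

local notation "κ" => IsLocalRing.ResidueField P

/-- The action of an element of the decomposition group on the residue field. -/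
noncomputable def resAut (hp : p.Prime) (hP : P.LiesOverPrime p)
    [Algebra (ZMod p) (IsLocalRing.ResidueField P)] (g : P.decompositionSubgroup ℚ) :
    IsLocalRing.ResidueField P ≃ₐ[ZMod p] IsLocalRing.ResidueField P :=
  AlgEquiv.ofRingEquiv (f := MulSemiringAction.toRingEquiv (P.decompositionSubgroup ℚ)
    (IsLocalRing.ResidueField P) g) (fun a => by
    have : ((MulSemiringAction.toRingEquiv (P.decompositionSubgroup ℚ)
      (IsLocalRing.ResidueField P) g : IsLocalRing.ResidueField P →+*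
      IsLocalRing.ResidueField P)).comp (algebraMap (ZMod p) (IsLocalRing.ResidueField P)) =
      algebraMap (ZMod p) (IsLocalRing.ResidueField P) := RingHom.ext_zmod _ _
    exact RingHom.congr_fun this a)

/-- An element of the decomposition group acts as a power of Frobenius on the residues of the
integers of a number field. -/
theorem exists_pow_frob (hp : p.Prime) (hP : P.LiesOverPrime p) {g : GQ}
    (hg : g ∈ P.decompositionSubgroup ℚ) (L : IntermediateField ℚ Om) [FiniteDimensional ℚ L] :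
    ∃ n : ℕ, ∀ x : Om, IsIntegral ℤ x → x ∈ L → P.valuation (g x - x ^ p ^ n) < 1 := by
  classical
  haveI : Fact p.Prime := ⟨hp⟩
  haveI := ResField.charP_residueField (A := P) hp hP
  letI : Algebra (ZMod p) (IsLocalRing.ResidueField P) := ZMod.algebra _ p
  haveI := ResField.isAlgebraic_residueField (A := P) hp
  haveI : NumberField L := NumberField.mk
  obtain ⟨s, hs⟩ : (⊤ : Submodule ℤ (NumberField.RingOfIntegers L)).FG := Module.Finite.fg_top
  have hint : ∀ x : NumberField.RingOfIntegers L, ((x : L) : Om) ∈ P := fun x =>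
    mem_of_isIntegral P (by
      have h1 := x.isIntegral_coe
      exact h1.map (IntermediateField.val L |>.restrictScalars ℤ))
  let r : NumberField.RingOfIntegers L →+* IsLocalRing.ResidueField P :=
    (IsLocalRing.residue P).comp
      (RingHom.codRestrict ((algebraMap L Om).comp (algebraMap (NumberField.RingOfIntegers L) L))
        P.toSubring hint)
  have hr : ∀ x, r x = IsLocalRing.residue P ⟨((x : L) : Om), hint x⟩ := fun x => rfl
  let F := IntermediateField.adjoin (ZMod p) ((s.image r : Finset _) : Set (IsLocalRing.ResidueField P))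
  haveI : FiniteDimensional (ZMod p) F := by
    refine IntermediateField.finiteDimensional_adjoin fun x _ => ?_
    exact (Algebra.IsAlgebraic.isAlgebraic x).isIntegral
  haveI : Finite F := Module.finite_of_finite (ZMod p)
  have hrF : ∀ x, r x ∈ F := by
    intro x
    have hx : x ∈ Submodule.span ℤ (s : Set (NumberField.RingOfIntegers L)) := by
      rw [hs]; trivial
    induction hx using Submodule.span_induction with
    | mem y hy =>
      exact IntermediateField.subset_adjoin _ _ (Finset.mem_coe.mpr (Finset.mem_image_of_mem r hy))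
    | zero => rw [map_zero]; exact zero_mem F
    | add y z _ _ h1 h2 => rw [map_add]; exact add_mem h1 h2
    | smul c y _ h1 => rw [zsmul_eq_mul, map_mul, map_intCast]; exact mul_mem (intCast_mem F c) h1
  let gb := resAut hp hP ⟨g, hg⟩
  obtain ⟨n, hn⟩ := (FiniteField.bijective_frobeniusAlgEquivOfAlgebraic_pow (ZMod p) F).2
    (gb.restrictNormal F)
  refine ⟨n.1, fun x hxi hxL => ?_⟩
  have hxi' : IsIntegral ℤ (⟨x, hxL⟩ : L) := by
    have : IsIntegral ℤ ((IntermediateField.val L |>.restrictScalars ℤ) ⟨x, hxL⟩) := hxi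
    exact (isIntegral_algHom_iff ((IntermediateField.val L).restrictScalars ℤ)
      (IntermediateField.val L).injective).mp this
  let x' : NumberField.RingOfIntegers L := ⟨⟨x, hxL⟩, hxi'⟩
  have hxP : x ∈ P := hint x'
  have h1 : ((gb.restrictNormal F) ⟨r x', hrF x'⟩ : IsLocalRing.ResidueField P) = gb (r x') :=
    AlgEquiv.restrictNormal_commutes gb F ⟨r x', hrF x'⟩
  have h2 : ((gb.restrictNormal F) ⟨r x', hrF x'⟩ : IsLocalRing.ResidueField P) =
      (r x') ^ p ^ n.1 := by
    rw [← hn]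
    simp only [AlgEquiv.coe_pow, FiniteField.coe_frobeniusAlgEquivOfAlgebraic_iterate, ZMod.card]
    rfl
  rw [h1] at h2
  have h3 : gb (r x') = IsLocalRing.residue P ((⟨g, hg⟩ : P.decompositionSubgroup ℚ) •
      (⟨x, hxP⟩ : P)) := by
    rw [IsLocalRing.ResidueField.residue_smul]
    rfl
  rw [h3, hr, ← map_pow, ← sub_eq_zero, ← map_sub, IsLocalRing.residue_eq_zero_iff,
    ValuationSubring.valuation_lt_one_iff] at h2
  exact h2

/-- `IsFrobeniusAt` in terms of valuations. -/
theorem frob_iff {φ : GQ} : P.IsFrobeniusAt φ p ↔ φ ∈ P.decompositionSubgroup ℚ ∧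
    ∀ x, P.valuation x ≤ 1 → P.valuation (φ x - x ^ p) < 1 := by
  rw [TWP.Place.isFrobeniusAt_iff]
  refine and_congr Iff.rfl ⟨fun h x hx => ?_, fun h x hx => ?_⟩
  · rw [← ValuationSubring.mem_nonunits_iff]
    exact h x ((P.valuation_le_one_iff x).mp hx)
  · rw [ValuationSubring.mem_nonunits_iff]
    exact h x ((P.valuation_le_one_iff x).mpr hx)

theorem frob_pow {φ : GQ} (hφ : P.IsFrobeniusAt φ p) (n : ℕ) {x : Om} (hx : P.valuation x ≤ 1) :
    P.valuation ((φ ^ n) x - x ^ p ^ n) < 1 := by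
  obtain ⟨h1, h2⟩ := frob_iff.mp hφ
  induction n with
  | zero => simp
  | succ n ih =>
    have h3 : (φ ^ (n + 1)) x = φ ((φ ^ n) x) := by rw [pow_succ']; rfl
    have h4 : P.valuation ((φ ^ n) x) ≤ 1 := by
      rw [val_dec (Subgroup.pow_mem _ h1 n)]; exact hx
    rw [h3]
    have h5 : φ ((φ ^ n) x) - x ^ p ^ (n + 1) =
        φ ((φ ^ n) x - x ^ p ^ n) + (φ (x ^ p ^ n) - (x ^ p ^ n) ^ p) := by
      rw [map_sub, ← pow_mul, ← pow_succ]; ring
    rw [h5]
    refine lt_of_le_of_lt (P.valuation.map_add _ _) (max_lt ?_ ?_)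
    · rw [val_dec h1]; exact ih
    · refine h2 _ ?_
      rw [map_pow]; exact pow_le_one₀ zero_le hx

/-- **Density**: every element of the decomposition group agrees with some `φ ^ n * σ`, `σ` in
inertia, on a given number field. -/
theorem exists_frob_mul_inertia (hp : p.Prime) (hP : P.LiesOverPrime p) {φ : GQ}
    (hφ : P.IsFrobeniusAt φ p) {g : GQ} (hg : g ∈ P.decompositionSubgroup ℚ)
    (L : IntermediateField ℚ Om) [FiniteDimensional ℚ L] :
    ∃ n : ℕ, ∃ σ ∈ P.inertiaSubgroupIn ℚ, ∀ x ∈ L, g x = (φ ^ n * σ) x := by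
  obtain ⟨n, hn⟩ := exists_pow_frob hp hP hg L
  have hφD := (frob_iff.mp hφ).1
  have hφn := Subgroup.pow_mem _ hφD n
  obtain ⟨σ, hσ, hσ'⟩ := FlatOrd.InertiaLift.exists_mul_mem_inertia_of_intermediateField L P hp hP
    ((φ ^ n)⁻¹ * g) (fun x hx => by
    have hx1 : P.valuation (x : Om) ≤ 1 :=
      (P.valuation_le_one_iff _).mpr (mem_of_isIntegral P x.2)
    rw [mem_center, ValuationSubring.mem_nonunits_iff]
    have e1 : (((((φ ^ n)⁻¹ * g) • x - x : integralClosure ℤ Om)) : Om) =
        (φ ^ n)⁻¹ (g x - (φ ^ n) x) := by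
      have e2 : (φ ^ n)⁻¹ ((φ ^ n) (x : Om)) = x := by
        have : (φ ^ n)⁻¹ ((φ ^ n) (x : Om)) = ((φ ^ n)⁻¹ * (φ ^ n)) (x : Om) := rfl
        rw [this, inv_mul_cancel]; rfl
      rw [map_sub, e2]
      rfl
    rw [e1, val_dec (inv_mem hφn)]
    have e3 : g (x : Om) - (φ ^ n) x = (g x - (x : Om) ^ p ^ n) - ((φ ^ n) x - (x : Om) ^ p ^ n) := by
      ring
    rw [e3]
    exact lt_of_le_of_lt (P.valuation.map_sub _ _) (max_lt (hn x x.2 hx) (frob_pow hφ n hx1)))
  refine ⟨n, σ, hσ, fun x hx => ?_⟩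
  have h1 := hσ' x hx
  change g x = (φ ^ n) (σ x)
  rw [h1]
  have : (φ ^ n) (((φ ^ n)⁻¹ * g) x) = ((φ ^ n) * ((φ ^ n)⁻¹ * g)) x := rfl
  rw [this, mul_inv_cancel_left]

end

namespace Tame

variable {p : ℕ} {P : ValuationSubring Om} (T : Tame p P)

include T in
/-- Frobenius raises roots of unity of order prime to `p` to the `p`-th power. -/
theorem frob_root {φ : GQ} (hφ : P.IsFrobeniusAt φ p) {ρ : Om} {N : ℕ} (hN : ¬ p ∣ N)
    (hρ : ρ ^ N = 1) : φ ρ = ρ ^ p := by
  have hN0 : N ≠ 0 := by rintro rfl; exact hN (dvd_zero p)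
  have hρ0 : ρ ≠ 0 := by
    rintro rfl
    rw [zero_pow hN0] at hρ
    exact zero_ne_one hρ
  have hv : P.valuation ρ = 1 := val_root hN0 hρ
  have h1 : φ ρ / ρ ^ p = 1 := by
    refine root_eq_one T.hp T.hP (N := N) hN ?_ ?_
    · rw [div_pow, ← map_pow, hρ, map_one, ← pow_mul, mul_comm, pow_mul, hρ, one_pow, div_one]
    · have h2 : φ ρ / ρ ^ p - 1 = (φ ρ - ρ ^ p) / ρ ^ p := by field_simp
      rw [h2, map_div₀, map_pow, hv, one_pow, div_one]
      exact (frob_iff.mp hφ).2 ρ hv.le
  rwa [div_eq_one_iff_eq (pow_ne_zero _ hρ0)] at h1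

/-- There is a Frobenius element fixing `π`. -/
theorem exists_frob : ∃ φ : GQ, P.IsFrobeniusAt φ p ∧ φ T.π = T.π := by
  obtain ⟨φ, hφ⟩ := FrobExists.exists_isFrobeniusAt P T.hp T.hP
  obtain ⟨τ, hτ, hprim⟩ := T.exists_tame_gen
  haveI : NeZero T.e := ⟨T.e_pos.ne'⟩
  obtain ⟨hφD, hφ2⟩ := frob_iff.mp hφ
  -- choose `i` with `φ (θ(τ)^i) = θ(φ)⁻¹`
  have h1 : (φ⁻¹ ((T.th φ)⁻¹)) ^ T.e = 1 := by
    rw [← map_pow, inv_pow, T.th_pow, inv_one, map_one]
  obtain ⟨i, -, hi⟩ := hprim.eq_pow_of_pow_eq_one h1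
  have hτi : τ ^ i ∈ P.inertiaSubgroupIn ℚ := pow_mem hτ i
  refine ⟨φ * τ ^ i, frob_iff.mpr ⟨mul_mem hφD (mem_dec_of_inertia hτi), fun x hx => ?_⟩, ?_⟩
  · have e1 : (φ * τ ^ i) x - x ^ p = φ ((τ ^ i) x - x) + (φ x - x ^ p) := by
      rw [map_sub]
      change φ ((τ ^ i) x) - x ^ p = _
      ring
    rw [e1]
    refine lt_of_le_of_lt (P.valuation.map_add _ _) (max_lt ?_ (hφ2 x hx))
    rw [val_dec hφD]
    exact val_sub_lt hτi hx
  · change φ ((τ ^ i) T.π) = T.π
    rw [T.apply_pi, T.th_pow_apply hτ, hi, map_mul, inv_apply, T.apply_pi φ, ← mul_assoc,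
      inv_mul_cancel₀ (T.th_ne φ), one_mul]

end Tame

end Fermat.Agent.TWFlat
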