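import Mathlib
import Fermat.Agent.TWP.GW.Matrix

set_option autoImplicit false
set_option linter.unusedVariables false
set_option linter.unusedSectionVars false

/-!
# Adjoint cocycles in an adapted basis (irreducible case)

`D` is the decomposition group, `I` inertia, `N` the subgroup of `I` fixing the tame uniformiser,
`τ` a tame generator, `Φ` a Frobenius element.  The representation `M` is diagonal on `I`, trivial
on `N`, and `M Φ` is antidiagonal.
-/

namespace Fermat.Agent.TWP.FlatLoc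

open Module Matrix Fermat.Agent.TWP.GW

variable {k : Type} [Field k] {D : Type} [Group D]

section basic

variable (M : D →* Matrix (Fin 2) (Fin 2) k)

theorem adj_one (X : Matrix (Fin 2) (Fin 2) k) : adj M 1 X = X := by
  simp [adj]

theorem adj_mul (g h : D) (X : Matrix (Fin 2) (Fin 2) k) :
    adj M (g * h) X = adj M g (adj M h X) := by
  simp only [adj, _root_.mul_inv_rev, map_mul, mul_assoc]

theorem adj_add (g : D) (X Y : Matrix (Fin 2) (Fin 2) k) :
    adj M g (X + Y) = adj M g X + adj M g Y := by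
  simp only [adj, mul_add, add_mul]

theorem adj_sub (g : D) (X Y : Matrix (Fin 2) (Fin 2) k) :
    adj M g (X - Y) = adj M g X - adj M g Y := by
  simp only [adj, mul_sub, sub_mul]

theorem adj_neg (g : D) (X : Matrix (Fin 2) (Fin 2) k) :
    adj M g (-X) = - adj M g X := by
  simp only [adj, mul_neg, neg_mul]

theorem adj_zero (g : D) : adj M g (0 : Matrix (Fin 2) (Fin 2) k) = 0 := by
  simp only [adj, mul_zero, zero_mul]

theorem adj_smul (g : D) (c : k) (X : Matrix (Fin 2) (Fin 2) k) :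
    adj M g (c • X) = c • adj M g X := by
  simp only [adj, mul_smul_comm, smul_mul_assoc]

theorem adj_of_one {g : D} (h : M g = 1) (X : Matrix (Fin 2) (Fin 2) k) : adj M g X = X := by
  have h1 : M g⁻¹ = 1 := by
    have h2 : M g * M g⁻¹ = 1 := by rw [← map_mul, mul_inv_cancel, map_one]
    rwa [h, one_mul] at h2
  rw [adj, h, h1, one_mul, mul_one]

/-- coboundaries -/
def cob (X : Matrix (Fin 2) (Fin 2) k) : D → Matrix (Fin 2) (Fin 2) k := fun g => adj M g X - X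

/-- cocycles -/
def IsCoc (c : D → Matrix (Fin 2) (Fin 2) k) : Prop := ∀ g h, c (g * h) = c g + adj M g (c h)

variable {M}

theorem isCoc_cob (X : Matrix (Fin 2) (Fin 2) k) : IsCoc M (cob M X) := by
  intro g h
  simp only [cob, adj_mul, adj_sub]
  abel

theorem IsCoc.sub {c c' : D → Matrix (Fin 2) (Fin 2) k} (h : IsCoc M c) (h' : IsCoc M c') :
    IsCoc M (c - c') := by
  intro g g'
  simp only [Pi.sub_apply, h g g', h' g g', adj_sub]
  abel

theorem IsCoc.one {c : D → Matrix (Fin 2) (Fin 2) k} (h : IsCoc M c) : c 1 = 0 := by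
  have h1 := h 1 1
  rw [mul_one, adj_one] at h1
  exact left_eq_add.mp h1

theorem IsCoc.inv {c : D → Matrix (Fin 2) (Fin 2) k} (h : IsCoc M c) (g : D) :
    c g⁻¹ = - adj M g⁻¹ (c g) := by
  have h1 := h g⁻¹ g
  rw [inv_mul_cancel, h.one] at h1
  exact eq_neg_of_add_eq_zero_left h1.symm

/-- conjugation formula on the kernel of `M` -/
theorem IsCoc.conj {c : D → Matrix (Fin 2) (Fin 2) k} (h : IsCoc M c) {s : D} (hs : M s = 1)
    (g : D) : c (g * s * g⁻¹) = adj M g (c s) := by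
  rw [h (g * s) g⁻¹, h g s, h.inv, adj_neg, ← adj_mul, adj_mul M (g * s) g⁻¹, adj_mul M g s,
    adj_of_one M hs, ← adj_mul, mul_inv_cancel, adj_one]
  abel

theorem IsCoc.mul_ker {c : D → Matrix (Fin 2) (Fin 2) k} (h : IsCoc M c) {s : D} (hs : M s = 1)
    (hs' : c s = 0) (g : D) : c (g * s) = c g := by
  rw [h, hs', adj_zero, add_zero]

theorem IsCoc.pow_eq_zero {c : D → Matrix (Fin 2) (Fin 2) k} (h : IsCoc M c) {g : D}
    (hg : c g = 0) (n : ℕ) : c (g ^ n) = 0 := by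
  induction n with
  | zero => rw [pow_zero, h.one]
  | succ n ih => rw [pow_succ, h, ih, hg, adj_zero, add_zero]

end basic

/-- The adapted basis (irreducible case). -/
structure AdBasis (M : D →* Matrix (Fin 2) (Fin 2) k) (I N : Subgroup D) (τ Φ : D) : Prop where
  MN : ∀ g ∈ N, M g = 1
  diag : ∀ g ∈ I, M g 0 1 = 0 ∧ M g 1 0 = 0
  τI : τ ∈ I
  τgen : ∀ g ∈ I, ∃ j : ℕ, ∃ h ∈ N, g = τ ^ j * h
  τe : ∃ e : ℕ, τ ^ e ∈ N ∧ (e : k) ≠ 0
  ratio : M τ 0 0 ≠ M τ 1 1
  anti : M Φ 0 0 = 0 ∧ M Φ 1 1 = 0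
  conjI : ∀ g ∈ I, Φ⁻¹ * g * Φ ∈ I
  two : (2 : k) ≠ 0

namespace AdBasis

variable {M : D →* Matrix (Fin 2) (Fin 2) k} {I N : Subgroup D} {τ Φ : D}

theorem mul_inv_apply (M : D →* Matrix (Fin 2) (Fin 2) k) (g : D) (i j : Fin 2) :
    M g i 0 * M g⁻¹ 0 j + M g i 1 * M g⁻¹ 1 j = (1 : Matrix (Fin 2) (Fin 2) k) i j := by
  have h : M g * M g⁻¹ = 1 := by rw [← map_mul, mul_inv_cancel, map_one]
  rw [← h, Matrix.mul_apply, Fin.sum_univ_two]

variable (B : AdBasis M I N τ Φ)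

include B in
theorem inv0 {g : D} (hg : g ∈ I) : M g 0 0 * M g⁻¹ 0 0 = 1 := by
  have h := mul_inv_apply M g 0 0
  rw [(B.diag g hg).1, zero_mul, add_zero] at h
  rw [h, Matrix.one_apply_eq]

include B in
theorem inv1 {g : D} (hg : g ∈ I) : M g 1 1 * M g⁻¹ 1 1 = 1 := by
  have h := mul_inv_apply M g 1 1
  rw [(B.diag g hg).2, zero_mul, zero_add] at h
  rw [h, Matrix.one_apply_eq]

/-- entries of the adjoint action of inertia -/
theorem adj_apply (g : D) (X : Matrix (Fin 2) (Fin 2) k) (i j : Fin 2) :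
    adj M g X i j = (M g i 0 * X 0 0 + M g i 1 * X 1 0) * M g⁻¹ 0 j +
      (M g i 0 * X 0 1 + M g i 1 * X 1 1) * M g⁻¹ 1 j := by
  rw [adj, Matrix.mul_apply, Fin.sum_univ_two, Matrix.mul_apply, Matrix.mul_apply,
    Fin.sum_univ_two, Fin.sum_univ_two]

/-- the ratio of the two characters -/
noncomputable def y (M : D →* Matrix (Fin 2) (Fin 2) k) (g : D) : k := M g 0 0 * M g⁻¹ 1 1

include B in
theorem adj00 {g : D} (hg : g ∈ I) (X : Matrix (Fin 2) (Fin 2) k) :
    adj M g X 0 0 = X 0 0 := by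
  rw [adj_apply, (B.diag g hg).1, (B.diag _ (I.inv_mem hg)).2]
  linear_combination X 0 0 * B.inv0 hg

include B in
theorem adj11 {g : D} (hg : g ∈ I) (X : Matrix (Fin 2) (Fin 2) k) :
    adj M g X 1 1 = X 1 1 := by
  rw [adj_apply, (B.diag g hg).2, (B.diag _ (I.inv_mem hg)).1]
  linear_combination X 1 1 * B.inv1 hg

include B in
theorem adj01 {g : D} (hg : g ∈ I) (X : Matrix (Fin 2) (Fin 2) k) :
    adj M g X 0 1 = y M g * X 0 1 := by
  rw [adj_apply, (B.diag g hg).1, (B.diag _ (I.inv_mem hg)).1, y]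
  ring

include B in
theorem adj10 {g : D} (hg : g ∈ I) (X : Matrix (Fin 2) (Fin 2) k) :
    y M g * adj M g X 1 0 = X 1 0 := by
  rw [adj_apply, (B.diag g hg).2, (B.diag _ (I.inv_mem hg)).2, y]
  linear_combination X 1 0 * M g 1 1 * M g⁻¹ 1 1 * B.inv0 hg + X 1 0 * B.inv1 hg

include B in
theorem y_ne_zero {g : D} (hg : g ∈ I) : y M g ≠ 0 := by
  intro h
  have h0 := B.inv0 hg
  have h1 := B.inv1 hg
  have : (1 : k) = 0 := by
    calc (1 : k) = (M g 0 0 * M g⁻¹ 0 0) * (M g 1 1 * M g⁻¹ 1 1) := by rw [h0, h1, one_mul]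
      _ = y M g * (M g⁻¹ 0 0 * M g 1 1) := by rw [y]; ring
      _ = 0 := by rw [h, zero_mul]
  exact one_ne_zero this

include B in
theorem y_ne_one : y M τ ≠ 1 := by
  intro h
  apply B.ratio
  have h1 := B.inv1 B.τI
  rw [y] at h
  linear_combination M τ 1 1 * h - M τ 0 0 * h1

/-- entries of the adjoint action of `Φ` -/
theorem phi00 (X : Matrix (Fin 2) (Fin 2) k) (B : AdBasis M I N τ Φ) :
    adj M Φ X 0 0 = X 1 1 := by
  have h1 := mul_inv_apply M Φ 0 0
  have h2 := mul_inv_apply M Φ 1 0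
  rw [B.anti.1, zero_mul, zero_add, Matrix.one_apply_eq] at h1
  rw [B.anti.2, zero_mul, add_zero, Matrix.one_apply_ne (by decide)] at h2
  have h3 := mul_inv_apply M Φ 1 1
  rw [B.anti.2, zero_mul, add_zero, Matrix.one_apply_eq] at h3
  have h4 : M Φ⁻¹ 0 0 = 0 := by
    rcases mul_eq_zero.mp h2 with h | h
    · rw [h, zero_mul] at h3; exact absurd h3 zero_ne_one
    · exact h
  rw [adj_apply, B.anti.1, h4]
  linear_combination X 1 1 * h1

theorem phi01 (X : Matrix (Fin 2) (Fin 2) k) (B : AdBasis M I N τ Φ) :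
    adj M Φ X 0 1 = M Φ 0 1 * M Φ⁻¹ 0 1 * X 1 0 := by
  have h1 := mul_inv_apply M Φ 0 0
  have h2 := mul_inv_apply M Φ 0 1
  rw [B.anti.1, zero_mul, zero_add, Matrix.one_apply_eq] at h1
  rw [B.anti.1, zero_mul, zero_add, Matrix.one_apply_ne (by decide)] at h2
  have h4 : M Φ⁻¹ 1 1 = 0 := by
    rcases mul_eq_zero.mp h2 with h | h
    · rw [h, zero_mul] at h1; exact absurd h1 zero_ne_one
    · exact h
  rw [adj_apply, B.anti.1, h4]
  ring

theorem phi10 (X : Matrix (Fin 2) (Fin 2) k) (B : AdBasis M I N τ Φ) :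
    (M Φ 0 1 * M Φ⁻¹ 0 1) * adj M Φ X 1 0 = X 0 1 := by
  have h1 := mul_inv_apply M Φ 0 0
  have h2 := mul_inv_apply M Φ 1 0
  have h3 := mul_inv_apply M Φ 1 1
  rw [B.anti.1, zero_mul, zero_add, Matrix.one_apply_eq] at h1
  rw [B.anti.2, zero_mul, add_zero, Matrix.one_apply_ne (by decide)] at h2
  rw [B.anti.2, zero_mul, add_zero, Matrix.one_apply_eq] at h3
  have h4 : M Φ⁻¹ 0 0 = 0 := by
    rcases mul_eq_zero.mp h2 with h | h
    · rw [h, zero_mul] at h3; exact absurd h3 zero_ne_one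
    · exact h
  rw [adj_apply, B.anti.2, h4]
  linear_combination X 0 1 * M Φ 0 1 * M Φ⁻¹ 1 0 * h3 + X 0 1 * h1

theorem phi01_ne (B : AdBasis M I N τ Φ) : M Φ 0 1 * M Φ⁻¹ 0 1 ≠ 0 := by
  have h1 := mul_inv_apply M Φ 0 0
  have h3 := mul_inv_apply M Φ 1 1
  rw [B.anti.1, zero_mul, zero_add, Matrix.one_apply_eq] at h1
  rw [B.anti.2, zero_mul, add_zero, Matrix.one_apply_eq] at h3
  intro h
  rcases mul_eq_zero.mp h with h | h
  · rw [h, zero_mul] at h1; exact zero_ne_one h1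
  · rw [h, mul_zero] at h3; exact zero_ne_one h3

/-- `Φ ^ 2` acts trivially on `ad` -/
theorem phi_sq01 (X : Matrix (Fin 2) (Fin 2) k) (B : AdBasis M I N τ Φ) :
    adj M Φ (adj M Φ X) 0 1 = X 0 1 := by
  rw [phi01 _ B, phi10 _ B]

section cocycle

variable {c : D → Matrix (Fin 2) (Fin 2) k}

include B in
/-- A cocycle vanishing on `N` is a coboundary. -/
theorem exists_cob (hc : IsCoc M c) (htr : ∀ g, (c g).trace = 0) (hN : ∀ s ∈ N, c s = 0)
    (hdens : ∀ c' : D → Matrix (Fin 2) (Fin 2) k, IsCoc M c' →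
      (∃ X, c' = c - cob M X) → (∀ σ ∈ I, c' σ = 0) → c' Φ = 0 → c' = 0) :
    ∃ X : Matrix (Fin 2) (Fin 2) k, X.trace = 0 ∧ c = cob M X := by
  classical
  have hy := B.y_ne_one
  have hy0 := B.y_ne_zero B.τI
  obtain ⟨e, heN, hek⟩ := B.τe
  -- the diagonal entry of `c τ`
  have hpow : ∀ n : ℕ, c (τ ^ n) 0 0 = n * c τ 0 0 := by
    intro n
    induction n with
    | zero => simp [hc.one]
    | succ n ih =>
      rw [pow_succ, hc, Matrix.add_apply, ih, B.adj00 (I.pow_mem B.τI n)]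
      push_cast; ring
  have hu : c τ 0 0 = 0 := by
    have h1 := hpow e
    rw [hN _ heN, Matrix.zero_apply] at h1
    exact (mul_eq_zero.mp h1.symm).resolve_left hek
  have hu' : c τ 1 1 = 0 := by
    have h1 := htr τ
    rw [Matrix.trace_fin_two, hu, zero_add] at h1
    exact h1
  -- kill `c τ`
  let X : Matrix (Fin 2) (Fin 2) k :=
    !![0, c τ 0 1 / (y M τ - 1); c τ 1 0 / ((y M τ)⁻¹ - 1), 0]
  have hy1 : y M τ - 1 ≠ 0 := sub_ne_zero.mpr hy
  have hy2 : (y M τ)⁻¹ - 1 ≠ 0 := by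
    rw [sub_ne_zero]; intro h; exact hy (inv_eq_one.mp h)
  have hXτ : cob M X τ = c τ := by
    ext i j
    fin_cases i <;> fin_cases j
    · change adj M τ X 0 0 - X 0 0 = c τ 0 0
      rw [B.adj00 B.τI, sub_self, hu]
    · change adj M τ X 0 1 - X 0 1 = c τ 0 1
      rw [B.adj01 B.τI]
      change y M τ * (c τ 0 1 / (y M τ - 1)) - c τ 0 1 / (y M τ - 1) = c τ 0 1
      field_simp
    · change adj M τ X 1 0 - X 1 0 = c τ 1 0
      have h1 : adj M τ X 1 0 = (y M τ)⁻¹ * X 1 0 := by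
        rw [eq_inv_mul_iff_mul_eq₀ hy0]; exact B.adj10 B.τI X
      rw [h1]
      change (y M τ)⁻¹ * (c τ 1 0 / ((y M τ)⁻¹ - 1)) - c τ 1 0 / ((y M τ)⁻¹ - 1) = c τ 1 0
      rw [← sub_one_mul, mul_div_cancel₀ _ hy2]
    · change adj M τ X 1 1 - X 1 1 = c τ 1 1
      rw [B.adj11 B.τI, sub_self, hu']
  have hXtr : X.trace = 0 := by
    rw [Matrix.trace_fin_two]
    change (0 : k) + 0 = 0
    rw [add_zero]
  have hcobN : ∀ (Y : Matrix (Fin 2) (Fin 2) k), ∀ s ∈ N, cob M Y s = 0 := by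
    intro Y s hs
    rw [cob, adj_of_one M (B.MN s hs), sub_self]
  let c₁ := c - cob M X
  have hc₁ : IsCoc M c₁ := hc.sub (isCoc_cob X)
  have hc₁τ : c₁ τ = 0 := by change c τ - cob M X τ = 0; rw [hXτ, sub_self]
  have hc₁N : ∀ s ∈ N, c₁ s = 0 := by
    intro s hs
    change c s - cob M X s = 0
    rw [hN s hs, hcobN X s hs, sub_zero]
  have hc₁I : ∀ g ∈ I, c₁ g = 0 := by
    intro g hg
    obtain ⟨j, h, hh, rfl⟩ := B.τgen g hg
    rw [hc₁.mul_ker (B.MN h hh) (hc₁N h hh), hc₁.pow_eq_zero hc₁τ]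
  -- `c₁ Φ` commutes with inertia
  have hΦfix : adj M τ (c₁ Φ) = c₁ Φ := by
    have h1 : τ * Φ = Φ * (Φ⁻¹ * τ * Φ) := by group
    have h2 := hc₁ τ Φ
    rw [h1, hc₁ Φ, hc₁I _ (B.conjI τ B.τI), adj_zero, add_zero, hc₁τ, zero_add] at h2
    exact h2.symm
  have hΦ01 : c₁ Φ 0 1 = 0 := by
    have h1 := B.adj01 B.τI (c₁ Φ)
    rw [hΦfix] at h1
    have h2 : (y M τ - 1) * c₁ Φ 0 1 = 0 := by linear_combination -h1
    exact (mul_eq_zero.mp h2).resolve_left hy1
  have hΦ10 : c₁ Φ 1 0 = 0 := by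
    have h1 := B.adj10 B.τI (c₁ Φ)
    rw [hΦfix] at h1
    have h2 : (y M τ - 1) * c₁ Φ 1 0 = 0 := by linear_combination h1
    exact (mul_eq_zero.mp h2).resolve_left hy1
  have hΦtr : c₁ Φ 1 1 = - c₁ Φ 0 0 := by
    have h1 : (c₁ Φ).trace = 0 := by
      change (c Φ - (adj M Φ X - X)).trace = 0
      rw [Matrix.trace_sub, Matrix.trace_sub, htr, trace_adj, sub_self, sub_zero]
    rw [Matrix.trace_fin_two] at h1
    linear_combination h1
  -- subtract a diagonal coboundary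
  let t : k := -(c₁ Φ 0 0) / 2
  let H : Matrix (Fin 2) (Fin 2) k := !![t, 0; 0, -t]
  have hH00 : H 0 0 = t := rfl
  have hH01 : H 0 1 = 0 := rfl
  have hH10 : H 1 0 = 0 := rfl
  have hH11 : H 1 1 = -t := rfl
  have hHtr : H.trace = 0 := by rw [Matrix.trace_fin_two, hH00, hH11]; ring
  have ht : 2 * t = -(c₁ Φ 0 0) := by
    change 2 * (-(c₁ Φ 0 0) / 2) = _
    rw [mul_div_cancel₀ _ B.two]
  have hHI : ∀ g ∈ I, cob M H g = 0 := by
    intro g hg
    ext i j
    fin_cases i <;> fin_cases j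
    · change adj M g H 0 0 - H 0 0 = 0
      rw [B.adj00 hg, sub_self]
    · change adj M g H 0 1 - H 0 1 = 0
      rw [B.adj01 hg, hH01, mul_zero, sub_self]
    · change adj M g H 1 0 - H 1 0 = 0
      have h1 := B.adj10 hg H
      rw [hH10] at h1 ⊢
      rw [(mul_eq_zero.mp h1).resolve_left (B.y_ne_zero hg), sub_self]
    · change adj M g H 1 1 - H 1 1 = 0
      rw [B.adj11 hg, sub_self]
  have hHΦ : cob M H Φ = c₁ Φ := by
    have hp11 : adj M Φ H 1 1 = H 0 0 := by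
      have h1 := trace_adj M Φ H
      rw [Matrix.trace_fin_two, Matrix.trace_fin_two, phi00 H B] at h1
      linear_combination h1
    ext i j
    fin_cases i <;> fin_cases j
    · change adj M Φ H 0 0 - H 0 0 = c₁ Φ 0 0
      rw [phi00 H B, hH11, hH00]
      linear_combination -ht
    · change adj M Φ H 0 1 - H 0 1 = c₁ Φ 0 1
      rw [phi01 H B, hH10, hH01, hΦ01]; ring
    · change adj M Φ H 1 0 - H 1 0 = c₁ Φ 1 0
      have h1 := phi10 H B
      rw [hH01] at h1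
      rw [(mul_eq_zero.mp h1).resolve_left (phi01_ne B), hH10, hΦ10, sub_self]
    · change adj M Φ H 1 1 - H 1 1 = c₁ Φ 1 1
      rw [hp11, hH11, hH00, hΦtr]
      linear_combination ht
  refine ⟨X + H, by rw [Matrix.trace_add, hXtr, hHtr, add_zero], ?_⟩
  have hcob : cob M (X + H) = cob M X + cob M H := by
    funext g
    change adj M g (X + H) - (X + H) = (adj M g X - X) + (adj M g H - H)
    rw [adj_add]; abel
  have h2 := hdens (c - cob M (X + H)) (hc.sub (isCoc_cob _)) ⟨_, rfl⟩ (fun σ hσ => by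
      have h3 := hc₁I σ hσ
      change c σ - cob M (X + H) σ = 0
      rw [hcob]
      change c σ - (cob M X σ + cob M H σ) = 0
      rw [hHI σ hσ, add_zero]; exact h3) (by
      change c Φ - cob M (X + H) Φ = 0
      rw [hcob]
      change c Φ - (cob M X Φ + cob M H Φ) = 0
      rw [hHΦ, ← sub_sub]; exact sub_self _)
  exact sub_eq_zero.mp h2

end cocycle

end AdBasis

end Fermat.Agent.TWP.FlatLoc
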