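import Mathlib
import Fermat.Agent.TWP.Flat.KummerCount
import Fermat.Agent.TWP.Flat.KummerLc

set_option autoImplicit false
set_option linter.unusedVariables false
set_option linter.unusedSectionVars false
set_option linter.style.haveILetI false

/-!
# Linear algebra over `𝔽_p` and counting of Kummer characters with values in `k`
-/

namespace Fermat.Agent.TWP.FlatLoc

open Module

section lin

variable {p : ℕ} [Fact p.Prime]

theorem finrank_span_le {E N : Type} [AddCommGroup E] [Module (ZMod p) E] [Finite E] (B : N → E)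
    (n : ℕ) (W : Finset (N → ZMod p))
    (hW : ∀ ℓ : Module.Dual (ZMod p) E, (fun σ => ℓ (B σ)) ∈ W) (hcard : W.card ≤ p ^ n) :
    finrank (ZMod p) (Submodule.span (ZMod p) (Set.range B)) ≤ n := by
  classical
  haveI : Module.Finite (ZMod p) E := Module.Finite.of_finite
  let V := Submodule.span (ZMod p) (Set.range B)
  let R : Module.Dual (ZMod p) E →ₗ[ZMod p] (N → ZMod p) :=
    { toFun := fun ℓ σ => ℓ (B σ)
      map_add' := fun ℓ ℓ' => rfl
      map_smul' := fun c ℓ => rfl }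
  have hker : LinearMap.ker R = V.dualAnnihilator := by
    ext ℓ
    rw [LinearMap.mem_ker, Submodule.mem_dualAnnihilator]
    constructor
    · intro h w hw
      induction hw using Submodule.span_induction with
      | mem x hx => obtain ⟨σ, rfl⟩ := hx; exact congrFun h σ
      | zero => exact map_zero ℓ
      | add x y _ _ hx hy => rw [map_add, hx, hy, add_zero]
      | smul a x _ hx => rw [map_smul, hx, smul_zero]
    · intro h
      funext σ
      exact h _ (Submodule.subset_span ⟨σ, rfl⟩)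
  have h1 := LinearMap.finrank_range_add_finrank_ker R
  rw [hker, Subspace.dual_finrank_eq] at h1
  have h2 := Subspace.finrank_add_finrank_dualAnnihilator_eq V
  have h3 : finrank (ZMod p) (LinearMap.range R) = finrank (ZMod p) V := by omega
  haveI : Finite (LinearMap.range R) := Module.finite_of_finite (ZMod p)
  haveI := Fintype.ofFinite (LinearMap.range R)
  have h4 := Module.card_eq_pow_finrank (K := ZMod p) (V := LinearMap.range R)
  rw [ZMod.card, h3] at h4
  have h5 : Fintype.card (LinearMap.range R) ≤ W.card := by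
    rw [← Fintype.card_coe W]
    refine Fintype.card_le_of_injective (fun x => (⟨x.1, ?_⟩ : W)) ?_
    · obtain ⟨ℓ, hℓ⟩ := x.2
      rw [← hℓ]
      exact hW ℓ
    · intro x y hxy
      exact Subtype.ext (congrArg (fun z : W => z.1) hxy)
  rw [h4] at h5
  exact (Nat.pow_le_pow_iff_right (Fact.out (p := p.Prime)).one_lt).mp (h5.trans hcard)

theorem zmod_smul {k E : Type} [Field k] [AddCommGroup E] [Module k E] [Module (ZMod p) E]
    (a : ZMod p) (v : E) : a • v = (a.val : k) • v := by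
  rw [Nat.cast_smul_eq_nsmul, ← Nat.cast_smul_eq_nsmul (ZMod p), ZMod.natCast_val, ZMod.cast_id]

theorem line_of_finrank_le_two {k E : Type} [Field k] [CharP k p] [AddCommGroup E] [Module k E]
    [Module (ZMod p) E] [Finite E] (V : Submodule (ZMod p) E) (hV : finrank (ZMod p) V ≤ 2)
    {y : k} (hy : y ^ p ≠ y) (hyV : ∀ v ∈ V, y • v ∈ V) {v₁ : E} (h₁ : v₁ ∈ V) (h0 : v₁ ≠ 0) :
    ∀ v ∈ V, ∃ c : k, v = c • v₁ := by
  haveI : Module.Finite (ZMod p) E := Module.Finite.of_finite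
  let w : Fin 2 → E := ![v₁, y • v₁]
  have hcast : ∀ n : ℕ, ((n : k)) ^ p = n := by
    intro n
    have h1 := ZMod.pow_card (n : ZMod p)
    have h2 : ((n ^ p : ℕ) : ZMod p) = (n : ℕ) := by push_cast; exact h1
    have h3 := (CharP.natCast_eq_natCast' k p ((ZMod.natCast_eq_natCast_iff _ _ _).mp h2))
    push_cast at h3
    exact h3
  have hli : LinearIndependent (ZMod p) w := by
    rw [LinearIndependent.pair_iff]
    intro s t hst
    rw [zmod_smul (k := k), zmod_smul (k := k) t, smul_smul, ← add_smul] at hst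
    have h1 := (smul_eq_zero.mp hst).resolve_right h0
    have ht : t = 0 := by
      by_contra ht
      have htk : (t.val : k) ≠ 0 := by
        rw [Ne, CharP.cast_eq_zero_iff k p]
        intro h
        exact ht ((ZMod.val_eq_zero t).mp (Nat.eq_zero_of_dvd_of_lt h (ZMod.val_lt t)))
      apply hy
      have h2 : y = -(s.val : k) / (t.val : k) := by
        field_simp
        linear_combination h1
      rw [h2, div_pow, hcast t.val]
      congr 1
      have h3 : (((-s).val : ℕ) : k) = -(s.val : k) := by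
        have h4 : ((((-s).val + s.val : ℕ)) : k) = 0 := by
          rw [CharP.cast_eq_zero_iff k p, ← CharP.cast_eq_zero_iff (ZMod p) p]
          push_cast
          rw [ZMod.natCast_val, ZMod.natCast_val, ZMod.cast_id, ZMod.cast_id, neg_add_cancel]
        push_cast at h4
        exact eq_neg_of_add_eq_zero_left h4
      rw [← h3]
      exact hcast _
    refine ⟨?_, ht⟩
    rw [ht, ZMod.val_zero, Nat.cast_zero, zero_mul, add_zero] at h1
    rw [CharP.cast_eq_zero_iff k p] at h1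
    exact (ZMod.val_eq_zero s).mp (Nat.eq_zero_of_dvd_of_lt h1 (ZMod.val_lt s))
  have hle : Submodule.span (ZMod p) (Set.range w) ≤ V := by
    rw [Submodule.span_le]
    rintro _ ⟨i, rfl⟩
    fin_cases i
    · exact h₁
    · exact hyV _ h₁
  have h2 : finrank (ZMod p) (Submodule.span (ZMod p) (Set.range w)) = 2 := by
    rw [finrank_span_eq_card hli, Fintype.card_fin]
  have h3 := Submodule.eq_of_le_of_finrank_le hle (by rw [h2]; exact hV)
  intro v hv
  rw [← h3, Submodule.mem_span_range_iff_exists_fun] at hv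
  obtain ⟨c, hc⟩ := hv
  rw [Fin.sum_univ_two] at hc
  refine ⟨((c 0).val : k) + ((c 1).val : k) * y, ?_⟩
  rw [← hc]
  change c 0 • v₁ + c 1 • (y • v₁) = _
  rw [zmod_smul (k := k), zmod_smul (k := k) (c 1), smul_smul, ← add_smul]

end lin

end Fermat.Agent.TWP.FlatLoc

namespace Fermat.Agent.TWP.FlatLoc

open Module Fermat.Agent.TWP.Flat.Kummer

section count

variable {Ω : Type} [Field Ω] {Γ : Type} [LinearOrderedCommGroupWithZero Γ]
  {v : Valuation Ω Γ} {G : Type} [Group G] [MulSemiringAction G Ω]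
  {p : ℕ} {π ζ : Ω} {k : Type} [Field k] [CharP k p] [Finite k]

/-- The off-diagonal entries: any two are proportional. -/
theorem b_line [IsAlgClosed Ω] (D : Data v G p (p + 1) π ζ) (hp3 : 3 ≤ p)
    {τ : Ω ≃+* Ω} {c : G ≃ G} (hc : ∀ (g : G) (x : Ω), τ (g • x) = c g • τ x)
    (hv : ∀ x : Ω, v (τ x) = v x)
    (htriv : ∀ x : Ω, v x ≤ 1 → v (τ x - x) < 1)
    (hord : ∀ n : ℕ, v ((τ π / π) ^ n - 1) < 1 → (p - 1) * (p + 1) ∣ n)
    (a : ℕ) (ha : v (((τ π / π) ^ (p - 1)) ^ 2 - a * (τ π / π) ^ (p - 1) + 1) < 1)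
    {Φ : Ω ≃+* Ω} {d : G ≃ G} (hd : ∀ (g : G) (x : Ω), Φ (g • x) = d g • Φ x)
    (hvΦ : ∀ x : Ω, v (Φ x) = v x)
    (hΦ : ∀ x : Ω, v x ≤ 1 → v (Φ x - x ^ (p ^ 2)) < 1)
    {y : k} (hy : y ^ p ≠ y) (hya : y ^ 2 + 1 = a * y)
    {b₁ b₂ : G → k}
    (h₁τ : ∀ g, b₁ (c g) = y * b₁ g)
    (h₂τ : ∀ g, b₂ (c g) = y * b₂ g)
    (h₁Φ : ∀ g, b₁ (d g) = b₁ g)
    (h₂Φ : ∀ g, b₂ (d g) = b₂ g)
    (h₁U : ∀ ℓ : k →+ ZMod p, U v G π ζ (p ^ 2 + 1) (fun g => ℓ (b₁ g)))
    (h₂U : ∀ ℓ : k →+ ZMod p, U v G π ζ (p ^ 2 + 1) (fun g => ℓ (b₂ g)))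
    {g₀ : G} (hg₀ : b₁ g₀ ≠ 0) : ∃ r : k, ∀ g, b₂ g = r * b₁ g := by
  classical
  haveI : Fact p.Prime := ⟨D.hp⟩
  letI : Algebra (ZMod p) k := ZMod.algebra k p
  haveI := Fintype.ofFinite k
  let B : G → k × k := fun g => (b₁ g, b₂ g)
  haveI : Module.Finite (ZMod p) (k × k) := Module.Finite.of_finite
  haveI : Finite (Module.Dual (ZMod p) (k × k)) := Module.finite_of_finite (ZMod p)
  haveI := Fintype.ofFinite (Module.Dual (ZMod p) (k × k))
  let W : Finset (G → ZMod p) :=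
    Finset.univ.image (fun (ℓ : Module.Dual (ZMod p) (k × k)) (g : G) => ℓ (B g))
  have hmem : ∀ f, f ∈ W ↔ ∃ ℓ : Module.Dual (ZMod p) (k × k), (fun g => ℓ (B g)) = f := by
    intro f
    simp only [W, Finset.mem_image, Finset.mem_univ, true_and]
  have hyB : ∀ g, B (c g) = y • B g := by
    intro g
    exact Prod.ext (h₁τ g) (h₂τ g)
  have hcard : W.card ≤ p ^ 2 := by
    refine D.card_quad_le hp3 hc hv htriv hord a ha hd hvΦ (q := p ^ 2)
      (Nat.one_lt_pow two_ne_zero (by omega)) hΦ 1 one_ne_zero W ?_ ?_ ?_ ?_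
    · intro f hf f' hf'
      obtain ⟨ℓ, rfl⟩ := (hmem f).mp hf
      obtain ⟨ℓ', rfl⟩ := (hmem f').mp hf'
      exact (hmem _).mpr ⟨ℓ - ℓ', rfl⟩
    · intro f hf hne
      obtain ⟨g, hg⟩ := hne
      obtain ⟨ℓ, rfl⟩ := (hmem f).mp hf
      have hU : U v G π ζ (p ^ 2 + 1) (fun g => ℓ (B g)) := by
        have h1 := D.U_add (by positivity)
          (h₁U ((ℓ : k × k →+ ZMod p).comp (AddMonoidHom.inl k k)))
          (h₂U ((ℓ : k × k →+ ZMod p).comp (AddMonoidHom.inr k k)))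
        convert h1 using 2 with g
        change ℓ (b₁ g, b₂ g) = ℓ (b₁ g, 0) + ℓ (0, b₂ g)
        rw [← map_add]
        simp
      obtain ⟨s, hs1, hs2⟩ := D.exists_breakPos g hg (p - 1) (p ^ 2 + 1) (by positivity) (by
        obtain ⟨r, rfl⟩ : ∃ r, p = r + 1 := ⟨p - 1, by omega⟩
        rw [Nat.add_sub_cancel]; ring) hU
      exact ⟨s, by nlinarith, hs2⟩
    · intro f hf g
      obtain ⟨ℓ, rfl⟩ := (hmem f).mp hf
      change ℓ (B (c (c g))) + ℓ (B g) = a * ℓ (B (c g))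
      rw [hyB, hyB, ← map_add, smul_smul, ← pow_two]
      have h1 : y ^ 2 • B g + B g = a • (y • B g) := by
        have h2 : y ^ 2 • B g + B g = (y ^ 2 + 1) • B g := by rw [add_smul, one_smul]
        rw [h2, hya, mul_smul, Nat.cast_smul_eq_nsmul]
      rw [h1, map_nsmul, nsmul_eq_mul]
    · intro f hf g
      obtain ⟨ℓ, rfl⟩ := (hmem f).mp hf
      change ℓ (B (d g)) = 1 * ℓ (B g)
      rw [one_mul]
      congr 1
      exact Prod.ext (h₁Φ g) (h₂Φ g)
  have hV := finrank_span_le B 2 W (fun ℓ => (hmem _).mpr ⟨ℓ, rfl⟩) hcard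
  have hline := line_of_finrank_le_two (k := k) (Submodule.span (ZMod p) (Set.range B)) hV hy
    (by
      intro w hw
      induction hw using Submodule.span_induction with
      | mem x hx =>
        obtain ⟨g, rfl⟩ := hx
        rw [← hyB]
        exact Submodule.subset_span ⟨_, rfl⟩
      | zero => rw [smul_zero]; exact Submodule.zero_mem _
      | add x z _ _ hx hz => rw [smul_add]; exact Submodule.add_mem _ hx hz
      | smul r x _ hx =>
        rw [zmod_smul (k := k), smul_comm, ← zmod_smul]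
        exact Submodule.smul_mem _ _ hx) (v₁ := B g₀) (Submodule.subset_span ⟨_, rfl⟩)
    (fun h => hg₀ (congrArg Prod.fst h))
  refine ⟨b₂ g₀ / b₁ g₀, fun g => ?_⟩
  obtain ⟨r, hr⟩ := hline (B g) (Submodule.subset_span ⟨_, rfl⟩)
  have h1 : b₁ g = r * b₁ g₀ := congrArg Prod.fst hr
  have h2 : b₂ g = r * b₂ g₀ := congrArg Prod.snd hr
  rw [h1, h2]
  field_simp

/-- The diagonal entry takes values in an `𝔽_p`-line. -/
theorem h_line {m : ℕ} [IsAlgClosed Ω] (D : Data v G p m π ζ) (hp3 : 3 ≤ p)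
    {τ : Ω ≃+* Ω} {c : G ≃ G} (hc : ∀ (g : G) (x : Ω), τ (g • x) = c g • τ x)
    (hv : ∀ x : Ω, v (τ x) = v x)
    (htriv : ∀ x : Ω, v x ≤ 1 → v (τ x - x) < 1)
    (hord : ∀ n : ℕ, v ((τ π / π) ^ n - 1) < 1 → (p - 1) * m ∣ n)
    {φ : Ω ≃+* Ω} {d : G ≃ G} (hd : ∀ (g : G) (x : Ω), φ (g • x) = d g • φ x)
    (hvφ : ∀ x : Ω, v (φ x) = v x)
    (hφ : ∀ x : Ω, v x ≤ 1 → v (φ x - x ^ p) < 1) {h : G → k}
    (hτ : ∀ g, h (c g) = h g) (hΦ : ∀ g, h (d g) = - h g)
    (hgen : ∀ ℓ : k →+ ZMod p, ∃ α : Ω, IsGen G ζ (fun g => ℓ (h g)) α) :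
    ∃ r : k, ∀ g, ∃ n : ℕ, h g = n * r := by
  classical
  haveI : Fact p.Prime := ⟨D.hp⟩
  letI : Algebra (ZMod p) k := ZMod.algebra k p
  haveI := Fintype.ofFinite k
  haveI : Module.Finite (ZMod p) k := Module.Finite.of_finite
  haveI : Finite (Module.Dual (ZMod p) k) := Module.finite_of_finite (ZMod p)
  haveI := Fintype.ofFinite (Module.Dual (ZMod p) k)
  let W : Finset (G → ZMod p) :=
    Finset.univ.image (fun (ℓ : Module.Dual (ZMod p) k) (g : G) => ℓ (h g))
  have hmem : ∀ f, f ∈ W ↔ ∃ ℓ : Module.Dual (ZMod p) k, (fun g => ℓ (h g)) = f := by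
    intro f
    simp only [W, Finset.mem_image, Finset.mem_univ, true_and]
  have hcard : W.card ≤ p := by
    refine D.card_fixed_le hp3 hc hv htriv hord hd hvφ (q := p) (by omega) hφ (-1)
      (neg_ne_zero.mpr one_ne_zero) W ?_ ?_ ?_ ?_
    · intro f hf f' hf'
      obtain ⟨ℓ, rfl⟩ := (hmem f).mp hf
      obtain ⟨ℓ', rfl⟩ := (hmem f').mp hf'
      exact (hmem _).mpr ⟨ℓ - ℓ', rfl⟩
    · intro f hf
      obtain ⟨ℓ, rfl⟩ := (hmem f).mp hf
      exact hgen (ℓ : k →+ ZMod p)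
    · intro f hf g
      obtain ⟨ℓ, rfl⟩ := (hmem f).mp hf
      change ℓ (h (c g)) = ℓ (h g)
      rw [hτ]
    · intro f hf g
      obtain ⟨ℓ, rfl⟩ := (hmem f).mp hf
      change ℓ (h (d g)) = -1 * ℓ (h g)
      rw [hΦ, map_neg, neg_one_mul]
  have hV := finrank_span_le h 1 W (fun ℓ => (hmem _).mpr ⟨ℓ, rfl⟩) (by rw [pow_one]; exact hcard)
  rw [finrank_le_one_iff] at hV
  obtain ⟨r, hr⟩ := hV
  refine ⟨r, fun g => ?_⟩
  obtain ⟨n, hn⟩ := hr ⟨h g, Submodule.subset_span ⟨g, rfl⟩⟩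
  refine ⟨n.val, ?_⟩
  have h1 := congrArg (fun z : Submodule.span (ZMod p) (Set.range h) => (z : k)) hn
  simp only [Submodule.coe_smul] at h1
  rw [← h1, zmod_smul (k := k), smul_eq_mul]

end count

end Fermat.Agent.TWP.FlatLoc
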