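import Mathlib
import Fermat.Agent.TWP.FlatLoc.IrrGroup
import Fermat.Agent.TWP.FlatLoc.IrrLin

set_option autoImplicit false
set_option linter.unusedVariables false
set_option linter.unusedSectionVars false
set_option linter.style.haveILetI false

/-!
# The local flat condition, irreducible case: abstract assembly
-/

namespace Fermat.Agent.TWP.FlatLoc

open Module Matrix Fermat.Agent.TWP.GW Fermat.Agent.TWP.Flat.Kummer Fermat.Agent.CFT.LC

variable {Ω : Type} [Field Ω] {Γ : Type} [LinearOrderedCommGroupWithZero Γ]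
  {G : Type} [Group G] [MulSemiringAction G Ω] {Δ : Type} [Group Δ] {k : Type} [Field k]

/-- The ramification consequences of flatness for a cocycle (irreducible case). -/
def FlBreak (v : Valuation Ω Γ) (ι : G → Δ) (p : ℕ) (π ζ : Ω)
    (c : Δ → Matrix (Fin 2) (Fin 2) k) : Prop :=
  (∀ (i j : Fin 2) (ℓ : k →+ ZMod p) (g₀ : G), ℓ (c (ι g₀) i j) ≠ 0 →
    ∃ s, BreakPos v G (p + 1) π ζ s (fun g : G => ℓ (c (ι g) i j)) ∧
      p * (p + 1) + 1 ≤ s + p * p) ∧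
  (∀ (i j : Fin 2) (l : k), (∀ g : G, ∃ n : ℕ, c (ι g) i j = n * l) →
    ∀ (ℓ : k →+ ZMod p) (g₀ : G), ℓ (c (ι g₀) i j) ≠ 0 →
    ∃ s, BreakPos v G (p + 1) π ζ s (fun g : G => ℓ (c (ι g) i j)) ∧
      p * (p + 1) + 1 ≤ s + p)

/-- `s` acts on `Ω` by `s'` and on `G` by `c`. -/
structure Eqv (v : Valuation Ω Γ) (ι : G → Δ) (s : Δ) (s' : Ω ≃+* Ω) (c : G ≃ G) : Prop where
  hι : ∀ g, ι (c g) = s * ι g * s⁻¹
  hc : ∀ (g : G) (x : Ω), s' (g • x) = c g • s' x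
  hv : ∀ x : Ω, v (s' x) = v x

theorem exists_addHom_ne {p : ℕ} [Fact p.Prime] [CharP k p] {x : k} (hx : x ≠ 0) :
    ∃ ℓ : k →+ ZMod p, ℓ x ≠ 0 := by
  letI : Algebra (ZMod p) k := ZMod.algebra k p
  by_contra hcon
  push Not at hcon
  exact hx ((Module.forall_dual_apply_eq_zero_iff (ZMod p) x).mp fun φ => hcon (φ : k →+ ZMod p))

theorem cob_mem_zAd {D : Type} [Group D] {M : D →* Matrix (Fin 2) (Fin 2) k} {Lv : Lvl D}
    (hM : IsLC₁ Lv M) (X : Matrix (Fin 2) (Fin 2) k) : cob M X ∈ zAd M Lv := by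
  refine ⟨fun g => ?_, isCoc_cob X, ?_⟩
  · rw [cob, Matrix.trace_sub, trace_adj, sub_self]
  · obtain ⟨N, hN, h⟩ := hM
    refine ⟨N, hN, fun g s hs => ?_⟩
    have h1 : M s = 1 := by
      have := h 1 s hs
      rwa [one_mul, map_one] at this
    simp only [cob]
    rw [adj_mul, adj_of_one M h1]

/-- coboundaries as a linear map -/
def cobLin {D : Type} [Group D] (M : D →* Matrix (Fin 2) (Fin 2) k) :
    Matrix (Fin 2) (Fin 2) k →ₗ[k] (D → Matrix (Fin 2) (Fin 2) k) where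
  toFun X := cob M X
  map_add' X Y := by
    funext g
    change adj M g (X + Y) - (X + Y) = (adj M g X - X) + (adj M g Y - Y)
    rw [adj_add]; abel
  map_smul' a X := by
    funext g
    change adj M g (a • X) - a • X = a • (adj M g X - X)
    rw [adj_smul, smul_sub]

variable {v : Valuation Ω Γ} {ι : G → Δ} {p : ℕ} {π ζ : Ω} [CharP k p] [Finite k]

/-- The local space. -/
def irrL (Dt : Data v G p (p + 1) π ζ) (ι : G → Δ) (M : Δ →* Matrix (Fin 2) (Fin 2) k)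
    (Lv : Lvl Δ) : Submodule k (Δ → Matrix (Fin 2) (Fin 2) k) where
  carrier := {c | c ∈ zAd M Lv ∧ (∀ g : G, c (ι g) 0 0 = 0) ∧
    ∀ ℓ : k →+ ZMod p, U v G π ζ (p ^ 2 + 1) (fun g : G => ℓ (c (ι g) 0 1))}
  zero_mem' := ⟨Submodule.zero_mem _, fun g => rfl, fun ℓ => by
    have h := Dt.U_zero (p ^ 2 + 1)
    convert h using 2 with g
    exact map_zero ℓ⟩
  add_mem' := by
    rintro a b ⟨h1, h2, h3⟩ ⟨h1', h2', h3'⟩
    refine ⟨Submodule.add_mem _ h1 h1', fun g => ?_, fun ℓ => ?_⟩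
    · rw [Pi.add_apply, Matrix.add_apply, h2, h2', add_zero]
    · convert Dt.U_add (Nat.succ_pos _) (h3 ℓ) (h3' ℓ) using 2 with g
      rw [Pi.add_apply, Matrix.add_apply, map_add]
  smul_mem' := by
    rintro r a ⟨h1, h2, h3⟩
    refine ⟨Submodule.smul_mem _ _ h1, fun g => ?_, fun ℓ => ?_⟩
    · rw [Pi.smul_apply, Matrix.smul_apply, h2, smul_zero]
    · exact h3 (ℓ.comp (AddMonoidHom.mulLeft r))

section

variable (Dt : Data v G p (p + 1) π ζ) {M : Δ →* Matrix (Fin 2) (Fin 2) k} {Lv : Lvl Δ}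
  {I N : Subgroup Δ} {τ Φ : Δ} (B : AdBasis M I N τ Φ) (hιN : ∀ g, ι g ∈ N)
  (hNι : ∀ s ∈ N, ∃ g, ι g = s)

theorem mem_irrL {c : Δ → Matrix (Fin 2) (Fin 2) k} : c ∈ irrL Dt ι M Lv ↔
    c ∈ zAd M Lv ∧ (∀ g : G, c (ι g) 0 0 = 0) ∧
    ∀ ℓ : k →+ ZMod p, U v G π ζ (p ^ 2 + 1) (fun g : G => ℓ (c (ι g) 0 1)) := Iff.rfl

include B hιN in
theorem cob_mem_irrL (hM : IsLC₁ Lv M) (X : Matrix (Fin 2) (Fin 2) k) :
    cob M X ∈ irrL Dt ι M Lv := by
  have h0 : ∀ g : G, cob M X (ι g) = 0 := fun g => by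
    rw [cob, adj_of_one M (B.MN _ (hιN g)), sub_self]
  refine ⟨cob_mem_zAd hM X, fun g => by rw [h0]; rfl, fun ℓ => ?_⟩
  have h := Dt.U_zero (p ^ 2 + 1)
  convert h using 2 with g
  rw [h0]
  exact map_zero ℓ

include B hιN in
theorem conj_entry {c : Δ → Matrix (Fin 2) (Fin 2) k} (hc : IsCoc M c) {s : Δ} {s' : Ω ≃+* Ω}
    {cs : G ≃ G} (E : Eqv v ι s s' cs) (g : G) :
    c (ι (cs g)) = adj M s (c (ι g)) := by
  rw [E.hι]
  exact hc.conj (B.MN _ (hιN g)) s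

variable [IsAlgClosed Ω] (hp3 : 3 ≤ p)
    {τ' : Ω ≃+* Ω} {cτ : G ≃ G} (Eτ : Eqv v ι τ τ' cτ)
    {Φ' : Ω ≃+* Ω} {cΦ : G ≃ G} (EΦ : Eqv v ι Φ Φ' cΦ)
    (htriv : ∀ x : Ω, v x ≤ 1 → v (τ' x - x) < 1)
    (hord : ∀ n : ℕ, v ((τ' π / π) ^ n - 1) < 1 → (p - 1) * (p + 1) ∣ n)
    (a : ℕ) (ha : v (((τ' π / π) ^ (p - 1)) ^ 2 - a * (τ' π / π) ^ (p - 1) + 1) < 1)
    (hΦ : ∀ x : Ω, v x ≤ 1 → v (Φ' x - x ^ p) < 1)
    (hy : AdBasis.y M τ ^ p ≠ AdBasis.y M τ)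
    (hya : AdBasis.y M τ ^ 2 + 1 = a * AdBasis.y M τ)

omit [IsAlgClosed Ω] in
theorem phi_sq (hv : ∀ x : Ω, v (Φ' x) = v x)
    (hΦ : ∀ x : Ω, v x ≤ 1 → v (Φ' x - x ^ p) < 1) :
    ∀ x : Ω, v x ≤ 1 → v ((Φ'.trans Φ') x - x ^ (p ^ 2)) < 1 := by
  intro x hx
  have h1 : (Φ'.trans Φ') x - x ^ (p ^ 2) = Φ' (Φ' x - x ^ p) + (Φ' (x ^ p) - (x ^ p) ^ p) := by
    rw [RingEquiv.trans_apply, map_sub, ← pow_mul, ← pow_two]; ring
  rw [h1]
  refine (v.map_add _ _).trans_lt (max_lt ?_ ?_)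
  · rw [hv]; exact hΦ x hx
  · exact hΦ _ (by rw [map_pow]; exact pow_le_one₀ zero_le hx)

include B hιN hp3 Eτ EΦ htriv hord ha hΦ hy hya in
/-- The off-diagonal entries of elements of `irrL` are proportional. -/
theorem irrL_line {c₁ c₂ : Δ → Matrix (Fin 2) (Fin 2) k} (h₁ : c₁ ∈ irrL Dt ι M Lv)
    (h₂ : c₂ ∈ irrL Dt ι M Lv) {g₀ : G} (hg₀ : c₁ (ι g₀) 0 1 ≠ 0) :
    ∃ r : k, ∀ g : G, c₂ (ι g) 0 1 = r * c₁ (ι g) 0 1 := by
  have hτe : ∀ c : Δ → Matrix (Fin 2) (Fin 2) k, IsCoc M c → ∀ g : G,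
      c (ι (cτ g)) 0 1 = AdBasis.y M τ * c (ι g) 0 1 := by
    intro c hc g
    rw [conj_entry B hιN hc Eτ, B.adj01 B.τI]
  have hΦe : ∀ c : Δ → Matrix (Fin 2) (Fin 2) k, IsCoc M c → ∀ g : G,
      c (ι ((cΦ.trans cΦ) g)) 0 1 = c (ι g) 0 1 := by
    intro c hc g
    rw [Equiv.trans_apply, conj_entry B hιN hc EΦ, conj_entry B hιN hc EΦ, AdBasis.phi_sq01 _ B]
  exact b_line Dt hp3 Eτ.hc Eτ.hv htriv hord a ha (Φ := Φ'.trans Φ') (d := cΦ.trans cΦ)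
    (fun g x => by rw [RingEquiv.trans_apply, EΦ.hc, EΦ.hc, Equiv.trans_apply,
      RingEquiv.trans_apply])
    (fun x => by rw [RingEquiv.trans_apply, EΦ.hv, EΦ.hv]) (phi_sq EΦ.hv hΦ) hy hya
    (b₁ := fun g => c₁ (ι g) 0 1) (b₂ := fun g => c₂ (ι g) 0 1)
    (hτe c₁ h₁.1.2.1) (hτe c₂ h₂.1.2.1) (hΦe c₁ h₁.1.2.1) (hΦe c₂ h₂.1.2.1) h₁.2.2 h₂.2.2 hg₀

include B hιN hNι EΦ in
/-- The lower-left entry vanishes with the upper-right one. -/
theorem entries_zero {c : Δ → Matrix (Fin 2) (Fin 2) k} (hc : IsCoc M c)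
    (htr : ∀ g, (c g).trace = 0) (h00 : ∀ g : G, c (ι g) 0 0 = 0)
    (h01 : ∀ g : G, c (ι g) 0 1 = 0) :
    ∀ s ∈ N, c s = 0 := by
  intro s hs
  obtain ⟨g, rfl⟩ := hNι s hs
  have h10 : c (ι g) 1 0 = 0 := by
    have h1 := conj_entry B hιN hc EΦ g
    have h2 := h01 (cΦ g)
    rw [h1, AdBasis.phi01 _ B] at h2
    exact (mul_eq_zero.mp h2).resolve_left (AdBasis.phi01_ne B)
  have h11 : c (ι g) 1 1 = 0 := by
    have h1 := htr (ι g)
    rw [Matrix.trace_fin_two, h00 g, zero_add] at h1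
    exact h1
  ext i j
  fin_cases i <;> fin_cases j
  · exact h00 g
  · exact h01 g
  · exact h10
  · exact h11

include B hιN hNι hp3 Eτ EΦ htriv hord ha hΦ hy hya in
/-- The local space has dimension at most four. -/
theorem finrank_irrL (hM : IsLC₁ Lv M)
    (hdens : ∀ c ∈ zAd M Lv, (∀ σ ∈ I, c σ = 0) → c Φ = 0 → c = 0) :
    Module.Finite k (irrL Dt ι M Lv) ∧ finrank k (irrL Dt ι M Lv) ≤ 4 := by
  classical
  let Ψ : irrL Dt ι M Lv →ₗ[k] (G → k) :=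
    { toFun := fun c g => c.1 (ι g) 0 1
      map_add' := fun c d => rfl
      map_smul' := fun r c => rfl }
  -- the range
  have hrange : Module.Finite k (LinearMap.range Ψ) ∧ finrank k (LinearMap.range Ψ) ≤ 1 := by
    by_cases hz : ∀ c : irrL Dt ι M Lv, Ψ c = 0
    · have h1 : LinearMap.range Ψ = ⊥ := by
        rw [LinearMap.range_eq_bot]
        exact LinearMap.ext hz
      rw [h1]
      exact ⟨inferInstance, by rw [finrank_bot]; exact zero_le_one⟩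
    · push Not at hz
      obtain ⟨c₁, hc₁⟩ := hz
      obtain ⟨g₀, hg₀⟩ : ∃ g₀ : G, c₁.1 (ι g₀) 0 1 ≠ 0 := by
        by_contra hcon
        push Not at hcon
        exact hc₁ (funext hcon)
      have hspan : ∀ w : LinearMap.range Ψ, ∃ r : k, r • (⟨Ψ c₁, c₁, rfl⟩ : LinearMap.range Ψ) = w := by
        rintro ⟨_, c₂, rfl⟩
        obtain ⟨r, hr⟩ := irrL_line Dt B hιN hp3 Eτ EΦ htriv hord a ha hΦ hy hya c₁.2 c₂.2 hg₀
        exact ⟨r, Subtype.ext (funext fun g => (hr g).symm)⟩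
      refine ⟨?_, finrank_le_one _ hspan⟩
      refine ⟨⟨{⟨Ψ c₁, c₁, rfl⟩}, ?_⟩⟩
      rw [eq_top_iff]
      intro w _
      rw [Finset.coe_singleton, Submodule.mem_span_singleton]
      exact hspan w
  -- the kernel
  have hker : Module.Finite k (LinearMap.ker Ψ) ∧ finrank k (LinearMap.ker Ψ) ≤ 3 := by
    let A : ad0 k →ₗ[k] irrL Dt ι M Lv :=
      { toFun := fun X => ⟨cob M X.1, cob_mem_irrL Dt B hιN hM X.1⟩
        map_add' := fun X Y => Subtype.ext ((cobLin M).map_add X.1 Y.1)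
        map_smul' := fun r X => Subtype.ext ((cobLin M).map_smul r X.1) }
    have hle : LinearMap.ker Ψ ≤ LinearMap.range A := by
      intro c hc
      rw [LinearMap.mem_ker] at hc
      have hz := entries_zero B hιN hNι EΦ c.2.1.2.1 c.2.1.1 c.2.2.1 (fun g => congrFun hc g)
      obtain ⟨X, hX, hX2⟩ := B.exists_cob c.2.1.2.1 c.2.1.1 hz (fun c' hc' hX h1 h2 => by
        obtain ⟨X, rfl⟩ := hX
        exact hdens _ (Submodule.sub_mem _ c.2.1 (cob_mem_zAd hM X)) h1 h2)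
      exact ⟨⟨X, mem_ad0.mpr hX⟩, Subtype.ext hX2.symm⟩
    haveI : Module.Finite k (ad0 k) := inferInstance
    haveI : Module.Finite k (LinearMap.range A) := inferInstance
    haveI h3 : Module.Finite k (LinearMap.ker Ψ) :=
      Module.Finite.of_injective (Submodule.inclusion hle) (Submodule.inclusion_injective hle)
    refine ⟨h3, ?_⟩
    calc finrank k (LinearMap.ker Ψ) ≤ finrank k (LinearMap.range A) := Submodule.finrank_mono hle
      _ ≤ finrank k (ad0 k) := LinearMap.finrank_range_le A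
      _ = 3 := finrank_ad0
  obtain ⟨hr1, hr2⟩ := hrange
  obtain ⟨hk1, hk2⟩ := hker
  haveI hfin : Module.Finite k (irrL Dt ι M Lv) := by
    have h1 : (⊤ : Submodule k (irrL Dt ι M Lv)).FG := by
      refine Submodule.fg_of_fg_map_of_fg_inf_ker Ψ ?_ ?_
      · rw [Submodule.map_top]
        exact Module.Finite.iff_fg.mp hr1
      · rw [top_inf_eq]
        exact Module.Finite.iff_fg.mp hk1
    exact ⟨h1⟩
  refine ⟨hfin, ?_⟩
  have h := LinearMap.finrank_range_add_finrank_ker Ψ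
  omega

include B hιN hp3 Eτ EΦ htriv hord ha hΦ hya in
/-- Flat cocycles lie in the local space. -/
theorem mem_irrL_of_flBreak {c : Δ → Matrix (Fin 2) (Fin 2) k} (hc : c ∈ zAd M Lv)
    (hfl : FlBreak v ι p π ζ c) : c ∈ irrL Dt ι M Lv := by
  classical
  haveI : Fact p.Prime := ⟨Dt.hp⟩
  have hτ := fun g : G => conj_entry B hιN hc.2.1 Eτ g
  have hΦe := fun g : G => conj_entry B hιN hc.2.1 EΦ g
  refine ⟨hc, ?_, fun ℓ => ?_⟩
  · -- the diagonal entry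
    have hhτ : ∀ g : G, c (ι (cτ g)) 0 0 = c (ι g) 0 0 := fun g => by
      rw [hτ, B.adj00 B.τI]
    have hhΦ : ∀ g : G, c (ι (cΦ g)) 0 0 = - c (ι g) 0 0 := fun g => by
      rw [hΦe, AdBasis.phi00 _ B]
      have h1 := hc.1 (ι g)
      rw [Matrix.trace_fin_two] at h1
      exact eq_neg_of_add_eq_zero_right h1
    have hgen : ∀ ℓ : k →+ ZMod p, ∃ α : Ω, IsGen G ζ (fun g : G => ℓ (c (ι g) 0 0)) α := by
      intro ℓ
      by_cases hz : ∀ g : G, ℓ (c (ι g) 0 0) = 0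
      · refine ⟨1, ?_⟩
        convert Dt.gen_zero using 2 with g
        exact hz g
      · push Not at hz
        obtain ⟨g₀, hg₀⟩ := hz
        obtain ⟨s, hs, -⟩ := hfl.1 0 0 ℓ g₀ hg₀
        obtain ⟨-, -, -, α, hα, -⟩ := hs
        exact ⟨α, hα⟩
    obtain ⟨l, hl⟩ := h_line Dt hp3 Eτ.hc Eτ.hv htriv hord EΦ.hc EΦ.hv hΦ hhτ hhΦ hgen
    by_contra hcon
    push Not at hcon
    obtain ⟨g₀, hg₀⟩ := hcon
    obtain ⟨ℓ, hℓ⟩ := exists_addHom_ne (p := p) hg₀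
    obtain ⟨s, hs, hs2⟩ := hfl.2 0 0 l hl ℓ g₀ hℓ
    have hb := Dt.break_of_fixed hp3 Eτ.hc Eτ.hv htriv hord (f := fun g : G => ℓ (c (ι g) 0 0))
      ⟨g₀, hℓ⟩ (hgen ℓ) (fun g => by rw [hhτ])
    have h1 := Dt.break_unique hs hb
    nlinarith
  · by_cases hz : ∀ g : G, ℓ (c (ι g) 0 1) = 0
    · convert Dt.U_zero (p ^ 2 + 1) using 2 with g
      exact hz g
    · push Not at hz
      obtain ⟨g₀, hg₀⟩ := hz
      obtain ⟨s, hs, hs2⟩ := hfl.1 0 1 ℓ g₀ hg₀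
      have h1 := Dt.break_of_quad hp3 Eτ.hc Eτ.hv htriv hord a ha
        (f := fun g : G => ℓ (c (ι g) 0 1))
        (fun g => by
          rw [hτ, hτ, B.adj01 B.τI, B.adj01 B.τI, ← map_add, ← mul_assoc, ← pow_two]
          have h2 : AdBasis.y M τ ^ 2 * c (ι g) 0 1 + c (ι g) 0 1 =
              a • (AdBasis.y M τ * c (ι g) 0 1) := by
            rw [nsmul_eq_mul]
            linear_combination c (ι g) 0 1 * hya
          rw [h2, map_nsmul, nsmul_eq_mul]) hs (by nlinarith)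
      rw [h1] at hs
      exact Dt.U_of_break hs

end

end Fermat.Agent.TWP.FlatLoc
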