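import Fermat.Agent.TWP.FlatLoc.Order
import Fermat.Agent.TWP.FlatLoc.Tame

set_option autoImplicit false
set_option linter.style.haveILetI false
set_option linter.unusedVariables false
set_option linter.unusedSectionVars false

/-!
# Distance functions attached to orders, residues, leading coefficients
-/

open Pointwise

namespace Fermat.Agent.TWFlat

open FlatOrd.Unramified (inertiaRing)

variable {P : ValuationSubring Om}

section red

/-- the residue field of the place -/
abbrev Kap (P : ValuationSubring Om) : Type := IsLocalRing.ResidueField P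

open Classical in
/-- reduction modulo the maximal ideal (`0` outside of the valuation ring) -/
noncomputable def red (P : ValuationSubring Om) (x : Om) : Kap P :=
  if h : x ∈ P then IsLocalRing.residue P ⟨x, h⟩ else 0

theorem red_eq {x : Om} (h : P.valuation x ≤ 1) :
    red P x = IsLocalRing.residue P ⟨x, (P.valuation_le_one_iff x).mp h⟩ := by
  rw [red, dif_pos]

theorem red_add {x y : Om} (hx : P.valuation x ≤ 1) (hy : P.valuation y ≤ 1) :
    red P (x + y) = red P x + red P y := by
  rw [red_eq hx, red_eq hy, red_eq ((P.valuation.map_add _ _).trans (max_le hx hy)), ← map_add]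
  rfl

theorem red_sub {x y : Om} (hx : P.valuation x ≤ 1) (hy : P.valuation y ≤ 1) :
    red P (x - y) = red P x - red P y := by
  rw [red_eq hx, red_eq hy, red_eq ((P.valuation.map_sub _ _).trans (max_le hx hy)), ← map_sub]
  rfl

theorem red_mul {x y : Om} (hx : P.valuation x ≤ 1) (hy : P.valuation y ≤ 1) :
    red P (x * y) = red P x * red P y := by
  have hxy : P.valuation (x * y) ≤ 1 := by rw [map_mul]; exact mul_le_one₀ hx zero_le hy
  rw [red_eq hx, red_eq hy, red_eq hxy, ← _root_.map_mul (IsLocalRing.residue P)]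
  rfl

theorem red_one : red P 1 = 1 := by
  rw [red_eq (by rw [map_one])]
  exact map_one (IsLocalRing.residue P)

theorem red_zero : red P 0 = 0 := by
  rw [red_eq (by rw [map_zero]; exact zero_le)]
  exact map_zero (IsLocalRing.residue P)

theorem red_pow {x : Om} (hx : P.valuation x ≤ 1) (n : ℕ) : red P (x ^ n) = red P x ^ n := by
  induction n with
  | zero => rw [pow_zero, pow_zero, red_one]
  | succ n ih =>
    have hxn : P.valuation (x ^ n) ≤ 1 := by rw [map_pow]; exact pow_le_one₀ zero_le hx
    rw [pow_succ, red_mul hxn hx, ih, pow_succ]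

theorem red_intCast (n : ℤ) : red P (n : Om) = (n : Kap P) := by
  rw [red_eq (val_intCast_le n)]
  exact map_intCast (IsLocalRing.residue P) n

theorem red_natCast (n : ℕ) : red P (n : Om) = (n : Kap P) := by
  rw [red_eq (val_natCast_le n)]
  exact map_natCast (IsLocalRing.residue P) n

theorem red_eq_zero_iff {x : Om} (hx : P.valuation x ≤ 1) :
    red P x = 0 ↔ P.valuation x < 1 := by
  rw [red_eq hx, IsLocalRing.residue_eq_zero_iff, ValuationSubring.valuation_lt_one_iff]

theorem red_eq_iff {x y : Om} (hx : P.valuation x ≤ 1) (hy : P.valuation y ≤ 1) :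
    red P x = red P y ↔ P.valuation (x - y) < 1 := by
  rw [← sub_eq_zero, ← red_sub hx hy, red_eq_zero_iff ((P.valuation.map_sub _ _).trans (max_le hx hy))]

theorem red_ne_zero_iff {x : Om} (hx : P.valuation x ≤ 1) :
    red P x ≠ 0 ↔ P.valuation x = 1 := by
  rw [Ne, red_eq_zero_iff hx, not_lt]
  exact ⟨fun h => le_antisymm hx h, fun h => h.ge⟩

theorem red_sum {ι : Type} (s : Finset ι) (f : ι → Om) (h : ∀ i ∈ s, P.valuation (f i) ≤ 1) :
    red P (∑ i ∈ s, f i) = ∑ i ∈ s, red P (f i) := by
  classical
  induction s using Finset.induction_on with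
  | empty => simp [red_zero]
  | insert i s hi ih =>
    rw [Finset.sum_insert hi, Finset.sum_insert hi, red_add (h i (Finset.mem_insert_self i s))
      (Valuation.map_sum_le _ fun j hj => h j (Finset.mem_insert_of_mem hj)),
      ih fun j hj => h j (Finset.mem_insert_of_mem hj)]

theorem red_surj (y : Kap P) : ∃ x : Om, P.valuation x ≤ 1 ∧ red P x = y := by
  obtain ⟨⟨x, hx⟩, rfl⟩ := IsLocalRing.residue_surjective y
  exact ⟨x, (P.valuation_le_one_iff x).mpr hx, red_eq ((P.valuation_le_one_iff x).mpr hx)⟩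

theorem red_inertia {g : GQ} (hg : g ∈ P.inertiaSubgroupIn ℚ) {x : Om} (hx : P.valuation x ≤ 1) :
    red P (g x) = red P x := by
  rw [red_eq_iff (by rwa [val_inertia hg]) hx]
  exact val_sub_lt hg hx

end red

section dist

variable {M : Type} [AddCommGroup M] {act : In P →* AddMonoid.End M}
  {A : Submodule (inertiaRing P) (M → Om)}

open Classical in
/-- the maximal value of `a z - a 0` for `a` in the order `A`. -/
noncomputable def dist (A : Submodule (inertiaRing P) (M → Om)) (z : M) : P.ValueGroup :=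
  if h : ∃ γ, (∀ a ∈ A, P.valuation (a z - a 0) ≤ γ) ∧ ∃ a ∈ A, P.valuation (a z - a 0) = γ then
    h.choose else 0

theorem IsOrd.dist_spec (hA : IsOrd act A) (z : M) :
    (∀ a ∈ A, P.valuation (a z - a 0) ≤ dist A z) ∧
      ∃ a ∈ A, P.valuation (a z - a 0) = dist A z := by
  have h : ∃ γ, (∀ a ∈ A, P.valuation (a z - a 0) ≤ γ) ∧ ∃ a ∈ A, P.valuation (a z - a 0) = γ := by
    obtain ⟨T, hT⟩ := hA.fg
    have hTne : T.Nonempty := by
      rw [Finset.nonempty_iff_ne_empty]
      rintro rfl
      rw [Finset.coe_empty, Submodule.span_empty] at hT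
      have h1 := hA.one_mem
      rw [← hT, Submodule.mem_bot] at h1
      exact one_ne_zero (congrFun h1 0)
    obtain ⟨t, ht, hmax⟩ := Finset.exists_max_image T (fun a => P.valuation (a z - a 0)) hTne
    refine ⟨P.valuation (t z - t 0), ?_, t, ?_, rfl⟩
    · intro a ha
      rw [← hT] at ha
      induction ha using Submodule.span_induction with
      | mem a ha => exact hmax a ha
      | zero => simp
      | add a b _ _ ha hb =>
        rw [Pi.add_apply, Pi.add_apply, add_sub_add_comm]
        exact (P.valuation.map_add _ _).trans (max_le ha hb)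
      | smul s a _ ha =>
        rw [smul_apply_ring, smul_apply_ring, ← mul_sub, map_mul]
        exact mul_le_of_le_one_of_le (ring_val s) ha
    · rw [← hT]; exact Submodule.subset_span ht
  rw [dist, dif_pos h]
  exact h.choose_spec

theorem IsOrd.le_dist (hA : IsOrd act A) {a : M → Om} (ha : a ∈ A) (z : M) :
    P.valuation (a z - a 0) ≤ dist A z := (hA.dist_spec z).1 a ha

theorem IsOrd.dist_le (hA : IsOrd act A) {z : M} {γ : P.ValueGroup}
    (h : ∀ a ∈ A, P.valuation (a z - a 0) ≤ γ) : dist A z ≤ γ := by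
  obtain ⟨a, ha, h1⟩ := (hA.dist_spec z).2
  rw [← h1]
  exact h a ha

theorem IsOrd.sub_le (hA : IsOrd act A) {a : M → Om} (ha : a ∈ A) (x z : M) :
    P.valuation (a (x + z) - a x) ≤ dist A z := by
  obtain ⟨n, b, c, hb, hc, h⟩ := hA.comul a ha
  have h0 := h x 0
  rw [add_zero] at h0
  rw [h x z, h0, ← Finset.sum_sub_distrib]
  refine Valuation.map_sum_le _ fun i _ => ?_
  rw [← mul_sub, map_mul]
  exact mul_le_of_le_one_of_le (hA.val_le _ (hb i) x) (hA.le_dist (hc i) z)

theorem IsOrd.exists_sub_eq (hA : IsOrd act A) (x z : M) :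
    ∃ a ∈ A, P.valuation (a (x + z) - a x) = dist A z := by
  obtain ⟨a, ha, h1⟩ := (hA.dist_spec z).2
  obtain ⟨n, b, c, hb, hc, h⟩ := hA.comul a ha
  have h2 : a z - a 0 = ∑ i, (b i (x + z) - b i x) * c i (-x) := by
    have e1 : z = (x + z) + (-x) := by abel
    have e2 : (0 : M) = x + (-x) := by abel
    conv_lhs => rw [e1, e2]
    rw [h, h, ← Finset.sum_sub_distrib]
    exact Finset.sum_congr rfl fun i _ => by ring
  by_contra hcon
  push Not at hcon
  have h3 : ∀ b ∈ A, P.valuation (b (x + z) - b x) < dist A z := fun b hb =>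
    lt_of_le_of_ne (hA.sub_le hb x z) (hcon b hb)
  have hpos : dist A z ≠ 0 := by
    intro h0
    have := h3 a ha
    rw [h0] at this
    exact absurd this (not_lt.mpr zero_le)
  have h4 : P.valuation (a z - a 0) < dist A z := by
    rw [h2]
    refine Valuation.map_sum_lt _ hpos fun i _ => ?_
    rw [map_mul]
    refine lt_of_le_of_lt ?_ (h3 (b i) (hb i))
    exact mul_le_of_le_one_right zero_le (hA.val_le _ (hc i) _)
  rw [h1] at h4
  exact lt_irrefl _ h4

/-- second differences -/
theorem IsOrd.sub_sub_le (hA : IsOrd act A) {a : M → Om} (ha : a ∈ A) (x z z' : M) :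
    P.valuation (a (x + z + z') - a (x + z) - (a (x + z') - a x)) ≤ dist A z * dist A z' := by
  obtain ⟨n, b, c, hb, hc, h⟩ := hA.comul a ha
  have e1 := h (x + z) z'
  have e2 := h (x + z) 0
  have e3 := h x z'
  have e4 := h x 0
  rw [add_zero] at e2 e4
  have h2 : a (x + z + z') - a (x + z) - (a (x + z') - a x) =
      ∑ i, (b i (x + z) - b i x) * (c i z' - c i 0) := by
    rw [e1, e2, e3, e4, ← Finset.sum_sub_distrib, ← Finset.sum_sub_distrib,
      ← Finset.sum_sub_distrib]
    exact Finset.sum_congr rfl fun i _ => by ring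
  rw [h2]
  refine Valuation.map_sum_le _ fun i _ => ?_
  rw [map_mul]
  exact mul_le_mul' (hA.sub_le (hb i) x z) (hA.le_dist (hc i) z')

theorem IsOrd.dist_act (hA : IsOrd act A) (g : In P) (z : M) : dist A (act g z) = dist A z := by
  have key : ∀ (g : In P) (z : M), dist A (act g z) ≤ dist A z := by
    intro g z
    refine hA.dist_le fun a ha => ?_
    have h0 : a 0 = (g : GQ) (a 0) := by
      have := hA.equiv a ha g 0
      rwa [map_zero] at this
    rw [hA.equiv a ha, h0, ← map_sub, val_inertia g.2]
    exact hA.le_dist ha z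
  refine le_antisymm (key g z) ?_
  have := key g⁻¹ (act g z)
  rwa [act_inv_apply'] at this

theorem IsOrd.dist_add (hA : IsOrd act A) (z z' : M) :
    dist A (z + z') ≤ max (dist A z) (dist A z') := by
  refine hA.dist_le fun a ha => ?_
  have : a (z + z') - a 0 = (a (z + z') - a z) + (a z - a 0) := by ring
  rw [this]
  refine (P.valuation.map_add _ _).trans (max_le ?_ ?_)
  · exact (hA.sub_le ha z z').trans (le_max_right _ _)
  · exact (hA.le_dist ha z).trans (le_max_left _ _)

theorem IsOrd.dist_neg (hA : IsOrd act A) (z : M) : dist A (-z) = dist A z := by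
  have key : ∀ z : M, dist A (-z) ≤ dist A z := by
    intro z
    refine hA.dist_le fun a ha => ?_
    have h1 := hA.sub_le ha (-z) z
    rw [neg_add_cancel] at h1
    rwa [P.valuation.map_sub_swap]
  refine le_antisymm (key z) ?_
  have := key (-z)
  rwa [neg_neg] at this

theorem IsOrd.dist_zero (hA : IsOrd act A) : dist A (0 : M) = 0 := by
  refine le_antisymm (hA.dist_le fun a _ => ?_) zero_le
  rw [sub_self, map_zero]

theorem IsOrd.dist_le_one (hA : IsOrd act A) (z : M) : dist A z ≤ 1 :=
  hA.dist_le fun a ha =>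
    (P.valuation.map_sub _ _).trans (max_le (hA.val_le a ha _) (hA.val_le a ha _))

theorem IsOrd.dist_pos (hA : IsOrd act A) {z : M} (hz : z ≠ 0) : 0 < dist A z := by
  rw [zero_lt_iff]
  intro h0
  have h1 : ∀ a ∈ A, a z = a 0 := by
    intro a ha
    have := hA.le_dist ha z
    rw [h0, le_zero_iff, map_eq_zero, sub_eq_zero] at this
    exact this
  classical
  have h2 : ∀ f ∈ Submodule.span Om (A : Set (M → Om)), f z = f 0 := by
    intro f hf
    induction hf using Submodule.span_induction with
    | mem a ha => exact h1 a ha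
    | zero => rfl
    | add a b _ _ ha hb => rw [Pi.add_apply, Pi.add_apply, ha, hb]
    | smul s a _ ha => rw [Pi.smul_apply, Pi.smul_apply, ha]
  have h3 := h2 (Pi.single z 1) (by rw [hA.span_top]; trivial)
  rw [Pi.single_eq_same, Pi.single_eq_of_ne hz.symm] at h3
  exact one_ne_zero h3

/-- inertia acts trivially modulo the connected part -/
theorem IsOrd.dist_act_sub_lt (hA : IsOrd act A) (g : In P) (x : M) :
    dist A (act g x - x) < 1 := by
  obtain ⟨a, ha, h1⟩ := hA.exists_sub_eq x (act g x - x)
  rw [← h1, add_sub_cancel, hA.equiv a ha]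
  exact val_sub_lt g.2 (hA.val_le a ha x)

/-- points close to the origin form a subgroup -/
def ball (hA : IsOrd act A) (γ : P.ValueGroup) : AddSubgroup M where
  carrier := {z | dist A z ≤ γ}
  zero_mem' := by
    show dist A 0 ≤ γ
    rw [hA.dist_zero]; exact zero_le
  add_mem' := fun {a b} ha hb => (hA.dist_add a b).trans (max_le ha hb)
  neg_mem' := fun {a} ha => by
    show dist A (-a) ≤ γ
    rw [hA.dist_neg]; exact ha

theorem mem_ball (hA : IsOrd act A) (γ : P.ValueGroup) (z : M) :
    z ∈ ball hA γ ↔ dist A z ≤ γ := Iff.rfl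

/-- the connected part -/
def conn (hA : IsOrd act A) : AddSubgroup M where
  carrier := {z | dist A z < 1}
  zero_mem' := by
    show dist A 0 < 1
    rw [hA.dist_zero]; exact zero_lt_one
  add_mem' := fun {a b} ha hb => (hA.dist_add a b).trans_lt (max_lt ha hb)
  neg_mem' := fun {a} ha => by
    show dist A (-a) < 1
    rw [hA.dist_neg]; exact ha

theorem mem_conn (hA : IsOrd act A) (z : M) : z ∈ conn hA ↔ dist A z < 1 := Iff.rfl

theorem act_sub_mem_conn (hA : IsOrd act A) (g : In P) (x : M) : act g x - x ∈ conn hA :=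
  hA.dist_act_sub_lt g x

/-- the distance of a restricted order -/
theorem dist_restrict {N : Type} [AddCommGroup N] {actN : In P →* AddMonoid.End N}
    (hA : IsOrd act A) (i : N →+ M) (hi : Function.Injective i)
    (hact : ∀ g x, i (actN g x) = act g (i x)) (z : N) :
    dist (A.map (pull (P := P) i)) z = dist A (i z) := by
  have hN := hA.restrict i hi hact
  refine le_antisymm (hN.dist_le ?_) (hA.dist_le ?_)
  · rintro _ ⟨a, ha, rfl⟩
    rw [pull_apply, pull_apply, map_zero]
    exact hA.le_dist ha (i z)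
  · intro a ha
    have := hN.le_dist (a := pull (P := P) i a) ⟨a, ha, rfl⟩ z
    rwa [pull_apply, pull_apply, map_zero] at this

/-- leading coefficients: for `h` in the order and `c` with `dist ≤ |c| < 1` on `z, z'`, the
leading coefficient is additive -/
theorem IsOrd.lead_add (hA : IsOrd act A) {h : M → Om} (hh : h ∈ A) {c : Om} (hc0 : c ≠ 0)
    (hc : P.valuation c < 1) (x : M) {z z' : M} (hz : dist A z ≤ P.valuation c)
    (hz' : dist A z' ≤ P.valuation c) :
    red P ((h (x + (z + z')) - h x) / c) = red P ((h (x + z) - h x) / c) +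
      red P ((h (x + z') - h x) / c) := by
  have hcv : P.valuation c ≠ 0 := (map_ne_zero _).mpr hc0
  have v1 : ∀ y, dist A y ≤ P.valuation c → P.valuation ((h (x + y) - h x) / c) ≤ 1 := by
    intro y hy
    rw [map_div₀]
    exact div_le_one_of_le₀ ((hA.sub_le hh x y).trans hy) zero_le
  rw [← red_add (v1 z hz) (v1 z' hz')]
  rw [red_eq_iff (v1 _ ((hA.dist_add z z').trans (max_le hz hz')))
    ((P.valuation.map_add _ _).trans (max_le (v1 z hz) (v1 z' hz')))]
  have h1 : (h (x + (z + z')) - h x) / c - ((h (x + z) - h x) / c + (h (x + z') - h x) / c) =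
      (h (x + z + z') - h (x + z) - (h (x + z') - h x)) / c := by
    rw [add_assoc]; field_simp; ring
  rw [h1, map_div₀, div_lt_one₀ (zero_lt_iff.mpr hcv)]
  refine (hA.sub_sub_le hh x z z').trans_lt ?_
  refine (mul_le_mul' hz hz').trans_lt ?_
  exact mul_lt_of_lt_one_left (zero_lt_iff.mpr hcv) hc

/-- equivariance of leading coefficients at the origin -/
theorem IsOrd.lead_act (hA : IsOrd act A) {h : M → Om} (hh : h ∈ A) {c : Om} (hc0 : c ≠ 0)
    (g : In P) {z : M} (hz : dist A z ≤ P.valuation c) :
    red P ((h (act g z) - h 0) / c) = red P ((g : GQ) c / c) * red P ((h z - h 0) / c) := by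
  have hcv : P.valuation c ≠ 0 := (map_ne_zero _).mpr hc0
  have hgc0 : (g : GQ) c ≠ 0 := (map_ne_zero _).mpr hc0
  have h0 : h 0 = (g : GQ) (h 0) := by
    have := hA.equiv h hh g 0
    rwa [map_zero] at this
  have v1 : P.valuation ((h z - h 0) / c) ≤ 1 := by
    rw [map_div₀]
    exact div_le_one_of_le₀ ((hA.le_dist hh z).trans hz) zero_le
  have v2 : P.valuation ((g : GQ) c / c) ≤ 1 := by
    rw [map_div₀, val_inertia g.2, div_self hcv]
  have e1 : (h (act g z) - h 0) / c = ((g : GQ) c / c) * (g : GQ) ((h z - h 0) / c) := by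
    rw [hA.equiv h hh, map_div₀, map_sub]
    conv_lhs => rw [h0]
    field_simp
  rw [e1, red_mul v2 (by rwa [val_inertia g.2]), red_inertia g.2 v1]

end dist

section char

variable {M : Type} [AddCommGroup M] [Finite M] {act : In P →* AddMonoid.End M}
  {A : Submodule (inertiaRing P) (M → Om)}

/-- **All characters lie in the integral closure of an order.** -/
theorem IsOrd.char_mem (hA : IsOrd act A) (hp : ∃ p : ℕ, p.Prime ∧ P.LiesOverPrime p)
    (u : M → Om) (hu0 : u 0 = 1) (hu : ∀ x y, u (x + y) = u x * u y) :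
    ∃ (n : ℕ) (e : Fin n → Om) (a : Fin n → M → Om), (∀ i, P.valuation (e i) ≤ 1) ∧
      (∀ i, a i ∈ A) ∧ ∀ x, u x = ∑ i, e i * a i x := by
  classical
  obtain ⟨n, b, B, hB⟩ := hA.exists_basis hp
  have hexp : ∀ f ∈ A, ∃ m : Fin n → inertiaRing P, ∀ x, f x = ∑ i, (m i : Om) * B i x := by
    intro f hf
    refine ⟨fun i => b.repr ⟨f, hf⟩ i, fun x => ?_⟩
    have h1 := b.sum_repr ⟨f, hf⟩
    have h2 := congrArg (fun g : A => (g : M → Om) x) h1
    simp only [Submodule.coe_sum, Submodule.coe_smul, Finset.sum_apply] at h2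
    rw [← h2]
    refine Finset.sum_congr rfl fun i _ => ?_
    rw [hB, smul_apply_ring]
  have hstr : ∀ i, ∃ m : Fin n → Fin n → inertiaRing P, ∀ x y,
      B i (x + y) = ∑ j, ∑ k, (m j k : Om) * (B j x * B k y) := by
    intro i
    have hi : B i ∈ A := by rw [hB]; exact (b i).2
    obtain ⟨N, f, g, hf, hg, h⟩ := hA.comul _ hi
    choose mf hmf using fun i => hexp (f i) (hf i)
    choose mg hmg using fun i => hexp (g i) (hg i)
    refine ⟨fun j k => ∑ l, mf l j * mg l k, fun x y => ?_⟩
    rw [h]
    simp only [hmf, hmg, Finset.sum_mul_sum]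
    rw [Finset.sum_comm]
    refine Finset.sum_congr rfl fun j _ => ?_
    rw [Finset.sum_comm]
    refine Finset.sum_congr rfl fun k _ => ?_
    push_cast
    rw [Finset.sum_mul]
    exact Finset.sum_congr rfl fun l _ => by ring
  choose m hm using hstr
  have huniq : ∀ d : Fin n → Fin n → Om, (∀ x y, ∑ j, ∑ k, d j k * (B j x * B k y) = 0) →
      ∀ j k, d j k = 0 := by
    intro d hd j k
    have hli := B.linearIndependent
    rw [Fintype.linearIndependent_iff] at hli
    have h1 : ∀ y j, ∑ k, d j k * B k y = 0 := by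
      intro y j
      refine hli (fun j => ∑ k, d j k * B k y) ?_ j
      funext x
      simp only [Finset.sum_apply, Pi.smul_apply, smul_eq_mul, Pi.zero_apply]
      rw [← hd x y]
      refine Finset.sum_congr rfl fun j _ => ?_
      rw [Finset.sum_mul]
      refine Finset.sum_congr rfl fun k _ => ?_
      ring
    refine hli (fun k => d j k) ?_ k
    funext y
    simp only [Finset.sum_apply, Pi.smul_apply, smul_eq_mul, Pi.zero_apply]
    exact h1 y j
  let e : Fin n → Om := fun i => B.repr u i
  have he : ∀ x, u x = ∑ i, e i * B i x := by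
    intro x
    have := congrFun (B.sum_repr u) x
    rw [Finset.sum_apply] at this
    exact this.symm
  have heq : ∀ j k, ∑ i, e i * (m i j k : Om) = e j * e k := by
    have h1 := huniq (fun j k => ∑ i, e i * (m i j k : Om) - e j * e k) (fun x y => by
      have h2 := hu x y
      rw [he, he x, he y] at h2
      simp only [hm] at h2
      have h3 : ∑ i, e i * ∑ j, ∑ k, (m i j k : Om) * (B j x * B k y) =
          ∑ j, ∑ k, (∑ i, e i * (m i j k : Om)) * (B j x * B k y) := by
        simp only [Finset.mul_sum, Finset.sum_mul]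
        rw [Finset.sum_comm]
        refine Finset.sum_congr rfl fun j _ => ?_
        rw [Finset.sum_comm]
        refine Finset.sum_congr rfl fun k _ => Finset.sum_congr rfl fun i _ => ?_
        ring
      have h4 : (∑ i, e i * B i x) * ∑ i, e i * B i y =
          ∑ j, ∑ k, (e j * e k) * (B j x * B k y) := by
        rw [Finset.sum_mul_sum]
        refine Finset.sum_congr rfl fun j _ => Finset.sum_congr rfl fun k _ => ?_
        ring
      rw [h3, h4] at h2
      simp only [sub_mul, Finset.sum_sub_distrib]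
      rw [h2, sub_self])
    intro j k
    exact sub_eq_zero.mp (h1 j k)
  refine ⟨n, e, fun i => B i, ?_, fun i => by
    show B i ∈ A
    rw [hB]; exact (b i).2, he⟩
  by_contra hcon
  push Not at hcon
  obtain ⟨i1, hi1⟩ := hcon
  obtain ⟨i0, -, hi0⟩ := Finset.exists_max_image (Finset.univ : Finset (Fin n))
    (fun i => P.valuation (e i)) ⟨i1, Finset.mem_univ _⟩
  have hi0P : 1 < P.valuation (e i0) := hi1.trans_le (hi0 i1 (Finset.mem_univ _))
  have hpos : 0 < P.valuation (e i0) := zero_lt_one.trans hi0P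
  have h2 : P.valuation (e i0 * e i0) ≤ P.valuation (e i0) := by
    rw [← heq i0 i0]
    refine Valuation.map_sum_le _ fun i _ => ?_
    rw [map_mul]
    exact (mul_le_of_le_one_right zero_le (ring_val _)).trans (hi0 i (Finset.mem_univ _))
  rw [map_mul] at h2
  exact absurd h2 (not_le.mpr (lt_mul_of_one_lt_left hpos hi0P))

/-- lower bound for the distance -/
theorem IsOrd.zeta_le_dist {p : ℕ} (T : Tame p P) (hA : IsOrd act A) {z : M} (hz : z ≠ 0)
    (hpz : p • z = 0) : P.valuation (T.ζ - 1) ≤ dist A z := by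
  have hp : ∃ p : ℕ, p.Prime ∧ P.LiesOverPrime p := ⟨p, T.hp, T.hP⟩
  let Q := Multiplicative M
  let a : Q := Multiplicative.ofAdd z
  have ha : a ≠ 1 := fun h => hz h
  haveI : NeZero ((Monoid.exponent Q : ℕ) : Om) := ⟨by
    have := Monoid.exponent_ne_zero_of_finite (G := Q)
    exact_mod_cast this⟩
  obtain ⟨φ, hφ⟩ := CommGroup.exists_apply_ne_one_of_hasEnoughRootsOfUnity Q Om ha
  let u : M → Om := fun y => (φ (Multiplicative.ofAdd y) : Omˣ)
  have hu0 : u 0 = 1 := by
    show ((φ (Multiplicative.ofAdd (0 : M)) : Omˣ) : Om) = 1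
    rw [ofAdd_zero, map_one, Units.val_one]
  have hu : ∀ x y, u (x + y) = u x * u y := by
    intro x y
    show ((φ (Multiplicative.ofAdd (x + y)) : Omˣ) : Om) = _
    rw [ofAdd_add, _root_.map_mul, Units.val_mul]
  have huz : u z ≠ 1 := fun h => hφ (Units.ext h)
  have huk : ∀ (n : ℕ) (y : M), u (n • y) = u y ^ n := by
    intro n y
    induction n with
    | zero => rw [zero_smul, pow_zero, hu0]
    | succ n ih => rw [succ_nsmul, hu, ih, pow_succ]
  have hup : u z ^ p = 1 := by rw [← huk, hpz, hu0]
  haveI : NeZero p := ⟨T.hp.ne_zero⟩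
  obtain ⟨j, hj, hjz⟩ := T.hζ.eq_pow_of_pow_eq_one hup
  have hpj : ¬ p ∣ j := by
    rintro ⟨k, rfl⟩
    apply huz
    rw [← hjz, pow_mul, T.hζ.pow_eq_one, one_pow]
  obtain ⟨n, e, b, he, hb, h⟩ := hA.char_mem hp u hu0 hu
  have h1 : u z - 1 = ∑ i, e i * (b i z - b i 0) := by
    conv_lhs => rw [← hu0]
    rw [h, h, ← Finset.sum_sub_distrib]
    exact Finset.sum_congr rfl fun i _ => by ring
  rw [← T.val_zeta_pow_sub hpj, hjz, h1]
  refine Valuation.map_sum_le _ fun i _ => ?_
  rw [map_mul]
  exact mul_le_of_le_one_of_le (he i) (hA.le_dist (hb i) z)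

end char

end Fermat.Agent.TWFlat
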