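import Mathlib
import Fermat.Agent.TWP.FlatLoc.Dist
import Fermat.Agent.TWP.FlatLoc.FrobDec

set_option autoImplicit false
set_option linter.style.haveILetI false
set_option linter.unusedVariables false
set_option linter.unusedSectionVars false

/-!
# Leading coefficients on simple inertia modules
-/

open Pointwise

namespace Fermat.Agent.TWFlat

open FlatOrd.Unramified (inertiaRing)

variable {P : ValuationSubring Om}

section simp

variable {M : Type} [AddCommGroup M] (act : In P →* AddMonoid.End M)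

/-- simple inertia-stable subgroups -/
structure Simp (U : AddSubgroup M) : Prop where
  stable : ∀ g, ∀ z ∈ U, act g z ∈ U
  min : ∀ B : AddSubgroup M, B ≤ U → (∀ g, ∀ z ∈ B, act g z ∈ B) → (∃ z ∈ B, z ≠ 0) → U ≤ B
  ne : ∃ z ∈ U, z ≠ 0

theorem exists_simp [Finite M] (S : AddSubgroup M) (hS : ∀ g, ∀ z ∈ S, act g z ∈ S)
    (hne : ∃ z ∈ S, z ≠ 0) : ∃ U ≤ S, Simp act U := by
  classical
  let X : Set (AddSubgroup M) := {B | B ≤ S ∧ (∀ g, ∀ z ∈ B, act g z ∈ B) ∧ ∃ z ∈ B, z ≠ 0}
  haveI : Finite (AddSubgroup M) := Finite.of_injective (fun B : AddSubgroup M => (B : Set M))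
    SetLike.coe_injective
  obtain ⟨U, hU⟩ := (Set.toFinite X).exists_minimal ⟨S, le_refl S, hS, hne⟩
  obtain ⟨⟨h1, h2, h3⟩, h4⟩ := hU
  exact ⟨U, h1, h2, fun B hB hB2 hB3 => h4 ⟨hB.trans h1, hB2, hB3⟩ hB, h3⟩

end simp

section lead

variable {M : Type} [AddCommGroup M] {act : In P →* AddMonoid.End M}
  {A : Submodule (inertiaRing P) (M → Om)}

/-- A leading function `a` on `U`, with leading value `c`. -/
structure LeadOn (hA : IsOrd act A) (U : AddSubgroup M) (a : M → Om) (c : Om) : Prop where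
  stable : ∀ g, ∀ z ∈ U, act g z ∈ U
  mem : a ∈ A
  c0 : c ≠ 0
  c1 : P.valuation c < 1
  val : ∀ z ∈ U, z ≠ 0 → P.valuation (a z - a 0) = P.valuation c
  dist_eq : ∀ z ∈ U, z ≠ 0 → dist A z = P.valuation c
  ne : ∃ z ∈ U, z ≠ 0

/-- existence of leading functions on simple modules inside the connected part -/
theorem exists_leadOn (hA : IsOrd act A) {U : AddSubgroup M} (hU : Simp act U)
    (hconn : ∃ z ∈ U, z ≠ 0 ∧ dist A z < 1) : ∃ a c, LeadOn hA U a c := by
  -- the distance is constant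
  have hle : ∀ z ∈ U, z ≠ 0 → ∀ z' ∈ U, dist A z' ≤ dist A z := by
    intro z hz hz0 z' hz'
    have h1 := hU.min (U ⊓ ball hA (dist A z)) inf_le_left (by
      rintro g x ⟨hx1, hx2⟩
      refine ⟨hU.stable g x hx1, ?_⟩
      change dist A (act g x) ≤ dist A z
      rw [hA.dist_act]
      exact hx2) ⟨z, ⟨hz, (mem_ball hA _ _).mpr le_rfl⟩, hz0⟩ hz'
    exact h1.2
  obtain ⟨z₀, hz₀, hz₀0, hlt⟩ := hconn
  obtain ⟨a, ha, hval⟩ := (hA.dist_spec z₀).2
  have hdist : ∀ z ∈ U, z ≠ 0 → dist A z = dist A z₀ := fun z hz hz0 =>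
    le_antisymm (hle z₀ hz₀ hz₀0 z hz) (hle z hz hz0 z₀ hz₀)
  have hc0 : a z₀ - a 0 ≠ 0 := by
    intro h0
    rw [h0, map_zero] at hval
    exact (hA.dist_pos hz₀0).ne hval
  refine ⟨a, a z₀ - a 0, hU.stable, ha, hc0, by rw [hval]; exact hlt, ?_, ?_, hU.ne⟩
  · intro z hz hz0
    rw [hval]
    refine le_antisymm ((hA.le_dist ha z).trans (hle z₀ hz₀ hz₀0 z hz)) ?_
    by_contra hcon
    push Not at hcon
    -- the subgroup where `a` is small
    have hd : ∀ x ∈ U, dist A x ≤ dist A z₀ := fun x hx => hle z₀ hz₀ hz₀0 x hx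
    let B : AddSubgroup M :=
      { carrier := {x | x ∈ U ∧ P.valuation (a x - a 0) < dist A z₀}
        zero_mem' := ⟨U.zero_mem, by
          rw [sub_self, map_zero]; exact hA.dist_pos hz₀0⟩
        add_mem' := by
          rintro x y ⟨hx, hx2⟩ ⟨hy, hy2⟩
          refine ⟨U.add_mem hx hy, ?_⟩
          have h1 := hA.sub_sub_le ha 0 x y
          rw [zero_add, zero_add] at h1
          have h2 : a (x + y) - a 0 = (a (x + y) - a x - (a y - a 0)) +
              ((a x - a 0) + (a y - a 0)) := by ring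
          rw [h2]
          refine (P.valuation.map_add _ _).trans_lt (max_lt ?_
            ((P.valuation.map_add _ _).trans_lt (max_lt hx2 hy2)))
          refine h1.trans_lt ((mul_le_mul' (hd x hx) (hd y hy)).trans_lt ?_)
          exact mul_lt_of_lt_one_left (hA.dist_pos hz₀0) hlt
        neg_mem' := by
          rintro x ⟨hx, hx2⟩
          refine ⟨U.neg_mem hx, ?_⟩
          have h1 := hA.sub_sub_le ha 0 x (-x)
          rw [zero_add, zero_add, add_neg_cancel] at h1
          have h2 : a (-x) - a 0 = -(a 0 - a x - (a (-x) - a 0)) + (a 0 - a x) := by ring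
          rw [h2]
          refine (P.valuation.map_add _ _).trans_lt (max_lt ?_ ?_)
          · rw [Valuation.map_neg]
            refine h1.trans_lt ((mul_le_mul' (hd x hx) (hd _ (U.neg_mem hx))).trans_lt ?_)
            exact mul_lt_of_lt_one_left (hA.dist_pos hz₀0) hlt
          · rw [P.valuation.map_sub_swap]; exact hx2 }
    have h3 := hU.min B (fun x hx => hx.1) (by
      rintro g x ⟨hx, hx2⟩
      refine ⟨hU.stable g x hx, ?_⟩
      have h0 : a 0 = (g : GQ) (a 0) := by
        have := hA.equiv a ha g 0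
        rwa [map_zero] at this
      rw [hA.equiv a ha, h0, ← map_sub, val_inertia g.2]
      exact hx2) ⟨z, ⟨hz, hcon⟩, hz0⟩ hz₀
    exact absurd hval h3.2.ne
  · intro z hz hz0
    rw [hval]
    exact hdist z hz hz0

end lead

namespace LeadOn

variable {M : Type} [AddCommGroup M] {act : In P →* AddMonoid.End M}
  {A : Submodule (inertiaRing P) (M → Om)} {hA : IsOrd act A} {U : AddSubgroup M} {a : M → Om}
  {c : Om} (L : LeadOn hA U a c)

/-- the leading coefficient -/
noncomputable def lam (P : ValuationSubring Om) (a : M → Om) (c : Om) (z : M) : Kap P :=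
  red P ((a z - a 0) / c)

/-- the character through which inertia acts -/
noncomputable def eta (P : ValuationSubring Om) (c : Om) (g : GQ) : Kap P := red P (g c / c)

include L

theorem vc : P.valuation c ≠ 0 := (map_ne_zero _).mpr L.c0

theorem dist_le {z : M} (hz : z ∈ U) : dist A z ≤ P.valuation c := by
  by_cases h0 : z = 0
  · rw [h0, hA.dist_zero]; exact zero_le
  · exact (L.dist_eq z hz h0).le

theorem val_le {z : M} (hz : z ∈ U) : P.valuation ((a z - a 0) / c) ≤ 1 := by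
  rw [map_div₀]
  exact div_le_one_of_le₀ ((hA.le_dist L.mem z).trans (L.dist_le hz)) zero_le

theorem lam_add {z z' : M} (hz : z ∈ U) (hz' : z' ∈ U) :
    lam P a c (z + z') = lam P a c z + lam P a c z' := by
  have := hA.lead_add L.mem L.c0 L.c1 0 (L.dist_le hz) (L.dist_le hz')
  simp only [zero_add] at this
  exact this

theorem lam_zero : lam P a c 0 = 0 := by
  rw [lam, sub_self, zero_div, red_zero]

theorem lam_ne {z : M} (hz : z ∈ U) (h0 : z ≠ 0) : lam P a c z ≠ 0 := by
  rw [lam, red_ne_zero_iff (L.val_le hz), map_div₀, L.val z hz h0, div_self L.vc]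

theorem lam_neg {z : M} (hz : z ∈ U) : lam P a c (-z) = - lam P a c z := by
  have h := L.lam_add hz (U.neg_mem hz)
  rw [add_neg_cancel, L.lam_zero] at h
  exact (neg_eq_of_add_eq_zero_right h.symm).symm

theorem lam_nsmul {z : M} (hz : z ∈ U) (n : ℕ) : lam P a c (n • z) = n * lam P a c z := by
  induction n with
  | zero => rw [zero_smul, L.lam_zero, Nat.cast_zero, zero_mul]
  | succ n ih =>
    rw [succ_nsmul, L.lam_add (U.nsmul_mem hz n) hz, ih]
    push_cast; ring

theorem lam_zsmul {z : M} (hz : z ∈ U) (n : ℤ) : lam P a c (n • z) = n * lam P a c z := by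
  obtain ⟨m, rfl | rfl⟩ := n.eq_nat_or_neg
  · rw [natCast_zsmul, L.lam_nsmul hz, Int.cast_natCast]
  · rw [neg_smul, natCast_zsmul, L.lam_neg (U.nsmul_mem hz m), L.lam_nsmul hz]
    push_cast; ring

theorem lam_inj {z z' : M} (hz : z ∈ U) (hz' : z' ∈ U) (h : lam P a c z = lam P a c z') :
    z = z' := by
  by_contra hne
  have h1 : z + (-z') ≠ 0 := by
    rw [← sub_eq_add_neg]; exact sub_ne_zero.mpr hne
  refine L.lam_ne (U.add_mem hz (U.neg_mem hz')) h1 ?_
  rw [L.lam_add hz (U.neg_mem hz'), L.lam_neg hz', h, add_neg_cancel]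

theorem lam_act (g : In P) {z : M} (hz : z ∈ U) :
    lam P a c (act g z) = eta P c g * lam P a c z :=
  hA.lead_act L.mem L.c0 g (L.dist_le hz)

theorem val_eta {g : GQ} (hg : g ∈ P.decompositionSubgroup ℚ) : P.valuation (g c / c) = 1 := by
  rw [map_div₀, val_dec hg, div_self L.vc]

theorem eta_ne {g : GQ} (hg : g ∈ P.decompositionSubgroup ℚ) : eta P c g ≠ 0 := by
  rw [eta, red_ne_zero_iff (L.val_eta hg).le, L.val_eta hg]

theorem eta_mul {g h : GQ} (hg : g ∈ P.inertiaSubgroupIn ℚ) (hh : h ∈ P.inertiaSubgroupIn ℚ) :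
    eta P c (g * h) = eta P c g * eta P c h := by
  have hg' := mem_dec_of_inertia hg
  have hh' := mem_dec_of_inertia hh
  have h1 : (g * h) c / c = (g c / c) * g (h c / c) := by
    change g (h c) / c = _
    rw [map_div₀]
    have := L.c0
    have h2 : g c ≠ 0 := (map_ne_zero _).mpr L.c0
    field_simp
  rw [eta, h1, red_mul (L.val_eta hg').le (by rw [val_inertia hg, L.val_eta hh']),
    red_inertia hg (L.val_eta hh').le]
  rfl

theorem eta_one : eta P c 1 = 1 := by
  have h1 := L.eta_mul (one_mem (P.inertiaSubgroupIn ℚ)) (one_mem _)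
  rw [mul_one] at h1
  exact (mul_eq_left₀ (L.eta_ne (one_mem _))).mp h1.symm

theorem eta_pow {g : GQ} (hg : g ∈ P.inertiaSubgroupIn ℚ) (n : ℕ) :
    eta P c (g ^ n) = eta P c g ^ n := by
  induction n with
  | zero => rw [pow_zero, pow_zero, L.eta_one]
  | succ n ih => rw [pow_succ, pow_succ, L.eta_mul (pow_mem hg n) hg, ih]

theorem act_eq_iff (g : In P) {z : M} (hz : z ∈ U) (h0 : z ≠ 0) :
    act g z = z ↔ eta P c g = 1 := by
  constructor
  · intro h
    have h1 := L.lam_act g hz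
    rw [h] at h1
    exact (mul_eq_right₀ (L.lam_ne hz h0)).mp h1.symm
  · intro h
    refine L.lam_inj (L.stable g z hz) hz ?_
    rw [L.lam_act g hz, h, one_mul]

/-- **Frobenius conjugation.** -/
theorem eta_conj {p : ℕ} {φ : GQ} (hφ : P.IsFrobeniusAt φ p) {g : GQ}
    (hg : g ∈ P.inertiaSubgroupIn ℚ) : eta P c (φ * g * φ⁻¹) = eta P c g ^ p := by
  obtain ⟨hφD, hφ2⟩ := frob_iff.mp hφ
  have hφi := inv_mem hφD
  have hgc0 : g c ≠ 0 := (map_ne_zero _).mpr L.c0
  set u : Om := φ⁻¹ c / c with hu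
  have hu1 : P.valuation u = 1 := L.val_eta hφi
  have hu0 : u ≠ 0 := by
    intro h
    rw [h, map_zero] at hu1
    exact zero_ne_one hu1
  have hc : φ⁻¹ c = u * c := by rw [hu, div_mul_cancel₀ _ L.c0]
  have hgu1 : P.valuation (g u / u) = 1 := by rw [map_div₀, val_inertia hg, hu1, div_one]
  have hgu : red P (g u / u) = 1 := by
    rw [← red_one (P := P), red_eq_iff hgu1.le (by rw [map_one])]
    have h1 : g u / u - 1 = (g u - u) / u := by field_simp
    rw [h1, map_div₀, hu1, div_one]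
    exact val_sub_lt hg hu1.le
  have hgc : P.valuation (g c / c) = 1 := L.val_eta (mem_dec_of_inertia hg)
  have e1 : (φ * g * φ⁻¹) c / c = φ ((g u / u) * (g c / c)) := by
    have e2 : (φ * g * φ⁻¹) c = φ (g (φ⁻¹ c)) := rfl
    have e3 : φ (u * c) = c := by
      rw [← hc]
      change (φ * φ⁻¹) c = c
      rw [mul_inv_cancel]; rfl
    rw [e2, hc, map_mul g]
    have e4 : (g u / u) * (g c / c) = (g u * g c) / (u * c) := by field_simp
    rw [e4, map_div₀ φ, e3]
  have hprod : P.valuation ((g u / u) * (g c / c)) ≤ 1 := by rw [map_mul, hgu1, hgc, one_mul]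
  have e5 : red P (φ ((g u / u) * (g c / c))) = red P ((g u / u) * (g c / c)) ^ p := by
    rw [← red_pow hprod, red_eq_iff (by rw [val_dec hφD]; exact hprod)
      (by rw [map_pow]; exact pow_le_one₀ zero_le hprod)]
    exact hφ2 _ hprod
  rw [eta, e1, e5, red_mul hgu1.le hgc.le, hgu, one_mul]
  rfl

/-- `eta` as a homomorphism -/
noncomputable def etaHom : In P →* (Kap P)ˣ where
  toFun g := Units.mk0 (eta P c g) (L.eta_ne (mem_dec_of_inertia g.2))
  map_one' := Units.ext L.eta_one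
  map_mul' g h := Units.ext (L.eta_mul g.2 h.2)

theorem exists_level [Finite M] {p : ℕ} (T : Tame p P)
    (heta : ∀ g ∈ P.inertiaSubgroupIn ℚ, eta P c g ^ T.e = 1) :
    ∃ n : ℕ, 0 < n ∧ P.valuation c = T.v ^ n ∧
      ∀ g ∈ P.inertiaSubgroupIn ℚ, eta P c g = red P (T.th g) ^ n := by
  classical
  obtain ⟨z₀, hz₀, hz₀0⟩ := L.ne
  haveI : Fintype M := Fintype.ofFinite M
  -- the orbit
  let O : Finset M := Finset.univ.filter (fun y => ∃ g : In P, act g z₀ = y)
  have hO : ∀ y, y ∈ O ↔ ∃ g : In P, act g z₀ = y := fun y => by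
    simp only [O, Finset.mem_filter, Finset.mem_univ, true_and]
  have hOU : ∀ y ∈ O, y ∈ U ∧ y ≠ 0 := by
    intro y hy
    obtain ⟨g, rfl⟩ := (hO y).mp hy
    refine ⟨L.stable g z₀ hz₀, fun h => hz₀0 ?_⟩
    have := act_inv_apply' act g z₀
    rw [h, map_zero] at this
    exact this.symm
  -- the cardinality of the orbit divides `e`
  let H := L.etaHom.range
  have hcoe : ∀ g : In P, ((L.etaHom g : (Kap P)ˣ) : Kap P) = eta P c g := fun g => rfl
  have hfib : ∀ g h : In P, act g z₀ = act h z₀ ↔ L.etaHom g = L.etaHom h := by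
    intro g h
    constructor
    · intro hgh
      refine Units.ext ?_
      rw [hcoe, hcoe]
      have h1 := L.lam_act g hz₀
      have h2 := L.lam_act h hz₀
      rw [hgh, h2] at h1
      exact (mul_right_cancel₀ (L.lam_ne hz₀ hz₀0) h1).symm
    · intro hgh
      refine L.lam_inj (L.stable g z₀ hz₀) (L.stable h z₀ hz₀) ?_
      rw [L.lam_act g hz₀, L.lam_act h hz₀, ← hcoe, ← hcoe, hgh]
  have hcardO : Nat.card H = O.card := by
    have e1 : Nat.card O = O.card := by
      rw [Nat.card_eq_fintype_card, Fintype.card_coe]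
    rw [← e1]
    symm
    refine Nat.card_congr ?_
    refine Equiv.ofBijective (fun y : O => (⟨L.etaHom ((hO y.1).mp y.2).choose,
      ⟨_, rfl⟩⟩ : H)) ⟨?_, ?_⟩
    · intro y y' hyy
      have h1 : L.etaHom ((hO y.1).mp y.2).choose = L.etaHom ((hO y'.1).mp y'.2).choose :=
        congrArg Subtype.val hyy
      rw [← hfib, ((hO y.1).mp y.2).choose_spec, ((hO y'.1).mp y'.2).choose_spec] at h1
      exact Subtype.ext h1
    · rintro ⟨_, g, rfl⟩
      refine ⟨⟨act g z₀, (hO _).mpr ⟨g, rfl⟩⟩, Subtype.ext ?_⟩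
      have h1 := ((hO (act g z₀)).mp ((hO _).mpr ⟨g, rfl⟩)).choose_spec
      exact (hfib _ _).mp h1
  have hOpos : 0 < O.card := Finset.card_pos.mpr ⟨act 1 z₀, (hO _).mpr ⟨1, rfl⟩⟩
  haveI hfinH : Finite H := Nat.finite_of_card_ne_zero (by rw [hcardO]; exact hOpos.ne')
  have hdvd : O.card ∣ T.e := by
    rw [← hcardO, ← IsCyclic.exponent_eq_card]
    refine Monoid.exponent_dvd_of_forall_pow_eq_one ?_
    rintro ⟨_, g, rfl⟩
    refine Subtype.ext (Units.ext ?_)
    rw [Subgroup.coe_pow, Units.val_pow_eq_pow_val, hcoe]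
    exact heta g g.2
  obtain ⟨m, hm⟩ := hdvd
  -- the norm
  set N : Om := ∏ y ∈ O, (a y - a 0) with hN
  have hN0 : N ≠ 0 := by
    rw [hN, Finset.prod_ne_zero_iff]
    intro y hy h0
    have h1 := L.val y (hOU y hy).1 (hOU y hy).2
    rw [h0, map_zero] at h1
    exact L.vc h1.symm
  have hfix : ∀ g ∈ P.inertiaSubgroupIn ℚ, g N = N := by
    intro g hg
    have h0 : g (a 0) = a 0 := by
      have := hA.equiv a L.mem ⟨g, hg⟩ 0
      rw [map_zero] at this
      exact this.symm
    rw [hN, map_prod]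
    refine Finset.prod_bij (fun y _ => act ⟨g, hg⟩ y) ?_ ?_ ?_ ?_
    · intro y hy
      obtain ⟨h, rfl⟩ := (hO y).mp hy
      exact (hO _).mpr ⟨⟨g, hg⟩ * h, by rw [map_mul]; rfl⟩
    · intro y _ y' _ h
      have := congrArg (act (⟨g, hg⟩ : In P)⁻¹) h
      rwa [act_inv_apply', act_inv_apply'] at this
    · intro y hy
      obtain ⟨h, rfl⟩ := (hO y).mp hy
      refine ⟨act ((⟨g, hg⟩ : In P)⁻¹ * h) z₀, (hO _).mpr ⟨_, rfl⟩, ?_⟩
      have e1 : act (⟨g, hg⟩ : In P) (act ((⟨g, hg⟩ : In P)⁻¹ * h) z₀) =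
          act (⟨g, hg⟩ * ((⟨g, hg⟩ : In P)⁻¹ * h)) z₀ := by
        rw [map_mul act (⟨g, hg⟩ : In P)]; rfl
      rw [e1, mul_inv_cancel_left]
    · intro y _
      rw [map_sub, h0, hA.equiv a L.mem]
  obtain ⟨j, hj⟩ := exists_val_eq_zpow T.hp T.hP hN0 hfix
  have hNval : P.valuation N = P.valuation c ^ O.card := by
    rw [hN, map_prod, Finset.prod_congr rfl fun y hy => L.val y (hOU y hy).1 (hOU y hy).2,
      Finset.prod_const]
  have hcv : P.valuation c = T.v ^ ((m : ℤ) * j) := by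
    refine pow_inj hOpos.ne' ?_
    rw [← hNval, hj, ← T.v_pow_e, ← zpow_natCast, ← zpow_natCast, ← zpow_mul, ← zpow_mul, hm]
    congr 1
    push_cast; ring
  have hpos : 0 < (m : ℤ) * j := by
    have h1 : T.v ^ ((m : ℤ) * j) < T.v ^ (0 : ℤ) := by
      rw [← hcv, zpow_zero]; exact L.c1
    exact T.zlt.mp h1
  obtain ⟨n, hn⟩ : ∃ n : ℕ, (m : ℤ) * j = n := ⟨((m : ℤ) * j).toNat, by omega⟩
  rw [hn, zpow_natCast] at hcv
  rw [hn] at hpos
  refine ⟨n, by exact_mod_cast hpos, hcv, fun g hg => ?_⟩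
  have hpn : T.π ^ n ≠ 0 := pow_ne_zero _ T.pi_ne
  set u : Om := c / T.π ^ n with hu
  have hu1 : P.valuation u = 1 := by
    rw [hu, map_div₀, hcv, map_pow]
    exact div_self (pow_ne_zero _ T.v_ne)
  have hu0 : u ≠ 0 := by
    intro h
    rw [h, map_zero] at hu1
    exact zero_ne_one hu1
  have hgu1 : P.valuation (g u / u) = 1 := by rw [map_div₀, val_inertia hg, hu1, div_one]
  have hgu : red P (g u / u) = 1 := by
    rw [← red_one (P := P), red_eq_iff hgu1.le (by rw [map_one])]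
    have h1 : g u / u - 1 = (g u - u) / u := by field_simp
    rw [h1, map_div₀, hu1, div_one]
    exact val_sub_lt hg hu1.le
  have e1 : g c / c = (g u / u) * T.th g ^ n := by
    have hc : c = u * T.π ^ n := by rw [hu, div_mul_cancel₀ _ hpn]
    rw [hc, map_mul, map_pow, T.apply_pi, mul_pow]
    have := T.pi_ne
    field_simp
  have hth : P.valuation (T.th g ^ n) = 1 := by rw [map_pow, T.val_th, one_pow]
  rw [eta, e1, red_mul hgu1.le hth.le, hgu, one_mul, red_pow (T.val_th g).le]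

omit L in
theorem level_le [Finite M] {p : ℕ} (T : Tame p P) (L : LeadOn hA U a c) {n : ℕ}
    (hn : P.valuation c = T.v ^ n) (hpU : ∀ z ∈ U, p • z = 0) : n ≤ T.e₁ := by
  obtain ⟨z₀, hz₀, hz₀0⟩ := L.ne
  have h1 := hA.zeta_le_dist T hz₀0 (hpU z₀ hz₀)
  rw [T.val_zeta_sub, L.dist_eq z₀ hz₀ hz₀0, hn] at h1
  by_contra hlt
  push Not at hlt
  exact absurd h1 (not_le.mpr (pow_lt_pow_right_of_lt_one₀ T.v_pos T.v_lt hlt))

end LeadOn

end Fermat.Agent.TWFlat
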