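import Fermat.Agent.TWP.FlatLoc.Tame
import Fermat.Agent.TWP.Flat.RamIneq

set_option autoImplicit false

/-!
# The tame field `K` as an instance of the abstract Kummer theory setting
-/

open Pointwise

namespace Fermat.Agent.TWFlat

namespace Tame

variable {p : ℕ} {P : ValuationSubring Om} (T : Tame p P)

/-- the Kummer theory data attached to `K` -/
theorem data : TWP.Flat.Kummer.Data P.valuation T.G p T.e₁ T.π T.ζ where
  hp := T.hp
  hm := T.he₁
  inv g x := val_inertia g.2.1 x
  triv g x hx := val_sub_lt g.2.1 hx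
  fixπ g := g.2.2
  π0 := T.v_ne
  π1 := T.v_lt
  disc x hx hx0 := T.exists_val_K hx0 (fun g hg => hx ⟨g, hg⟩)
  vp := by
    have h := T.v_pow_e
    rw [← h, e, mul_comm]; rfl
  prim := T.hζ
  fixζ g := T.zeta_mem g g.2
  res x hx := by
    obtain ⟨ξ, hξ, -, h⟩ := exists_teich T.hp T.hP hx
    exact ⟨ξ, fun g => hξ g g.2.1, h⟩

/-- the inclusion of `G` into the inertia group -/
def incl : T.G →* ↥(P.inertiaSubgroupIn ℚ) where
  toFun g := ⟨g, g.2.1⟩
  map_one' := rfl
  map_mul' _ _ := rfl

@[simp] theorem coe_incl (g : T.G) : ((T.incl g : P.inertiaSubgroupIn ℚ) : GQ) = g := rfl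

end Tame

end Fermat.Agent.TWFlat
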