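import Fermat.Agent.TWP.FlatLoc.Gauss
import Fermat.Agent.TWP.FlatLoc.Data

set_option autoImplicit false
set_option linter.style.haveILetI false
set_option linter.unusedVariables false
set_option linter.unusedSectionVars false

/-!
# Orders on simple inertia modules of level two
-/

open Pointwise

namespace Fermat.Agent.TWFlat

open FlatOrd.Unramified (inertiaRing)

variable {p : ℕ} {P : ValuationSubring Om}

theorem exists_coords_aux {p : ℕ} [Fact p.Prime] {U : Type} [AddCommGroup U] [Finite U]
    [Module (ZMod p) U] (hcard : Nat.card U = p ^ 2) :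
    ∃ (c : Fin 2 → U →+ ZMod p) (B : Fin 2 → U), ∀ z, z = ∑ i, (c i z).val • B i := by
  haveI : Module.Finite (ZMod p) U := Module.Finite.of_finite
  have hrank : Module.finrank (ZMod p) U = 2 := by
    have h1 := Module.natCard_eq_pow_finrank (K := ZMod p) (V := U)
    rw [hcard, Nat.card_zmod] at h1
    exact (Nat.pow_right_injective (Fact.out (p := p.Prime)).two_le h1).symm
  let B := Module.finBasisOfFinrankEq (ZMod p) U hrank
  refine ⟨fun i => ((Finsupp.lapply i).comp B.repr.toLinearMap : U →ₗ[ZMod p] ZMod p).toAddMonoidHom,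
    B, fun z => ?_⟩
  conv_lhs => rw [← B.sum_repr z]
  refine Finset.sum_congr rfl fun i _ => ?_
  show B.repr z i • B i = (B.repr z i).val • B i
  conv_lhs => rw [← ZMod.natCast_zmod_val (B.repr z i)]
  rw [Nat.cast_smul_eq_nsmul]

theorem exists_coords {p : ℕ} (hp : p.Prime) {U : Type} [AddCommGroup U] [Finite U]
    (hpU : ∀ z : U, p • z = 0) (hcard : Nat.card U = p ^ 2) :
    ∃ (c : Fin 2 → U →+ ZMod p) (B : Fin 2 → U), ∀ z, z = ∑ i, (c i z).val • B i := by
  haveI : Fact p.Prime := ⟨hp⟩
  letI : Module (ZMod p) U := AddCommGroup.zmodModule hpU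
  exact exists_coords_aux hcard

/-- a tame generator, together with the characteristic polynomial of the fundamental character of
level two -/
structure Fund2 (T : Tame p P) (τ : In P) (s₁ s₂ : ℤ) : Prop where
  he : T.e₁ = p + 1
  prim : IsPrimitiveRoot (T.th τ) T.e
  pol : P.valuation (T.th τ ^ 2 - s₁ * T.th τ + s₂) < 1

namespace Fund2

variable {T : Tame p P} {τ : In P} {s₁ s₂ : ℤ} (F : Fund2 T τ s₁ s₂)

include F

theorem charP : CharP (Kap P) p := ResField.charP_residueField (A := P) T.hp T.hP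

theorem e_eq : T.e = p ^ 2 - 1 := by
  have h := T.three_le
  rw [Tame.e, F.he]
  obtain ⟨q, rfl⟩ : ∃ q, p = q + 1 := ⟨p - 1, by omega⟩
  have h2 : (q + 1) ^ 2 = (q + 1 + 1) * q + 1 := by ring
  rw [Nat.add_sub_cancel, h2, Nat.add_sub_cancel]

theorem red_pow_eq_one {m : ℕ} : red P (T.th τ) ^ m = 1 ↔ T.e ∣ m := by
  have hv : P.valuation (T.th τ) ≤ 1 := (T.val_th _).le
  rw [← red_pow hv, ← red_one (P := P), red_eq_iff (by rw [map_pow]; exact pow_le_one₀ zero_le hv)
    (by rw [map_one])]
  constructor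
  · intro h
    have h1 : T.th τ ^ m = 1 := by
      refine root_eq_one T.hp T.hP T.not_dvd_e ?_ h
      rw [← pow_mul, mul_comm, pow_mul, T.th_pow, one_pow]
    exact F.prim.dvd_of_pow_eq_one m h1
  · rintro ⟨k, rfl⟩
    rw [pow_mul, T.th_pow, one_pow, sub_self, map_zero]
    exact zero_lt_one

theorem red_ne : red P (T.th τ) ≠ 0 := (red_ne_zero_iff (T.val_th _).le).mpr (T.val_th _)

theorem red_pol : red P (T.th τ) ^ 2 - s₁ * red P (T.th τ) + s₂ = 0 := by
  have hv : P.valuation (T.th τ) ≤ 1 := (T.val_th _).le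
  have hv2 : P.valuation (T.th τ ^ 2) ≤ 1 := by rw [map_pow]; exact pow_le_one₀ zero_le hv
  have hs : P.valuation ((s₁ : Om) * T.th τ) ≤ 1 := by
    rw [map_mul]; exact mul_le_one₀ (val_intCast_le _) zero_le hv
  have h1 : P.valuation (T.th τ ^ 2 - s₁ * T.th τ) ≤ 1 :=
    (P.valuation.map_sub _ _).trans (max_le hv2 hs)
  have h2 := (red_eq_zero_iff ((P.valuation.map_add _ _).trans
    (max_le h1 (val_intCast_le s₂)))).mpr F.pol
  rwa [red_add h1 (val_intCast_le _), red_sub hv2 hs, red_pow hv, red_mul (val_intCast_le _) hv,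
    red_intCast, red_intCast] at h2

theorem intCast_pow_p (n : ℤ) : ((n : Kap P)) ^ p = n := by
  haveI := F.charP
  haveI : Fact p.Prime := ⟨T.hp⟩
  have h := map_intCast (frobenius (Kap P) p) n
  rwa [frobenius_def] at h

theorem red_pol_p : (red P (T.th τ) ^ p) ^ 2 - s₁ * red P (T.th τ) ^ p + s₂ = 0 := by
  haveI := F.charP
  haveI : Fact p.Prime := ⟨T.hp⟩
  have h1 : (red P (T.th τ) ^ 2 - s₁ * red P (T.th τ) + s₂) ^ p = 0 ^ p := by rw [F.red_pol]
  rw [zero_pow T.hp.ne_zero, add_pow_char, sub_pow_char, mul_pow, F.intCast_pow_p, F.intCast_pow_p,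
    ← pow_mul, mul_comm 2 p, pow_mul] at h1
  exact h1

theorem red_p_ne : red P (T.th τ) ^ p ≠ red P (T.th τ) := by
  intro h
  obtain ⟨q, hq⟩ : ∃ q, q = p - 1 := ⟨_, rfl⟩
  have h0 := F.red_ne
  have h1 : red P (T.th τ) ^ (p - 1) = 1 := by
    apply mul_right_cancel₀ h0
    rw [one_mul, ← pow_succ, Nat.sub_add_cancel T.hp.one_le]
    exact h
  rw [F.red_pow_eq_one] at h1
  have h2 := Nat.le_of_dvd (by have := T.three_le; omega) h1
  rw [Tame.e, F.he] at h2
  have h3 := T.three_le
  have h4 : (p + 1) * (p - 1) ≥ 4 * (p - 1) := Nat.mul_le_mul_right _ (by omega)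
  omega

theorem eq_or_eq {y : Kap P} (hy : y ^ 2 - s₁ * y + s₂ = 0) :
    y = red P (T.th τ) ∨ y = red P (T.th τ) ^ p := by
  have h1 := F.red_pol
  have h2 := F.red_pol_p
  have h3 := F.red_p_ne
  set t := red P (T.th τ)
  have h4 : t ^ p + t - s₁ = 0 := by
    have : (t ^ p - t) * (t ^ p + t - s₁) = 0 := by linear_combination h2 - h1
    exact (mul_eq_zero.mp this).resolve_left (sub_ne_zero.mpr h3)
  have h5 : (y - t) * (y - t ^ p) = 0 := by
    linear_combination hy - h1 + (t - y) * h4
  rcases mul_eq_zero.mp h5 with h | h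
  · exact Or.inl (sub_eq_zero.mp h)
  · exact Or.inr (sub_eq_zero.mp h)

theorem not_int_root (n : ℤ) : ¬ (p : ℤ) ∣ n ^ 2 - s₁ * n + s₂ := by
  intro h
  haveI := F.charP
  have h1 : ((n : Kap P)) ^ 2 - s₁ * n + s₂ = 0 := by
    have := (CharP.intCast_eq_zero_iff (Kap P) p _).mpr h
    push_cast at this
    exact this
  rcases F.eq_or_eq h1 with h2 | h2
  · have h3 := F.intCast_pow_p n
    rw [h2] at h3
    exact F.red_p_ne h3
  · have h3 := F.intCast_pow_p n
    rw [h2] at h3
    -- `t ^ (p ^ 2) = t ^ p` but `t ^ (p ^ 2) = t`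
    have h4 : red P (T.th τ) ^ (p ^ 2) = red P (T.th τ) := by
      have h5 : red P (T.th τ) ^ (p ^ 2 - 1) = 1 := by
        rw [F.red_pow_eq_one, F.e_eq]
      have h6 : p ^ 2 = (p ^ 2 - 1) + 1 := by
        have := T.three_le
        have : 1 ≤ p ^ 2 := Nat.one_le_pow _ _ (by omega)
        omega
      rw [h6, pow_succ, h5, one_mul]
    rw [← pow_mul, ← pow_two, h4] at h3
    exact F.red_p_ne h3.symm

end Fund2

section simple

variable {T : Tame p P} {τ : In P} {s₁ s₂ : ℤ} (F : Fund2 T τ s₁ s₂)
  {U : Type} [AddCommGroup U] [Finite U] {act : In P →* AddMonoid.End U}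

include F

/-- `z` and `τ z` are independent. -/
theorem Fund2.indep (hpU : ∀ z : U, p • z = 0)
    (hact : ∀ z, act τ (act τ z) - s₁ • act τ z + s₂ • z = 0) {z : U} (hz : z ≠ 0) {m n : ℤ}
    (h : m • z + n • act τ z = 0) : (p : ℤ) ∣ m ∧ (p : ℤ) ∣ n := by
  have hp := T.hp
  have hord : ∀ k : ℤ, k • z = 0 → (p : ℤ) ∣ k := by
    intro k hk
    by_contra hn
    have hcop : IsCoprime (p : ℤ) k := by
      rw [Int.isCoprime_iff_gcd_eq_one]
      rcases (Nat.dvd_prime hp).mp (Int.gcd_dvd_natAbs_left (p : ℤ) k) with h | h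
      · exact h
      · exfalso
        apply hn
        have := Int.gcd_dvd_right (p : ℤ) k
        rwa [h] at this
    obtain ⟨a, b, hab⟩ := hcop
    apply hz
    have : z = (a * p + b * k) • z := by rw [hab, one_smul]
    rw [this, add_smul, mul_smul, mul_smul, hk, natCast_zsmul, hpU, smul_zero, smul_zero, add_zero]
  by_cases hn : (p : ℤ) ∣ n
  · refine ⟨?_, hn⟩
    obtain ⟨k, rfl⟩ := hn
    rw [mul_comm, mul_smul, natCast_zsmul, hpU, smul_zero, add_zero] at h
    exact hord m h
  · exfalso
    have hcop : IsCoprime (p : ℤ) n := by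
      rw [Int.isCoprime_iff_gcd_eq_one]
      rcases (Nat.dvd_prime hp).mp (Int.gcd_dvd_natAbs_left (p : ℤ) n) with h | h
      · exact h
      · exfalso
        apply hn
        have := Int.gcd_dvd_right (p : ℤ) n
        rwa [h] at this
    obtain ⟨a, b, hab⟩ := hcop
    have h1 : act τ z = (-b * m) • z := by
      have h2 : act τ z = (a * p + b * n) • act τ z := by rw [hab, one_smul]
      have h3 : n • act τ z = -(m • z) := by
        rw [add_comm] at h
        exact eq_neg_of_add_eq_zero_left h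
      rw [h2, add_smul, mul_smul, mul_smul, h3, natCast_zsmul, hpU, smul_zero, zero_add,
        smul_neg, smul_smul, neg_mul, neg_smul]
    set k := -b * m
    have h2 := hact z
    rw [h1, map_zsmul, h1, smul_smul, smul_smul, ← sub_smul, ← add_smul] at h2
    have h3 := hord _ h2
    refine F.not_int_root k ?_
    convert h3 using 1
    ring

/-- any nonzero element generates -/
theorem Fund2.eq_top (hcard : Nat.card U = p ^ 2) (hpU : ∀ z : U, p • z = 0)
    (hact : ∀ z, act τ (act τ z) - s₁ • act τ z + s₂ • z = 0) {z : U} (hz : z ≠ 0)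
    (B : AddSubgroup U) (h1 : z ∈ B) (h2 : act τ z ∈ B) : B = ⊤ := by
  apply AddSubgroup.eq_top_of_le_card
  rw [hcard]
  haveI : NeZero p := ⟨T.hp.ne_zero⟩
  let f : Fin p × Fin p → B := fun x => ⟨((x.1 : ℕ) : ℤ) • z + ((x.2 : ℕ) : ℤ) • act τ z,
    B.add_mem (B.zsmul_mem h1 _) (B.zsmul_mem h2 _)⟩
  have hf : Function.Injective f := by
    rintro ⟨a, b⟩ ⟨c, d⟩ h
    have h3 : ((a : ℕ) : ℤ) • z + ((b : ℕ) : ℤ) • act τ z =
        ((c : ℕ) : ℤ) • z + ((d : ℕ) : ℤ) • act τ z := congrArg Subtype.val h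
    have h4 : (((a : ℕ) : ℤ) - (c : ℕ)) • z + (((b : ℕ) : ℤ) - (d : ℕ)) • act τ z = 0 := by
      rw [sub_smul, sub_smul, sub_add_sub_comm, h3, sub_self]
    obtain ⟨h5, h6⟩ := F.indep hpU hact hz h4
    have ha := a.2
    have hb := b.2
    have hc := c.2
    have hd := d.2
    have h7 : ∀ x y : ℕ, x < p → y < p → (p : ℤ) ∣ (x : ℤ) - y → x = y := by
      intro x y hx hy h
      obtain ⟨k, hk⟩ := h
      have hp := T.hp.pos
      have : k = 0 := by
        by_contra hk0
        rcases lt_or_gt_of_ne hk0 with h | h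
        · have : (p : ℤ) * k ≤ -p := by nlinarith
          omega
        · have : (p : ℤ) ≤ p * k := by nlinarith
          omega
      rw [this] at hk
      omega
    have e1 := h7 _ _ ha hc h5
    have e2 := h7 _ _ hb hd h6
    rw [Prod.mk.injEq]
    exact ⟨Fin.ext e1, Fin.ext e2⟩
  have := Nat.card_le_card_of_injective f hf
  rw [Nat.card_prod, Nat.card_fin, ← pow_two] at this
  exact this

variable {A : Submodule (inertiaRing P) (U → Om)}

/-- the distance is constant on nonzero elements -/
theorem Fund2.dist_eq (hA : IsOrd act A) (hcard : Nat.card U = p ^ 2) (hpU : ∀ z : U, p • z = 0)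
    (hact : ∀ z, act τ (act τ z) - s₁ • act τ z + s₂ • z = 0) {z z' : U} (hz : z ≠ 0)
    (hz' : z' ≠ 0) : dist A z = dist A z' := by
  have key : ∀ z z' : U, z ≠ 0 → dist A z' ≤ dist A z := by
    intro z z' hz
    have h1 := F.eq_top hcard hpU hact hz (ball hA (dist A z))
      (show dist A z ≤ dist A z from le_refl _) (hA.dist_act τ z).le
    have h2 : z' ∈ ball hA (dist A z) := by rw [h1]; trivial
    exact h2
  exact le_antisymm (key _ _ hz') (key _ _ hz)

theorem Fund2.act_ne (hpU : ∀ z : U, p • z = 0)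
    (hact : ∀ z, act τ (act τ z) - s₁ • act τ z + s₂ • z = 0) {z : U} (hz : z ≠ 0) :
    act τ z ≠ z := by
  intro h
  have h1 : (1 : ℤ) • z + (-1 : ℤ) • act τ z = 0 := by rw [h]; simp
  have h2 := (F.indep hpU hact hz h1).1
  have h3 := Int.le_of_dvd one_pos h2
  have := T.three_le
  omega

theorem Fund2.dist_lt_one (hA : IsOrd act A) (hcard : Nat.card U = p ^ 2)
    (hpU : ∀ z : U, p • z = 0)
    (hact : ∀ z, act τ (act τ z) - s₁ • act τ z + s₂ • z = 0) (z : U) : dist A z < 1 := by
  by_cases hz : z = 0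
  · rw [hz, hA.dist_zero]; exact zero_lt_one
  · rw [F.dist_eq hA hcard hpU hact hz (sub_ne_zero.mpr (F.act_ne hpU hact hz))]
    exact hA.dist_act_sub_lt τ z

/-- **Main theorem on orders of level two.** -/
theorem Fund2.exists_coord (hA : IsOrd act A) (hcard : Nat.card U = p ^ 2)
    (hpU : ∀ z : U, p • z = 0) (htriv : ∀ (g : T.G) (z : U), act (T.incl g) z = z)
    (hact : ∀ z, act τ (act τ z) - s₁ • act τ z + s₂ • z = 0) :
    ∃ h ∈ A, ∀ z : U, z ≠ 0 → P.valuation (h z - h 0) = T.v := by
  classical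
  haveI := F.charP
  haveI : Fact p.Prime := ⟨T.hp⟩
  have hp3 := T.three_le
  have hex : ∃ p : ℕ, p.Prime ∧ P.LiesOverPrime p := ⟨p, T.hp, T.hP⟩
  haveI : Nontrivial U := by
    rw [← Finite.one_lt_card_iff_nontrivial, hcard]
    exact Nat.one_lt_pow two_ne_zero (by omega)
  obtain ⟨z₀, hz₀⟩ := exists_ne (0 : U)
  obtain ⟨h, hh, hδ⟩ := (hA.dist_spec z₀).2
  set δ := dist A z₀ with hδdef
  have hdist : ∀ z : U, z ≠ 0 → dist A z = δ := fun z hz => F.dist_eq hA hcard hpU hact hz hz₀
  have hδ1 : δ < 1 := F.dist_lt_one hA hcard hpU hact z₀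
  have hc0 : h z₀ - h 0 ≠ 0 := by
    intro h0
    rw [h0, map_zero] at hδ
    exact absurd hδ.symm (hA.dist_pos hz₀).ne'
  -- the leading valuation
  have hcK : h z₀ - h 0 ∈ T.K := by
    intro g hg
    have h1 := hA.equiv h hh (T.incl ⟨g, hg⟩) z₀
    have h2 := hA.equiv h hh (T.incl ⟨g, hg⟩) 0
    rw [htriv] at h1
    rw [map_zero] at h2
    rw [map_sub]
    exact congrArg₂ (· - ·) h1.symm h2.symm
  obtain ⟨nz, hnz⟩ := T.exists_val_K hc0 hcK
  have hnpos : 0 < nz := by
    have h1 : T.v ^ nz < T.v ^ (0 : ℤ) := by rw [← hnz, hδ, zpow_zero]; exact hδ1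
    exact T.zlt.mp h1
  obtain ⟨n, rfl⟩ : ∃ n : ℕ, nz = n := ⟨nz.toNat, by omega⟩
  have hn0 : 0 < n := by exact_mod_cast hnpos
  have hδn : δ = T.v ^ n := by rw [← hδ, hnz, zpow_natCast]
  have hc : P.valuation (T.π ^ n) = δ := by rw [hδn, map_pow]; rfl
  have hpin : T.π ^ n ≠ 0 := pow_ne_zero _ T.pi_ne
  have hdle : ∀ z : U, dist A z ≤ P.valuation (T.π ^ n) := by
    intro z
    rw [hc]
    by_cases hz : z = 0
    · rw [hz, hA.dist_zero]; exact zero_le
    · exact (hdist z hz).le
  -- leading coefficient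
  let X : U → Om := fun z => (h z - h 0) / T.π ^ n
  have hX : ∀ z, P.valuation (X z) ≤ 1 := by
    intro z
    show P.valuation ((h z - h 0) / T.π ^ n) ≤ 1
    rw [map_div₀]
    exact div_le_one_of_le₀ ((hA.le_dist hh z).trans (hdle z)) zero_le
  let lam : U → Kap P := fun z => red P (X z)
  have hlam_add : ∀ z z', lam (z + z') = lam z + lam z' := by
    intro z z'
    have := hA.lead_add hh hpin (by rw [hc]; exact hδ1) 0 (hdle z) (hdle z')
    simpa only [zero_add] using this
  have hlam_act : ∀ z, lam (act τ z) = red P (T.th τ) ^ n * lam z := by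
    intro z
    have h1 := hA.lead_act hh hpin τ (hdle z)
    have h2 : ((τ : GQ) (T.π ^ n)) / T.π ^ n = T.th τ ^ n := by
      rw [map_pow, Tame.th, div_pow]
    rw [h2, red_pow (T.val_th _).le] at h1
    exact h1
  have hlam0 : lam 0 = 0 := by
    have := hlam_add 0 0
    rw [add_zero] at this
    exact left_eq_add.mp this
  let Lam : U →+ Kap P := { toFun := lam, map_zero' := hlam0, map_add' := hlam_add }
  have hlamz₀ : lam z₀ ≠ 0 := by
    show red P (X z₀) ≠ 0
    rw [red_ne_zero_iff (hX z₀)]
    show P.valuation ((h z₀ - h 0) / T.π ^ n) = 1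
    rw [map_div₀, hδ, hc, div_self]
    rw [hδn]; exact pow_ne_zero _ T.v_ne
  have hker : ∀ z, lam z = 0 → z = 0 := by
    intro z hz
    by_contra hz0
    have h1 := F.eq_top hcard hpU hact hz0 Lam.ker hz (by
      show lam (act τ z) = 0
      rw [hlam_act, hz, mul_zero])
    have h2 : z₀ ∈ Lam.ker := by rw [h1]; trivial
    exact hlamz₀ h2
  have hinj : Function.Injective lam := by
    intro z z' hzz
    have h1 : Lam (z - z') = 0 := by rw [map_sub]; exact sub_eq_zero.mpr hzz
    exact sub_eq_zero.mp (hker _ h1)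
  -- `t ^ n` is a root of the polynomial
  set t := red P (T.th τ) with ht
  have htn : (t ^ n) ^ 2 - s₁ * t ^ n + s₂ = 0 := by
    have h1 : Lam (act τ (act τ z₀) - s₁ • act τ z₀ + s₂ • z₀) = 0 := by rw [hact, map_zero]
    rw [map_add, map_sub, map_zsmul, map_zsmul] at h1
    have e1 : Lam (act τ (act τ z₀)) = t ^ n * (t ^ n * lam z₀) := by
      show lam _ = _
      rw [hlam_act, hlam_act]
    have e2 : Lam (act τ z₀) = t ^ n * lam z₀ := hlam_act z₀
    have e3 : Lam z₀ = lam z₀ := rfl
    rw [e1, e2, e3, zsmul_eq_mul, zsmul_eq_mul] at h1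
    have h2 : ((t ^ n) ^ 2 - s₁ * t ^ n + s₂) * lam z₀ = 0 := by linear_combination h1
    exact (mul_eq_zero.mp h2).resolve_right hlamz₀
  -- the upper bound
  have hnle : n ≤ p + 1 := by
    have h1 := hA.zeta_le_dist T hz₀ (hpU z₀)
    rw [T.val_zeta_sub, ← hδdef, hδn, F.he] at h1
    by_contra hlt
    push Not at hlt
    exact absurd h1 (not_le.mpr (pow_lt_pow_right_of_lt_one₀ T.v_pos T.v_lt hlt))
  have hebig : p + 1 < T.e := by
    rw [Tame.e, F.he]
    calc p + 1 < (p + 1) * 2 := by omega
      _ ≤ (p + 1) * (p - 1) := Nat.mul_le_mul_left _ (by omega)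
  have ht0 : t ≠ 0 := F.red_ne
  have hn : n = 1 ∨ n = p := by
    rcases F.eq_or_eq htn with h1 | h1
    · left
      have h2 : t ^ (n - 1) = 1 := by
        apply mul_right_cancel₀ ht0
        rw [one_mul, ← pow_succ, Nat.sub_add_cancel hn0]
        exact h1
      rw [F.red_pow_eq_one] at h2
      rcases Nat.eq_zero_or_pos (n - 1) with h3 | h3
      · omega
      · have := Nat.le_of_dvd h3 h2
        omega
    · right
      rcases le_total n p with h3 | h3
      · have h2 : t ^ (p - n) = 1 := by
          apply mul_right_cancel₀ (pow_ne_zero n ht0)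
          rw [one_mul, ← pow_add, Nat.sub_add_cancel h3]
          exact h1.symm
        rw [F.red_pow_eq_one] at h2
        rcases Nat.eq_zero_or_pos (p - n) with h4 | h4
        · omega
        · have := Nat.le_of_dvd h4 h2
          omega
      · have h2 : t ^ (n - p) = 1 := by
          apply mul_right_cancel₀ (pow_ne_zero p ht0)
          rw [one_mul, ← pow_add, Nat.sub_add_cancel h3]
          exact h1
        rw [F.red_pow_eq_one] at h2
        rcases Nat.eq_zero_or_pos (n - p) with h4 | h4
        · omega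
        · have := Nat.le_of_dvd h4 h2
          omega
  rcases hn with rfl | hnp
  · -- the good case
    refine ⟨h, hh, fun z hz => ?_⟩
    have h1 : lam z ≠ 0 := fun h => hz (hker z h)
    rw [show lam z = red P (X z) from rfl, red_ne_zero_iff (hX z)] at h1
    have h2 : P.valuation ((h z - h 0) / T.π ^ 1) = 1 := h1
    rw [pow_one, map_div₀, div_eq_one_iff_eq ((map_ne_zero _).mpr T.pi_ne)] at h2
    exact h2
  · -- the bad case
    exfalso
    obtain ⟨G, hG1, hG2, hG3⟩ := exists_interp X hX hinj
    have hpc : p < Nat.card U := by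
      rw [hcard, pow_two]
      calc p = p * 1 := (mul_one p).symm
        _ < p * p := Nat.mul_lt_mul_of_pos_left (by omega) (by omega)
    let jp : Fin (Nat.card U) := ⟨p, hpc⟩
    -- coefficients of functions in the order
    have hcoef : ∀ a ∈ A, P.valuation (G (fun z => a z - a 0) jp) ≤ T.v ^ (p ^ 2) := by
      intro a ha
      set f : U → Om := fun z => a z - a 0 with hf
      have hbound : ∀ j, P.valuation (G f j) ≤ T.v ^ p := by
        refine hG3 f _ fun z => ?_
        have h1 := (hA.le_dist ha z).trans (hdle z)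
        rwa [hc, hδn, hnp] at h1
      by_cases hz : G f jp = 0
      · rw [hz, map_zero]; exact zero_le
      -- the coefficient, rescaled, is fixed by inertia
      have hfix : ∀ g ∈ P.inertiaSubgroupIn ℚ, g (G f jp / T.π ^ (p ^ 2)) =
          G f jp / T.π ^ (p ^ 2) := by
        intro g hg
        let gI : In P := ⟨g, hg⟩
        have hXg : ∀ z, X (act gI z) = g (X z) * T.th g ^ p := by
          intro z
          have h0 : h 0 = g (h 0) := by
            have := hA.equiv h hh gI 0
            rwa [map_zero] at this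
          show (h (act gI z) - h 0) / T.π ^ n = g ((h z - h 0) / T.π ^ n) * T.th g ^ p
          rw [hA.equiv h hh, map_div₀, map_sub, ← h0, map_pow, Tame.th, div_pow, hnp]
          have : (g T.π) ^ p ≠ 0 := pow_ne_zero _ ((map_ne_zero _).mpr T.pi_ne)
          have := pow_ne_zero p T.pi_ne
          show (g (h z) - h 0) / T.π ^ p = _
          field_simp
        have hfg : ∀ z, f (act gI z) = g (f z) := by
          intro z
          have h0 : a 0 = g (a 0) := by
            have := hA.equiv a ha gI 0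
            rwa [map_zero] at this
          show a (act gI z) - a 0 = g (a z - a 0)
          rw [hA.equiv a ha, map_sub, ← h0]
        have hthg : T.th g ≠ 0 := T.th_ne g
        have h2 := hG2 f (fun j => g (G f j) / (T.th g ^ p) ^ (j : ℕ)) (fun z => by
          obtain ⟨y, rfl⟩ : ∃ y, z = act gI y := ⟨act gI⁻¹ z, (act_inv_apply _ _ _).symm⟩
          rw [hfg, hG1 f y, map_sum]
          refine Finset.sum_congr rfl fun j _ => ?_
          rw [hXg, map_mul, map_pow, mul_pow]
          have : (T.th g ^ p) ^ (j : ℕ) ≠ 0 := pow_ne_zero _ (pow_ne_zero _ hthg)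
          field_simp)
        have h3 : g (G f jp) / (T.th g ^ p) ^ p = G f jp := congrFun h2 jp
        have h4 : g (G f jp) = G f jp * (T.th g ^ p) ^ p := by
          rw [div_eq_iff (pow_ne_zero _ (pow_ne_zero _ hthg))] at h3
          exact h3
        rw [map_div₀, h4, map_pow, T.apply_pi, mul_pow, ← pow_mul, ← pow_two]
        have := pow_ne_zero (p ^ 2) T.pi_ne
        have := pow_ne_zero (p ^ 2) hthg
        field_simp
      obtain ⟨m, hm⟩ := exists_val_eq_zpow T.hp T.hP
        (div_ne_zero hz (pow_ne_zero (p ^ 2) T.pi_ne)) hfix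
      have hm' : P.valuation (G f jp) = T.v ^ ((T.e : ℤ) * m + (p ^ 2 : ℕ)) := by
        rw [map_div₀, div_eq_iff ((map_ne_zero _).mpr (pow_ne_zero _ T.pi_ne)), ← T.v_pow_e,
          map_pow] at hm
        rw [hm, zpow_add₀ T.v_ne, zpow_mul, zpow_natCast, zpow_natCast]
        rfl
      have h5 := hbound jp
      rw [hm', ← zpow_natCast, T.zle] at h5
      have h6 : 0 ≤ m := by
        by_contra hneg
        push Not at hneg
        have h7 : (T.e : ℤ) * m ≤ -(T.e : ℤ) := by nlinarith [T.e_pos]
        have h8 : (T.e : ℤ) = (p : ℤ) ^ 2 - 1 := by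
          rw [F.e_eq, Nat.cast_sub (Nat.one_le_pow _ _ (by omega))]
          push_cast; ring
        push_cast at h5
        omega
      rw [hm', ← zpow_natCast, T.zle]
      have : 0 ≤ (T.e : ℤ) * m := mul_nonneg (by positivity) h6
      omega
    -- the coefficient functional on the integral closure
    -- basis of `U`
    obtain ⟨cB, B, hcB⟩ := exists_coords T.hp hpU hcard
    -- the characters
    let u : Fin 2 → U → Om := fun i z => T.ζ ^ (cB i z).val
    have hu0 : ∀ i, u i 0 = 1 := by
      intro i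
      show T.ζ ^ (cB i 0).val = 1
      rw [map_zero, ZMod.val_zero, pow_zero]
    have hu : ∀ i x y, u i (x + y) = u i x * u i y := by
      intro i x y
      show T.ζ ^ (cB i (x + y)).val = T.ζ ^ (cB i x).val * T.ζ ^ (cB i y).val
      rw [map_add, ZMod.val_add, ← pow_add]
      conv_rhs => rw [← Nat.mod_add_div ((cB i x).val + (cB i y).val) p]
      rw [pow_add, pow_mul, T.hζ.pow_eq_one, one_pow, mul_one]
    -- coefficient of a character
    have hucoef : ∀ i, P.valuation (G (fun z => u i z - 1) jp) ≤ T.v ^ (p ^ 2) := by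
      intro i
      obtain ⟨N, ε, b, hε, hb, hub⟩ := hA.char_mem hex (u i) (hu0 i) (hu i)
      have h1 : (fun z => u i z - 1) = ∑ k, ε k • (fun z => b k z - b k 0) := by
        funext z
        rw [Finset.sum_apply]
        conv_lhs => rw [← hu0 i]
        rw [hub, hub, ← Finset.sum_sub_distrib]
        exact Finset.sum_congr rfl fun k _ => by
          show _ = ε k * (b k z - b k 0)
          ring
      rw [h1, map_sum, Finset.sum_apply]
      refine Valuation.map_sum_le _ fun k _ => ?_
      rw [map_smul, Pi.smul_apply, smul_eq_mul, map_mul]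
      exact mul_le_of_le_one_of_le (hε k) (hcoef _ (hb k))
    -- the combination
    choose μ hμ1 hμ2 using fun i : Fin 2 => red_surj (P := P) (lam (B i) ^ p)
    let Φ : U → Om := fun z => ∑ i, μ i * ((u i z - 1) / (T.ζ - 1))
    have hzs := T.zeta_sub_ne
    have hquot : ∀ i z, P.valuation ((u i z - 1) / (T.ζ - 1)) ≤ 1 := by
      intro i z
      rw [map_div₀]
      exact div_le_one_of_le₀ (T.val_zeta_pow_sub_le _) zero_le
    have hredquot : ∀ i z, red P ((u i z - 1) / (T.ζ - 1)) = ((cB i z).val : Kap P) := by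
      intro i z
      rw [← red_natCast, red_eq_iff (hquot i z) (val_natCast_le _)]
      exact T.val_pow_sub_div _
    have hΦterm : ∀ z, ∀ i ∈ (Finset.univ : Finset (Fin 2)),
        P.valuation (μ i * ((u i z - 1) / (T.ζ - 1))) ≤ 1 := by
      intro z i _
      rw [map_mul]
      exact mul_le_one₀ (hμ1 i) zero_le (hquot i z)
    have hΦ : ∀ z, red P (Φ z) = lam z ^ p := by
      intro z
      show red P (∑ i, μ i * ((u i z - 1) / (T.ζ - 1))) = _
      rw [red_sum _ _ (hΦterm z)]
      have h1 : lam z = ∑ i, ((cB i z).val : Kap P) * lam (B i) := by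
        have h2 : z = ∑ i, (cB i z).val • B i := hcB z
        have h3 : lam z = Lam (∑ i, (cB i z).val • B i) := by rw [← h2]; rfl
        rw [h3, map_sum]
        refine Finset.sum_congr rfl fun i _ => ?_
        rw [map_nsmul, nsmul_eq_mul]
        rfl
      rw [h1, Fin.sum_univ_two, Fin.sum_univ_two, add_pow_char, mul_pow, mul_pow,
        red_mul (hμ1 0) (hquot 0 z), red_mul (hμ1 1) (hquot 1 z), hredquot, hredquot, hμ2, hμ2]
      have h4 : ∀ k : ℕ, ((k : Kap P)) ^ p = k := fun k => by
        have := F.intCast_pow_p (k : ℤ)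
        simpa using this
      rw [h4, h4]
      ring
    -- the coefficient of `Φ` is small
    have hsmall : P.valuation (G Φ jp) < 1 := by
      have h1 : Φ = ∑ i, (μ i / (T.ζ - 1)) • (fun z => u i z - 1) := by
        funext z
        rw [Finset.sum_apply]
        exact Finset.sum_congr rfl fun i _ => by
          show _ = μ i / (T.ζ - 1) * (u i z - 1)
          ring
      rw [h1, map_sum, Finset.sum_apply]
      refine Valuation.map_sum_lt _ one_ne_zero fun i _ => ?_
      rw [map_smul, Pi.smul_apply, smul_eq_mul, map_mul, map_div₀, T.val_zeta_sub, F.he]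
      have h2 := hucoef i
      calc P.valuation (μ i) / T.v ^ (p + 1) * P.valuation (G (fun z => u i z - 1) jp)
          ≤ 1 / T.v ^ (p + 1) * T.v ^ (p ^ 2) := by
            refine mul_le_mul' ?_ h2
            exact div_le_div_of_nonneg_right (hμ1 i) zero_le
        _ < 1 := by
            rw [one_div, inv_mul_lt_iff₀ (pow_pos T.v_pos _), mul_one]
            refine pow_lt_pow_right_of_lt_one₀ T.v_pos T.v_lt ?_
            nlinarith
    -- but `Φ` is congruent to `X ^ p`
    have hbig : P.valuation (G Φ jp - 1) < 1 := by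
      have hone : ∃ γ : P.ValueGroup, γ < 1 ∧ ∀ z, P.valuation (Φ z - X z ^ p) ≤ γ := by
        have hlt : ∀ z, P.valuation (Φ z - X z ^ p) < 1 := by
          intro z
          rw [← red_eq_iff (Valuation.map_sum_le _ (hΦterm z))
            (by rw [map_pow]; exact pow_le_one₀ zero_le (hX z)), hΦ, red_pow (hX z)]
        haveI : Fintype U := Fintype.ofFinite U
        obtain ⟨z1, -, hz1⟩ := Finset.exists_max_image (Finset.univ : Finset U)
          (fun z => P.valuation (Φ z - X z ^ p)) ⟨z₀, Finset.mem_univ _⟩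
        exact ⟨_, hlt z1, fun z => hz1 z (Finset.mem_univ z)⟩
      obtain ⟨γ, hγ, hle⟩ := hone
      have hXp : G (fun z => X z ^ p) = Pi.single jp 1 := by
        symm
        apply hG2
        intro z
        rw [Finset.sum_eq_single jp]
        · rw [Pi.single_eq_same, one_mul]
        · intro j _ hj
          rw [Pi.single_eq_of_ne hj, zero_mul]
        · intro h; exact absurd (Finset.mem_univ _) h
      have h1 := hG3 (Φ - fun z => X z ^ p) γ hle jp
      rw [map_sub, hXp, Pi.sub_apply, Pi.single_eq_same] at h1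
      exact h1.trans_lt hγ
    have h1 : (1 : Om) = G Φ jp - (G Φ jp - 1) := by ring
    have h2 : P.valuation (1 : Om) < 1 := by
      rw [h1]
      exact (P.valuation.map_sub _ _).trans_lt (max_lt hsmall hbig)
    rw [map_one] at h2
    exact lt_irrefl _ h2

end simple

end Fermat.Agent.TWFlat
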