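import Mathlib
import Fermat.Agent.TWP.FlatLoc.Lead
import Fermat.Agent.TWP.FlatLoc.Level2

set_option autoImplicit false
set_option linter.style.haveILetI false
set_option linter.unusedVariables false
set_option linter.unusedSectionVars false

/-!
# Structure of the residual representation at `p`
-/

open Pointwise Matrix

namespace Fermat.Agent.TWFlat

open FlatOrd.Unramified (inertiaRing)

variable {P : ValuationSubring Om} {k : Type} [Field k]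

section line

variable {V : Type} [AddCommGroup V] [Module k V] {act : In P →* AddMonoid.End V}
  {A : Submodule (inertiaRing P) (V → Om)} {hA : IsOrd act A} {U : AddSubgroup V} {a : V → Om}
  {c : Om}

/-- The character of inertia on a line, compared with the character `eta`. -/
theorem LeadOn.exists_hom (L : LeadOn hA U a c) {χ : In P → k}
    (hχ : ∀ g, ∀ z ∈ U, act g z = χ g • z) :
    ∃ (R : Subring k) (j : R →+* Kap P), Function.Injective j ∧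
      ∀ g : In P, ∃ h : χ g ∈ R, j ⟨χ g, h⟩ = LeadOn.eta P c g := by
  classical
  obtain ⟨z₀, hz₀, hz₀0⟩ := L.ne
  have hl0 := L.lam_ne hz₀ hz₀0
  let Q : k → Kap P → Prop := fun x y => ∀ z ∈ U, x • z ∈ U ∧
    LeadOn.lam P a c (x • z) = y * LeadOn.lam P a c z
  have huniq : ∀ x y y', Q x y → Q x y' → y = y' := by
    intro x y y' h h'
    have h1 := (h z₀ hz₀).2
    rw [(h' z₀ hz₀).2] at h1
    exact (mul_right_cancel₀ hl0 h1).symm
  have hone : Q 1 1 := fun z hz => by rw [one_smul, one_mul]; exact ⟨hz, rfl⟩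
  have hzero : Q 0 0 := fun z hz => by
    rw [zero_smul, zero_mul]; exact ⟨U.zero_mem, L.lam_zero⟩
  have hadd : ∀ x x' y y', Q x y → Q x' y' → Q (x + x') (y + y') := by
    intro x x' y y' h h' z hz
    rw [add_smul]
    refine ⟨U.add_mem (h z hz).1 (h' z hz).1, ?_⟩
    rw [L.lam_add (h z hz).1 (h' z hz).1, (h z hz).2, (h' z hz).2]; ring
  have hneg : ∀ x y, Q x y → Q (-x) (-y) := by
    intro x y h z hz
    rw [neg_smul]
    refine ⟨U.neg_mem (h z hz).1, ?_⟩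
    rw [L.lam_neg (h z hz).1, (h z hz).2]; ring
  have hmul : ∀ x x' y y', Q x y → Q x' y' → Q (x * x') (y * y') := by
    intro x x' y y' h h' z hz
    rw [mul_smul]
    refine ⟨(h _ (h' z hz).1).1, ?_⟩
    rw [(h _ (h' z hz).1).2, (h' z hz).2]; ring
  let R : Subring k :=
    { carrier := {x | ∃ y, Q x y}
      mul_mem' := fun {x x'} ⟨y, h⟩ ⟨y', h'⟩ => ⟨_, hmul x x' y y' h h'⟩
      one_mem' := ⟨1, hone⟩
      add_mem' := fun {x x'} ⟨y, h⟩ ⟨y', h'⟩ => ⟨_, hadd x x' y y' h h'⟩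
      zero_mem' := ⟨0, hzero⟩
      neg_mem' := fun {x} ⟨y, h⟩ => ⟨_, hneg x y h⟩ }
  have hspec : ∀ x : R, Q x x.2.choose := fun x => x.2.choose_spec
  let j : R →+* Kap P :=
    { toFun := fun x => x.2.choose
      map_one' := huniq _ _ _ (hspec 1) hone
      map_mul' := fun x x' => huniq _ _ _ (hspec (x * x')) (hmul _ _ _ _ (hspec x) (hspec x'))
      map_zero' := huniq _ _ _ (hspec 0) hzero
      map_add' := fun x x' => huniq _ _ _ (hspec (x + x')) (hadd _ _ _ _ (hspec x) (hspec x')) }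
  refine ⟨R, j, ?_, fun g => ?_⟩
  · rw [injective_iff_map_eq_zero]
    intro x hx
    have h1 := hspec x z₀ hz₀
    have h2 : x.2.choose = 0 := hx
    rw [h2, zero_mul] at h1
    by_contra hne
    have h3 : (x : k) • z₀ ≠ 0 := smul_ne_zero (fun h => hne (Subtype.ext h)) hz₀0
    exact L.lam_ne h1.1 h3 h1.2
  · have h1 : Q (χ g) (LeadOn.eta P c g) := fun z hz => by
      rw [← hχ g z hz]
      exact ⟨L.stable g z hz, L.lam_act g hz⟩
    exact ⟨⟨_, h1⟩, huniq _ _ _ (hspec ⟨χ g, ⟨_, h1⟩⟩) h1⟩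

end line

section mat

/-- the action on column vectors -/
noncomputable def matAct (P : ValuationSubring Om) (M : GQ →* Matrix (Fin 2) (Fin 2) k) :
    In P →* AddMonoid.End (Fin 2 → k) where
  toFun g := (Matrix.mulVecLin (M g)).toAddMonoidHom
  map_one' := AddMonoidHom.ext fun v => by
    change M ((1 : In P) : GQ) *ᵥ v = v
    rw [OneMemClass.coe_one, map_one, Matrix.one_mulVec]
  map_mul' g h := AddMonoidHom.ext fun v => by
    change M ((g : GQ) * (h : GQ)) *ᵥ v = M g *ᵥ (M h *ᵥ v)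
    rw [map_mul, Matrix.mulVec_mulVec]

theorem matAct_apply (M : GQ →* Matrix (Fin 2) (Fin 2) k) (g : In P) (v : Fin 2 → k) :
    matAct P M g v = M g *ᵥ v := rfl

/-- the standing hypotheses -/
structure StrHyp (p : ℕ) (P : ValuationSubring Om) (M : GQ →* Matrix (Fin 2) (Fin 2) k) :
    Prop where
  hp : p.Prime
  hp2 : p ≠ 2
  hP : P.LiesOverPrime p
  ord : HasOrd (matAct P M)
  split : ∀ g, ∃ r : k, (M g - r • (1 : Matrix (Fin 2) (Fin 2) k)).det = 0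
  det : ∀ g : GQ, ∀ ζ : Om, IsPrimitiveRoot ζ p → ∀ a : ℕ, g ζ = ζ ^ a → (M g).det = a
  dens : ∀ g ∈ P.decompositionSubgroup ℚ, ∀ φ : GQ, P.IsFrobeniusAt φ p →
    ∃ n : ℕ, ∃ σ ∈ P.inertiaSubgroupIn ℚ, M g = M (φ ^ n * σ)

variable {p : ℕ} {M : GQ →* Matrix (Fin 2) (Fin 2) k}

theorem mulVec_inv (M : GQ →* Matrix (Fin 2) (Fin 2) k) (g : GQ) (v : Fin 2 → k) :
    M g *ᵥ (M g⁻¹ *ᵥ v) = v := by
  rw [Matrix.mulVec_mulVec, ← map_mul, mul_inv_cancel, map_one, Matrix.one_mulVec]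

theorem mulVec_inv' (M : GQ →* Matrix (Fin 2) (Fin 2) k) (g : GQ) (v : Fin 2 → k) :
    M g⁻¹ *ᵥ (M g *ᵥ v) = v := by
  rw [Matrix.mulVec_mulVec, ← map_mul, inv_mul_cancel, map_one, Matrix.one_mulVec]

theorem mulVec_ne (M : GQ →* Matrix (Fin 2) (Fin 2) k) (g : GQ) {v : Fin 2 → k} (hv : v ≠ 0) :
    M g *ᵥ v ≠ 0 := by
  intro h
  apply hv
  rw [← mulVec_inv' M g v, h, Matrix.mulVec_zero]

theorem det_ne_of_indep {v w : Fin 2 → k} (hv : v ≠ 0) (hw : ∀ r : k, w ≠ r • v) :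
    v 0 * w 1 - w 0 * v 1 ≠ 0 := by
  intro h
  by_cases h0 : v 0 = 0
  · have h1 : v 1 ≠ 0 := by
      intro h1
      apply hv
      funext i
      fin_cases i
      · exact h0
      · exact h1
    have h2 : w 0 = 0 := by
      rw [h0, zero_mul, zero_sub, neg_eq_zero] at h
      exact (mul_eq_zero.mp h).resolve_right h1
    apply hw (w 1 / v 1)
    funext i
    fin_cases i
    · change w 0 = w 1 / v 1 * v 0
      rw [h2, h0, mul_zero]
    · change w 1 = w 1 / v 1 * v 1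
      rw [div_mul_cancel₀ _ h1]
  · apply hw (w 0 / v 0)
    funext i
    fin_cases i
    · change w 0 = w 0 / v 0 * v 0
      rw [div_mul_cancel₀ _ h0]
    · change w 1 = w 0 / v 0 * v 1
      field_simp
      linear_combination h

theorem exists_comb {v w : Fin 2 → k} (hv : v ≠ 0) (hw : ∀ r : k, w ≠ r • v) (x : Fin 2 → k) :
    ∃ a b : k, x = a • v + b • w := by
  have hd := det_ne_of_indep hv hw
  refine ⟨(x 0 * w 1 - x 1 * w 0) / (v 0 * w 1 - w 0 * v 1),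
    (v 0 * x 1 - v 1 * x 0) / (v 0 * w 1 - w 0 * v 1), ?_⟩
  funext i
  fin_cases i
  · change x 0 = _ * v 0 + _ * w 0
    rw [div_mul_eq_mul_div, div_mul_eq_mul_div, ← add_div, eq_div_iff hd]
    ring
  · change x 1 = _ * v 1 + _ * w 1
    rw [div_mul_eq_mul_div, div_mul_eq_mul_div, ← add_div, eq_div_iff hd]
    ring

theorem comb_unique {v w : Fin 2 → k} (hv : v ≠ 0) (hw : ∀ r : k, w ≠ r • v) {a b a' b' : k}
    (h : a • v + b • w = a' • v + b' • w) : a = a' ∧ b = b' := by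
  have hd := det_ne_of_indep hv hw
  have h0 : a * v 0 + b * w 0 = a' * v 0 + b' * w 0 := congrFun h 0
  have h1 : a * v 1 + b * w 1 = a' * v 1 + b' * w 1 := congrFun h 1
  constructor
  · have : (a - a') * (v 0 * w 1 - w 0 * v 1) = 0 := by linear_combination w 1 * h0 - w 0 * h1
    exact sub_eq_zero.mp ((mul_eq_zero.mp this).resolve_right hd)
  · have : (b - b') * (v 0 * w 1 - w 0 * v 1) = 0 := by linear_combination v 0 * h1 - v 1 * h0
    exact sub_eq_zero.mp ((mul_eq_zero.mp this).resolve_right hd)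

namespace StrHyp

variable [Finite k] (H : StrHyp p P M)

include H

theorem exists_eigen (g : GQ) : ∃ r : k, ∃ v : Fin 2 → k, v ≠ 0 ∧ M g *ᵥ v = r • v := by
  obtain ⟨r, hr⟩ := H.split g
  obtain ⟨v, hv, h⟩ := Matrix.exists_mulVec_eq_zero_iff.mpr hr
  refine ⟨r, v, hv, ?_⟩
  rwa [Matrix.sub_mulVec, Matrix.smul_mulVec, Matrix.one_mulVec, sub_eq_zero] at h

/-- A line stable under inertia and Frobenius is stable under the decomposition group. -/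
theorem line_of (φ : GQ) (hφ : P.IsFrobeniusAt φ p) {v : Fin 2 → k}
    (hI : ∀ g ∈ P.inertiaSubgroupIn ℚ, ∃ r : k, M g *ᵥ v = r • v)
    (hφv : ∃ r : k, M φ *ᵥ v = r • v) :
    ∀ g ∈ P.decompositionSubgroup ℚ, ∃ r : k, M g *ᵥ v = r • v := by
  intro g hg
  obtain ⟨n, σ, hσ, h⟩ := H.dens g hg φ hφ
  obtain ⟨r, hr⟩ := hI σ hσ
  obtain ⟨s, hs⟩ := hφv
  have hn : ∀ n : ℕ, M (φ ^ n) *ᵥ v = s ^ n • v := by
    intro n
    induction n with
    | zero => rw [pow_zero, pow_zero, map_one, Matrix.one_mulVec, one_smul]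
    | succ n ih =>
      rw [pow_succ, map_mul, ← Matrix.mulVec_mulVec, hs, Matrix.mulVec_smul, ih, smul_smul]
      congr 1
      ring
  refine ⟨r * s ^ n, ?_⟩
  rw [h, map_mul, ← Matrix.mulVec_mulVec, hr, Matrix.mulVec_smul, hn, smul_smul]

/-- If there is no stable line, the image of inertia is commutative. -/
theorem comm (hirr : ∀ v : Fin 2 → k, v ≠ 0 →
      ¬ ∀ g ∈ P.decompositionSubgroup ℚ, ∃ r : k, M g *ᵥ v = r • v)
    {g h : GQ} (hg : g ∈ P.inertiaSubgroupIn ℚ) (hh : h ∈ P.inertiaSubgroupIn ℚ)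
    (z : Fin 2 → k) : M g *ᵥ (M h *ᵥ z) = M h *ᵥ (M g *ᵥ z) := by
  obtain ⟨A, hA⟩ := H.ord
  -- vectors on which inertia acts commutatively
  let S : (Fin 2 → k) → Prop := fun z => ∀ g ∈ P.inertiaSubgroupIn ℚ,
    ∀ h ∈ P.inertiaSubgroupIn ℚ, M g *ᵥ (M h *ᵥ z) = M h *ᵥ (M g *ᵥ z)
  have hSadd : ∀ x y, S x → S y → S (x + y) := by
    intro x y hx hy g hg h hh
    rw [Matrix.mulVec_add, Matrix.mulVec_add, Matrix.mulVec_add, Matrix.mulVec_add, hx g hg h hh,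
      hy g hg h hh]
  have hSsmul : ∀ (r : k) x, S x → S (r • x) := by
    intro r x hx g hg h hh
    rw [Matrix.mulVec_smul, Matrix.mulVec_smul, Matrix.mulVec_smul, Matrix.mulVec_smul,
      hx g hg h hh]
  have hSD : ∀ d ∈ P.decompositionSubgroup ℚ, ∀ x, S x → S (M d *ᵥ x) := by
    intro d hd x hx g hg h hh
    have key : ∀ g ∈ P.inertiaSubgroupIn ℚ, ∀ y, M g *ᵥ (M d *ᵥ y) =
        M d *ᵥ (M (d⁻¹ * g * d) *ᵥ y) := by
      intro g _ y
      rw [Matrix.mulVec_mulVec, Matrix.mulVec_mulVec, ← map_mul, ← map_mul]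
      congr 2
      group
    have hconj : ∀ g ∈ P.inertiaSubgroupIn ℚ, d⁻¹ * g * d ∈ P.inertiaSubgroupIn ℚ := by
      intro g hg
      have := conj_inertia (inv_mem hd) hg
      rwa [inv_inv] at this
    rw [key h hh, key g hg, key g hg, key h hh, hx _ (hconj g hg) _ (hconj h hh)]
  -- a nonzero such vector
  obtain ⟨z₁, hz₁0, hz₁⟩ : ∃ z, z ≠ 0 ∧ S z := by
    obtain ⟨U, -, hU⟩ := exists_simp (matAct P M) ⊤ (fun _ _ _ => AddSubgroup.mem_top _)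
      ⟨fun _ => 1, AddSubgroup.mem_top _, fun h => one_ne_zero (congrFun h 0)⟩
    by_cases htriv : ∀ g : In P, ∀ z ∈ U, matAct P M g z = z
    · obtain ⟨z, hz, hz0⟩ := hU.ne
      refine ⟨z, hz0, fun g hg h hh => ?_⟩
      have e1 : M g *ᵥ z = z := htriv ⟨g, hg⟩ z hz
      have e2 : M h *ᵥ z = z := htriv ⟨h, hh⟩ z hz
      rw [e2, e1, e2]
    · push Not at htriv
      obtain ⟨g₀, z₀, hz₀, hne⟩ := htriv
      obtain ⟨a, c, L⟩ := exists_leadOn hA hU ⟨matAct P M g₀ z₀ - z₀,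
        U.sub_mem (hU.stable g₀ z₀ hz₀) hz₀, sub_ne_zero.mpr hne, hA.dist_act_sub_lt g₀ z₀⟩
      obtain ⟨z, hz, hz0⟩ := hU.ne
      refine ⟨z, hz0, fun g hg h hh => ?_⟩
      have hgz := L.stable ⟨g, hg⟩ z hz
      have hhz := L.stable ⟨h, hh⟩ z hz
      refine L.lam_inj (L.stable ⟨g, hg⟩ _ hhz) (L.stable ⟨h, hh⟩ _ hgz) ?_
      have e1 := L.lam_act ⟨g, hg⟩ hhz
      have e2 := L.lam_act ⟨h, hh⟩ hgz
      rw [L.lam_act ⟨h, hh⟩ hz] at e1
      rw [L.lam_act ⟨g, hg⟩ hz] at e2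
      change LeadOn.lam P a c (M g *ᵥ (M h *ᵥ z)) = _ at e1
      change LeadOn.lam P a c (M h *ᵥ (M g *ᵥ z)) = _ at e2
      rw [e1, e2]
      ring
  -- conclude by irreducibility
  have h1 := hirr z₁ hz₁0
  push Not at h1
  obtain ⟨d, hd, hd2⟩ := h1
  obtain ⟨r, s, rfl⟩ := exists_comb hz₁0 hd2 z
  exact hSadd _ _ (hSsmul r _ hz₁) (hSsmul s _ (hSD d hd _ hz₁)) g hg h hh

/-- **Adapted basis in the irreducible case.** -/
theorem exists_basis (hirr : ∀ v : Fin 2 → k, v ≠ 0 →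
      ¬ ∀ g ∈ P.decompositionSubgroup ℚ, ∃ r : k, M g *ᵥ v = r • v)
    {φ : GQ} (hφ : P.IsFrobeniusAt φ p) :
    ∃ (v₁ v₂ : Fin 2 → k) (χ₁ χ₂ : GQ → k) (b : k), v₁ ≠ 0 ∧ (∀ r : k, v₂ ≠ r • v₁) ∧
      (∀ g ∈ P.inertiaSubgroupIn ℚ, M g *ᵥ v₁ = χ₁ g • v₁) ∧
      (∀ g ∈ P.inertiaSubgroupIn ℚ, M g *ᵥ v₂ = χ₂ g • v₂) ∧
      M φ *ᵥ v₁ = v₂ ∧ M φ *ᵥ v₂ = b • v₁ ∧
      (∀ g ∈ P.inertiaSubgroupIn ℚ, χ₂ (φ * g * φ⁻¹) = χ₁ g) ∧
      (∀ g ∈ P.inertiaSubgroupIn ℚ, χ₁ (φ * g * φ⁻¹) = χ₂ g) ∧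
      (∃ g ∈ P.inertiaSubgroupIn ℚ, χ₁ g ≠ 1) := by
  classical
  have hφD := (frob_iff.mp hφ).1
  -- a non-scalar element of inertia
  obtain ⟨g₀, hg₀, hns⟩ : ∃ g₀ ∈ P.inertiaSubgroupIn ℚ, ∀ r : k, ∃ v, M g₀ *ᵥ v ≠ r • v := by
    by_contra hcon
    push Not at hcon
    obtain ⟨r, v, hv, hr⟩ := H.exists_eigen φ
    exact hirr v hv (H.line_of φ hφ (fun g hg => by
      obtain ⟨s, hs⟩ := hcon g hg
      exact ⟨s, hs v⟩) ⟨r, hr⟩)
  obtain ⟨α, v₁, hv₁, hα⟩ := H.exists_eigen g₀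
  -- not both `v₁` and an independent vector are eigenvectors for `α`
  have hnot : ∀ w : Fin 2 → k, M g₀ *ᵥ w = α • w → ∃ r : k, w = r • v₁ := by
    intro w hw
    by_contra hcon
    push Not at hcon
    obtain ⟨x, hx⟩ := hns α
    apply hx
    obtain ⟨a, b, rfl⟩ := exists_comb hv₁ hcon x
    rw [Matrix.mulVec_add, Matrix.mulVec_smul, Matrix.mulVec_smul, hα, hw, smul_add,
      smul_comm, smul_comm b α]
  have h1 : ∀ g : GQ, ∃ r : k, g ∈ P.inertiaSubgroupIn ℚ → M g *ᵥ v₁ = r • v₁ := by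
    intro g
    by_cases hg : g ∈ P.inertiaSubgroupIn ℚ
    · obtain ⟨r, hr⟩ := hnot (M g *ᵥ v₁) (by
        rw [H.comm hirr hg₀ hg, hα, Matrix.mulVec_smul])
      exact ⟨r, fun _ => hr⟩
    · exact ⟨0, fun h => absurd h hg⟩
  choose χ₁ hχ₁ using h1
  let v₂ := M φ *ᵥ v₁
  have hv₂ : ∀ r : k, v₂ ≠ r • v₁ := by
    intro r hr
    exact hirr v₁ hv₁ (H.line_of φ hφ (fun g hg => ⟨_, hχ₁ g hg⟩) ⟨r, hr⟩)
  have hconj : ∀ g ∈ P.inertiaSubgroupIn ℚ, φ⁻¹ * g * φ ∈ P.inertiaSubgroupIn ℚ := by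
    intro g hg
    have := conj_inertia (inv_mem hφD) hg
    rwa [inv_inv] at this
  have hconj' : ∀ g ∈ P.inertiaSubgroupIn ℚ, φ * g * φ⁻¹ ∈ P.inertiaSubgroupIn ℚ :=
    fun g hg => conj_inertia hφD hg
  have hmove : ∀ g (y : Fin 2 → k), M g *ᵥ (M φ *ᵥ y) = M φ *ᵥ (M (φ⁻¹ * g * φ) *ᵥ y) := by
    intro g y
    rw [Matrix.mulVec_mulVec, Matrix.mulVec_mulVec, ← map_mul, ← map_mul]
    congr 2
    group
  let χ₂ : GQ → k := fun g => χ₁ (φ⁻¹ * g * φ)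
  have hχ₂ : ∀ g ∈ P.inertiaSubgroupIn ℚ, M g *ᵥ v₂ = χ₂ g • v₂ := by
    intro g hg
    change M g *ᵥ (M φ *ᵥ v₁) = χ₂ g • (M φ *ᵥ v₁)
    rw [hmove, hχ₁ _ (hconj g hg), Matrix.mulVec_smul]
  have hχ₂₁ : ∀ g : GQ, χ₂ (φ * g * φ⁻¹) = χ₁ g := by
    intro g
    change χ₁ (φ⁻¹ * (φ * g * φ⁻¹) * φ) = χ₁ g
    congr 1
    group
  have hα₁ : χ₁ g₀ = α := by
    have h2 := hχ₁ g₀ hg₀
    rw [hα] at h2
    have h3 := comb_unique hv₁ hv₂ (a := α) (b := 0) (a' := χ₁ g₀) (b' := 0) (by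
      rw [zero_smul, add_zero, add_zero]; exact h2)
    exact h3.1.symm
  have hne : χ₂ g₀ ≠ χ₁ g₀ := by
    intro h
    obtain ⟨r, hr⟩ := hnot v₂ (by rw [hχ₂ g₀ hg₀, h, hα₁])
    exact hv₂ r hr
  -- the action of Frobenius on `v₂`
  obtain ⟨b, c, hbc⟩ := exists_comb hv₁ hv₂ (M φ *ᵥ v₂)
  have hrel : ∀ g ∈ P.inertiaSubgroupIn ℚ, b * χ₁ g = b * χ₂ (φ⁻¹ * g * φ) ∧
      c * χ₂ g = c * χ₂ (φ⁻¹ * g * φ) := by
    intro g hg
    have h2 : M g *ᵥ (M φ *ᵥ v₂) = χ₂ (φ⁻¹ * g * φ) • (M φ *ᵥ v₂) := by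
      rw [hmove, hχ₂ _ (hconj g hg), Matrix.mulVec_smul]
    rw [hbc, Matrix.mulVec_add, Matrix.mulVec_smul, Matrix.mulVec_smul, hχ₁ g hg, hχ₂ g hg,
      smul_smul, smul_smul, smul_add, smul_smul, smul_smul] at h2
    have h3 := comb_unique hv₁ hv₂ h2
    exact ⟨by rw [h3.1, mul_comm], by rw [h3.2, mul_comm]⟩
  have hc0 : c = 0 := by
    by_contra hc
    apply hne
    have h2 := (hrel _ (hconj' g₀ hg₀)).2
    have h3 := mul_left_cancel₀ hc h2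
    rw [hχ₂₁] at h3
    have h4 : φ⁻¹ * (φ * g₀ * φ⁻¹) * φ = g₀ := by group
    rw [h4] at h3
    exact h3.symm
  have hb0 : b ≠ 0 := by
    intro hb
    rw [hb, hc0, zero_smul, zero_smul, add_zero] at hbc
    refine mulVec_ne M φ (v := v₂) ?_ hbc
    intro h
    exact hv₂ 0 (by rw [h, zero_smul])
  have hχ₁₂ : ∀ g ∈ P.inertiaSubgroupIn ℚ, χ₁ (φ * g * φ⁻¹) = χ₂ g := by
    intro g hg
    have h2 := mul_left_cancel₀ hb0 (hrel _ (hconj' g hg)).1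
    have h4 : φ⁻¹ * (φ * g * φ⁻¹) * φ = g := by group
    rwa [h4] at h2
  refine ⟨v₁, v₂, χ₁, χ₂, b, hv₁, hv₂, hχ₁, hχ₂, rfl, ?_, fun g _ => hχ₂₁ g, hχ₁₂, ?_⟩
  · rw [hbc, hc0, zero_smul, add_zero]
  · by_contra hcon
    push Not at hcon
    apply hne
    rw [hcon g₀ hg₀]
    exact hcon _ (hconj g₀ hg₀)

end StrHyp

end mat

end Fermat.Agent.TWFlat
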