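import Mathlib
import Fermat.Agent.TWP.FlatLoc.Struct

set_option autoImplicit false
set_option linter.style.haveILetI false
set_option linter.unusedVariables false
set_option linter.unusedSectionVars false

/-!
# Structure of the residual representation at `p`: the characters
-/

open Pointwise Matrix

namespace Fermat.Agent.TWFlat

open FlatOrd.Unramified (inertiaRing)

variable {P : ValuationSubring Om} {k : Type} [Field k] {p : ℕ}

namespace Tame

variable (T : Tame p P)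

/-- reduction of the tame character -/
noncomputable def t (g : GQ) : Kap P := red P (T.th g)

theorem val_th_le (g : GQ) : P.valuation (T.th g) ≤ 1 := (T.val_th g).le

theorem t_ne (g : GQ) : T.t g ≠ 0 := (red_ne_zero_iff (T.val_th_le g)).mpr (T.val_th g)

theorem t_pow_e (g : GQ) : T.t g ^ T.e = 1 := by
  rw [t, ← red_pow (T.val_th_le g), T.th_pow, red_one]

theorem t_pow_eq_one {τ : GQ} (hτ : IsPrimitiveRoot (T.th τ) T.e) {m : ℕ} :
    T.t τ ^ m = 1 ↔ T.e ∣ m := by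
  have hv : P.valuation (T.th τ) ≤ 1 := (T.val_th _).le
  rw [t, ← red_pow hv, ← red_one (P := P),
    red_eq_iff (by rw [map_pow]; exact pow_le_one₀ zero_le hv) (by rw [map_one])]
  constructor
  · intro h
    have h1 : T.th τ ^ m = 1 := by
      refine root_eq_one T.hp T.hP T.not_dvd_e ?_ h
      rw [← pow_mul, mul_comm, pow_mul, T.th_pow, one_pow]
    exact hτ.dvd_of_pow_eq_one m h1
  · rintro ⟨k, rfl⟩
    rw [pow_mul, T.th_pow, one_pow, sub_self, map_zero]
    exact zero_lt_one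

/-- the cyclotomic character in terms of the tame character -/
theorem natCast_eq_t {g : GQ} (hg : g ∈ P.inertiaSubgroupIn ℚ) {a : ℕ} (ha : g T.ζ = T.ζ ^ a) :
    (a : Kap P) = T.t g ^ T.e₁ := by
  have h1 := T.cyc_eq hg ha
  rw [← red_natCast, t, ← red_pow (T.val_th_le g), red_eq_iff (val_natCast_le a)
    (by rw [map_pow]; exact pow_le_one₀ zero_le (T.val_th_le g))]
  exact h1

theorem t_of_mem_G {g : GQ} (hg : g ∈ T.G) : T.t g = 1 := by
  rw [t, (T.mem_G'.mp hg).2, red_one]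

/-- quadratic relations -/
theorem t_quad {g : GQ} {s₁ s₂ : ℤ} : P.valuation (T.th g ^ 2 - s₁ * T.th g + s₂) < 1 ↔
    T.t g ^ 2 - s₁ * T.t g + s₂ = 0 := by
  have hv : P.valuation (T.th g) ≤ 1 := T.val_th_le g
  have hv2 : P.valuation (T.th g ^ 2) ≤ 1 := by rw [map_pow]; exact pow_le_one₀ zero_le hv
  have hs : P.valuation ((s₁ : Om) * T.th g) ≤ 1 := by
    rw [map_mul]; exact mul_le_one₀ (val_intCast_le _) zero_le hv
  have h1 : P.valuation (T.th g ^ 2 - s₁ * T.th g) ≤ 1 :=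
    (P.valuation.map_sub _ _).trans (max_le hv2 hs)
  rw [← red_eq_zero_iff ((P.valuation.map_add _ _).trans (max_le h1 (val_intCast_le s₂))),
    red_add h1 (val_intCast_le _), red_sub hv2 hs, red_pow hv, red_mul (val_intCast_le _) hv,
    red_intCast, red_intCast]
  rfl

end Tame

namespace StrHyp

variable {M : GQ →* Matrix (Fin 2) (Fin 2) k} [Finite k] (H : StrHyp p P M)

include H

/-- a leading function on a simple submodule of a line with non-trivial inertia action -/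
theorem exists_line {A : Submodule (inertiaRing P) ((Fin 2 → k) → Om)}
    (hA : IsOrd (matAct P M) A) {v : Fin 2 → k} (hv : v ≠ 0) {χ : GQ → k}
    (hχ : ∀ g ∈ P.inertiaSubgroupIn ℚ, M g *ᵥ v = χ g • v)
    (hne : ∃ g ∈ P.inertiaSubgroupIn ℚ, χ g ≠ 1) :
    ∃ U a c, LeadOn hA U a c ∧ ∀ z ∈ U, ∃ r : k, z = r • v := by
  let S : AddSubgroup (Fin 2 → k) := (Submodule.span k {v}).toAddSubgroup
  have hS : ∀ z, z ∈ S ↔ ∃ r : k, z = r • v := by
    intro z
    change z ∈ Submodule.span k {v} ↔ _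
    rw [Submodule.mem_span_singleton]
    exact ⟨fun ⟨r, h⟩ => ⟨r, h.symm⟩, fun ⟨r, h⟩ => ⟨r, h.symm⟩⟩
  obtain ⟨U, hUS, hU⟩ := exists_simp (matAct P M) S (by
    intro g z hz
    obtain ⟨r, rfl⟩ := (hS z).mp hz
    refine (hS _).mpr ⟨r * χ g, ?_⟩
    change M g *ᵥ (r • v) = _
    rw [Matrix.mulVec_smul, hχ g g.2, smul_smul]) ⟨v, (hS v).mpr ⟨1, (one_smul k v).symm⟩, hv⟩
  obtain ⟨g, hg, hg1⟩ := hne
  obtain ⟨z, hz, hz0⟩ := hU.ne
  obtain ⟨r, hr⟩ := (hS z).mp (hUS hz)
  have hr0 : r ≠ 0 := by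
    rintro rfl
    exact hz0 (by rw [hr, zero_smul])
  have hgz : matAct P M ⟨g, hg⟩ z - z ≠ 0 := by
    rw [sub_ne_zero]
    change M g *ᵥ z ≠ z
    rw [hr, Matrix.mulVec_smul, hχ g hg, smul_smul]
    intro h
    have h1 : (r * χ g - r) • v = 0 := by rw [sub_smul, h, sub_self]
    have h2 := (smul_eq_zero.mp h1).resolve_right hv
    apply hg1
    apply mul_left_cancel₀ hr0
    rw [mul_one]
    exact sub_eq_zero.mp h2
  obtain ⟨a, c, L⟩ := exists_leadOn hA hU ⟨_, U.sub_mem (hU.stable ⟨g, hg⟩ z hz) hz, hgz,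
    hA.dist_act_sub_lt ⟨g, hg⟩ z⟩
  exact ⟨U, a, c, L, fun z hz => (hS z).mp (hUS hz)⟩

/-- **The characters in the irreducible case.** -/
theorem irr_chars [CharP k p] (T : Tame p P) (he : T.e₁ = p + 1) {φ : GQ}
    (hφ : P.IsFrobeniusAt φ p) {v₁ : Fin 2 → k} {χ₁ χ₂ : GQ → k} (hv₁ : v₁ ≠ 0)
    (hχ₁ : ∀ g ∈ P.inertiaSubgroupIn ℚ, M g *ᵥ v₁ = χ₁ g • v₁)
    (hχ₂₁ : ∀ g ∈ P.inertiaSubgroupIn ℚ, χ₂ (φ * g * φ⁻¹) = χ₁ g)
    (hχ₁₂ : ∀ g ∈ P.inertiaSubgroupIn ℚ, χ₁ (φ * g * φ⁻¹) = χ₂ g)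
    (hne : ∃ g ∈ P.inertiaSubgroupIn ℚ, χ₁ g ≠ 1)
    (hdet : ∀ g ∈ P.inertiaSubgroupIn ℚ, (M g).det = χ₁ g * χ₂ g) :
    (∀ g ∈ P.inertiaSubgroupIn ℚ, χ₂ g = χ₁ g ^ p) ∧
    (∀ g ∈ T.G, χ₁ g = 1) ∧
    (∀ g ∈ P.inertiaSubgroupIn ℚ, ∀ s₁ s₂ : ℤ,
      P.valuation (T.th g ^ 2 - s₁ * T.th g + s₂) < 1 → χ₁ g ^ 2 - s₁ * χ₁ g + s₂ = 0) ∧
    (∀ τ ∈ P.inertiaSubgroupIn ℚ, IsPrimitiveRoot (T.th τ) T.e → ∀ y : k, y * χ₂ τ = χ₁ τ →
      y ^ p ≠ y ∧ ∃ a : ℕ, y ^ 2 + 1 = a * y ∧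
      P.valuation ((T.th τ ^ (p - 1)) ^ 2 - a * T.th τ ^ (p - 1) + 1) < 1) := by
  classical
  haveI : Fact p.Prime := ⟨T.hp⟩
  haveI : CharP (Kap P) p := ResField.charP_residueField (A := P) T.hp T.hP
  have hp3 := T.three_le
  obtain ⟨A, hA⟩ := H.ord
  obtain ⟨U, a, c, L, hUv⟩ := H.exists_line hA hv₁ hχ₁ hne
  obtain ⟨R, j, hj, hjχ⟩ := L.exists_hom (χ := fun g : In P => χ₁ g) (by
    intro g z hz
    obtain ⟨r, rfl⟩ := hUv z hz
    change M g *ᵥ (r • v₁) = χ₁ g • (r • v₁)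
    rw [Matrix.mulVec_smul, hχ₁ g g.2, smul_comm])
  have hR : ∀ g ∈ P.inertiaSubgroupIn ℚ, ∃ h : χ₁ g ∈ R, j ⟨χ₁ g, h⟩ = LeadOn.eta P c g :=
    fun g hg => hjχ ⟨g, hg⟩
  have hφD := (frob_iff.mp hφ).1
  have hconj' : ∀ g ∈ P.inertiaSubgroupIn ℚ, φ * g * φ⁻¹ ∈ P.inertiaSubgroupIn ℚ :=
    fun g hg => conj_inertia hφD hg
  have hp1 : ∀ g ∈ P.inertiaSubgroupIn ℚ, χ₁ (φ * g * φ⁻¹) = χ₁ g ^ p := by
    intro g hg
    obtain ⟨h1, h2⟩ := hR g hg
    obtain ⟨h3, h4⟩ := hR _ (hconj' g hg)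
    have h5 : j ⟨_, h3⟩ = j (⟨_, h1⟩ ^ p) := by
      rw [h4, map_pow, h2, L.eta_conj hφ hg]
    exact congrArg Subtype.val (hj h5)
  have h21 : ∀ g ∈ P.inertiaSubgroupIn ℚ, χ₂ g = χ₁ g ^ p := fun g hg => by
    rw [← hχ₁₂ g hg, hp1 g hg]
  have hχ0 : ∀ g ∈ P.inertiaSubgroupIn ℚ, χ₁ g ≠ 0 := by
    intro g hg h0
    have h1 := hχ₁ g hg
    rw [h0, zero_smul] at h1
    exact mulVec_ne M g hv₁ h1
  -- `χ₁ ^ (p² - 1) = 1`
  have hp2 : ∀ g ∈ P.inertiaSubgroupIn ℚ, χ₁ g ^ (p ^ 2) = χ₁ g := by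
    intro g hg
    have h1 := hχ₂₁ g hg
    rw [h21 _ (hconj' g hg), hp1 g hg, ← pow_mul, ← pow_two] at h1
    exact h1
  have heE : T.e = p ^ 2 - 1 := by
    rw [Tame.e, he]
    obtain ⟨q, rfl⟩ : ∃ q, p = q + 1 := ⟨p - 1, by omega⟩
    have h2 : (q + 1) ^ 2 = (q + 1 + 1) * q + 1 := by ring
    rw [Nat.add_sub_cancel, h2, Nat.add_sub_cancel]
  have hpp : 1 ≤ p ^ 2 := Nat.one_le_pow _ _ (by omega)
  have hcE : ∀ g ∈ P.inertiaSubgroupIn ℚ, χ₁ g ^ T.e = 1 := by
    intro g hg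
    apply mul_right_cancel₀ (hχ0 g hg)
    rw [one_mul, ← pow_succ, heE, Nat.sub_add_cancel hpp]
    exact hp2 g hg
  have hetaE : ∀ g ∈ P.inertiaSubgroupIn ℚ, LeadOn.eta P c g ^ T.e = 1 := by
    intro g hg
    obtain ⟨h1, h2⟩ := hR g hg
    rw [← h2, ← map_pow]
    have h3 : (⟨χ₁ g, h1⟩ : R) ^ T.e = 1 := Subtype.ext (hcE g hg)
    rw [h3, map_one]
  obtain ⟨n, hn0, hn, heta⟩ := L.exists_level T hetaE
  have hnle : n ≤ p + 1 := by
    rw [← he]
    refine L.level_le T hn fun z _ => ?_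
    funext i
    change p • z i = 0
    rw [nsmul_eq_mul, CharP.cast_eq_zero, zero_mul]
  have hjn : ∀ g (hg : g ∈ P.inertiaSubgroupIn ℚ), j ⟨χ₁ g, (hR g hg).1⟩ = T.t g ^ n := by
    intro g hg
    rw [(hR g hg).2, heta g hg]
    rfl
  -- determinant
  have hdetn : ∀ g ∈ P.inertiaSubgroupIn ℚ, (T.t g ^ n) ^ (p + 1) = T.t g ^ (p + 1) := by
    intro g hg
    obtain ⟨b, hb⟩ := T.exists_apply_zeta g
    have h1 := H.det g T.ζ T.hζ b hb
    rw [hdet g hg, h21 g hg, ← pow_succ'] at h1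
    have h2 := T.natCast_eq_t hg hb
    rw [he] at h2
    rw [← h2, ← hjn g hg, ← map_pow]
    have h3 : (⟨χ₁ g, (hR g hg).1⟩ : R) ^ (p + 1) = (b : R) := Subtype.ext (by
      rw [Subring.coe_pow]
      exact h1)
    rw [h3, map_natCast]
  have hn1p : n = 1 ∨ n = p := by
    obtain ⟨τ, hτ, hprim⟩ := T.exists_tame_gen
    have h1 := hdetn τ hτ
    have ht0 := T.t_ne τ
    have h2 : T.t τ ^ ((n - 1) * (p + 1)) = 1 := by
      apply mul_right_cancel₀ (pow_ne_zero (p + 1) ht0)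
      rw [one_mul, ← pow_add, ← h1, ← pow_mul]
      congr 1
      obtain ⟨m, rfl⟩ : ∃ m, n = m + 1 := ⟨n - 1, by omega⟩
      rw [Nat.add_sub_cancel]; ring
    rw [T.t_pow_eq_one hprim, Tame.e, he, mul_comm (n - 1)] at h2
    have h3 := Nat.dvd_of_mul_dvd_mul_left (by omega : 0 < p + 1) h2
    obtain ⟨m, hm⟩ := h3
    have hm2 : m < 2 := by
      by_contra hcon
      push Not at hcon
      have : (p - 1) * 2 ≤ (p - 1) * m := Nat.mul_le_mul_left _ hcon
      omega
    interval_cases m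
    · left; omega
    · right; omega
  refine ⟨h21, ?_, ?_, ?_⟩
  · intro g hg
    have h1 := hjn g hg.1
    rw [T.t_of_mem_G hg, one_pow] at h1
    have h2 : (⟨χ₁ g, (hR g hg.1).1⟩ : R) = 1 := hj (by rw [h1, map_one])
    exact congrArg Subtype.val h2
  · intro g hg s₁ s₂ hs
    rw [T.t_quad] at hs
    have hint : ∀ s : ℤ, (s : Kap P) ^ p = s := fun s => by
      have h := map_intCast (frobenius (Kap P) p) s
      rwa [frobenius_def] at h
    have h1 : (T.t g ^ n) ^ 2 - s₁ * T.t g ^ n + s₂ = 0 := by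
      rcases hn1p with rfl | rfl
      · rw [pow_one]; exact hs
      · have h2 : (T.t g ^ 2 - s₁ * T.t g + s₂) ^ n = 0 ^ n := by rw [hs]
        rw [zero_pow T.hp.ne_zero, add_pow_char, sub_pow_char, mul_pow, hint, hint,
          ← pow_mul, mul_comm 2 n, pow_mul] at h2
        exact h2
    rw [← hjn g hg, ← map_pow, ← map_intCast j, ← map_intCast j, ← map_mul, ← map_sub,
      ← map_add] at h1
    have h2 := congrArg Subtype.val ((injective_iff_map_eq_zero j).mp hj _ h1)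
    push_cast at h2
    exact h2
  · intro τ hτ hprim y hy
    have ht0 := T.t_ne τ
    set w : Kap P := T.t τ ^ (p - 1) with hw
    have hw0 : w ≠ 0 := pow_ne_zero _ ht0
    have hw1 : w ^ (p + 1) = 1 := by
      rw [hw, ← pow_mul, T.t_pow_eq_one hprim, Tame.e, he, mul_comm]
    have hwp : w ^ p = w⁻¹ := by
      rw [pow_succ] at hw1
      exact eq_inv_of_mul_eq_one_left hw1
    -- the trace
    obtain ⟨a', ha'⟩ : ∃ a' : ℕ, (a' : Kap P) = w + w⁻¹ := by
      have h1 : (w + w⁻¹) ^ p = w + w⁻¹ := by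
        rw [add_pow_char, inv_pow, hwp, inv_inv, add_comm]
      have hX : ∃ z : ZMod p, (ZMod.castHom (dvd_refl p) (Kap P)) z = w + w⁻¹ := by
        by_contra hcon
        push Not at hcon
        have hcard : ((Finset.univ : Finset (ZMod p)).image
            (ZMod.castHom (dvd_refl p) (Kap P))).card = p := by
          rw [Finset.card_image_of_injective _ (ZMod.castHom (dvd_refl p) (Kap P)).injective,
            Finset.card_univ, ZMod.card]
        have hroots : insert (w + w⁻¹) ((Finset.univ : Finset (ZMod p)).image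
            (ZMod.castHom (dvd_refl p) (Kap P))) ⊆
            (Polynomial.X ^ p - Polynomial.X : Polynomial (Kap P)).roots.toFinset := by
          intro x hx
          rw [Multiset.mem_toFinset, Polynomial.mem_roots
            (FiniteField.X_pow_card_sub_X_ne_zero _ T.hp.one_lt), Polynomial.IsRoot.def,
            Polynomial.eval_sub, Polynomial.eval_pow, Polynomial.eval_X, sub_eq_zero]
          rcases Finset.mem_insert.mp hx with rfl | hx
          · exact h1
          · obtain ⟨z, -, rfl⟩ := Finset.mem_image.mp hx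
            rw [← map_pow, ZMod.pow_card]
        have h2 := Finset.card_le_card hroots
        rw [Finset.card_insert_of_notMem (by
          rw [Finset.mem_image]
          rintro ⟨z, -, hz⟩
          exact hcon z hz), hcard] at h2
        have h3 := (Multiset.toFinset_card_le _).trans (Polynomial.card_roots'
          (Polynomial.X ^ p - Polynomial.X : Polynomial (Kap P)))
        rw [FiniteField.X_pow_card_sub_X_natDegree_eq _ T.hp.one_lt] at h3
        omega
      obtain ⟨z, hz⟩ := hX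
      refine ⟨z.val, ?_⟩
      rw [← hz, ← map_natCast (ZMod.castHom (dvd_refl p) (Kap P)), ZMod.natCast_val, ZMod.cast_id]
    -- the image of `y`
    have hpe : p ≤ T.e := by
      have h1 : p + 1 ≤ p ^ 2 := by nlinarith
      rw [heE]; omega
    have hx0 := hχ0 τ hτ
    have hyR : y = χ₁ τ * χ₁ τ ^ (T.e - p) := by
      have h1 : y * χ₁ τ ^ p = χ₁ τ := by rw [← h21 τ hτ]; exact hy
      apply mul_right_cancel₀ (pow_ne_zero p hx0)
      rw [h1, mul_assoc, ← pow_add, Nat.sub_add_cancel hpe, hcE τ hτ,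
        mul_one]
    set X : R := ⟨χ₁ τ, (hR τ hτ).1⟩ with hX
    have hjX : j X = T.t τ ^ n := hjn τ hτ
    have hXe : X ^ T.e = 1 := Subtype.ext (hcE τ hτ)
    set Y : R := X * X ^ (T.e - p) with hY
    have hYy : (Y : k) = y := by rw [hyR]; rfl
    have hYp : Y * X ^ p = X := by
      rw [hY, mul_assoc, ← pow_add, Nat.sub_add_cancel hpe, hXe,
        mul_one]
    clear_value Y
    -- `j Y = w^{∓1}`
    have hjY : j Y = w ∨ j Y = w⁻¹ := by
      have h1 : j Y * (T.t τ ^ n) ^ p = T.t τ ^ n := by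
        rw [← hjX, ← map_pow, ← map_mul, hYp]
      rcases hn1p with rfl | hnp
      · right
        rw [pow_one] at h1
        apply eq_inv_of_mul_eq_one_left
        apply mul_right_cancel₀ ht0
        rw [one_mul, mul_assoc, hw, ← pow_succ, Nat.sub_add_cancel T.hp.one_le]
        exact h1
      · left
        rw [hnp] at h1
        have h2 : (T.t τ ^ p) ^ p = T.t τ := by
          rw [← pow_mul, ← pow_two]
          have h3 : p ^ 2 = T.e + 1 := by rw [heE, Nat.sub_add_cancel hpp]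
          rw [h3, pow_succ, T.t_pow_e, one_mul]
        rw [h2] at h1
        apply mul_right_cancel₀ ht0
        rw [h1, hw, ← pow_succ, Nat.sub_add_cancel T.hp.one_le]
    have hww : w ^ p ≠ w := by
      intro h
      have h1 : w ^ (p - 1) = 1 := by
        apply mul_right_cancel₀ hw0
        rw [one_mul, ← pow_succ, Nat.sub_add_cancel T.hp.one_le]
        exact h
      rw [hw, ← pow_mul, T.t_pow_eq_one hprim, Tame.e, he, mul_comm (p + 1)] at h1
      have h2 := Nat.dvd_of_mul_dvd_mul_left (by omega : 0 < p - 1) h1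
      have h3 := Nat.le_of_dvd (by omega) h2
      omega
    refine ⟨?_, a', ?_, ?_⟩
    · intro h
      have h1 : Y ^ p = Y := Subtype.ext (by rw [Subring.coe_pow, hYy]; exact h)
      have h2 := congrArg j h1
      rw [map_pow] at h2
      rcases hjY with h3 | h3
      · rw [h3] at h2; exact hww h2
      · rw [h3, inv_pow] at h2
        exact hww (inv_injective h2)
    · have h1 : j (Y ^ 2 + 1 - (a' : R) * Y) = 0 := by
        rw [map_sub, map_add, map_pow, map_one, map_mul, map_natCast, ha']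
        rcases hjY with h3 | h3
        · rw [h3]; field_simp; ring
        · rw [h3]; field_simp; ring
      have h2 := congrArg Subtype.val ((injective_iff_map_eq_zero j).mp hj _ h1)
      push_cast at h2
      rw [hYy] at h2
      exact sub_eq_zero.mp h2
    · have hv1 : P.valuation (T.th τ ^ (p - 1)) ≤ 1 := by
        rw [map_pow]; exact pow_le_one₀ zero_le (T.val_th_le τ)
      have hv2 : P.valuation ((T.th τ ^ (p - 1)) ^ 2) ≤ 1 := by
        rw [map_pow]; exact pow_le_one₀ zero_le hv1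
      have hv3 : P.valuation ((a' : Om) * T.th τ ^ (p - 1)) ≤ 1 := by
        rw [map_mul]; exact mul_le_one₀ (val_natCast_le _) zero_le hv1
      have hv4 : P.valuation ((T.th τ ^ (p - 1)) ^ 2 - (a' : Om) * T.th τ ^ (p - 1)) ≤ 1 :=
        (P.valuation.map_sub _ _).trans (max_le hv2 hv3)
      rw [← red_eq_zero_iff ((P.valuation.map_add _ _).trans (max_le hv4 (by rw [map_one]))),
        red_add hv4 (by rw [map_one]), red_sub hv2 hv3, red_pow hv1,
        red_mul (val_natCast_le _) hv1, red_natCast, red_pow (T.val_th_le τ), red_one]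
      change w ^ 2 - (a' : Kap P) * w + 1 = 0
      rw [ha']
      field_simp
      ring

end StrHyp

end Fermat.Agent.TWFlat
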