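import Mathlib
import Fermat.Agent.TWP.FlatLoc.Struct2

set_option autoImplicit false
set_option linter.style.haveILetI false
set_option linter.unusedVariables false
set_option linter.unusedSectionVars false

/-!
# Structure of the residual representation at `p`: the dichotomy
-/

open Pointwise Matrix

namespace Fermat.Agent.TWFlat

open FlatOrd.Unramified (inertiaRing)

variable {P : ValuationSubring Om} {k : Type} [Field k] {p : ℕ}

/-- the matrix with columns `v`, `w` -/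
noncomputable def colMat {v w : Fin 2 → k} (hv : v ≠ 0) (hw : ∀ r : k, w ≠ r • v) :
    (Matrix (Fin 2) (Fin 2) k)ˣ :=
  Matrix.GeneralLinearGroup.mkOfDetNeZero !![v 0, w 0; v 1, w 1] (by
    rw [Matrix.det_fin_two_of]; exact det_ne_of_indep hv hw)

theorem coe_colMat {v w : Fin 2 → k} (hv : v ≠ 0) (hw : ∀ r : k, w ≠ r • v) :
    (colMat hv hw : Matrix (Fin 2) (Fin 2) k) = !![v 0, w 0; v 1, w 1] := rfl

/-- change of basis -/
def cj {G : Type} [Group G] (Q : (Matrix (Fin 2) (Fin 2) k)ˣ)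
    (M : G →* Matrix (Fin 2) (Fin 2) k) : G →* Matrix (Fin 2) (Fin 2) k where
  toFun g := (↑Q⁻¹ : Matrix (Fin 2) (Fin 2) k) * M g * (Q : Matrix (Fin 2) (Fin 2) k)
  map_one' := by rw [map_one, mul_one, Units.inv_mul]
  map_mul' g h := by
    rw [map_mul]
    have h1 : (Q : Matrix (Fin 2) (Fin 2) k) * (↑Q⁻¹ : Matrix (Fin 2) (Fin 2) k) = 1 :=
      Units.mul_inv Q
    calc (↑Q⁻¹ : Matrix (Fin 2) (Fin 2) k) * (M g * M h) * (Q : Matrix (Fin 2) (Fin 2) k)
        = (↑Q⁻¹ : Matrix (Fin 2) (Fin 2) k) * M g * 1 * (M h * (Q : Matrix (Fin 2) (Fin 2) k)) := by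
          rw [mul_one]; simp only [mul_assoc]
      _ = _ := by rw [← h1]; simp only [mul_assoc]

theorem cj_apply {G : Type} [Group G] (Q : (Matrix (Fin 2) (Fin 2) k)ˣ)
    (M : G →* Matrix (Fin 2) (Fin 2) k) (g : G) :
    cj Q M g = (↑Q⁻¹ : Matrix (Fin 2) (Fin 2) k) * M g * (Q : Matrix (Fin 2) (Fin 2) k) := rfl

theorem cj_eq {v w : Fin 2 → k} (hv : v ≠ 0) (hw : ∀ r : k, w ≠ r • v)
    {G : Type} [Group G] {M : G →* Matrix (Fin 2) (Fin 2) k} {g : G} {a b c d : k}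
    (h1 : M g *ᵥ v = a • v + c • w) (h2 : M g *ᵥ w = b • v + d • w) :
    cj (colMat hv hw) M g = !![a, b; c, d] := by
  have key : M g * (colMat hv hw : Matrix (Fin 2) (Fin 2) k) =
      (colMat hv hw : Matrix (Fin 2) (Fin 2) k) * !![a, b; c, d] := by
    rw [coe_colMat]
    have e0 : ∀ i, M g i 0 * v 0 + M g i 1 * v 1 = a * v i + c * w i := by
      intro i
      have := congrFun h1 i
      rw [Matrix.mulVec, dotProduct, Fin.sum_univ_two] at this
      exact this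
    have e1 : ∀ i, M g i 0 * w 0 + M g i 1 * w 1 = b * v i + d * w i := by
      intro i
      have := congrFun h2 i
      rw [Matrix.mulVec, dotProduct, Fin.sum_univ_two] at this
      exact this
    ext i j
    rw [Matrix.mul_apply, Fin.sum_univ_two, Matrix.mul_apply, Fin.sum_univ_two]
    fin_cases i <;> fin_cases j
    · change M g 0 0 * v 0 + M g 0 1 * v 1 = v 0 * a + w 0 * c
      rw [e0]; ring
    · change M g 0 0 * w 0 + M g 0 1 * w 1 = v 0 * b + w 0 * d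
      rw [e1]; ring
    · change M g 1 0 * v 0 + M g 1 1 * v 1 = v 1 * a + w 1 * c
      rw [e0]; ring
    · change M g 1 0 * w 0 + M g 1 1 * w 1 = v 1 * b + w 1 * d
      rw [e1]; ring
  rw [cj_apply, mul_assoc, key, ← mul_assoc, Units.inv_mul, one_mul]

theorem det_cj {G : Type} [Group G] (Q : (Matrix (Fin 2) (Fin 2) k)ˣ)
    (M : G →* Matrix (Fin 2) (Fin 2) k) (g : G) : (cj Q M g).det = (M g).det := by
  rw [cj_apply, Matrix.det_mul, Matrix.det_mul, mul_comm, ← mul_assoc, ← Matrix.det_mul,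
    Units.mul_inv, Matrix.det_one, one_mul]

/-- the ordinary shape -/
structure OrdShape (p : ℕ) (P : ValuationSubring Om) (M : GQ →* Matrix (Fin 2) (Fin 2) k) :
    Prop where
  low : ∀ g ∈ P.decompositionSubgroup ℚ, M g 1 0 = 0
  one : ∀ g ∈ P.inertiaSubgroupIn ℚ, M g 1 1 = 1
  cyc : ∀ g ∈ P.inertiaSubgroupIn ℚ, ∀ ζ : Om, IsPrimitiveRoot ζ p → ∀ a : ℕ, g ζ = ζ ^ a →
    M g 0 0 = a

/-- the irreducible shape -/
structure IrrShape (T : Tame p P) (φ : GQ) (M : GQ →* Matrix (Fin 2) (Fin 2) k)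
    (χ₁ χ₂ : In P →* kˣ) : Prop where
  he : T.e₁ = p + 1
  frob : P.IsFrobeniusAt φ p
  diag : ∀ g : In P, M g = !![(χ₁ g : k), 0; 0, (χ₂ g : k)]
  anti : M φ 0 0 = 0 ∧ M φ 1 1 = 0
  triv₁ : ∀ g : In P, (g : GQ) ∈ T.G → χ₁ g = 1
  triv₂ : ∀ g : In P, (g : GQ) ∈ T.G → χ₂ g = 1
  fund₁ : ∀ (g : In P) (s₁ s₂ : ℤ), P.valuation (T.th g ^ 2 - s₁ * T.th g + s₂) < 1 →
    (χ₁ g : k) ^ 2 - s₁ * χ₁ g + s₂ = 0
  fund₂ : ∀ (g : In P) (s₁ s₂ : ℤ), P.valuation (T.th g ^ 2 - s₁ * T.th g + s₂) < 1 →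
    (χ₂ g : k) ^ 2 - s₁ * χ₂ g + s₂ = 0
  quad : ∀ τ : In P, IsPrimitiveRoot (T.th τ) T.e → ∀ y : k, y * χ₂ τ = χ₁ τ →
      y ^ p ≠ y ∧ ∃ a : ℕ, y ^ 2 + 1 = a * y ∧
      P.valuation ((T.th τ ^ (p - 1)) ^ 2 - a * T.th τ ^ (p - 1) + 1) < 1

namespace StrHyp

variable {M : GQ →* Matrix (Fin 2) (Fin 2) k} [Finite k] (H : StrHyp p P M) [CharP k p]

include H

/-- **Irreducible case.** -/
theorem irrShape (hirr : ∀ v : Fin 2 → k, v ≠ 0 →
      ¬ ∀ g ∈ P.decompositionSubgroup ℚ, ∃ r : k, M g *ᵥ v = r • v)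
    (T : Tame p P) (he : T.e₁ = p + 1) {φ : GQ} (hφ : P.IsFrobeniusAt φ p) :
    ∃ (Q : (Matrix (Fin 2) (Fin 2) k)ˣ) (χ₁ χ₂ : In P →* kˣ), IrrShape T φ (cj Q M) χ₁ χ₂ := by
  obtain ⟨v₁, v₂, x₁, x₂, b, hv₁, hv₂, hx₁, hx₂, hφ₁, hφ₂, h21, h12, hne⟩ :=
    H.exists_basis hirr hφ
  have hdiag : ∀ g ∈ P.inertiaSubgroupIn ℚ, cj (colMat hv₁ hv₂) M g = !![x₁ g, 0; 0, x₂ g] :=
    fun g hg => cj_eq hv₁ hv₂ (by rw [zero_smul, add_zero, hx₁ g hg])
      (by rw [zero_smul, zero_add, hx₂ g hg])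
  have hφM : cj (colMat hv₁ hv₂) M φ = !![0, b; 1, 0] :=
    cj_eq hv₁ hv₂ (by rw [zero_smul, zero_add, one_smul, hφ₁])
      (by rw [zero_smul, add_zero, hφ₂])
  have hdet : ∀ g ∈ P.inertiaSubgroupIn ℚ, (M g).det = x₁ g * x₂ g := by
    intro g hg
    rw [← det_cj (colMat hv₁ hv₂), hdiag g hg, Matrix.det_fin_two_of]
    ring
  obtain ⟨hp1, htriv, hfund, hquad⟩ := H.irr_chars T he hφ hv₁ hx₁ h21 h12 hne hdet
  have hmul : ∀ g ∈ P.inertiaSubgroupIn ℚ, ∀ h ∈ P.inertiaSubgroupIn ℚ,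
      x₁ (g * h) = x₁ g * x₁ h ∧ x₂ (g * h) = x₂ g * x₂ h := by
    intro g hg h hh
    have h1 := hdiag (g * h) (mul_mem hg hh)
    rw [map_mul, hdiag g hg, hdiag h hh] at h1
    constructor
    · have := congrFun (congrFun h1 0) 0
      simpa [Matrix.mul_apply, Fin.sum_univ_two] using this.symm
    · have := congrFun (congrFun h1 1) 1
      simpa [Matrix.mul_apply, Fin.sum_univ_two] using this.symm
  have hone : x₁ 1 = 1 ∧ x₂ 1 = 1 := by
    have h1 := hdiag 1 (one_mem _)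
    rw [map_one] at h1
    constructor
    · simpa using (congrFun (congrFun h1 0) 0).symm
    · simpa using (congrFun (congrFun h1 1) 1).symm
  let mk : (x : GQ → k) → x 1 = 1 → (∀ g ∈ P.inertiaSubgroupIn ℚ, ∀ h ∈ P.inertiaSubgroupIn ℚ,
      x (g * h) = x g * x h) → (In P →* kˣ) := fun x h1 h2 =>
    MonoidHom.toHomUnits
      { toFun := fun g => x g
        map_one' := h1
        map_mul' := fun g h => h2 g g.2 h h.2 }
  let χ₁ := mk x₁ hone.1 fun g hg h hh => (hmul g hg h hh).1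
  let χ₂ := mk x₂ hone.2 fun g hg h hh => (hmul g hg h hh).2
  have hχ₁ : ∀ g : In P, (χ₁ g : k) = x₁ g := fun g => rfl
  have hχ₂ : ∀ g : In P, (χ₂ g : k) = x₂ g := fun g => rfl
  haveI : Fact p.Prime := ⟨T.hp⟩
  refine ⟨colMat hv₁ hv₂, χ₁, χ₂, he, hφ, fun g => hdiag g g.2, ?_, ?_, ?_, ?_, ?_, ?_⟩
  · rw [hφM]; exact ⟨rfl, rfl⟩
  · exact fun g hg => Units.ext (htriv g hg)
  · intro g hg
    refine Units.ext ?_
    rw [hχ₂, hp1 g g.2, htriv g hg, one_pow]; rfl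
  · exact fun g s₁ s₂ hs => hfund g g.2 s₁ s₂ hs
  · intro g s₁ s₂ hs
    have h1 := hfund g g.2 s₁ s₂ hs
    have hint : ∀ s : ℤ, (s : k) ^ p = s := fun s => by
      have h := map_intCast (frobenius k p) s
      rwa [frobenius_def] at h
    have h2 : (x₁ g ^ 2 - s₁ * x₁ g + s₂) ^ p = 0 ^ p := by rw [h1]
    rw [zero_pow T.hp.ne_zero, add_pow_char, sub_pow_char, mul_pow, hint, hint,
      ← pow_mul, mul_comm 2 p, pow_mul] at h2
    rw [hχ₂, hp1 g g.2]
    exact h2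
  · exact fun τ hprim y hy => hquad τ τ.2 hprim y hy

/-- **Reducible case.** -/
theorem exists_ord_line {v₁ : Fin 2 → k} (hv₁ : v₁ ≠ 0)
    (hD : ∀ g ∈ P.decompositionSubgroup ℚ, ∃ r : k, M g *ᵥ v₁ = r • v₁) :
    ∃ w : Fin 2 → k, w ≠ 0 ∧ (∀ g ∈ P.decompositionSubgroup ℚ, ∃ r : k, M g *ᵥ w = r • w) ∧
      ∀ g ∈ P.inertiaSubgroupIn ℚ, ∀ x, ∃ r : k, M g *ᵥ x - x = r • w := by
  classical
  haveI : Fact p.Prime := ⟨H.hp⟩
  haveI : CharP (Kap P) p := ResField.charP_residueField (A := P) H.hp H.hP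
  obtain ⟨T, he⟩ := exists_tame (P := P) H.hp H.hp2 H.hP (e₁ := 1) one_pos (by
    intro h; exact H.hp.one_lt.not_ge (Nat.le_of_dvd one_pos h))
  have hp3 := T.three_le
  have heE : T.e = p - 1 := by rw [Tame.e, he, one_mul]
  obtain ⟨A, hA⟩ := H.ord
  have hchoose : ∀ g : GQ, ∃ r : k, g ∈ P.decompositionSubgroup ℚ → M g *ᵥ v₁ = r • v₁ := by
    intro g
    by_cases hg : g ∈ P.decompositionSubgroup ℚ
    · obtain ⟨r, hr⟩ := hD g hg
      exact ⟨r, fun _ => hr⟩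
    · exact ⟨0, fun h => absurd h hg⟩
  choose ψ hψ using hchoose
  have hψI : ∀ g ∈ P.inertiaSubgroupIn ℚ, M g *ᵥ v₁ = ψ g • v₁ :=
    fun g hg => hψ g (mem_dec_of_inertia hg)
  have hinj : ∀ r s : k, r • v₁ = s • v₁ → r = s := by
    intro r s h
    have h1 : (r - s) • v₁ = 0 := by rw [sub_smul, h, sub_self]
    exact sub_eq_zero.mp ((smul_eq_zero.mp h1).resolve_right hv₁)
  by_cases hne : ∃ g ∈ P.inertiaSubgroupIn ℚ, ψ g ≠ 1
  · -- the line is ramified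
    obtain ⟨U, a, c, L, hUv⟩ := H.exists_line hA hv₁ hψI hne
    obtain ⟨R, j, hj, hjχ⟩ := L.exists_hom (χ := fun g : In P => ψ g) (by
      intro g z hz
      obtain ⟨r, rfl⟩ := hUv z hz
      change M g *ᵥ (r • v₁) = ψ g • (r • v₁)
      rw [Matrix.mulVec_smul, hψI g g.2, smul_comm])
    have hR : ∀ g ∈ P.inertiaSubgroupIn ℚ, ∃ h : ψ g ∈ R, j ⟨ψ g, h⟩ = LeadOn.eta P c g :=
      fun g hg => hjχ ⟨g, hg⟩
    obtain ⟨φ, hφ⟩ := FrobExists.exists_isFrobeniusAt P H.hp H.hP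
    have hφD := (frob_iff.mp hφ).1
    have hetaE : ∀ g ∈ P.inertiaSubgroupIn ℚ, LeadOn.eta P c g ^ T.e = 1 := by
      intro g hg
      have hg' := mem_dec_of_inertia hg
      have hcg : φ * g * φ⁻¹ ∈ P.inertiaSubgroupIn ℚ := conj_inertia hφD hg
      have h1 : ψ (φ * g * φ⁻¹) = ψ g := by
        apply hinj
        rw [← hψI _ hcg, map_mul, map_mul, ← Matrix.mulVec_mulVec, ← Matrix.mulVec_mulVec,
          hψ φ⁻¹ (inv_mem hφD), Matrix.mulVec_smul, Matrix.mulVec_smul, hψI g hg,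
          Matrix.mulVec_smul, hψ φ hφD, smul_smul, smul_smul]
        have h2 : ψ φ⁻¹ * ψ φ = 1 := by
          apply hinj
          rw [one_smul, ← smul_smul, ← hψ φ hφD, ← Matrix.mulVec_smul, ← hψ φ⁻¹ (inv_mem hφD),
            mulVec_inv]
        congr 1
        linear_combination ψ g * h2
      obtain ⟨h2, h3⟩ := hR g hg
      obtain ⟨h4, h5⟩ := hR _ hcg
      have h6 : (⟨ψ (φ * g * φ⁻¹), h4⟩ : R) = ⟨ψ g, h2⟩ := Subtype.ext h1
      rw [h6, h3, L.eta_conj hφ hg] at h5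
      have h7 := L.eta_ne hg'
      apply mul_right_cancel₀ h7
      rw [one_mul, ← pow_succ, heE, Nat.sub_add_cancel H.hp.one_le]
      exact h5.symm
    obtain ⟨n, hn0, hn, heta⟩ := L.exists_level T hetaE
    have hnle : n ≤ 1 := by
      rw [← he]
      refine L.level_le T hn fun z _ => ?_
      funext i
      change p • z i = 0
      rw [nsmul_eq_mul, CharP.cast_eq_zero, zero_mul]
    have hn1 : n = 1 := by omega
    subst hn1
    have hψcyc : ∀ g ∈ P.inertiaSubgroupIn ℚ, ψ g = (M g).det := by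
      intro g hg
      obtain ⟨b, hb⟩ := T.exists_apply_zeta g
      rw [H.det g T.ζ T.hζ b hb]
      have h1 := T.natCast_eq_t hg hb
      obtain ⟨h2, h3⟩ := hR g hg
      rw [heta g hg, pow_one] at h3
      rw [he, pow_one] at h1
      have h4 : j ⟨ψ g, h2⟩ = j (b : R) := by
        rw [h3, map_natCast, h1]; rfl
      have h5 := congrArg Subtype.val (hj h4)
      push_cast at h5
      exact h5
    refine ⟨v₁, hv₁, hD, fun g hg x => ?_⟩
    -- an independent vector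
    obtain ⟨v₂, hv₂⟩ : ∃ v₂ : Fin 2 → k, ∀ r : k, v₂ ≠ r • v₁ := by
      by_contra hcon
      push Not at hcon
      obtain ⟨r, hr⟩ := hcon (Pi.single 0 1)
      obtain ⟨s, hs⟩ := hcon (Pi.single 1 1)
      have r0 := congrFun hr 0
      have r1 := congrFun hr 1
      have s0 := congrFun hs 0
      have s1 := congrFun hs 1
      simp only [Pi.single_eq_same, Pi.smul_apply, smul_eq_mul, ne_eq, one_ne_zero,
        not_false_eq_true, Pi.single_eq_of_ne, zero_ne_one] at r0 r1 s0 s1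
      rcases mul_eq_zero.mp r1.symm with h | h
      · rw [h, zero_mul] at r0; exact one_ne_zero r0
      · rw [h, mul_zero] at s1; exact one_ne_zero s1
    obtain ⟨b, d, hbd⟩ := exists_comb hv₁ hv₂ (M g *ᵥ v₂)
    have hcj : cj (colMat hv₁ hv₂) M g = !![ψ g, b; 0, d] :=
      cj_eq hv₁ hv₂ (by rw [zero_smul, add_zero, hψI g hg]) hbd
    have hd : (M g).det = ψ g * d := by
      rw [← det_cj (colMat hv₁ hv₂), hcj, Matrix.det_fin_two_of]; ring
    have hψ0 : ψ g ≠ 0 := by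
      intro h0
      have h1 := hψI g hg
      rw [h0, zero_smul] at h1
      exact mulVec_ne M g hv₁ h1
    have hd1 : d = 1 := by
      rw [← hψcyc g hg] at hd
      apply mul_left_cancel₀ hψ0
      rw [mul_one]
      exact hd.symm
    obtain ⟨r, s, rfl⟩ := exists_comb hv₁ hv₂ x
    refine ⟨r * ψ g - r + s * b, ?_⟩
    rw [Matrix.mulVec_add, Matrix.mulVec_smul, Matrix.mulVec_smul, hψI g hg, hbd, hd1]
    rw [smul_add, smul_smul, smul_smul, add_smul, sub_smul, smul_smul, mul_one]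
    abel
  · -- the line is unramified
    push Not at hne
    -- inertia acts non-trivially
    obtain ⟨g₁, hg₁, x₁, hx₁⟩ : ∃ g ∈ P.inertiaSubgroupIn ℚ, ∃ x : Fin 2 → k, M g *ᵥ x ≠ x := by
      by_contra hcon
      push Not at hcon
      obtain ⟨τ, hτ, hprim⟩ := T.exists_tame_gen
      obtain ⟨b, hb⟩ := T.exists_apply_zeta τ
      have h1 := H.det τ T.ζ T.hζ b hb
      have h2 : M τ = 1 := Matrix.ext_of_mulVec_single fun i => by
        rw [hcon τ hτ, Matrix.one_mulVec]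
      rw [h2, Matrix.det_one] at h1
      have h3 := T.natCast_eq_t hτ hb
      rw [he, pow_one] at h3
      have h4 : ((b : ℕ) : k) = ((1 : ℕ) : k) := by rw [← h1, Nat.cast_one]
      rw [CharP.natCast_eq_natCast k p] at h4
      have h5 : ((b : ℕ) : Kap P) = ((1 : ℕ) : Kap P) := (CharP.natCast_eq_natCast (Kap P) p).mpr h4
      rw [h3, Nat.cast_one] at h5
      have h6 : T.t τ ^ 1 = 1 := by rw [pow_one]; exact h5
      rw [T.t_pow_eq_one hprim, heE] at h6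
      have := Nat.le_of_dvd one_pos h6
      omega
    set w : Fin 2 → k := M g₁ *ᵥ x₁ - x₁ with hw
    have hw0 : w ≠ 0 := sub_ne_zero.mpr hx₁
    by_cases hall : ∀ g ∈ P.inertiaSubgroupIn ℚ, ∀ x, ∃ r : k, M g *ᵥ x - x = r • w
    · refine ⟨w, hw0, fun d hd => ?_, hall⟩
      have hc : d * g₁ * d⁻¹ ∈ P.inertiaSubgroupIn ℚ := conj_inertia hd hg₁
      obtain ⟨r, hr⟩ := hall _ hc (M d *ᵥ x₁)
      refine ⟨r, ?_⟩
      rw [← hr, hw, Matrix.mulVec_sub, Matrix.mulVec_mulVec, Matrix.mulVec_mulVec, ← map_mul,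
        ← map_mul]
      congr 3
      group
    · exfalso
      push Not at hall
      obtain ⟨g₂, hg₂, x₂, hx₂⟩ := hall
      -- every vector is in the connected part
      have hconn : ∀ g ∈ P.inertiaSubgroupIn ℚ, ∀ (x : Fin 2 → k) (r : k),
          r • (M g *ᵥ x - x) ∈ conn hA := by
        intro g hg x r
        rw [smul_sub, ← Matrix.mulVec_smul]
        exact act_sub_mem_conn hA ⟨g, hg⟩ (r • x)
      obtain ⟨r, s, hrs⟩ := exists_comb hw0 hx₂ v₁
      have hv₁c : v₁ ∈ conn hA := by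
        rw [hrs]
        exact (conn hA).add_mem (hconn g₁ hg₁ x₁ r) (hconn g₂ hg₂ x₂ s)
      have hlt : dist A v₁ < 1 := hv₁c
      obtain ⟨a, ha, hval⟩ := (hA.dist_spec v₁).2
      have hc0 : a v₁ - a 0 ≠ 0 := by
        intro h0
        rw [h0, map_zero] at hval
        exact (hA.dist_pos hv₁).ne hval
      obtain ⟨m, hm⟩ := exists_val_eq_zpow H.hp H.hP hc0 (fun g hg => by
        have h1 := hA.equiv a ha ⟨g, hg⟩ v₁
        have h2 := hA.equiv a ha ⟨g, hg⟩ 0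
        rw [map_zero] at h2
        have h3 : matAct P M ⟨g, hg⟩ v₁ = v₁ := by
          change M g *ᵥ v₁ = v₁
          rw [hψI g hg, hne g hg, one_smul]
        rw [h3] at h1
        rw [map_sub]
        exact congrArg₂ (· - ·) h1.symm h2.symm)
      have hzeta := hA.zeta_le_dist T hv₁ (by
        funext i
        change p • v₁ i = 0
        rw [nsmul_eq_mul, CharP.cast_eq_zero, zero_mul])
      rw [T.val_zeta_sub, he, pow_one, ← hval, hm, ← T.v_pow_e, heE, ← zpow_natCast, ← _root_.zpow_mul]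
        at hzeta
      rw [← hval, hm, ← T.v_pow_e, heE, ← zpow_natCast, ← _root_.zpow_mul] at hlt
      have h1 : T.v ^ ((p - 1 : ℕ) * m : ℤ) < T.v ^ (0 : ℤ) := by rw [zpow_zero]; exact hlt
      rw [T.zlt] at h1
      have h2 : T.v ^ (1 : ℤ) ≤ T.v ^ ((p - 1 : ℕ) * m : ℤ) := by rw [zpow_one]; exact hzeta
      rw [T.zle] at h2
      have h3 : 2 ≤ ((p - 1 : ℕ) : ℤ) := by
        have : 2 ≤ p - 1 := by omega
        exact_mod_cast this
      rcases lt_trichotomy m 0 with h | h | h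
      · nlinarith
      · rw [h, mul_zero] at h1; exact lt_irrefl _ h1
      · nlinarith

/-- **Ordinary shape in the reducible case.** -/
theorem ordShape {v₁ : Fin 2 → k} (hv₁ : v₁ ≠ 0)
    (hD : ∀ g ∈ P.decompositionSubgroup ℚ, ∃ r : k, M g *ᵥ v₁ = r • v₁) :
    ∃ Q : (Matrix (Fin 2) (Fin 2) k)ˣ, OrdShape p P (cj Q M) := by
  obtain ⟨w, hw0, hwD, hwI⟩ := H.exists_ord_line hv₁ hD
  obtain ⟨v₂, hv₂⟩ : ∃ v₂ : Fin 2 → k, ∀ r : k, v₂ ≠ r • w := by
    by_contra hcon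
    push Not at hcon
    obtain ⟨r, hr⟩ := hcon (Pi.single 0 1)
    obtain ⟨s, hs⟩ := hcon (Pi.single 1 1)
    have r0 := congrFun hr 0
    have r1 := congrFun hr 1
    have s0 := congrFun hs 0
    have s1 := congrFun hs 1
    simp only [Pi.single_eq_same, Pi.smul_apply, smul_eq_mul, ne_eq, one_ne_zero,
      not_false_eq_true, Pi.single_eq_of_ne, zero_ne_one] at r0 r1 s0 s1
    rcases mul_eq_zero.mp r1.symm with h | h
    · rw [h, zero_mul] at r0; exact one_ne_zero r0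
    · rw [h, mul_zero] at s1; exact one_ne_zero s1
  have hI : ∀ g ∈ P.inertiaSubgroupIn ℚ, ∃ r b : k,
      cj (colMat hw0 hv₂) M g = !![r, b; 0, 1] := by
    intro g hg
    obtain ⟨r, hr⟩ := hwD g (mem_dec_of_inertia hg)
    obtain ⟨b, hb⟩ := hwI g hg v₂
    exact ⟨r, b, cj_eq hw0 hv₂ (by rw [zero_smul, add_zero, hr])
      (by rw [← hb, one_smul, sub_add_cancel])⟩
  refine ⟨colMat hw0 hv₂, fun g hg => ?_, fun g hg => ?_, fun g hg ζ hζ a ha => ?_⟩
  · obtain ⟨r, hr⟩ := hwD g hg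
    obtain ⟨b, d, hbd⟩ := exists_comb hw0 hv₂ (M g *ᵥ v₂)
    rw [cj_eq hw0 hv₂ (a := r) (c := 0) (by rw [zero_smul, add_zero, hr]) hbd]
    rfl
  · obtain ⟨r, b, h⟩ := hI g hg
    rw [h]; rfl
  · obtain ⟨r, b, h⟩ := hI g hg
    have h1 := H.det g ζ hζ a ha
    rw [← det_cj (colMat hw0 hv₂), h, Matrix.det_fin_two_of] at h1
    rw [h]
    change r = a
    rw [← h1]; ring

/-- **Dichotomy.** -/
theorem dichotomy : (∃ Q : (Matrix (Fin 2) (Fin 2) k)ˣ, OrdShape p P (cj Q M)) ∨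
    ∀ (T : Tame p P), T.e₁ = p + 1 → ∀ φ : GQ, P.IsFrobeniusAt φ p →
      ∃ (Q : (Matrix (Fin 2) (Fin 2) k)ˣ) (χ₁ χ₂ : In P →* kˣ), IrrShape T φ (cj Q M) χ₁ χ₂ := by
  by_cases h : ∃ v : Fin 2 → k, v ≠ 0 ∧
      ∀ g ∈ P.decompositionSubgroup ℚ, ∃ r : k, M g *ᵥ v = r • v
  · obtain ⟨v, hv, hD⟩ := h
    exact Or.inl (H.ordShape hv hD)
  · push Not at h
    right
    intro T he φ hφ
    exact H.irrShape (fun v hv hcon => by
      obtain ⟨g, hg, h1⟩ := h v hv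
      obtain ⟨r, hr⟩ := hcon g hg
      exact h1 r hr) T he hφ

end StrHyp

end Fermat.Agent.TWFlat
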