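import Fermat.Agent.TWP.FlatLoc.OrdOf
import Fermat.Agent.TWP.GW.Final

set_option autoImplicit false
set_option linter.style.haveILetI false
set_option linter.unusedVariables false
set_option linter.unusedSectionVars false

/-!
# The space of flat cocycles
-/

open Pointwise

namespace Fermat.Agent.TWFlat

open Module Matrix IsLocalRing Fermat.Agent.TWP.GW Fermat.Agent.CFT.LC ExtCitation
open Fermat.Agent.TWP (SelFlat locConst_of_isModelR)
open Fermat.Agent.CFT.PT

section

variable {P : ValuationSubring Om} {k : Type} [Field k] [Finite k]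

/-- The space of flat cocycles (at the place `P`). -/
noncomputable def flatW (P : ValuationSubring Om) (M : GQ →* Matrix (Fin 2) (Fin 2) k)
    (hex : ∃ p : ℕ, p.Prime ∧ P.LiesOverPrime p) (h0 : HasOrd (vecAct P M)) :
    Submodule k (GQ → Matrix (Fin 2) (Fin 2) k) where
  carrier := {a | a ∈ zAd M (krull ℚ Om) ∧ EpsOrd P M a}
  zero_mem' := ⟨Submodule.zero_mem _, EpsOrd.zero hex h0⟩
  add_mem' := fun {a b} ha hb => ⟨Submodule.add_mem _ ha.1 hb.1, ha.2.add hex hb.2⟩
  smul_mem' := fun c a ha => ⟨Submodule.smul_mem _ c ha.1, ha.2.smul hex h0 c⟩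

theorem mem_flatW {M : GQ →* Matrix (Fin 2) (Fin 2) k}
    {hex : ∃ p : ℕ, p.Prime ∧ P.LiesOverPrime p} {h0 : HasOrd (vecAct P M)}
    {a : GQ → Matrix (Fin 2) (Fin 2) k} :
    a ∈ flatW P M hex h0 ↔ a ∈ zAd M (krull ℚ Om) ∧ EpsOrd P M a := Iff.rfl

/-- restriction to a subgroup -/
noncomputable def resD (k : Type) [Field k] (D : Subgroup GQ) :
    (GQ → Matrix (Fin 2) (Fin 2) k) →ₗ[k] (D → Matrix (Fin 2) (Fin 2) k) :=
  LinearMap.funLeft k _ (fun d : D => (d : GQ))

theorem resD_apply (D : Subgroup GQ) (a : GQ → Matrix (Fin 2) (Fin 2) k) (d : D) :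
    resD k D a d = a d := rfl

end

section

variable {𝒪 : Type} [CommRing 𝒪] [IsLocalRing 𝒪] [Finite (ResidueField 𝒪)]
  {p : ℕ} [Fact p.Prime] {ρbar : ResidualGaloisRep (ResidueField 𝒪)}
  {M : GQ →* Matrix (Fin 2) (Fin 2) (ResidueField 𝒪)}

theorem hex_pPrime : ∃ l : ℕ, l.Prime ∧ (primeLocalPlace (pPrime p)).LiesOverPrime l :=
  ⟨p, Fact.out, primeLocalPlace_liesOverPrime (pPrime p)⟩

/-- the flat local condition, from the bound on the space of flat cocycles -/
theorem hasLocal_of_bound (hM : UDef.IsModelR ρbar M)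
    (h0 : HasOrd (vecAct (primeLocalPlace (pPrime p)) M))
    (hb : finrank (ResidueField 𝒪) ((flatW (primeLocalPlace (pPrime p)) M (hex_pPrime (p := p))
      h0).map (resD (ResidueField 𝒪) (Dq (pPrime p)))) ≤ 4) :
    HasLocal M (pPrime p) 4 (SelFlat M p) := by
  have hp : p.Prime := Fact.out
  have hP : (primeLocalPlace (pPrime p)).LiesOverPrime p :=
    primeLocalPlace_liesOverPrime (pPrime p)
  refine ⟨_, ?_, ?_, hb, ?_⟩
  · rintro _ ⟨a, ha, rfl⟩
    exact restrict_mem_zD ha.1
  · intro X hX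
    refine ⟨fun g => adj M g X - X, ⟨?_, ?_⟩, rfl⟩
    · refine ⟨fun g => ?_, fun g h => ?_, ?_⟩
      · rw [Matrix.trace_sub, trace_adj, sub_self]
      · have h1 : adj M (g * h) X = adj M g (adj M h X) := by
          rw [adj, adj, adj, _root_.mul_inv_rev, map_mul, map_mul]; simp only [mul_assoc]
        show adj M (g * h) X - X = (adj M g X - X) + adj M g (adj M h X - X)
        rw [h1]
        simp only [adj, mul_sub, sub_mul]
        abel
      · have hlc : IsLC₁ (krull ℚ Om) M := locConst_iff.mp (locConst_of_isModelR hM)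
        obtain ⟨N, hN, h⟩ := hlc
        refine ⟨N, hN, fun g s hs => ?_⟩
        have h1 : M s = 1 := by
          have := h 1 s hs
          rwa [one_mul, map_one] at this
        have h2 : M s⁻¹ = 1 := by
          have h3 : M s⁻¹ * M s = 1 := by rw [← map_mul, inv_mul_cancel, map_one]
          rwa [h1, mul_one] at h3
        simp only [adj]
        rw [_root_.mul_inv_rev, map_mul, map_mul, h1, h2, one_mul, mul_one]
    · exact EpsOrd.cob (hex_pPrime (p := p)) h0 X
  · intro a ha hfl
    exact ⟨a, ⟨ha, epsOrd_of_selFlat hp hP hfl⟩, rfl⟩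

end

end Fermat.Agent.TWFlat
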