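import Mathlib
import Fermat.Agent.TWP.FlatLoc.IrrMain
import Fermat.Agent.TWP.FlatLoc.Struct3
import Fermat.Agent.TWP.FlatLoc.Wfl

set_option autoImplicit false
set_option linter.style.haveILetI false
set_option linter.unusedVariables false
set_option linter.unusedSectionVars false

/-!
# The flat local bound, irreducible case
-/

open Pointwise

namespace Fermat.Agent.TWFlat

open Module Matrix Fermat.Agent.TWP.GW Fermat.Agent.CFT.LC Fermat.Agent.TWP.FlatLoc
  Fermat.Agent.TWP.Flat.Kummer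

variable {P : ValuationSubring Om} {p : ℕ} {k : Type} [Field k]

namespace Tame

variable (T : Tame p P)

/-- the inclusion of `G` in the decomposition group -/
noncomputable def inclD (g : T.G) : ↥(P.decompositionSubgroup ℚ) := ⟨g, mem_dec_of_inertia g.2.1⟩

/-- conjugation by an element of the decomposition group -/
noncomputable def conjG (s : ↥(P.decompositionSubgroup ℚ)) : T.G ≃ T.G where
  toFun g := ⟨s * g * (s : GQ)⁻¹, T.conj_mem s.2 g.2⟩
  invFun g := ⟨(s : GQ)⁻¹ * g * s, T.conj_mem' s.2 g.2⟩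
  left_inv g := Subtype.ext (by
    change (s : GQ)⁻¹ * (s * g * (s : GQ)⁻¹) * s = g
    group)
  right_inv g := Subtype.ext (by
    change (s : GQ) * ((s : GQ)⁻¹ * g * s) * (s : GQ)⁻¹ = g
    group)

theorem eqv (s : ↥(P.decompositionSubgroup ℚ)) :
    Eqv P.valuation T.inclD s ((s : GQ) : Om ≃+* Om) (T.conjG s) where
  hι g := Subtype.ext rfl
  hc g x := by
    change (s : GQ) ((g : GQ) x) = ((s : GQ) * (g : GQ) * (s : GQ)⁻¹) ((s : GQ) x)
    have : ((s : GQ) * (g : GQ) * (s : GQ)⁻¹) ((s : GQ) x) =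
      (s : GQ) ((g : GQ) (((s : GQ)⁻¹ * (s : GQ)) x)) := rfl
    rw [this, inv_mul_cancel]; rfl
  hv x := val_dec s.2 x

end Tame

variable {T : Tame p P} {φ : GQ} {M : GQ →* Matrix (Fin 2) (Fin 2) k} {χ₁ χ₂ : In P →* kˣ}

namespace IrrShape

variable (S : IrrShape T φ M χ₁ χ₂)

include S

theorem isFund₁ : IsFund T χ₁ := ⟨S.triv₁, S.fund₁⟩

theorem isFund₂ : IsFund T χ₂ := ⟨S.triv₂, S.fund₂⟩

/-- the characters as a family -/
def chi (χ₁ χ₂ : In P →* kˣ) : Fin 2 → In P →* kˣ := ![χ₁, χ₂]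

theorem isFund (i : Fin 2) : IsFund T (chi χ₁ χ₂ i) := by
  fin_cases i
  · exact S.isFund₁
  · exact S.isFund₂

theorem entry (g : In P) (i j : Fin 2) :
    M g i j = if i = j then (chi χ₁ χ₂ i g : k) else 0 := by
  rw [S.diag g]
  fin_cases i <;> fin_cases j <;> rfl

/-- flat cocycles have the required breaks -/
theorem flBreak [Finite k] [CharP k p] {a : GQ → Matrix (Fin 2) (Fin 2) k} (ha : EpsOrd P M a) :
    FlBreak P.valuation T.inclD p T.π T.ζ (fun d : P.decompositionSubgroup ℚ => a d) := by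
  have hex : ∃ p : ℕ, p.Prime ∧ P.LiesOverPrime p := ⟨p, T.hp, T.hP⟩
  have he := S.he
  have hb : ∀ (j : Fin 2) (g : T.G), (chi χ₁ χ₂ j (T.incl g) : k) = 1 := by
    intro j g
    rw [(S.isFund j).1 (T.incl g) g.2, Units.val_one]
  refine ⟨fun i j ℓ g₀ h₀ => ?_, fun i j l hl ℓ g₀ h₀ => ?_⟩
  · obtain ⟨hd, hord⟩ := ha.entry hex (chi χ₁ χ₂) S.entry i j
    have h1 := break_irr T he (S.isFund i) (S.isFund j) hord ℓ g₀ (by
      change ℓ (a g₀ i j * (chi χ₁ χ₂ j (T.incl g₀) : k)) ≠ 0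
      rw [hb, mul_one]; exact h₀)
    rw [he] at h1
    have h2 : (fun g : T.G => ℓ (a (T.incl g) i j * (chi χ₁ χ₂ j (T.incl g) : k))) =
        fun g : T.G => ℓ (a g i j) := by
      funext g
      rw [hb, mul_one]; rfl
    rw [h2] at h1
    exact h1
  · obtain ⟨hd, hord⟩ := ha.entry hex (chi χ₁ χ₂) S.entry i j
    have h1 := break_irr_line T he (S.isFund i) (S.isFund j) hord l (by
      intro g
      obtain ⟨n, hn⟩ := hl g
      refine ⟨n, ?_⟩
      change a g i j * (chi χ₁ χ₂ j (T.incl g) : k) = n * l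
      rw [hb, mul_one]; exact hn) ℓ g₀ (by
      change ℓ (a g₀ i j * (chi χ₁ χ₂ j (T.incl g₀) : k)) ≠ 0
      rw [hb, mul_one]; exact h₀)
    rw [he] at h1
    have h2 : (fun g : T.G => ℓ (a (T.incl g) i j * (chi χ₁ χ₂ j (T.incl g) : k))) =
        fun g : T.G => ℓ (a g i j) := by
      funext g
      rw [hb, mul_one]; rfl
    rw [h2] at h1
    exact h1

/-- the adapted basis -/
theorem adBasis [Finite k] [CharP k p] {τ : In P} (hτ : IsPrimitiveRoot (T.th τ) T.e) :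
    AdBasis (M.comp (P.decompositionSubgroup ℚ).subtype)
      ((P.inertiaSubgroupIn ℚ).subgroupOf (P.decompositionSubgroup ℚ))
      (T.G.subgroupOf (P.decompositionSubgroup ℚ)) ⟨τ, mem_dec_of_inertia τ.2⟩
      ⟨φ, (frob_iff.mp S.frob).1⟩ where
  MN g hg := by
    have hg' : (g : GQ) ∈ T.G := hg
    have h1 := S.diag ⟨g, hg'.1⟩
    rw [S.triv₁ ⟨g, hg'.1⟩ hg', S.triv₂ ⟨g, hg'.1⟩ hg', Units.val_one] at h1
    change M g = 1
    rw [h1, Matrix.one_fin_two]
  diag g hg := by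
    have h1 := S.diag ⟨g, hg⟩
    change M g 0 1 = 0 ∧ M g 1 0 = 0
    rw [h1]
    exact ⟨rfl, rfl⟩
  τI := τ.2
  τgen g hg := by
    obtain ⟨j, h, hh, hgh⟩ := T.exists_decomp τ.2 hτ (g := g) hg
    exact ⟨j, ⟨h, mem_dec_of_inertia hh.1⟩, hh, Subtype.ext hgh⟩
  τe := by
    refine ⟨T.e, ?_, ?_⟩
    · change (τ : GQ) ^ T.e ∈ T.G
      rw [T.mem_G']
      exact ⟨pow_mem τ.2 _, by rw [T.th_pow_apply τ.2, T.th_pow]⟩
    · rw [Ne, CharP.cast_eq_zero_iff k p]
      exact T.not_dvd_e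
  ratio := by
    change M τ 0 0 ≠ M τ 1 1
    rw [S.diag τ]
    change (χ₁ τ : k) ≠ χ₂ τ
    intro h
    exact (S.quad τ hτ 1 (by rw [one_mul]; exact h.symm)).1 (one_pow p)
  anti := S.anti
  conjI g hg := by
    change (φ⁻¹ * (g : GQ) * φ) ∈ P.inertiaSubgroupIn ℚ
    have h1 := conj_inertia (inv_mem (frob_iff.mp S.frob).1) (g := g) hg
    rwa [inv_inv] at h1
  two := by
    have h : ((2 : ℕ) : k) ≠ 0 := by
      rw [Ne, CharP.cast_eq_zero_iff k p, Nat.dvd_prime Nat.prime_two]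
      have := T.three_le
      omega
    exact_mod_cast h

/-- **The flat local bound in the irreducible case.** -/
theorem finrank_flat [Finite k] [CharP k p] (hM : IsLC₁ (krull ℚ Om) M)
    (W : Submodule k (GQ → Matrix (Fin 2) (Fin 2) k))
    (hW : ∀ a ∈ W, a ∈ zAd M (krull ℚ Om) ∧ EpsOrd P M a) :
    Module.Finite k (W.map (resD k (P.decompositionSubgroup ℚ))) ∧
      finrank k (W.map (resD k (P.decompositionSubgroup ℚ))) ≤ 4 := by
  obtain ⟨τ, hτI, hprim⟩ := T.exists_tame_gen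
  set D := P.decompositionSubgroup ℚ with hD
  let τI : In P := ⟨τ, hτI⟩
  have B := S.adBasis (τ := τI) hprim
  have hp3 := T.three_le
  have Dt : Data P.valuation T.G p (p + 1) T.π T.ζ := by
    have := T.data
    rwa [S.he] at this
  let τD : D := ⟨τ, mem_dec_of_inertia hτI⟩
  let φD : D := ⟨φ, (frob_iff.mp S.frob).1⟩
  let Lv : Lvl D := (krull ℚ Om).comap D.subtype
  have hιN : ∀ g, T.inclD g ∈ T.G.subgroupOf D := fun g => g.2
  have hNι : ∀ s ∈ T.G.subgroupOf D, ∃ g, T.inclD g = s := fun s hs => ⟨⟨s, hs⟩, Subtype.ext rfl⟩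
  have hMD : IsLC₁ Lv (M.comp D.subtype) := by
    obtain ⟨N, hN, h⟩ := hM
    exact ⟨_, Lvl.comap_mem_levels D.subtype hN, fun g s hs => h g s hs⟩
  -- density
  have hdens : ∀ c ∈ zAd (M.comp D.subtype) Lv,
      (∀ σ ∈ (P.inertiaSubgroupIn ℚ).subgroupOf D, c σ = 0) → c φD = 0 → c = 0 := by
    intro c hc hI hφ
    obtain ⟨N, hN, hlev⟩ := hc.2.2
    obtain ⟨N', ⟨F, hF, -, rfl⟩, rfl⟩ := Lvl.mem_comap_levels.mp hN
    haveI : FiniteDimensional ℚ F := hF
    funext g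
    obtain ⟨n, σ, hσ, h⟩ := exists_frob_mul_inertia T.hp T.hP S.frob g.2 F
    have hσD : σ ∈ D := mem_dec_of_inertia hσ
    have h1 : c g = c (φD ^ n * ⟨σ, hσD⟩) := by
      have h2 : g = (φD ^ n * ⟨σ, hσD⟩) * ((φD ^ n * ⟨σ, hσD⟩)⁻¹ * g) := by group
      conv_lhs => rw [h2]
      refine hlev _ _ ?_
      change ((φ ^ n * σ)⁻¹ * (g : GQ)) ∈ F.fixingSubgroup
      rw [IntermediateField.mem_fixingSubgroup_iff]
      intro x hx
      change (φ ^ n * σ)⁻¹ ((g : GQ) x) = x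
      rw [h x hx]
      change ((φ ^ n * σ)⁻¹ * (φ ^ n * σ)) x = x
      rw [inv_mul_cancel]; rfl
    have hcoc : IsCoc (M.comp D.subtype) c := hc.2.1
    rw [h1, hcoc, hcoc.pow_eq_zero hφ, hI ⟨σ, hσD⟩ hσ, adj_zero, add_zero]
    rfl
  -- the ratio of the characters
  have hy1 : AdBasis.y (M.comp D.subtype) τD * χ₂ τI = χ₁ τI := by
    have h1 : AdBasis.y (M.comp D.subtype) τD = (χ₁ τI : k) * (χ₂ τI⁻¹ : k) := by
      change M τ 0 0 * M τ⁻¹ 1 1 = _
      have h2 := S.diag τI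
      have h3 := S.diag τI⁻¹
      have h4 : ((τI⁻¹ : In P) : GQ) = τ⁻¹ := rfl
      rw [h4] at h3
      have h5 : ((τI : In P) : GQ) = τ := rfl
      rw [h5] at h2
      rw [h2, h3]
      rfl
    rw [h1, map_inv, mul_assoc, Units.inv_mul, mul_one]
  obtain ⟨hy, a, hya, ha⟩ := S.quad τI hprim _ hy1
  have htriv : ∀ x : Om, P.valuation x ≤ 1 →
      P.valuation (((τ : Om ≃+* Om)) x - x) < 1 := fun x hx => val_sub_lt hτI hx
  have hord : ∀ n : ℕ, P.valuation (((τ : Om ≃+* Om) T.π / T.π) ^ n - 1) < 1 →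
      (p - 1) * (p + 1) ∣ n := by
    intro n hn
    have h1 : T.th τ ^ n = 1 := by
      refine root_eq_one T.hp T.hP T.not_dvd_e ?_ hn
      rw [← pow_mul, mul_comm, pow_mul, T.th_pow, one_pow]
    have h2 := hprim.dvd_of_pow_eq_one n h1
    rwa [Tame.e, S.he, mul_comm] at h2
  have hΦ : ∀ x : Om, P.valuation x ≤ 1 → P.valuation ((φ : Om ≃+* Om) x - x ^ p) < 1 :=
    (frob_iff.mp S.frob).2
  have hL := finrank_irrL Dt B hιN hNι hp3 (T.eqv τD) (T.eqv φD) htriv hord a ha hΦ hy hya hMD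
    hdens
  have hle : W.map (resD k D) ≤ irrL Dt T.inclD (M.comp D.subtype) Lv := by
    rintro _ ⟨c, hc, rfl⟩
    obtain ⟨h1, h2⟩ := hW c hc
    refine mem_irrL_of_flBreak Dt B hιN hp3 (T.eqv τD) (T.eqv φD) htriv hord a ha hΦ hya ?_
      (S.flBreak h2)
    refine ⟨fun g => h1.1 g, fun g h => ?_, ?_⟩
    · have h3 := h1.2.1 g h
      rw [adj_comp]
      exact h3
    · obtain ⟨N, hN, h⟩ := h1.2.2
      exact ⟨_, Lvl.comap_mem_levels D.subtype hN, fun g s hs => h g s hs⟩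
  haveI := hL.1
  refine ⟨Module.Finite.of_injective (Submodule.inclusion hle)
    (Submodule.inclusion_injective hle), (Submodule.finrank_mono hle).trans hL.2⟩

end IrrShape

end Fermat.Agent.TWFlat
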