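import Fermat.Agent.TWP.FlatLoc.Main
import Fermat.Agent.TWP.FlatLoc.IrrFinal

set_option autoImplicit false
set_option linter.style.haveILetI false
set_option linter.unusedVariables false
set_option linter.unusedSectionVars false

/-!
# The flat local bound, unconditionally
-/

open Pointwise

namespace Fermat.Agent.TWFlat

open Module Matrix IsLocalRing Fermat.Agent.TWP.GW Fermat.Agent.CFT.LC ExtCitation Polynomial
open Fermat.Agent.TWP (SelFlat)
open Fermat.Agent.CFT.PT

theorem irrBound (p : ℕ) (P : ValuationSubring Om) (k : Type) [Field k] [Finite k] [CharP k p] :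
    IrrBound p P k :=
  fun _ _ _ _ _ S _ hM W hW => (IrrShape.finrank_flat S hM W hW).2

variable {𝒪 : Type} [CommRing 𝒪] [IsLocalRing 𝒪] [Finite (ResidueField 𝒪)]
  {p : ℕ} [Fact p.Prime] {ρbar : ResidualGaloisRep (ResidueField 𝒪)}
  {M : GQ →* Matrix (Fin 2) (Fin 2) (ResidueField 𝒪)}

/-- **The flat local condition at `p` has dimension at most four.** -/
theorem hasLocal_flat (hp2 : p ≠ 2) (hM : UDef.IsModelR ρbar M)
    (hdet : (GaloisRepAdic.ofResidualGaloisRep ρbar).DetIsCyclotomic p)
    (hsplit : ∀ σ : GQ, ∃ α β : ResidueField 𝒪,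
      LinearMap.charpoly (ρbar.ρ σ) = (X - C α) * (X - C β))
    (hflat : (GaloisRepAdic.ofResidualGaloisRep ρbar).IsFlatAt p) :
    HasLocal M (pPrime p) 4 (SelFlat M p) :=
  hasLocal_flat_of hp2 hM hdet hsplit (fun _ => irrBound _ _ _) hflat

end Fermat.Agent.TWFlat
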