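import Mathlib
import Fermat.Agent.QbarInst
import Fermat.Agent.FlatOrd.Unramified
import Fermat.Agent.TWP.Place
import Fermat.Agent.EllRed.ResidueField

set_option autoImplicit false
set_option linter.style.haveILetI false
set_option linter.unusedVariables false

/-!
# Valuations on `ℚ̄` and the inertia group
-/

open Pointwise

namespace Fermat.Agent.TWFlat

abbrev Om : Type := AlgebraicClosure ℚ
abbrev GQ : Type := AlgebraicClosure ℚ ≃ₐ[ℚ] AlgebraicClosure ℚ

section basic

variable {P : ValuationSubring Om}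

theorem val_le_iff {x y : Om} (hx : x ≠ 0) : P.valuation y ≤ P.valuation x ↔ y / x ∈ P := by
  rw [← P.valuation_le_one_iff, map_div₀, div_le_one₀ (zero_lt_iff.mpr ((map_ne_zero _).mpr hx))]

theorem mem_of_dec {g : GQ} (hg : g ∈ P.decompositionSubgroup ℚ) {x : Om} : g x ∈ P ↔ x ∈ P := by
  have h : g • P = P := hg
  conv_lhs => rw [← h]
  exact TWP.Place.smul_mem_smul P g

theorem val_le_iff_dec {g : GQ} (hg : g ∈ P.decompositionSubgroup ℚ) {x y : Om} :
    P.valuation (g y) ≤ P.valuation (g x) ↔ P.valuation y ≤ P.valuation x := by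
  by_cases hx : x = 0
  · subst hx
    rw [map_zero, map_zero, le_zero_iff, le_zero_iff, map_eq_zero, map_eq_zero, map_eq_zero]
  · rw [val_le_iff hx, val_le_iff ((map_ne_zero g).mpr hx), ← map_div₀, mem_of_dec hg]

theorem exists_pow_fix (g : GQ) (x : Om) : ∃ r : ℕ, 0 < r ∧ (g ^ r) x = x := by
  have hx : IsIntegral ℚ x := Algebra.IsIntegral.isIntegral x
  have hfin : ((minpoly ℚ x).rootSet Om).Finite := Polynomial.rootSet_finite _ _
  let f : ℕ → (minpoly ℚ x).rootSet Om := fun n => ⟨(g ^ n) x, by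
    rw [Polynomial.mem_rootSet]
    refine ⟨minpoly.ne_zero hx, ?_⟩
    rw [← AlgEquiv.coe_toAlgHom, Polynomial.aeval_algHom_apply, minpoly.aeval, map_zero]⟩
  haveI : Finite ((minpoly ℚ x).rootSet Om) := hfin
  obtain ⟨a, b, hab, h⟩ := Finite.exists_ne_map_eq_of_infinite f
  have h' : (g ^ a) x = (g ^ b) x := congrArg Subtype.val h
  wlog hlt : a < b generalizing a b
  · exact this b a hab.symm h.symm h'.symm (lt_of_le_of_ne (not_lt.mp hlt) hab.symm)
  refine ⟨b - a, by omega, ?_⟩
  apply (g ^ a).injective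
  have : (g ^ a) ((g ^ (b - a)) x) = (g ^ a * g ^ (b - a)) x := rfl
  rw [this, ← pow_add, Nat.add_sub_cancel' hlt.le, h']

theorem val_dec {g : GQ} (hg : g ∈ P.decompositionSubgroup ℚ) (x : Om) :
    P.valuation (g x) = P.valuation x := by
  obtain ⟨r, hr, hrx⟩ := exists_pow_fix g x
  have hpow : ∀ n : ℕ, g ^ n ∈ P.decompositionSubgroup ℚ := fun n => Subgroup.pow_mem _ hg n
  have hsucc : ∀ n, (g ^ (n + 1)) x = g ((g ^ n) x) := fun n => by rw [pow_succ']; rfl
  refine le_antisymm ?_ ?_
  · by_contra hcon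
    push Not at hcon
    have key : ∀ n, P.valuation x < P.valuation ((g ^ (n + 1)) x) := by
      intro n
      induction n with
      | zero => simpa using hcon
      | succ n ih =>
        rw [hsucc (n + 1)]
        refine hcon.trans ?_
        rw [← not_le] at ih ⊢
        rwa [val_le_iff_dec hg]
    have := key (r - 1)
    rw [Nat.sub_add_cancel hr, hrx] at this
    exact lt_irrefl _ this
  · by_contra hcon
    push Not at hcon
    have key : ∀ n, P.valuation ((g ^ (n + 1)) x) < P.valuation x := by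
      intro n
      induction n with
      | zero => simpa using hcon
      | succ n ih =>
        rw [hsucc (n + 1)]
        refine lt_of_lt_of_le ?_ hcon.le
        rw [← not_le] at ih ⊢
        rwa [val_le_iff_dec hg]
    have := key (r - 1)
    rw [Nat.sub_add_cancel hr, hrx] at this
    exact lt_irrefl _ this

theorem mem_dec_of_inertia {g : GQ} (hg : g ∈ P.inertiaSubgroupIn ℚ) :
    g ∈ P.decompositionSubgroup ℚ :=
  FlatOrd.InertiaLift.mem_decompositionSubgroup_of_mem_inertia P hg

theorem val_inertia {g : GQ} (hg : g ∈ P.inertiaSubgroupIn ℚ) (x : Om) :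
    P.valuation (g x) = P.valuation x := val_dec (mem_dec_of_inertia hg) x

/-- inertia acts trivially on residues -/
theorem val_sub_lt {g : GQ} (hg : g ∈ P.inertiaSubgroupIn ℚ) {x : Om} (hx : P.valuation x ≤ 1) :
    P.valuation (g x - x) < 1 := by
  rw [← ValuationSubring.mem_nonunits_iff]
  exact FlatOrd.InertiaLift.sub_mem_nonunits_of_mem_inertia P hg ((P.valuation_le_one_iff x).mp hx)

/-- inertia acts on leading coefficients through the action on a reference element of the same
valuation -/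
theorem val_div_sub_lt {g : GQ} (hg : g ∈ P.inertiaSubgroupIn ℚ) {x y : Om} (hy : y ≠ 0)
    (hxy : P.valuation x ≤ P.valuation y) :
    P.valuation (g x / g y - x / y) < 1 := by
  rw [← map_div₀]
  refine val_sub_lt hg ?_
  rw [map_div₀]
  exact div_le_one_of_le₀ hxy zero_le

/-- the inertia group is normalised by the decomposition group -/
theorem conj_inertia {s g : GQ} (hs : s ∈ P.decompositionSubgroup ℚ)
    (hg : g ∈ P.inertiaSubgroupIn ℚ) : s * g * s⁻¹ ∈ P.inertiaSubgroupIn ℚ := by
  have h := TWP.Place.mem_inertia_conj s hg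
  have h2 : s • P = P := hs
  rwa [h2] at h

/-- strict monotonicity of integral powers -/
theorem zpow_le_iff {a : P.ValueGroup} (h0 : 0 < a) (h1 : a < 1) {m n : ℤ} :
    a ^ m ≤ a ^ n ↔ n ≤ m := zpow_le_zpow_iff_right_of_lt_one₀ h0 h1

theorem zpow_lt_iff {a : P.ValueGroup} (h0 : 0 < a) (h1 : a < 1) {m n : ℤ} :
    a ^ m < a ^ n ↔ n < m := zpow_lt_zpow_iff_right_of_lt_one₀ h0 h1

theorem zpow_inj_iff {a : P.ValueGroup} (h0 : 0 < a) (h1 : a < 1) {m n : ℤ} :
    a ^ m = a ^ n ↔ n = m := by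
  rw [le_antisymm_iff, zpow_le_iff h0 h1, zpow_le_iff h0 h1]
  constructor
  · rintro ⟨h, h'⟩; omega
  · rintro rfl; exact ⟨le_rfl, le_rfl⟩

theorem pow_inj {a b : P.ValueGroup} {n : ℕ} (hn : n ≠ 0) (h : a ^ n = b ^ n) : a = b :=
  (pow_left_inj₀ zero_le zero_le hn).mp h

theorem pow_le_pow_iff {a b : P.ValueGroup} {n : ℕ} (hn : n ≠ 0) : a ^ n ≤ b ^ n ↔ a ≤ b :=
  pow_le_pow_iff_left₀ zero_le zero_le hn

end basic

section overp

variable {P : ValuationSubring Om} {p : ℕ}

theorem val_p_lt (hP : P.LiesOverPrime p) : P.valuation (p : Om) < 1 := by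
  rw [← ValuationSubring.mem_nonunits_iff]; exact hP

theorem val_intCast_le (n : ℤ) : P.valuation (n : Om) ≤ 1 :=
  (P.valuation_le_one_iff _).mpr (intCast_mem P n)

theorem val_natCast_le (n : ℕ) : P.valuation (n : Om) ≤ 1 :=
  (P.valuation_le_one_iff _).mpr (natCast_mem P n)

theorem val_p_pos (hp : p.Prime) : 0 < P.valuation (p : Om) := by
  rw [zero_lt_iff, Ne, map_eq_zero]
  exact_mod_cast hp.ne_zero

/-- integers prime to `p` are units -/
theorem val_intCast_eq_one (hp : p.Prime) (hP : P.LiesOverPrime p) {n : ℤ} (hn : ¬ (p : ℤ) ∣ n) :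
    P.valuation (n : Om) = 1 := by
  refine le_antisymm (val_intCast_le n) ?_
  by_contra hcon
  push Not at hcon
  have hcop : IsCoprime (p : ℤ) n := by
    rw [Int.isCoprime_iff_gcd_eq_one]
    rcases (Nat.dvd_prime hp).mp (Int.gcd_dvd_natAbs_left (p : ℤ) n) with h | h
    · exact h
    · exfalso
      apply hn
      have := Int.gcd_dvd_right (p : ℤ) n
      rwa [h] at this
  obtain ⟨a, b, hab⟩ := hcop
  have h1 : (1 : Om) = a * p + b * n := by exact_mod_cast hab.symm
  have h2 : P.valuation (1 : Om) < 1 := by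
    rw [h1]
    refine lt_of_le_of_lt (P.valuation.map_add _ _) (max_lt ?_ ?_)
    · rw [map_mul]
      exact mul_lt_one_of_nonneg_of_lt_one_right (val_intCast_le a) zero_le (val_p_lt hP)
    · rw [map_mul]
      exact mul_lt_one_of_nonneg_of_lt_one_right (val_intCast_le b) zero_le hcon
  rw [map_one] at h2
  exact lt_irrefl _ h2

theorem val_natCast_eq_one (hp : p.Prime) (hP : P.LiesOverPrime p) {n : ℕ} (hn : ¬ p ∣ n) :
    P.valuation (n : Om) = 1 := by
  have := val_intCast_eq_one (P := P) hp hP (n := (n : ℤ)) (by exact_mod_cast hn)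
  exact_mod_cast this

theorem val_intCast_lt_iff (hp : p.Prime) (hP : P.LiesOverPrime p) {n : ℤ} :
    P.valuation (n : Om) < 1 ↔ (p : ℤ) ∣ n := by
  constructor
  · intro h
    by_contra hn
    rw [val_intCast_eq_one hp hP hn] at h
    exact lt_irrefl _ h
  · rintro ⟨m, rfl⟩
    push_cast
    rw [map_mul]
    exact mul_lt_one_of_nonneg_of_lt_one_left zero_le (val_p_lt hP) (val_intCast_le m)

/-- a root of unity of order prime to `p` is determined by its residue -/
theorem root_eq_one (hp : p.Prime) (hP : P.LiesOverPrime p) {ρ : Om} {N : ℕ} (hN : ¬ p ∣ N)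
    (hρ : ρ ^ N = 1) (h : P.valuation (ρ - 1) < 1) : ρ = 1 := by
  have hρ1 : P.valuation ρ ≤ 1 := by
    have : ρ = (ρ - 1) + 1 := by ring
    rw [this]
    refine (P.valuation.map_add _ _).trans (max_le h.le ?_)
    rw [map_one]
  have h1 : (∑ i ∈ Finset.range N, ρ ^ i) * (ρ - 1) = 0 := by
    rw [geom_sum_mul, hρ, sub_self]
  rcases mul_eq_zero.mp h1 with h2 | h2
  · exfalso
    have h3 : (N : Om) = - ∑ i ∈ Finset.range N, (ρ ^ i - 1) := by
      rw [Finset.sum_sub_distrib, h2]
      simp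
    have h4 : P.valuation (N : Om) < 1 := by
      rw [h3, Valuation.map_neg]
      refine Valuation.map_sum_lt _ one_ne_zero fun i _ => ?_
      rw [← geom_sum_mul, map_mul]
      refine mul_lt_one_of_nonneg_of_lt_one_right ?_ zero_le h
      refine Valuation.map_sum_le _ fun j _ => ?_
      rw [map_pow]
      exact pow_le_one₀ zero_le hρ1
    rw [val_natCast_eq_one hp hP hN] at h4
    exact lt_irrefl _ h4
  · exact sub_eq_zero.mp h2

theorem val_root {ρ : Om} {N : ℕ} (hN : N ≠ 0) (hρ : ρ ^ N = 1) : P.valuation ρ = 1 := by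
  refine pow_inj hN ?_
  rw [← map_pow, hρ, map_one, one_pow]

/-- inertia fixes roots of unity of order prime to `p` -/
theorem root_fixed (hp : p.Prime) (hP : P.LiesOverPrime p) {g : GQ}
    (hg : g ∈ P.inertiaSubgroupIn ℚ) {ρ : Om} {N : ℕ} (hN : ¬ p ∣ N) (hρ : ρ ^ N = 1) :
    g ρ = ρ := by
  have hN0 : N ≠ 0 := by rintro rfl; exact hN (dvd_zero p)
  have hρ0 : ρ ≠ 0 := by
    rintro rfl
    rw [zero_pow hN0] at hρ
    exact zero_ne_one hρ
  have h1 : g ρ / ρ = 1 := by
    refine root_eq_one hp hP (N := N) hN ?_ ?_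
    · rw [div_pow, ← map_pow, hρ, map_one, div_one]
    · have h2 : g ρ / ρ - 1 = (g ρ - ρ) / ρ := by field_simp
      rw [h2, map_div₀, val_root hN0 hρ, div_one]
      exact val_sub_lt hg (val_root hN0 hρ).le
  rwa [div_eq_one_iff_eq hρ0] at h1

/-- The value group of the inertia field is generated by the value of `p`. -/
theorem exists_val_eq_zpow (hp : p.Prime) (hP : P.LiesOverPrime p) {x : Om} (hx : x ≠ 0)
    (hfix : ∀ g ∈ P.inertiaSubgroupIn ℚ, g x = x) :
    ∃ n : ℤ, P.valuation x = P.valuation (p : Om) ^ n := by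
  have hp0 : (p : Om) ≠ 0 := by exact_mod_cast hp.ne_zero
  wlog hx1 : x ∈ P generalizing x
  · have hinv : x⁻¹ ∈ P := (P.mem_or_inv_mem x).resolve_left hx1
    obtain ⟨n, hn⟩ := this (inv_ne_zero hx) (fun g hg => by rw [map_inv₀, hfix g hg]) hinv
    refine ⟨-n, ?_⟩
    rw [zpow_neg, ← hn, map_inv₀, inv_inv]
  classical
  have hex := FlatOrd.Unramified.exists_div_pow_notMem P hp hP x hx
  obtain ⟨n, hn⟩ : ∃ n, Nat.find hex = n + 1 := by
    refine ⟨Nat.find hex - 1, ?_⟩
    have : Nat.find hex ≠ 0 := by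
      intro h
      have h1 := Nat.find_spec hex
      rw [h, pow_zero, div_one] at h1
      exact h1 hx1
    omega
  have h1 : x / (p : Om) ^ n ∈ P := by
    by_contra h
    have := Nat.find_min' hex h
    omega
  have h2 : x / (p : Om) ^ (n + 1) ∉ P := by
    rw [← hn]
    exact Nat.find_spec hex
  refine ⟨n, ?_⟩
  have h3 : P.valuation (x / (p : Om) ^ n) = 1 := by
    refine le_antisymm ((P.valuation_le_one_iff _).mpr h1) ?_
    by_contra hcon
    push Not at hcon
    obtain ⟨s, hs, hxs⟩ := FlatOrd.Unramified.exists_eq_mul_of_fixed P hp hP (x / (p : Om) ^ n)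
      (fun g hg => by rw [map_div₀, map_pow, map_natCast, hfix g hg])
      ((ValuationSubring.mem_nonunits_iff _).mpr hcon)
    apply h2
    have : x / (p : Om) ^ (n + 1) = s := by
      rw [pow_succ, ← div_div, hxs]
      field_simp
    rwa [this]
  rw [map_div₀, div_eq_one_iff_eq ((map_ne_zero _).mpr (pow_ne_zero _ hp0))] at h3
  rw [h3, map_pow, zpow_natCast]

/-- residues are represented by elements fixed by inertia -/
theorem exists_teich (hp : p.Prime) (hP : P.LiesOverPrime p) {y : Om} (hy : P.valuation y ≤ 1) :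
    ∃ ξ : Om, (∀ g ∈ P.inertiaSubgroupIn ℚ, g ξ = ξ) ∧ P.valuation ξ ≤ 1 ∧
      P.valuation (y - ξ) < 1 := by
  haveI : Fact p.Prime := ⟨hp⟩
  by_cases hy1 : P.valuation y < 1
  · exact ⟨0, fun g _ => map_zero g, by simp, by simpa using hy1⟩
  have hy1' : P.valuation y = 1 := le_antisymm hy (not_lt.mp hy1)
  have hyP : y ∈ P := (P.valuation_le_one_iff y).mp hy
  haveI hchar := ResField.charP_residueField (A := P) hp hP
  let _ : Algebra (ZMod p) (IsLocalRing.ResidueField P) := ZMod.algebra _ p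
  haveI := ResField.isAlgebraic_residueField (A := P) hp
  set yb := IsLocalRing.residue P ⟨y, hyP⟩ with hyb
  have hyb0 : yb ≠ 0 := by
    intro h
    rw [hyb, IsLocalRing.residue_eq_zero_iff, ValuationSubring.valuation_lt_one_iff] at h
    exact hy1 h
  -- `yb` is a root of unity
  obtain ⟨N, hN0, hNp, hN⟩ : ∃ N : ℕ, N ≠ 0 ∧ ¬ p ∣ N ∧ yb ^ N = 1 := by
    let F := IntermediateField.adjoin (ZMod p) {yb}
    haveI : FiniteDimensional (ZMod p) F :=
      IntermediateField.adjoin.finiteDimensional (Algebra.IsAlgebraic.isAlgebraic yb).isIntegral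
    haveI : Finite F := Module.finite_of_finite (ZMod p)
    haveI : Fintype F := Fintype.ofFinite F
    let yF : F := ⟨yb, IntermediateField.mem_adjoin_simple_self _ _⟩
    have hyF : yF ≠ 0 := fun h => hyb0 (congrArg Subtype.val h)
    haveI : CharP F p := charP_of_injective_algebraMap (algebraMap (ZMod p) F).injective p
    obtain ⟨n, -, hn⟩ := FiniteField.card F p
    refine ⟨Fintype.card F - 1, ?_, ?_, ?_⟩
    · have := Fintype.one_lt_card (α := F)
      omega
    · intro h
      have h1 : p ∣ Fintype.card F := by rw [hn]; exact dvd_pow_self p n.2.ne'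
      have h2 := Fintype.one_lt_card (α := F)
      have h3 : p ∣ 1 := by
        have := (Nat.dvd_sub h1 h)
        rwa [Nat.sub_sub_self h2.le] at this
      exact hp.one_lt.ne' (Nat.dvd_one.mp h3)
    · exact congrArg Subtype.val (FiniteField.pow_card_sub_one_eq_one yF hyF)
  have hyN : P.valuation (y ^ N - 1) < 1 := by
    have h1 : IsLocalRing.residue P (⟨y, hyP⟩ ^ N - 1) = 0 := by
      rw [map_sub, map_pow, ← hyb, hN, map_one, sub_self]
    rw [IsLocalRing.residue_eq_zero_iff, ValuationSubring.valuation_lt_one_iff] at h1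
    exact h1
  have : NeZero (N : Om) := ⟨by exact_mod_cast hN0⟩
  obtain ⟨ξ0, hξ0⟩ := HasEnoughRootsOfUnity.exists_primitiveRoot Om N
  have hprod : y ^ N - 1 = ∏ ξ ∈ Polynomial.nthRootsFinset N (1 : Om), (y - ξ) := by
    have h1 := Polynomial.X_pow_sub_one_eq_prod (Nat.pos_of_ne_zero hN0) hξ0
    have h2 := congrArg (Polynomial.eval y) h1
    simpa [Polynomial.eval_prod] using h2
  have : ∃ ξ ∈ Polynomial.nthRootsFinset N (1 : Om), P.valuation (y - ξ) < 1 := by
    by_contra hcon
    push Not at hcon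
    have h1 : P.valuation (y ^ N - 1) = 1 := by
      rw [hprod, map_prod]
      refine Finset.prod_eq_one fun ξ hξ => ?_
      refine le_antisymm ?_ (hcon ξ hξ)
      refine (P.valuation.map_sub _ _).trans (max_le hy ?_)
      rw [Polynomial.mem_nthRootsFinset (Nat.pos_of_ne_zero hN0)] at hξ
      exact (val_root hN0 hξ).le
    rw [h1] at hyN
    exact lt_irrefl _ hyN
  obtain ⟨ξ, hξ, hξy⟩ := this
  rw [Polynomial.mem_nthRootsFinset (Nat.pos_of_ne_zero hN0)] at hξ
  exact ⟨ξ, fun g hg => root_fixed hp hP hg hNp hξ, (val_root hN0 hξ).le, hξy⟩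

/-- `p`-th roots of residues are represented by elements fixed by inertia -/
theorem exists_teich_root (hp : p.Prime) (hP : P.LiesOverPrime p) {y : Om}
    (hy : P.valuation y ≤ 1) :
    ∃ ξ : Om, (∀ g ∈ P.inertiaSubgroupIn ℚ, g ξ = ξ) ∧ P.valuation ξ ≤ 1 ∧
      P.valuation (y - ξ ^ p) < 1 := by
  obtain ⟨z, hz⟩ := IsAlgClosed.exists_pow_nat_eq y hp.pos
  have hz1 : P.valuation z ≤ 1 := by
    rw [← pow_le_one_iff_of_nonneg zero_le hp.ne_zero, ← map_pow, hz]
    exact hy
  obtain ⟨ξ, hξ, hξ1, hξz⟩ := exists_teich hp hP hz1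
  refine ⟨ξ, hξ, hξ1, ?_⟩
  rw [← hz, ← Commute.geom_sum₂_mul (Commute.all z ξ), map_mul]
  refine mul_lt_one_of_nonneg_of_lt_one_right ?_ zero_le hξz
  refine Valuation.map_sum_le _ fun i _ => ?_
  rw [map_mul, map_pow, map_pow]
  exact mul_le_one₀ (pow_le_one₀ zero_le hz1) zero_le (pow_le_one₀ zero_le hξ1)

end overp

end Fermat.Agent.TWFlat
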