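import Mathlib

/-!
# Counting additive maps with a Frobenius symmetry

Let `k`, `κ` be fields containing a finite field `𝔽` (via `j` and `j'`), `k` finite. The set of
additive maps `x : k → κ` with `x (j a * t) = j' a * x t` and `x (μ * t) = c * x t ^ |𝔽|` has at
most `|k|` elements.
-/

set_option autoImplicit false
set_option linter.style.haveILetI false

open Module

namespace Fermat.Agent.TWP.FlatLoc

section

variable {k κ 𝔽 : Type*} [Field k] [Field κ] [Field 𝔽] (j : 𝔽 →+* k) (j' : 𝔽 →+* κ)

/-- Additive maps `x : k → κ` which are `𝔽`-linear and satisfy `x (μ t) = c x(t) ^ |𝔽|`. -/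
structure IsSemi (μ : k) (c : κ) (x : k → κ) : Prop where
  add : ∀ s t, x (s + t) = x s + x t
  lin : ∀ a t, x (j a * t) = j' a * x t
  frob : ∀ t, x (μ * t) = c * x t ^ Nat.card 𝔽

variable {j j'}

theorem mem_range_of_pow_card [Finite 𝔽] {y : κ} (hy : y ^ Nat.card 𝔽 = y) : ∃ a, j' a = y := by
  classical
  have := Fintype.ofFinite 𝔽
  by_contra hcon
  push Not at hcon
  have hq : 1 < Nat.card 𝔽 := Finite.one_lt_card
  have hP : (Polynomial.X ^ Nat.card 𝔽 - Polynomial.X : Polynomial κ) ≠ 0 :=
    FiniteField.X_pow_card_sub_X_ne_zero κ hq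
  have hdeg : (Polynomial.X ^ Nat.card 𝔽 - Polynomial.X : Polynomial κ).natDegree = Nat.card 𝔽 :=
    FiniteField.X_pow_card_sub_X_natDegree_eq κ hq
  have hroot : ∀ z : κ, z ^ Nat.card 𝔽 = z →
      z ∈ (Polynomial.X ^ Nat.card 𝔽 - Polynomial.X : Polynomial κ).roots.toFinset := by
    intro z hz
    rw [Multiset.mem_toFinset, Polynomial.mem_roots hP, Polynomial.IsRoot.def, Polynomial.eval_sub,
      Polynomial.eval_pow, Polynomial.eval_X, hz, sub_self]
  have hsub : insert y (Finset.univ.image j') ⊆
      (Polynomial.X ^ Nat.card 𝔽 - Polynomial.X : Polynomial κ).roots.toFinset := by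
    intro z hz
    rcases Finset.mem_insert.mp hz with rfl | hz
    · exact hroot _ hy
    · obtain ⟨a, -, rfl⟩ := Finset.mem_image.mp hz
      refine hroot _ ?_
      rw [← map_pow, Nat.card_eq_fintype_card, FiniteField.pow_card]
  have h1 := Finset.card_le_card hsub
  rw [Finset.card_insert_of_notMem, Finset.card_image_of_injective _ j'.injective,
    Finset.card_univ, ← Nat.card_eq_fintype_card] at h1
  · have h2 := (Multiset.toFinset_card_le
      (Polynomial.X ^ Nat.card 𝔽 - Polynomial.X : Polynomial κ).roots).trans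
      (Polynomial.card_roots' _)
    rw [hdeg] at h2
    omega
  · intro h
    obtain ⟨a, -, ha⟩ := Finset.mem_image.mp h
    exact hcon a ha

/-- `y ↦ y ^ |𝔽|` is additive on `κ`. -/
theorem add_pow_card [Finite 𝔽] (j' : 𝔽 →+* κ) (a b : κ) :
    (a + b) ^ Nat.card 𝔽 = a ^ Nat.card 𝔽 + b ^ Nat.card 𝔽 := by
  have := Fintype.ofFinite 𝔽
  obtain ⟨p, hp⟩ := CharP.exists 𝔽
  have hpp : Fact p.Prime := ⟨CharP.char_is_prime 𝔽 p⟩
  obtain ⟨n, hn⟩ := FiniteField.card' 𝔽
  have : CharP κ p := charP_of_injective_ringHom j'.injective p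
  obtain ⟨m, hm1, hm2⟩ := FiniteField.card 𝔽 p
  rw [Nat.card_eq_fintype_card, hm2, add_pow_char_pow]

/-- The set of semilinear maps as an `𝔽`-vector space (`𝔽` acts through `j'`). -/
def semi [Finite 𝔽] (j : 𝔽 →+* k) (j' : 𝔽 →+* κ) (μ : k) (c : κ) :
    letI : Module 𝔽 κ := Module.compHom κ j'
    Submodule 𝔽 (k → κ) :=
  letI : Module 𝔽 κ := Module.compHom κ j'
  { carrier := {x | IsSemi j j' μ c x}
    zero_mem' := by
      refine ⟨fun s t => by simp, fun a t => by simp, fun t => ?_⟩
      rw [Pi.zero_apply, Pi.zero_apply, zero_pow Finite.card_pos.ne', mul_zero]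
    add_mem' := by
      rintro x y hx hy
      refine ⟨fun s t => ?_, fun a t => ?_, fun t => ?_⟩
      · rw [Pi.add_apply, Pi.add_apply, Pi.add_apply, hx.add, hy.add]; ring
      · rw [Pi.add_apply, Pi.add_apply, hx.lin, hy.lin]; ring
      · rw [Pi.add_apply, Pi.add_apply, hx.frob, hy.frob, add_pow_card j']; ring
    smul_mem' := by
      rintro a x hx
      refine ⟨fun s t => ?_, fun b t => ?_, fun t => ?_⟩
      · change j' a * x (s + t) = j' a * x s + j' a * x t
        rw [hx.add]; ring
      · change j' a * x (j b * t) = j' b * (j' a * x t)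
        rw [hx.lin]; ring
      · change j' a * x (μ * t) = c * (j' a * x t) ^ Nat.card 𝔽
        have := Fintype.ofFinite 𝔽
        rw [hx.frob, mul_pow, ← map_pow, Nat.card_eq_fintype_card, FiniteField.pow_card]; ring }

/-- `𝔽`-linearly independent semilinear maps are `κ`-linearly independent. -/
theorem eq_zero_of_sum [Finite 𝔽] {μ : k} (hμ : μ ≠ 0) {c : κ}
    {ι : Type*} (x : ι → k → κ) (hx : ∀ i, IsSemi j j' μ c (x i)) (s : Finset ι)
    (hli : ∀ a : ι → 𝔽, (∀ t, ∑ i ∈ s, j' (a i) * x i t = 0) → ∀ i ∈ s, a i = 0) :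
    ∀ d : ι → κ, (∀ t, ∑ i ∈ s, d i * x i t = 0) → ∀ i ∈ s, d i = 0 := by
  classical
  induction s using Finset.induction_on with
  | empty => intro d _ i hi; simp at hi
  | insert i0 s hi0 ih =>
    have hli' : ∀ a : ι → 𝔽, (∀ t, ∑ i ∈ s, j' (a i) * x i t = 0) → ∀ i ∈ s, a i = 0 := by
      intro a ha i hi
      have h1 := hli (Function.update a i0 0) (fun t => by
        rw [Finset.sum_insert hi0, Function.update_self, map_zero, zero_mul, zero_add, ← ha t]
        refine Finset.sum_congr rfl fun i hi => ?_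
        rw [Function.update_of_ne (fun h => hi0 (by rw [← h]; exact hi))]) i (Finset.mem_insert_of_mem hi)
      rwa [Function.update_of_ne (fun h => hi0 (by rw [← h]; exact hi))] at h1
    have ih' := ih hli'
    -- no relation with coefficient one at `i0`
    have key : ∀ d : ι → κ, (∀ t, x i0 t + ∑ i ∈ s, d i * x i t = 0) → False := by
      intro d hd
      have h1 : ∀ t, x i0 t + ∑ i ∈ s, d i ^ Nat.card 𝔽 * x i t = 0 := by
        intro t
        have h2 : (x i0 (μ⁻¹ * t) + ∑ i ∈ s, d i * x i (μ⁻¹ * t)) ^ Nat.card 𝔽 = 0 := by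
          rw [hd, zero_pow Finite.card_pos.ne']
        have hsum : ∀ (s : Finset ι) (f : ι → κ),
            (∑ i ∈ s, f i) ^ Nat.card 𝔽 = ∑ i ∈ s, f i ^ Nat.card 𝔽 := by
          intro s f
          induction s using Finset.induction_on with
          | empty => simp [Finite.card_pos.ne']
          | insert a s ha ih => rw [Finset.sum_insert ha, Finset.sum_insert ha, add_pow_card j', ih]
        rw [add_pow_card j', hsum] at h2
        have h3 : ∀ i, x i t = c * x i (μ⁻¹ * t) ^ Nat.card 𝔽 := fun i => by
          rw [← (hx i).frob, mul_inv_cancel_left₀ hμ]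
        rw [h3 i0]
        have h4 : ∑ i ∈ s, d i ^ Nat.card 𝔽 * x i t =
            c * ∑ i ∈ s, (d i * x i (μ⁻¹ * t)) ^ Nat.card 𝔽 := by
          rw [Finset.mul_sum]
          refine Finset.sum_congr rfl fun i _ => ?_
          rw [h3 i, mul_pow]; ring
        rw [h4, ← mul_add, h2, mul_zero]
      have h5 : ∀ i ∈ s, d i ^ Nat.card 𝔽 = d i := by
        intro i hi
        rw [← sub_eq_zero]
        refine ih' (fun i => d i ^ Nat.card 𝔽 - d i) (fun t => ?_) i hi
        simp only [sub_mul, Finset.sum_sub_distrib]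
        have := h1 t
        have := hd t
        linear_combination h1 t - hd t
      choose! a ha using fun i (hi : i ∈ s) => mem_range_of_pow_card (j' := j') (h5 i hi)
      have h6 := hli (Function.update a i0 1) (fun t => by
        rw [Finset.sum_insert hi0, Function.update_self, map_one, one_mul, ← hd t]
        congr 1
        refine Finset.sum_congr rfl fun i hi => ?_
        rw [Function.update_of_ne (fun h => hi0 (by rw [← h]; exact hi)), ha i hi]) i0
        (Finset.mem_insert_self _ _)
      rw [Function.update_self] at h6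
      exact one_ne_zero h6
    intro d hd
    have h0 : d i0 = 0 := by
      by_contra hne
      refine key (fun i => (d i0)⁻¹ * d i) fun t => ?_
      have h1 := hd t
      rw [Finset.sum_insert hi0] at h1
      have h2 : x i0 t + ∑ i ∈ s, (d i0)⁻¹ * d i * x i t =
          (d i0)⁻¹ * (d i0 * x i0 t + ∑ i ∈ s, d i * x i t) := by
        rw [mul_add, inv_mul_cancel_left₀ hne, Finset.mul_sum]
        congr 1
        exact Finset.sum_congr rfl fun i _ => by ring
      rw [h2, h1, mul_zero]
    intro i hi
    rcases Finset.mem_insert.mp hi with rfl | hi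
    · exact h0
    · refine ih' d (fun t => ?_) i hi
      have h1 := hd t
      rwa [Finset.sum_insert hi0, h0, zero_mul, zero_add] at h1

/-- The space of `𝔽`-linear maps `k → κ` as a `κ`-vector space. -/
def linMaps (j : 𝔽 →+* k) (j' : 𝔽 →+* κ) : Submodule κ (k → κ) where
  carrier := {x | (∀ s t, x (s + t) = x s + x t) ∧ ∀ a t, x (j a * t) = j' a * x t}
  zero_mem' := ⟨fun s t => by simp, fun a t => by simp⟩
  add_mem' := by
    rintro x y ⟨hx, hx'⟩ ⟨hy, hy'⟩
    refine ⟨fun s t => ?_, fun a t => ?_⟩
    · rw [Pi.add_apply, Pi.add_apply, Pi.add_apply, hx, hy]; ring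
    · rw [Pi.add_apply, Pi.add_apply, hx', hy']; ring
  smul_mem' := by
    rintro a x ⟨hx, hx'⟩
    refine ⟨fun s t => ?_, fun b t => ?_⟩
    · rw [Pi.smul_apply, Pi.smul_apply, Pi.smul_apply, hx, smul_add]
    · rw [Pi.smul_apply, Pi.smul_apply, hx', smul_eq_mul, smul_eq_mul]; ring

/-- **Counting lemma.** -/
theorem card_semi_le [Finite k] (j : 𝔽 →+* k) (j' : 𝔽 →+* κ) {μ : k} (hμ : μ ≠ 0) {c : κ} :
    Finite {x : k → κ // IsSemi j j' μ c x} ∧
      Nat.card {x : k → κ // IsSemi j j' μ c x} ≤ Nat.card k := by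
  classical
  have hfin : Finite 𝔽 := Finite.of_injective j j.injective
  letI : Module 𝔽 κ := Module.compHom κ j'
  letI : Algebra 𝔽 k := j.toAlgebra
  haveI : Module.Finite 𝔽 k := Module.Finite.of_finite
  set n := finrank 𝔽 k with hn
  let b := Module.finBasis 𝔽 k
  -- the dimension of `linMaps`
  let ev : linMaps j j' →ₗ[κ] (Fin n → κ) :=
    { toFun := fun x i => x.1 (b i)
      map_add' := fun x y => rfl
      map_smul' := fun a x => rfl }
  have hev : Function.Injective ev := by
    rw [← LinearMap.ker_eq_bot, LinearMap.ker_eq_bot']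
    rintro ⟨x, hx1, hx2⟩ h0
    apply Subtype.ext
    funext t
    change x t = 0
    have h0' : x 0 = 0 := by
      have := hx1 0 0
      rw [add_zero] at this
      exact left_eq_add.mp this
    have h1 : ∀ s : Finset (Fin n), x (∑ i ∈ s, b.repr t i • b i) = 0 := by
      intro s
      induction s using Finset.induction_on with
      | empty => rw [Finset.sum_empty, h0']
      | insert a s ha ih =>
        have h2 : x (b a) = 0 := congrFun h0 a
        rw [Finset.sum_insert ha, hx1, ih, Algebra.smul_def]
        change x (j _ * _) + 0 = 0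
        rw [hx2, h2, mul_zero, add_zero]
    rw [← b.sum_repr t]
    exact h1 _
  have hfd : Module.Finite κ (linMaps j j') := Module.Finite.of_injective ev hev
  have hdim : finrank κ (linMaps j j') ≤ n := by
    have := LinearMap.finrank_le_finrank_of_injective hev
    rwa [finrank_fin_fun] at this
  -- the rank of the space of semilinear maps
  have hrank : Module.rank 𝔽 (semi j j' μ c) ≤ (n : Cardinal) := by
    refine rank_le fun s hs => ?_
    have h1 : LinearIndependent κ (fun i : s => (⟨i.1.1, i.1.2.add, i.1.2.lin⟩ : linMaps j j')) := by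
      rw [linearIndependent_iff']
      intro u d hd i hi
      refine eq_zero_of_sum (j := j) (j' := j') hμ (fun i : s => i.1.1) (fun i => i.1.2) u ?_ d ?_
        i hi
      · intro a ha i hi
        rw [linearIndependent_iff'] at hs
        refine hs u a ?_ i hi
        apply Subtype.ext
        funext t
        have h2 := ha t
        rw [Submodule.coe_sum, Finset.sum_apply, Submodule.coe_zero, Pi.zero_apply, ← h2]
        rfl
      · intro t
        have h2 := congrArg Subtype.val hd
        have h3 := congrFun h2 t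
        rw [Submodule.coe_sum, Finset.sum_apply] at h3
        exact h3
    have h2 := h1.fintype_card_le_finrank
    rw [Fintype.card_coe] at h2
    exact h2.trans hdim
  have hfin2 : Module.Finite 𝔽 (semi j j' μ c) := by
    rw [← Module.rank_lt_aleph0_iff]
    exact hrank.trans_lt (Cardinal.natCast_lt_aleph0)
  have hfinrank : finrank 𝔽 (semi j j' μ c) ≤ n := finrank_le_of_rank_le hrank
  have hfinite : Finite (semi j j' μ c) := Module.finite_of_finite 𝔽
  refine ⟨hfinite, ?_⟩
  have e1 : Nat.card (semi j j' μ c) = Nat.card 𝔽 ^ finrank 𝔽 (semi j j' μ c) :=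
    Module.natCard_eq_pow_finrank
  have e2 : Nat.card k = Nat.card 𝔽 ^ n := Module.natCard_eq_pow_finrank
  change Nat.card (semi j j' μ c) ≤ Nat.card k
  rw [e1, e2]
  exact Nat.pow_le_pow_right Finite.card_pos hfinrank

/-- A `k`-vector space which injects into the set of semilinear maps has dimension at most one. -/
theorem finrank_le_one_of_semi [Finite k] (j : 𝔽 →+* k) (j' : 𝔽 →+* κ) {μ : k} (hμ : μ ≠ 0)
    {c : κ} {F : Type*} [AddCommGroup F] [Module k F]
    (φ : F → k → κ) (hφ : Function.Injective φ) (hφ' : ∀ f, IsSemi j j' μ c (φ f)) :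
    Module.Finite k F ∧ finrank k F ≤ 1 := by
  obtain ⟨h1, h2⟩ := card_semi_le j j' (c := c) hμ
  let ψ : F → {x : k → κ // IsSemi j j' μ c x} := fun f => ⟨φ f, hφ' f⟩
  have hψ : Function.Injective ψ := fun a b h => hφ (congrArg Subtype.val h)
  have h3 : Finite F := Finite.of_injective ψ hψ
  have h4 : Nat.card F ≤ Nat.card k := (Nat.card_le_card_of_injective ψ hψ).trans h2
  refine ⟨Module.Finite.of_finite, ?_⟩
  haveI : Module.Finite k F := Module.Finite.of_finite
  have h5 : Nat.card F = Nat.card k ^ finrank k F := Module.natCard_eq_pow_finrank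
  rw [h5] at h4
  by_contra h6
  push Not at h6
  have h7 : Nat.card k ^ 2 ≤ Nat.card k ^ finrank k F :=
    Nat.pow_le_pow_right Finite.card_pos h6
  have h8 : 1 < Nat.card k := Finite.one_lt_card
  nlinarith

end

end Fermat.Agent.TWP.FlatLoc
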