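import Fermat.Agent.TWP.FlatLoc.Level2
import Fermat.Agent.TWP.FlatLoc.Data

set_option autoImplicit false
set_option linter.style.haveILetI false
set_option linter.unusedVariables false
set_option linter.unusedSectionVars false

/-!
# Extensions of characters of inertia with an order, and their Kummer breaks
-/

open Pointwise

namespace Fermat.Agent.TWFlat

open FlatOrd.Unramified (inertiaRing)
open TWP.Flat.Kummer (BreakPos BreakZero)

variable {P : ValuationSubring Om} {p : ℕ}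

section quotact

variable {M : Type} [AddCommGroup M] (act : In P →* AddMonoid.End M)

/-- the action on a quotient -/
noncomputable def quotAct (N : AddSubgroup M) (hN : ∀ g, ∀ x ∈ N, act g x ∈ N) :
    In P →* AddMonoid.End (M ⧸ N) where
  toFun g := QuotientAddGroup.map N N (act g) (fun x hx => hN g x hx)
  map_one' := by
    refine AddMonoidHom.ext fun x => ?_
    obtain ⟨x, rfl⟩ := QuotientAddGroup.mk_surjective x
    show ((act 1 x : M) : M ⧸ N) = x
    rw [map_one]; rfl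
  map_mul' g h := by
    refine AddMonoidHom.ext fun x => ?_
    obtain ⟨x, rfl⟩ := QuotientAddGroup.mk_surjective x
    show ((act (g * h) x : M) : M ⧸ N) = ((act g (act h x) : M) : M ⧸ N)
    rw [map_mul]; rfl

theorem quotAct_mk (N : AddSubgroup M) (hN : ∀ g, ∀ x ∈ N, act g x ∈ N) (g : In P) (x : M) :
    quotAct act N hN g (x : M ⧸ N) = ((act g x : M) : M ⧸ N) := rfl

end quotact

variable {k : Type} [Field k]

/-- the action on an extension of `χ₂` by `χ₁` -/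
noncomputable def extAct (χ₁ χ₂ : In P →* kˣ) (b : In P → k)
    (hb : ∀ g h, b (g * h) = χ₁ g * b h + b g * χ₂ h) : In P →* AddMonoid.End (k × k) where
  toFun g :=
    { toFun := fun x => (χ₁ g * x.1 + b g * x.2, χ₂ g * x.2)
      map_zero' := by simp
      map_add' := fun x y => by
        refine Prod.ext ?_ ?_
        · show (χ₁ g : k) * (x.1 + y.1) + b g * (x.2 + y.2) =
            (χ₁ g * x.1 + b g * x.2) + (χ₁ g * y.1 + b g * y.2)
          ring
        · show (χ₂ g : k) * (x.2 + y.2) = χ₂ g * x.2 + χ₂ g * y.2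
          ring }
  map_one' := by
    have hb1 : b 1 = 0 := by
      have h := hb 1 1
      rw [mul_one, map_one, map_one, Units.val_one, one_mul, mul_one] at h
      exact left_eq_add.mp h
    refine AddMonoidHom.ext fun x => Prod.ext ?_ ?_
    · show (χ₁ 1 : k) * x.1 + b 1 * x.2 = x.1
      rw [hb1, map_one, Units.val_one, one_mul, zero_mul, add_zero]
    · show (χ₂ 1 : k) * x.2 = x.2
      rw [map_one, Units.val_one, one_mul]
  map_mul' g h := by
    refine AddMonoidHom.ext fun x => Prod.ext ?_ ?_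
    · show (χ₁ (g * h) : k) * x.1 + b (g * h) * x.2 =
        χ₁ g * (χ₁ h * x.1 + b h * x.2) + b g * (χ₂ h * x.2)
      rw [hb, _root_.map_mul, Units.val_mul]
      ring
    · show (χ₂ (g * h) : k) * x.2 = χ₂ g * (χ₂ h * x.2)
      rw [_root_.map_mul, Units.val_mul]
      ring

theorem extAct_apply (χ₁ χ₂ : In P →* kˣ) (b : In P → k)
    (hb : ∀ g h, b (g * h) = χ₁ g * b h + b g * χ₂ h) (g : In P) (x : k × k) :
    extAct χ₁ χ₂ b hb g x = (χ₁ g * x.1 + b g * x.2, χ₂ g * x.2) := rfl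

/-- the action by a character -/
noncomputable def charAct (χ : In P →* kˣ) : In P →* AddMonoid.End k where
  toFun g := AddMonoidHom.mulLeft (χ g : k)
  map_one' := by
    refine AddMonoidHom.ext fun x => ?_
    show (χ 1 : k) * x = x
    rw [map_one, Units.val_one, one_mul]
  map_mul' g h := by
    refine AddMonoidHom.ext fun x => ?_
    show (χ (g * h) : k) * x = χ g * (χ h * x)
    rw [_root_.map_mul, Units.val_mul, mul_assoc]

theorem charAct_apply (χ : In P →* kˣ) (g : In P) (x : k) : charAct χ g x = χ g * x := rfl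

/-- a fundamental character of level two -/
def IsFund (T : Tame p P) (χ : In P →* kˣ) : Prop :=
  (∀ g : In P, (g : GQ) ∈ T.G → χ g = 1) ∧
  ∀ (g : In P) (s₁ s₂ : ℤ), P.valuation (T.th g ^ 2 - s₁ * T.th g + s₂) < 1 →
    (χ g : k) ^ 2 - s₁ * χ g + s₂ = 0

theorem exists_fund2 (T : Tame p P) (he : T.e₁ = p + 1) :
    ∃ (τ : In P) (s₁ s₂ : ℤ), Fund2 T τ s₁ s₂ := by
  obtain ⟨τ, hτ, hprim⟩ := T.exists_tame_gen
  haveI : CharP (Kap P) p := ResField.charP_residueField (A := P) T.hp T.hP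
  haveI : Fact p.Prime := ⟨T.hp⟩
  have hv : P.valuation (T.th τ) ≤ 1 := (T.val_th _).le
  set t := red P (T.th τ) with ht
  have hte : t ^ T.e = 1 := by
    rw [ht, ← red_pow hv, T.th_pow, red_one]
  have hecard : T.e + 1 = p * p := by
    have h := T.three_le
    rw [Tame.e, he]
    obtain ⟨q, rfl⟩ : ∃ q, p = q + 1 := ⟨p - 1, by omega⟩
    rw [Nat.add_sub_cancel]
    ring
  have htp : (t ^ p) ^ p = t := by
    rw [← pow_mul, ← hecard, pow_succ, hte, one_mul]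
  have hint : ∀ x : Kap P, x ^ p = x → ∃ n : ℤ, (n : Kap P) = x := by
    intro x hx
    have h1 := (Subfield.mem_bot_iff_pow_eq_self (F := Kap P) (p := p)).mpr hx
    have h2 : ∀ y ∈ (⊥ : Subfield (Kap P)), ∃ n : ℤ, (n : Kap P) = y := by
      intro y hy
      rw [← ZMod.fieldRange_castHom_eq_bot (K := Kap P) p] at hy
      obtain ⟨z, rfl⟩ := hy
      refine ⟨(z.val : ℤ), ?_⟩
      rw [Int.cast_natCast]
      conv_rhs => rw [← ZMod.natCast_zmod_val z]
      rw [map_natCast]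
    exact h2 x h1
  obtain ⟨s₁, hs₁⟩ := hint (t + t ^ p) (by rw [add_pow_char, htp, add_comm])
  obtain ⟨s₂, hs₂⟩ := hint (t * t ^ p) (by rw [mul_pow, htp, mul_comm])
  refine ⟨⟨τ, hτ⟩, s₁, s₂, he, hprim, ?_⟩
  show P.valuation (T.th τ ^ 2 - s₁ * T.th τ + s₂) < 1
  have hv2 : P.valuation (T.th τ ^ 2) ≤ 1 := by rw [map_pow]; exact pow_le_one₀ zero_le hv
  have hs : P.valuation ((s₁ : Om) * T.th τ) ≤ 1 := by
    rw [map_mul]; exact mul_le_one₀ (val_intCast_le _) zero_le hv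
  have h1 : P.valuation (T.th τ ^ 2 - s₁ * T.th τ) ≤ 1 :=
    (P.valuation.map_sub _ _).trans (max_le hv2 hs)
  rw [← red_eq_zero_iff ((P.valuation.map_add _ _).trans (max_le h1 (val_intCast_le s₂))),
    red_add h1 (val_intCast_le _), red_sub hv2 hs, red_pow hv, red_mul (val_intCast_le _) hv,
    red_intCast, red_intCast, ← ht, hs₁, hs₂]
  ring

theorem IsOrd.dist_le_v (T : Tame p P) {M : Type} [AddCommGroup M]
    {act : In P →* AddMonoid.End M} {A : Submodule (inertiaRing P) (M → Om)} (hA : IsOrd act A)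
    {z : M} (hz : ∀ g : T.G, act (T.incl g) z = z) (hlt : dist A z < 1) : dist A z ≤ T.v := by
  obtain ⟨a, ha, h⟩ := (hA.dist_spec z).2
  rw [← h] at hlt ⊢
  refine T.val_le_v ?_ hlt
  intro g hg
  have h1 := hA.equiv a ha (T.incl ⟨g, hg⟩) z
  have h2 := hA.equiv a ha (T.incl ⟨g, hg⟩) 0
  rw [hz] at h1
  rw [map_zero] at h2
  rw [map_sub]
  exact congrArg₂ (· - ·) h1.symm h2.symm

section setup

variable {χ₁ χ₂ : In P →* kˣ} {b : In P → k} {hb : ∀ g h, b (g * h) = χ₁ g * b h + b g * χ₂ h}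
  (N : AddSubgroup k) (hN : ∀ (g : In P), ∀ x ∈ N, (χ₁ g : k) * x ∈ N)

/-- the subgroup `N × 0` -/
def Nprod : AddSubgroup (k × k) := N.prod ⊥

theorem mem_Nprod {x : k × k} : x ∈ Nprod N ↔ x.1 ∈ N ∧ x.2 = 0 := by
  rw [Nprod, AddSubgroup.mem_prod, AddSubgroup.mem_bot]

include hN in
theorem Nprod_stable (g : In P) (x : k × k) (hx : x ∈ Nprod N) :
    extAct χ₁ χ₂ b hb g x ∈ Nprod N := by
  rw [mem_Nprod] at hx ⊢
  rw [extAct_apply, hx.2, mul_zero, mul_zero, add_zero]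
  exact ⟨hN g _ hx.1, rfl⟩

/-- the inclusion of `k / N` -/
noncomputable def iN : (k ⧸ N) →+ (k × k) ⧸ Nprod N :=
  QuotientAddGroup.map N (Nprod N) (AddMonoidHom.inl k k) (fun x hx =>
    (mem_Nprod N).mpr ⟨hx, rfl⟩)

theorem iN_mk (x : k) : iN N (x : k ⧸ N) = (((x, 0) : k × k) : (k × k) ⧸ Nprod N) := rfl

theorem iN_injective : Function.Injective (iN N) := by
  rw [injective_iff_map_eq_zero]
  intro x hx
  obtain ⟨x, rfl⟩ := QuotientAddGroup.mk_surjective x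
  rw [iN_mk, QuotientAddGroup.eq_zero_iff, mem_Nprod] at hx
  rw [QuotientAddGroup.eq_zero_iff]
  exact hx.1

theorem iN_act (g : In P) (x : k ⧸ N) :
    iN N (quotAct (charAct χ₁) N hN g x) =
      quotAct (extAct χ₁ χ₂ b hb) (Nprod N) (Nprod_stable N hN) g (iN N x) := by
  obtain ⟨x, rfl⟩ := QuotientAddGroup.mk_surjective x
  show (((χ₁ g * x, 0) : k × k) : (k × k) ⧸ Nprod N) =
    (((χ₁ g * x + b g * 0, χ₂ g * 0) : k × k) : (k × k) ⧸ Nprod N)
  rw [mul_zero, mul_zero, add_zero]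

/-- the vector `(0, 1)` -/
def x₁ : (k × k) ⧸ Nprod N := (((0, 1) : k × k) : (k × k) ⧸ Nprod N)

theorem act_x₁ {g : In P} (h₂ : χ₂ g = 1) :
    quotAct (extAct χ₁ χ₂ b hb) (Nprod N) (Nprod_stable N hN) g (x₁ N) =
      x₁ N + iN N (b g : k) := by
  show (((χ₁ g * 0 + b g * 1, χ₂ g * 1) : k × k) : (k × k) ⧸ Nprod N) =
    (((0, 1) + (b g, 0) : k × k) : (k × k) ⧸ Nprod N)
  congr 1
  refine Prod.ext ?_ ?_
  · show (χ₁ g : k) * 0 + b g * 1 = 0 + b g
    ring
  · show (χ₂ g : k) * 1 = 1 + 0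
    rw [h₂, Units.val_one]; ring

end setup

section card

variable {T : Tame p P} {τ : In P} {s₁ s₂ : ℤ} (F : Fund2 T τ s₁ s₂)
  {U : Type} [AddCommGroup U] [Finite U] {act : In P →* AddMonoid.End U}

include F

theorem Fund2.card_le (hpU : ∀ z : U, p • z = 0)
    (hact : ∀ z, act τ (act τ z) - s₁ • act τ z + s₂ • z = 0) {z : U} (hz : z ≠ 0) :
    p ^ 2 ≤ Nat.card U := by
  haveI : NeZero p := ⟨T.hp.ne_zero⟩
  let f : Fin p × Fin p → U := fun x => ((x.1 : ℕ) : ℤ) • z + ((x.2 : ℕ) : ℤ) • act τ z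
  have hf : Function.Injective f := by
    rintro ⟨a, b⟩ ⟨c, d⟩ h
    have h3 : ((a : ℕ) : ℤ) • z + ((b : ℕ) : ℤ) • act τ z =
        ((c : ℕ) : ℤ) • z + ((d : ℕ) : ℤ) • act τ z := h
    have h4 : (((a : ℕ) : ℤ) - (c : ℕ)) • z + (((b : ℕ) : ℤ) - (d : ℕ)) • act τ z = 0 := by
      rw [sub_smul, sub_smul, sub_add_sub_comm, h3, sub_self]
    obtain ⟨h5, h6⟩ := F.indep hpU hact hz h4
    have ha := a.2
    have hb := b.2
    have hc := c.2
    have hd := d.2
    have h7 : ∀ x y : ℕ, x < p → y < p → (p : ℤ) ∣ (x : ℤ) - y → x = y := by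
      intro x y hx hy h
      obtain ⟨k, hk⟩ := h
      have hp := T.hp.pos
      have : k = 0 := by
        by_contra hk0
        rcases lt_or_gt_of_ne hk0 with h | h
        · have : (p : ℤ) * k ≤ -p := by nlinarith
          omega
        · have : (p : ℤ) ≤ p * k := by nlinarith
          omega
      rw [this] at hk
      omega
    have e1 := h7 _ _ ha hc h5
    have e2 := h7 _ _ hb hd h6
    rw [Prod.mk.injEq]
    exact ⟨Fin.ext e1, Fin.ext e2⟩
  have := Nat.card_le_card_of_injective f hf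
  rw [Nat.card_prod, Nat.card_fin, ← pow_two] at this
  exact this

end card

section irr

variable {χ₁ χ₂ : In P →* kˣ} {b : In P → k} {hb : ∀ g h, b (g * h) = χ₁ g * b h + b g * χ₂ h}

theorem fund_ne_one {T : Tame p P} [CharP k p] {τ : In P} {s₁ s₂ : ℤ} (F : Fund2 T τ s₁ s₂)
    {χ : In P →* kˣ} (h : IsFund T χ) : (χ τ : k) - 1 ≠ 0 := by
  intro h0
  have h1 := h.2 τ s₁ s₂ F.pol
  rw [sub_eq_zero] at h0
  rw [h0] at h1
  have h2 : (((1 : ℤ) ^ 2 - s₁ * 1 + s₂ : ℤ) : k) = 0 := by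
    push_cast
    linear_combination h1
  rw [CharP.intCast_eq_zero_iff k p] at h2
  exact F.not_int_root 1 h2

theorem exists_theta_irr (T : Tame p P) [CharP k p] [Finite k] (he : T.e₁ = p + 1)
    (h₁ : IsFund T χ₁) (h₂ : IsFund T χ₂) (hord : HasOrd (extAct χ₁ χ₂ b hb))
    (ℓ : k →+ ZMod p) (hℓ : ∃ u, ℓ u ≠ 0) :
    ∃ (t : k) (θ : Om), P.valuation θ ≤ 1 ∧
      (∀ g : T.G, (g : GQ) θ = θ → ℓ (b (T.incl g)) = 0) ∧
      (∀ g : T.G, (g : GQ) θ ≠ θ → P.valuation ((g : GQ) θ - θ) = T.v) ∧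
      (∀ g g' : T.G, ℓ (b (T.incl g)) = ℓ (b (T.incl g')) →
        ℓ (t * b (T.incl g)) = ℓ (t * b (T.incl g')) → (g : GQ) θ = (g' : GQ) θ) := by
  classical
  haveI : Fact p.Prime := ⟨T.hp⟩
  have hex : ∃ p : ℕ, p.Prime ∧ P.LiesOverPrime p := ⟨p, T.hp, T.hP⟩
  obtain ⟨τ, s₁, s₂, F⟩ := exists_fund2 T he
  set t : k := (χ₁ τ : k) with ht
  have htpol : t ^ 2 - s₁ * t + s₂ = 0 := h₁.2 τ s₁ s₂ F.pol
  -- the subgroup `N`
  let N : AddSubgroup k := ℓ.ker ⊓ (ℓ.comp (AddMonoidHom.mulLeft t)).ker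
  have hNmem : ∀ x, x ∈ N ↔ ℓ x = 0 ∧ ℓ (t * x) = 0 := fun x => by
    rw [AddSubgroup.mem_inf]; rfl
  have hℓint : ∀ (n : ℤ) (x : k), ℓ ((n : k) * x) = n * ℓ x := by
    intro n x
    rw [← zsmul_eq_mul, map_zsmul, zsmul_eq_mul]
  have hNt : ∀ x ∈ N, t * x ∈ N := by
    intro x hx
    rw [hNmem] at hx ⊢
    refine ⟨hx.2, ?_⟩
    have : t * (t * x) = s₁ * (t * x) - s₂ * x := by linear_combination x * htpol
    rw [this, map_sub, hℓint, hℓint, hx.1, hx.2, mul_zero, mul_zero, sub_zero]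
  have hN : ∀ (g : In P), ∀ x ∈ N, (χ₁ g : k) * x ∈ N := by
    intro g x hx
    obtain ⟨j, h, hh, hg⟩ := T.exists_decomp τ.2 F.prim g.2
    have hg' : g = τ ^ j * T.incl ⟨h, hh⟩ := Subtype.ext hg
    have h3 : χ₁ (T.incl ⟨h, hh⟩) = 1 := h₁.1 _ hh
    rw [hg', _root_.map_mul, map_pow, h3, mul_one, Units.val_pow_eq_pow_val, ← ht]
    clear hg' hg
    induction j with
    | zero => rw [pow_zero, one_mul]; exact hx
    | succ j ih => rw [pow_succ', mul_assoc]; exact hNt _ ih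
  obtain ⟨A₀, hA₀⟩ := hord
  let actQ := quotAct (extAct χ₁ χ₂ b hb) (Nprod N) (Nprod_stable N hN)
  let A := A₀.comap (pull (P := P) (QuotientAddGroup.mk' (Nprod N)))
  have hA : IsOrd actQ A := hA₀.quot hex (QuotientAddGroup.mk' (Nprod N))
    (QuotientAddGroup.mk'_surjective _) (fun g x => rfl)
  let actU := quotAct (charAct χ₁) N hN
  have hU : IsOrd actU (A.map (pull (P := P) (iN N))) :=
    hA.restrict (iN N) (iN_injective N) (iN_act N hN)
  -- properties of `U`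
  have hpU : ∀ z : k ⧸ N, p • z = 0 := by
    intro z
    obtain ⟨z, rfl⟩ := QuotientAddGroup.mk_surjective z
    rw [← QuotientAddGroup.mk_nsmul, nsmul_eq_mul, CharP.cast_eq_zero, zero_mul]
    rfl
  have hactU : ∀ z, actU τ (actU τ z) - s₁ • actU τ z + s₂ • z = 0 := by
    intro z
    obtain ⟨z, rfl⟩ := QuotientAddGroup.mk_surjective z
    show ((t * (t * z) - s₁ • (t * z) + s₂ • z : k) : k ⧸ N) = ((0 : k) : k ⧸ N)
    congr 1
    rw [zsmul_eq_mul, zsmul_eq_mul]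
    linear_combination z * htpol
  obtain ⟨u₀, hu₀⟩ := hℓ
  have hz₀ : ((u₀ : k) : k ⧸ N) ≠ 0 := by
    intro h
    rw [QuotientAddGroup.eq_zero_iff, hNmem] at h
    exact hu₀ h.1
  have hcard : Nat.card (k ⧸ N) = p ^ 2 := by
    refine le_antisymm ?_ (F.card_le hpU hactU hz₀)
    let L : k →+ ZMod p × ZMod p := ℓ.prod (ℓ.comp (AddMonoidHom.mulLeft t))
    have hL : ∀ x ∈ N, L x = 0 := fun x hx => by
      rw [hNmem] at hx
      exact Prod.ext hx.1 hx.2
    let L' : k ⧸ N →+ ZMod p × ZMod p := QuotientAddGroup.lift N L hL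
    have hL' : Function.Injective L' := by
      rw [injective_iff_map_eq_zero]
      intro x hx
      obtain ⟨x, rfl⟩ := QuotientAddGroup.mk_surjective x
      rw [QuotientAddGroup.eq_zero_iff, hNmem]
      exact ⟨congrArg Prod.fst hx, congrArg Prod.snd hx⟩
    have h3 := Nat.card_le_card_of_injective L' hL'
    rwa [Nat.card_prod, Nat.card_zmod, ← pow_two] at h3
  have htriv : ∀ (g : T.G) (z : k ⧸ N), actU (T.incl g) z = z := by
    intro g z
    obtain ⟨z, rfl⟩ := QuotientAddGroup.mk_surjective z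
    show (((χ₁ (T.incl g) : k) * z : k) : k ⧸ N) = z
    rw [h₁.1 (T.incl g) g.2, Units.val_one, one_mul]
  obtain ⟨_, ⟨a, ha, rfl⟩, hcoord⟩ := F.exists_coord hU hcard hpU htriv hactU
  -- connectedness
  have hconn : ∀ x, dist A x < 1 := by
    have hsurj : ∀ x : (k × k) ⧸ Nprod N, ∃ y, actQ τ y - y = x := by
      intro x
      obtain ⟨⟨u, w⟩, rfl⟩ := QuotientAddGroup.mk_surjective x
      have e1 := fund_ne_one F h₁
      have e2 := fund_ne_one F h₂
      let w' := w / ((χ₂ τ : k) - 1)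
      let u' := (u - b τ * w') / ((χ₁ τ : k) - 1)
      refine ⟨((u', w') : k × k), ?_⟩
      show (((χ₁ τ * u' + b τ * w', χ₂ τ * w') - (u', w') : k × k) : (k × k) ⧸ Nprod N) =
        ((u, w) : k × k)
      congr 1
      refine Prod.ext ?_ ?_
      · show (χ₁ τ : k) * u' + b τ * w' - u' = u
        have : u' * ((χ₁ τ : k) - 1) = u - b τ * w' := div_mul_cancel₀ _ e1
        linear_combination this
      · show (χ₂ τ : k) * w' - w' = w
        have : w' * ((χ₂ τ : k) - 1) = w := div_mul_cancel₀ _ e2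
        linear_combination this
    intro x
    obtain ⟨y, rfl⟩ := hsurj x
    exact hA.dist_act_sub_lt τ y
  have hdv : ∀ z : k ⧸ N, dist A (iN N z) ≤ T.v := by
    intro z
    refine hA.dist_le_v T (fun g => ?_) (hconn _)
    show actQ (T.incl g) (iN N z) = _
    rw [← iN_act N hN, htriv g z]
  have ha0 : ∀ z : k ⧸ N, z ≠ 0 → P.valuation (a (iN N z) - a 0) = T.v := by
    intro z hz
    have h3 := hcoord z hz
    rw [pull_apply, pull_apply, map_zero] at h3
    exact h3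
  have hax : ∀ z : k ⧸ N, z ≠ 0 → P.valuation (a (x₁ N + iN N z) - a (x₁ N)) = T.v := by
    intro z hz
    have hpos : 0 < dist A (iN N z) := hA.dist_pos (fun h => hz (iN_injective N (by
      rw [h, map_zero])))
    have h3 := hA.sub_sub_le ha 0 (x₁ N) (iN N z)
    rw [zero_add, zero_add] at h3
    have h4 : P.valuation (a (x₁ N + iN N z) - a (x₁ N) - (a (iN N z) - a 0)) < T.v :=
      h3.trans_lt ((mul_lt_of_lt_one_left hpos (hconn _)).trans_le (hdv z))
    rw [← ha0 z hz] at h4 ⊢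
    have h5 : a (x₁ N + iN N z) - a (x₁ N) =
      (a (iN N z) - a 0) + (a (x₁ N + iN N z) - a (x₁ N) - (a (iN N z) - a 0)) := by ring
    rw [h5]
    exact Valuation.map_add_eq_of_lt_left _ h4
  have hgθ : ∀ g : T.G, (g : GQ) (a (x₁ N)) = a (x₁ N + iN N ((b (T.incl g) : k) : k ⧸ N)) := by
    intro g
    rw [← act_x₁ N hN (h₂.1 (T.incl g) g.2)]
    exact (hA.equiv a ha (T.incl g) _).symm
  have hv0 : T.v ≠ 0 := T.v_ne
  refine ⟨t, a (x₁ N), hA.val_le a ha _, ?_, ?_, ?_⟩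
  · intro g hg
    by_contra hne
    have hz : ((b (T.incl g) : k) : k ⧸ N) ≠ 0 := by
      intro h
      rw [QuotientAddGroup.eq_zero_iff, hNmem] at h
      exact hne h.1
    have h3 := hax _ hz
    rw [← hgθ, hg, sub_self, map_zero] at h3
    exact hv0 h3.symm
  · intro g hg
    have hz : ((b (T.incl g) : k) : k ⧸ N) ≠ 0 := by
      intro h
      apply hg
      rw [hgθ, h, map_zero, add_zero]
    rw [hgθ]
    exact hax _ hz
  · intro g g' h3 h4
    have h5 : ((b (T.incl g) : k) : k ⧸ N) = ((b (T.incl g') : k) : k ⧸ N) := by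
      rw [← sub_eq_zero, ← QuotientAddGroup.mk_sub, QuotientAddGroup.eq_zero_iff, hNmem, mul_sub,
        map_sub, map_sub, h3, h4, sub_self, sub_self]
      exact ⟨rfl, rfl⟩
    rw [hgθ, hgθ, h5]

theorem add_G {T : Tame p P} (hb : ∀ g h, b (g * h) = χ₁ g * b h + b g * χ₂ h)
    (h₁ : ∀ g : T.G, χ₁ (T.incl g) = 1) (h₂ : ∀ g : T.G, χ₂ (T.incl g) = 1)
    (ℓ : k →+ ZMod p) (g h : T.G) :
    ℓ (b (T.incl (g * h))) = ℓ (b (T.incl g)) + ℓ (b (T.incl h)) := by
  rw [_root_.map_mul, hb, h₁, h₂, Units.val_one, one_mul, mul_one, map_add, add_comm]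

/-- **Breaks of extensions of level two.** -/
theorem break_irr (T : Tame p P) [CharP k p] [Finite k] (he : T.e₁ = p + 1)
    (h₁ : IsFund T χ₁) (h₂ : IsFund T χ₂) (hord : HasOrd (extAct χ₁ χ₂ b hb))
    (ℓ : k →+ ZMod p) (g₀ : T.G) (h₀ : ℓ (b (T.incl g₀)) ≠ 0) :
    ∃ s, BreakPos P.valuation T.G T.e₁ T.π T.ζ s (fun g : T.G => ℓ (b (T.incl g))) ∧
      p * (p + 1) + 1 ≤ s + p * p := by
  classical
  haveI : Fact p.Prime := ⟨T.hp⟩
  obtain ⟨t, θ, hθ, hstab, hlow, horb⟩ := exists_theta_irr T he h₁ h₂ hord ℓ ⟨_, h₀⟩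
  let Fn : ZMod p → Om := fun j =>
    if h : ∃ g : T.G, ℓ (b (T.incl g)) = 0 ∧ ℓ (t * b (T.incl g)) = j then (h.choose : GQ) θ else 0
  let O : Finset Om := (Finset.univ.image Fn).filter
    (fun y => ∃ h : T.G, ℓ (b (T.incl h)) = 0 ∧ h • θ = y)
  have hO : ∀ y, y ∈ O ↔ ∃ h : T.G, ℓ (b (T.incl h)) = 0 ∧ h • θ = y := by
    intro y
    rw [Finset.mem_filter]
    refine ⟨fun h => h.2, fun h => ⟨?_, h⟩⟩
    obtain ⟨g, hg, rfl⟩ := h
    rw [Finset.mem_image]
    refine ⟨ℓ (t * b (T.incl g)), Finset.mem_univ _, ?_⟩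
    have hex : ∃ g' : T.G, ℓ (b (T.incl g')) = 0 ∧ ℓ (t * b (T.incl g')) = ℓ (t * b (T.incl g)) :=
      ⟨g, hg, rfl⟩
    have h3 := hex.choose_spec
    show (if h : ∃ g' : T.G, ℓ (b (T.incl g')) = 0 ∧
      ℓ (t * b (T.incl g')) = ℓ (t * b (T.incl g)) then (h.choose : GQ) θ else 0) = (g : GQ) θ
    rw [dif_pos hex]
    exact horb _ _ (h3.1.trans hg.symm) h3.2
  have hcard : O.card ≤ p := by
    refine (Finset.card_filter_le _ _).trans (Finset.card_image_le.trans ?_)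
    rw [Finset.card_univ, ZMod.card]
  have hp3 := T.three_le
  have hpp : p * O.card ≤ p * p := Nat.mul_le_mul_left p hcard
  rcases T.data.break_of_orbit (f := fun g : T.G => ℓ (b (T.incl g)))
    (fun g h => add_G hb (fun g => h₁.1 _ g.2) (fun g => h₂.1 _ g.2) ℓ g h)
    h₀ hθ O hO hstab (fun g hg => (hlow g hg).ge) with h | ⟨s, h, h'⟩
  · exfalso
    have h3 := h.2
    rw [he] at h3
    nlinarith
  · refine ⟨s, h, ?_⟩
    rw [he] at h'
    omega

/-- **Breaks of extensions of level two, when the cocycle is `F_p`-valued.** -/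
theorem break_irr_line (T : Tame p P) [CharP k p] [Finite k] (he : T.e₁ = p + 1)
    (h₁ : IsFund T χ₁) (h₂ : IsFund T χ₂) (hord : HasOrd (extAct χ₁ χ₂ b hb))
    (l : k) (hline : ∀ g : T.G, ∃ n : ℕ, b (T.incl g) = n * l)
    (ℓ : k →+ ZMod p) (g₀ : T.G) (h₀ : ℓ (b (T.incl g₀)) ≠ 0) :
    ∃ s, BreakPos P.valuation T.G T.e₁ T.π T.ζ s (fun g : T.G => ℓ (b (T.incl g))) ∧
      p * (p + 1) + 1 ≤ s + p := by
  classical
  haveI : Fact p.Prime := ⟨T.hp⟩
  obtain ⟨t, θ, hθ, hstab, hlow, horb⟩ := exists_theta_irr T he h₁ h₂ hord ℓ ⟨_, h₀⟩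
  have hℓl : ℓ l ≠ 0 := by
    intro h
    obtain ⟨n, hn⟩ := hline g₀
    apply h₀
    rw [hn, ← nsmul_eq_mul, map_nsmul, h, smul_zero]
  have hker : ∀ g : T.G, ℓ (b (T.incl g)) = 0 → b (T.incl g) = 0 := by
    intro g hg
    obtain ⟨n, hn⟩ := hline g
    rw [hn, ← nsmul_eq_mul, map_nsmul, nsmul_eq_mul] at hg
    have h3 := (mul_eq_zero.mp hg).resolve_right hℓl
    rw [ZMod.natCast_eq_zero_iff] at h3
    rw [hn, (CharP.cast_eq_zero_iff k p n).mpr h3, zero_mul]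
  have hb1 : b (T.incl 1) = 0 := by
    have h := hb 1 1
    rw [mul_one, map_one, map_one, Units.val_one, one_mul, mul_one] at h
    rw [map_one]
    exact left_eq_add.mp h
  have hO : ∀ y, y ∈ ({θ} : Finset Om) ↔ ∃ h : T.G, ℓ (b (T.incl h)) = 0 ∧ h • θ = y := by
    intro y
    rw [Finset.mem_singleton]
    constructor
    · rintro rfl
      exact ⟨1, by rw [hb1, map_zero], one_smul _ _⟩
    · rintro ⟨h, hh, rfl⟩
      have h3 := hker h hh
      have h4 := horb h 1 (by rw [h3, hb1]) (by rw [h3, hb1])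
      exact h4
  have hp3 := T.three_le
  rcases T.data.break_of_orbit (f := fun g : T.G => ℓ (b (T.incl g)))
    (fun g h => add_G hb (fun g => h₁.1 _ g.2) (fun g => h₂.1 _ g.2) ℓ g h)
    h₀ hθ {θ} hO hstab (fun g hg => (hlow g hg).ge) with h | ⟨s, h, h'⟩
  · exfalso
    have h3 := h.2
    rw [he, Finset.card_singleton] at h3
    nlinarith
  · refine ⟨s, h, ?_⟩
    rw [he, Finset.card_singleton] at h'
    omega

end irr

section ord

variable {χ₁ χ₂ : In P →* kˣ} {b : In P → k} {hb : ∀ g h, b (g * h) = χ₁ g * b h + b g * χ₂ h}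

theorem exists_theta_ord (T : Tame p P) [CharP k p] [Finite k] (he : T.e₁ = 1)
    (h₁ : ∀ (g : In P) (a : ℕ), (g : GQ) T.ζ = T.ζ ^ a → (χ₁ g : k) = a)
    (h₂ : ∀ g : T.G, χ₂ (T.incl g) = 1) (hord : HasOrd (extAct χ₁ χ₂ b hb))
    (ℓ : k →+ ZMod p) (hℓ : ∃ u, ℓ u ≠ 0) :
    ∃ (θ : Om), P.valuation θ ≤ 1 ∧
      (∀ g : T.G, ℓ (b (T.incl g)) ≠ 0 → P.valuation ((g : GQ) θ - θ) = T.v) ∧
      (∀ g : T.G, ℓ (b (T.incl g)) = 0 → (g : GQ) θ = θ) := by
  classical
  haveI : Fact p.Prime := ⟨T.hp⟩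
  have hp3 := T.three_le
  have hex : ∃ p : ℕ, p.Prime ∧ P.LiesOverPrime p := ⟨p, T.hp, T.hP⟩
  have h1 : ∀ g : T.G, χ₁ (T.incl g) = 1 := by
    intro g
    refine Units.ext ?_
    rw [h₁ (T.incl g) 1 (by rw [pow_one]; exact T.zeta_mem g g.2), Nat.cast_one, Units.val_one]
  let N : AddSubgroup k := ℓ.ker
  have hNmem : ∀ x, x ∈ N ↔ ℓ x = 0 := fun x => Iff.rfl
  have hN : ∀ (g : In P), ∀ x ∈ N, (χ₁ g : k) * x ∈ N := by
    intro g x hx
    obtain ⟨a, ha⟩ := T.exists_apply_zeta (g : GQ)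
    rw [h₁ g a ha, hNmem, ← nsmul_eq_mul, map_nsmul, (hNmem x).mp hx, smul_zero]
  obtain ⟨A₀, hA₀⟩ := hord
  let actQ := quotAct (extAct χ₁ χ₂ b hb) (Nprod N) (Nprod_stable N hN)
  let A := A₀.comap (pull (P := P) (QuotientAddGroup.mk' (Nprod N)))
  have hA : IsOrd actQ A := hA₀.quot hex (QuotientAddGroup.mk' (Nprod N))
    (QuotientAddGroup.mk'_surjective _) (fun g x => rfl)
  let actU := quotAct (charAct χ₁) N hN
  have htriv : ∀ (g : T.G) (z : k ⧸ N), actU (T.incl g) z = z := by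
    intro g z
    obtain ⟨z, rfl⟩ := QuotientAddGroup.mk_surjective z
    show (((χ₁ (T.incl g) : k) * z : k) : k ⧸ N) = z
    rw [h1, Units.val_one, one_mul]
  -- the distance
  obtain ⟨τ, hτ, hprim⟩ := T.exists_tame_gen
  obtain ⟨a₀, ha₀⟩ := T.exists_apply_zeta τ
  have hτ1 : ¬ ((p : ℤ) ∣ (a₀ : ℤ) - 1) := by
    intro h
    have h3 := T.cyc_eq hτ ha₀
    rw [he, pow_one] at h3
    rw [← val_intCast_lt_iff T.hp T.hP] at h
    push_cast at h
    have h4 : P.valuation (T.th τ - 1) < 1 := by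
      have : T.th τ - 1 = ((a₀ : Om) - 1) - ((a₀ : Om) - T.th τ) := by ring
      rw [this]
      exact (P.valuation.map_sub _ _).trans_lt (max_lt h h3)
    have h5 := root_eq_one T.hp T.hP T.not_dvd_e (T.th_pow τ) h4
    rw [h5] at hprim
    have h6 := hprim.unique IsPrimitiveRoot.one
    rw [Tame.e, he] at h6
    omega
  have hdU : ∀ z : k ⧸ N, dist A (iN N z) < 1 := by
    intro z
    obtain ⟨z, rfl⟩ := QuotientAddGroup.mk_surjective z
    have h3 : ((a₀ : k) - 1) ≠ 0 := by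
      intro h
      apply hτ1
      rw [← CharP.intCast_eq_zero_iff k p]
      push_cast
      exact h
    have h4 : ((z : k) : k ⧸ N) = actU ⟨τ, hτ⟩ ((z / ((a₀ : k) - 1) : k) : k ⧸ N) -
        ((z / ((a₀ : k) - 1) : k) : k ⧸ N) := by
      show ((z : k) : k ⧸ N) =
        (((χ₁ ⟨τ, hτ⟩ : k) * (z / ((a₀ : k) - 1)) - z / ((a₀ : k) - 1) : k) : k ⧸ N)
      rw [h₁ ⟨τ, hτ⟩ a₀ ha₀]
      congr 1
      field_simp
    rw [h4, map_sub, iN_act N hN]
    exact hA.dist_act_sub_lt _ _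
  have hdv : ∀ z : k ⧸ N, dist A (iN N z) ≤ T.v := by
    intro z
    refine hA.dist_le_v T (fun g => ?_) (hdU z)
    show actQ (T.incl g) (iN N z) = _
    rw [← iN_act N hN, htriv g z]
  obtain ⟨u₀, hu₀⟩ := hℓ
  have hz₀ : ((u₀ : k) : k ⧸ N) ≠ 0 := by
    intro h
    rw [QuotientAddGroup.eq_zero_iff] at h
    exact hu₀ h
  have hz₀' : iN N ((u₀ : k) : k ⧸ N) ≠ 0 := fun h => hz₀ (iN_injective N (by rw [h, map_zero]))
  have hd0 : dist A (iN N ((u₀ : k) : k ⧸ N)) = T.v := by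
    refine le_antisymm (hdv _) ?_
    have h3 := hA.zeta_le_dist T hz₀' (by
      rw [← map_nsmul, ← QuotientAddGroup.mk_nsmul, nsmul_eq_mul, CharP.cast_eq_zero, zero_mul]
      exact map_zero (iN N))
    rwa [T.val_zeta_sub, he, pow_one] at h3
  obtain ⟨a, ha, hax⟩ := hA.exists_sub_eq (x₁ N) (iN N ((u₀ : k) : k ⧸ N))
  rw [hd0] at hax
  -- additivity of the leading coefficient
  let lam : (k ⧸ N) → Kap P := fun z => red P ((a (x₁ N + iN N z) - a (x₁ N)) / T.π)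
  have hlam : ∀ z z', lam (z + z') = lam z + lam z' := by
    intro z z'
    have h3 := hA.lead_add ha T.pi_ne T.v_lt (x₁ N) (hdv z) (hdv z')
    show red P ((a (x₁ N + iN N (z + z')) - a (x₁ N)) / T.π) = _
    rw [map_add]
    exact h3
  have hle : ∀ z, P.valuation ((a (x₁ N + iN N z) - a (x₁ N)) / T.π) ≤ 1 := by
    intro z
    rw [map_div₀]
    exact div_le_one_of_le₀ ((hA.sub_le ha _ _).trans (hdv z)) zero_le
  haveI : CharP (Kap P) p := ResField.charP_residueField (A := P) T.hp T.hP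
  have hlam0 : lam ((u₀ : k) : k ⧸ N) ≠ 0 := by
    show red P _ ≠ 0
    rw [red_ne_zero_iff (hle _), map_div₀, hax]
    exact div_self T.v_ne
  let Lam : (k ⧸ N) →+ Kap P := AddMonoidHom.mk' lam hlam
  have hlamne : ∀ z : k ⧸ N, z ≠ 0 → lam z ≠ 0 := by
    intro z hz
    obtain ⟨z, rfl⟩ := QuotientAddGroup.mk_surjective z
    have hz' : ℓ z ≠ 0 := fun h => hz ((QuotientAddGroup.eq_zero_iff z).mpr h)
    -- `z = n u₀` modulo `N`
    obtain ⟨n, hn⟩ : ∃ n : ℕ, (n : ZMod p) * ℓ u₀ = ℓ z :=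
      ⟨(ℓ z / ℓ u₀).val, by rw [ZMod.natCast_zmod_val, div_mul_cancel₀ _ hu₀]⟩
    have hpn : ¬ p ∣ n := by
      intro h
      apply hz'
      rw [← hn, (ZMod.natCast_eq_zero_iff n p).mpr h, zero_mul]
    have h3 : ((z : k) : k ⧸ N) = n • ((u₀ : k) : k ⧸ N) := by
      rw [← QuotientAddGroup.mk_nsmul, ← sub_eq_zero, ← QuotientAddGroup.mk_sub,
        QuotientAddGroup.eq_zero_iff, hNmem, map_sub, map_nsmul, nsmul_eq_mul, hn, sub_self]
    have h4 : lam ((z : k) : k ⧸ N) = n * lam ((u₀ : k) : k ⧸ N) := by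
      rw [h3]
      show Lam _ = n * Lam _
      rw [map_nsmul, nsmul_eq_mul]
    rw [h4]
    refine mul_ne_zero ?_ hlam0
    rw [Ne, CharP.cast_eq_zero_iff (Kap P) p]
    exact hpn
  have hgθ : ∀ g : T.G, (g : GQ) (a (x₁ N)) = a (x₁ N + iN N ((b (T.incl g) : k) : k ⧸ N)) := by
    intro g
    rw [← act_x₁ N hN (h₂ g)]
    exact (hA.equiv a ha (T.incl g) _).symm
  refine ⟨a (x₁ N), hA.val_le a ha _, ?_, ?_⟩
  · intro g hg
    have hz : ((b (T.incl g) : k) : k ⧸ N) ≠ 0 := fun h =>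
      hg ((QuotientAddGroup.eq_zero_iff _).mp h)
    have h3 : red P ((a (x₁ N + iN N ((b (T.incl g) : k) : k ⧸ N)) - a (x₁ N)) / T.π) ≠ 0 :=
      hlamne _ hz
    rw [red_ne_zero_iff (hle _), map_div₀, div_eq_one_iff_eq ((map_ne_zero _).mpr T.pi_ne)] at h3
    rw [hgθ]
    exact h3
  · intro g hg
    have h3 : ((b (T.incl g) : k) : k ⧸ N) = 0 := (QuotientAddGroup.eq_zero_iff _).mpr hg
    rw [hgθ, h3, map_zero, add_zero]

/-- **Ordinary case: the extension is `peu ramifiée`.** -/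
theorem break_ord (T : Tame p P) [CharP k p] [Finite k] (he : T.e₁ = 1)
    (h₁ : ∀ (g : In P) (a : ℕ), (g : GQ) T.ζ = T.ζ ^ a → (χ₁ g : k) = a)
    (h₂ : ∀ g : T.G, χ₂ (T.incl g) = 1) (hord : HasOrd (extAct χ₁ χ₂ b hb))
    (ℓ : k →+ ZMod p) (g₀ : T.G) (h₀ : ℓ (b (T.incl g₀)) ≠ 0) :
    ∃ s, BreakPos P.valuation T.G T.e₁ T.π T.ζ s (fun g : T.G => ℓ (b (T.incl g))) := by
  classical
  haveI : Fact p.Prime := ⟨T.hp⟩
  obtain ⟨θ, hθ, hlow, hfix⟩ := exists_theta_ord T he h₁ h₂ hord ℓ ⟨_, h₀⟩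
  have h1 : ∀ g : T.G, χ₁ (T.incl g) = 1 := by
    intro g
    refine Units.ext ?_
    rw [h₁ (T.incl g) 1 (by rw [pow_one]; exact T.zeta_mem g g.2), Nat.cast_one, Units.val_one]
  have hb1 : b (T.incl 1) = 0 := by
    have h := hb 1 1
    rw [mul_one, map_one, map_one, Units.val_one, one_mul, mul_one] at h
    rw [map_one]
    exact left_eq_add.mp h
  have hO : ∀ y, y ∈ ({θ} : Finset Om) ↔ ∃ h : T.G, ℓ (b (T.incl h)) = 0 ∧ h • θ = y := by
    intro y
    rw [Finset.mem_singleton]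
    constructor
    · rintro rfl
      exact ⟨1, by rw [hb1, map_zero], one_smul _ _⟩
    · rintro ⟨h, hh, rfl⟩
      exact hfix h hh
  rcases T.data.break_of_orbit (f := fun g : T.G => ℓ (b (T.incl g)))
    (fun g h => add_G hb h1 h₂ ℓ g h)
    h₀ hθ {θ} hO (fun g hg => by
      by_contra hne
      have h3 := hlow g hne
      have hg' : (g : GQ) θ = θ := hg
      rw [hg', sub_self, map_zero] at h3
      exact T.v_ne h3.symm)
    (fun g hg => by
      by_cases hz : ℓ (b (T.incl g)) = 0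
      · exact absurd (hfix g hz) hg
      · exact (hlow g hz).ge) with h | ⟨s, h, h'⟩
  · exfalso
    have h3 := h.2
    rw [he, Finset.card_singleton] at h3
    omega
  · exact ⟨s, h⟩

end ord

end Fermat.Agent.TWFlat
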