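import Fermat.Agent.TWP.FlatLoc.Dist

set_option autoImplicit false
set_option linter.style.haveILetI false
set_option linter.unusedVariables false
set_option linter.unusedSectionVars false

/-!
# A Gauss norm lemma for interpolation at points with distinct residues
-/

open Pointwise Polynomial

namespace Fermat.Agent.TWFlat

variable {P : ValuationSubring Om}

/-- Gauss norm lemma -/
theorem gauss_le {U : Type} [Finite U] {N : ℕ} (hN : N ≤ Nat.card U) (X : U → Om)
    (hX : ∀ z, P.valuation (X z) ≤ 1) (hinj : Function.Injective fun z => red P (X z))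
    (c : Fin N → Om) (γ : P.ValueGroup)
    (h : ∀ z, P.valuation (∑ j, c j * X z ^ (j : ℕ)) ≤ γ) (j : Fin N) : P.valuation (c j) ≤ γ := by
  classical
  by_contra hcon
  push Not at hcon
  obtain ⟨j0, -, hj0⟩ := Finset.exists_max_image (Finset.univ : Finset (Fin N))
    (fun i => P.valuation (c i)) ⟨j, Finset.mem_univ _⟩
  have hγ : γ < P.valuation (c j0) := hcon.trans_le (hj0 j (Finset.mem_univ _))
  have hpos : 0 < P.valuation (c j0) := zero_le.trans_lt hγ
  have hc0 : c j0 ≠ 0 := by
    intro h0
    rw [h0, map_zero] at hpos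
    exact lt_irrefl _ hpos
  let c' : Fin N → Om := fun i => c i / c j0
  have hc' : ∀ i, P.valuation (c' i) ≤ 1 := by
    intro i
    show P.valuation (c i / c j0) ≤ 1
    rw [map_div₀]
    exact div_le_one_of_le₀ (hj0 i (Finset.mem_univ _)) zero_le
  let Q : (Kap P)[X] := ∑ i : Fin N, C (red P (c' i)) * (Polynomial.X : (Kap P)[X]) ^ (i : ℕ)
  have hQc : Q.coeff j0 = 1 := by
    simp only [Q, Polynomial.finsetSum_coeff, Polynomial.coeff_C_mul, Polynomial.coeff_X_pow]
    rw [Finset.sum_eq_single j0]
    · rw [if_pos rfl, mul_one]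
      show red P (c j0 / c j0) = 1
      rw [div_self hc0, red_one]
    · intro i _ hi
      rw [if_neg (fun h => hi (Fin.ext h.symm)), mul_zero]
    · intro h; exact absurd (Finset.mem_univ _) h
  have hQ0 : Q ≠ 0 := by
    intro h0
    rw [h0, coeff_zero] at hQc
    exact zero_ne_one hQc
  have hQdeg : Q.natDegree < N := by
    have hlt : 0 < N := lt_of_le_of_lt (Nat.zero_le _) j0.2
    have : Q.degree < N := by
      refine Polynomial.degree_lt_iff_coeff_zero Q N |>.mpr fun m hm => ?_
      simp only [Q, Polynomial.finsetSum_coeff, Polynomial.coeff_C_mul, Polynomial.coeff_X_pow]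
      refine Finset.sum_eq_zero fun i _ => ?_
      rw [if_neg, mul_zero]
      intro h
      have := i.2
      omega
    exact (Polynomial.natDegree_lt_iff_degree_lt hQ0).mpr this
  have hroot : ∀ z : U, Q.IsRoot (red P (X z)) := by
    intro z
    rw [Polynomial.IsRoot.def]
    have hterm : ∀ i ∈ (Finset.univ : Finset (Fin N)), P.valuation (c' i * X z ^ (i : ℕ)) ≤ 1 := by
      intro i _
      rw [map_mul, map_pow]
      exact mul_le_one₀ (hc' i) zero_le (pow_le_one₀ zero_le (hX z))
    have h1 : Q.eval (red P (X z)) = red P (∑ i, c' i * X z ^ (i : ℕ)) := by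
      simp only [Q, eval_finsetSum, eval_mul, eval_C, eval_pow, eval_X]
      rw [red_sum _ _ hterm]
      refine Finset.sum_congr rfl fun i _ => ?_
      rw [red_mul (hc' i) (by rw [map_pow]; exact pow_le_one₀ zero_le (hX z)), red_pow (hX z)]
    rw [h1, red_eq_zero_iff (Valuation.map_sum_le _ hterm)]
    have h2 : ∑ i, c' i * X z ^ (i : ℕ) = (∑ i, c i * X z ^ (i : ℕ)) / c j0 := by
      rw [Finset.sum_div]
      exact Finset.sum_congr rfl fun i _ => by
        show c i / c j0 * _ = _
        ring
    rw [h2, map_div₀, div_lt_one₀ hpos]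
    exact (h z).trans_lt hγ
  haveI : Fintype U := Fintype.ofFinite U
  have h3 : (Finset.univ.image fun z => red P (X z)) ⊆ Q.roots.toFinset := by
    intro y hy
    obtain ⟨z, -, rfl⟩ := Finset.mem_image.mp hy
    rw [Multiset.mem_toFinset, mem_roots hQ0]
    exact hroot z
  have h4 := Finset.card_le_card h3
  rw [Finset.card_image_of_injective _ hinj, Finset.card_univ, ← Nat.card_eq_fintype_card] at h4
  have h5 := (Multiset.toFinset_card_le Q.roots).trans (Polynomial.card_roots' Q)
  omega

/-- interpolation coefficients -/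
theorem exists_interp {U : Type} [Finite U] (X : U → Om)
    (hX : ∀ z, P.valuation (X z) ≤ 1) (hinj : Function.Injective fun z => red P (X z)) :
    ∃ G : (U → Om) →ₗ[Om] (Fin (Nat.card U) → Om),
      (∀ f z, f z = ∑ j : Fin (Nat.card U), G f j * X z ^ (j : ℕ)) ∧
      (∀ (f : U → Om) (c : Fin (Nat.card U) → Om),
        (∀ z, f z = ∑ j : Fin (Nat.card U), c j * X z ^ (j : ℕ)) → c = G f) ∧
      (∀ f γ, (∀ z, P.valuation (f z) ≤ γ) → ∀ j, P.valuation (G f j) ≤ γ) := by
  classical
  haveI : Fintype U := Fintype.ofFinite U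
  let E : (Fin (Nat.card U) → Om) →ₗ[Om] (U → Om) :=
    { toFun := fun c z => ∑ j, c j * X z ^ (j : ℕ)
      map_add' := fun a b => by
        funext z
        simp only [Pi.add_apply, add_mul, Finset.sum_add_distrib]
      map_smul' := fun s a => by
        funext z
        simp only [Pi.smul_apply, smul_eq_mul, mul_assoc, Finset.mul_sum, RingHom.id_apply] }
  have hE : Function.Injective E := by
    rw [← LinearMap.ker_eq_bot, LinearMap.ker_eq_bot']
    intro c hc
    funext j
    have h1 := gauss_le le_rfl X hX hinj c 0 (fun z => by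
      have : ∑ j, c j * X z ^ (j : ℕ) = 0 := congrFun hc z
      rw [this, map_zero]) j
    rwa [le_zero_iff, map_eq_zero] at h1
  let e : (Fin (Nat.card U) → Om) ≃ₗ[Om] (U → Om) :=
    LinearEquiv.ofInjectiveOfFinrankEq E hE (by
      rw [Module.finrank_fintype_fun_eq_card, Module.finrank_fintype_fun_eq_card, Fintype.card_fin,
        Nat.card_eq_fintype_card])
  have he : ∀ c, e c = E c := fun c => rfl
  refine ⟨e.symm.toLinearMap, ?_, ?_, ?_⟩
  · intro f z
    have h1 : e (e.symm f) = f := e.apply_symm_apply f
    rw [he] at h1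
    exact (congrFun h1 z).symm
  · intro f c h
    apply e.injective
    rw [he, LinearEquiv.coe_coe, e.apply_symm_apply]
    funext z
    exact (h z).symm
  · intro f γ h j
    refine gauss_le le_rfl X hX hinj _ γ (fun z => ?_) j
    have h1 : e (e.symm f) = f := e.apply_symm_apply f
    rw [he] at h1
    have h2 : ∑ j, e.symm.toLinearMap f j * X z ^ (j : ℕ) = f z := congrFun h1 z
    rw [h2]
    exact h z

end Fermat.Agent.TWFlat
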