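import Mathlib
import Fermat.Agent.TWP.Tame

set_option autoImplicit false
set_option linter.unusedSectionVars false
set_option linter.style.haveILetI false
set_option linter.unusedSimpArgs false

/-!
# Kummer theory over a tame extension of the maximal unramified extension of `ℚ_p`

Everything happens inside an algebraic closure of `ℚ`; `H` is a subgroup of the inertia group
whose fixed field has uniformizer `π`, `π ^ (e₁ (p - 1)) = p`.
-/

open Pointwise

namespace Fermat.Agent.TWKum

/-- The algebraic closure of the rationals. -/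
abbrev Qb : Type := AlgebraicClosure ℚ

/-- The absolute Galois group of the rationals. -/
abbrev Gal : Type := AlgebraicClosure ℚ ≃ₐ[ℚ] AlgebraicClosure ℚ

section approx

variable {P : ValuationSubring Qb} {p : ℕ}

theorem val_natCast_le (n : ℕ) : P.valuation (n : Qb) ≤ 1 :=
  (P.valuation_le_one_iff _).mpr (natCast_mem P n)

theorem val_intCast_le (n : ℤ) : P.valuation (n : Qb) ≤ 1 :=
  (P.valuation_le_one_iff _).mpr (intCast_mem P n)

theorem val_p_lt (hP : P.LiesOverPrime p) : P.valuation (p : Qb) < 1 := hP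

theorem pow_one_iff {G : Type*} [LinearOrderedCommGroupWithZero G] {a : G} {n : ℕ} (hn : n ≠ 0) :
    a ^ n = 1 ↔ a = 1 := pow_eq_one_iff_of_nonneg zero_le hn

theorem val_natCast_eq_one (hp : p.Prime) (hP : P.LiesOverPrime p) {n : ℕ} (hn : ¬ p ∣ n) :
    P.valuation (n : Qb) = 1 := by
  have hcop : Nat.Coprime n p := ((Nat.Prime.coprime_iff_not_dvd hp).mpr hn).symm
  obtain ⟨a, b, hab⟩ : ∃ a b : ℤ, a * n + b * p = 1 := by
    have := Nat.isCoprime_iff_coprime.mpr hcop
    exact this
  refine le_antisymm (val_natCast_le n) ?_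
  by_contra hlt
  rw [not_le] at hlt
  have h1 : P.valuation (1 : Qb) < 1 := by
    have e : (1 : Qb) = (a : Qb) * (n : Qb) + (b : Qb) * (p : Qb) := by
      exact_mod_cast hab.symm
    rw [e]
    refine Valuation.map_add_lt _ ?_ ?_
    · rw [map_mul]
      exact mul_lt_one_of_nonneg_of_lt_one_right (val_intCast_le a) zero_le hlt
    · rw [map_mul]
      exact mul_lt_one_of_nonneg_of_lt_one_right (val_intCast_le b) zero_le (val_p_lt hP)
  rw [map_one] at h1
  exact lt_irrefl _ h1

theorem charP_residue (hp : p.Prime) (hP : P.LiesOverPrime p) :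
    CharP (IsLocalRing.ResidueField P) p := by
  haveI := Fact.mk hp
  refine (CharP.charP_iff_prime_eq_zero hp).mpr ?_
  have h1 : ((p : P) : Qb) = (p : Qb) := by norm_cast
  rw [← map_natCast (IsLocalRing.residue P), IsLocalRing.residue_eq_zero_iff]
  have h2 : (p : P) ∈ IsLocalRing.maximalIdeal P := by
    rw [← ValuationSubring.coe_mem_nonunits_iff, h1]
    exact hP
  exact h2

theorem residue_eq_iff (x y : P) :
    IsLocalRing.residue P x = IsLocalRing.residue P y ↔
      P.valuation ((x : Qb) - y) < 1 := by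
  rw [← sub_eq_zero, ← map_sub, IsLocalRing.residue_eq_zero_iff,
    ← ValuationSubring.coe_mem_nonunits_iff, ValuationSubring.mem_nonunits_iff]
  rfl

theorem residue_eq_zero_iff' (x : P) :
    IsLocalRing.residue P x = 0 ↔ P.valuation (x : Qb) < 1 := by
  rw [IsLocalRing.residue_eq_zero_iff,
    ← ValuationSubring.coe_mem_nonunits_iff, ValuationSubring.mem_nonunits_iff]

/-- elements of the residue field are algebraic over the prime field -/
theorem exists_pow_residue (hp : p.Prime) (hP : P.LiesOverPrime p) {x : Qb}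
    (hx : P.valuation x = 1) : ∃ n : ℕ, 0 < n ∧ ¬ p ∣ n ∧ P.valuation (x ^ n - 1) < 1 := by
  haveI := Fact.mk hp
  haveI := charP_residue hp hP
  letI : Algebra (ZMod p) (IsLocalRing.ResidueField P) := ZMod.algebra _ p
  have hxP : x ∈ P := (P.valuation_le_one_iff x).mp hx.le
  set xb : IsLocalRing.ResidueField P := IsLocalRing.residue P ⟨x, hxP⟩ with hxb
  -- a primitive integral relation
  have halg : IsAlgebraic ℤ x := by
    have h1 : IsAlgebraic ℚ x := Algebra.IsAlgebraic.isAlgebraic x
    exact (IsFractionRing.isAlgebraic_iff ℤ ℚ Qb).mpr h1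
  obtain ⟨f, hf0, hf⟩ := halg
  have hf' : Polynomial.aeval x f.primPart = 0 :=
    Polynomial.aeval_primPart_eq_zero hf0 hf
  have hprim : f.primPart.IsPrimitive := Polynomial.isPrimitive_primPart f
  set g : Polynomial (ZMod p) := f.primPart.map (Int.castRingHom (ZMod p)) with hg
  have hg0 : g ≠ 0 := by
    intro h0
    have h1 : Polynomial.C (p : ℤ) ∣ f.primPart := by
      rw [Polynomial.C_dvd_iff_dvd_coeff]
      intro i
      have h2 := congrArg (fun q => Polynomial.coeff q i) h0
      rw [hg] at h2
      simp only [Polynomial.coeff_map, Polynomial.coeff_zero, eq_intCast] at h2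
      exact (ZMod.intCast_zmod_eq_zero_iff_dvd _ _).mp h2
    have h3 := hprim _ h1
    have h4 := Int.isUnit_iff.mp h3
    have := hp.two_le
    omega
  have hxa : Polynomial.aeval xb g = 0 := by
    rw [hg, Polynomial.aeval_def, Polynomial.eval₂_map]
    have e1 : (algebraMap (ZMod p) (IsLocalRing.ResidueField P)).comp (Int.castRingHom (ZMod p)) =
        (IsLocalRing.residue P).comp (algebraMap ℤ P) := RingHom.ext_int _ _
    rw [e1, hxb, ← Polynomial.hom_eval₂]
    have e2 : Polynomial.eval₂ (algebraMap ℤ P) ⟨x, hxP⟩ f.primPart = 0 := by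
      apply Subtype.coe_injective
      have e3 := Polynomial.hom_eval₂ f.primPart (algebraMap ℤ P) P.subtype ⟨x, hxP⟩
      have e4 : P.subtype.comp (algebraMap ℤ P) = algebraMap ℤ Qb := RingHom.ext_int _ _
      rw [e4] at e3
      show P.subtype _ = _
      rw [e3]
      exact hf'
    rw [e2, map_zero]
  have hint : IsIntegral (ZMod p) xb := isAlgebraic_iff_isIntegral.mp ⟨g, hg0, hxa⟩
  have hxb0 : xb ≠ 0 := by
    rw [hxb, Ne, residue_eq_zero_iff', hx]
    exact lt_irrefl _
  -- finite order
  haveI : FiniteDimensional (ZMod p) (IntermediateField.adjoin (ZMod p) {xb}) :=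
    IntermediateField.adjoin.finiteDimensional hint
  haveI : Finite (IntermediateField.adjoin (ZMod p) {xb}) :=
    Module.finite_of_finite (ZMod p)
  set y : IntermediateField.adjoin (ZMod p) {xb} :=
    ⟨xb, IntermediateField.mem_adjoin_simple_self _ _⟩ with hy
  have hy0 : y ≠ 0 := fun h => hxb0 (congrArg Subtype.val h)
  have hpow : ∃ n : ℕ, 0 < n ∧ y ^ n = 1 := by
    refine ⟨Nat.card (IntermediateField.adjoin (ZMod p) {xb})ˣ, Nat.card_pos, ?_⟩
    have := pow_card_eq_one' (G := (IntermediateField.adjoin (ZMod p) {xb})ˣ)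
      (x := Units.mk0 y hy0)
    exact congrArg Units.val this
  obtain ⟨n, hn, hyn⟩ := hpow
  obtain ⟨a, m, hm, hnm⟩ := Nat.exists_eq_pow_mul_and_not_dvd hn.ne' p hp.ne_one
  refine ⟨m, ?_, hm, ?_⟩
  · rcases Nat.eq_zero_or_pos m with h | h
    · rw [h, mul_zero] at hnm; omega
    · exact h
  · have h1 : xb ^ n = 1 := congrArg Subtype.val hyn
    rw [hnm, mul_comm, pow_mul] at h1
    have h2 : (xb ^ m - 1) ^ p ^ a = 0 := by
      rw [sub_pow_char_pow, h1, one_pow, sub_self]
    have h3 : xb ^ m - 1 = 0 := pow_eq_zero_iff (pow_pos hp.pos a).ne' |>.mp h2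
    have h4 : IsLocalRing.residue P (⟨x, hxP⟩ ^ m - 1) = 0 := by
      rw [map_sub, map_pow, map_one]; exact h3
    rw [residue_eq_zero_iff'] at h4
    exact h4

/-- roots of unity of order prime to `p` inject into the residue field -/
theorem root_eq_of_val (hp : p.Prime) (hP : P.LiesOverPrime p) {n : ℕ} (hn : ¬ p ∣ n)
    {x y : Qb} (hx : x ^ n = 1) (hy : y ^ n = 1) (h : P.valuation (x - y) < 1) : x = y := by
  have hn0 : 0 < n := Nat.pos_of_ne_zero (by rintro rfl; exact hn (dvd_zero p))
  have hy0 : y ≠ 0 := by rintro rfl; rw [zero_pow hn0.ne'] at hy; exact zero_ne_one hy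
  have hvy : P.valuation y = 1 := by
    have := congrArg P.valuation hy
    rw [map_pow, map_one] at this
    exact (pow_one_iff hn0.ne').mp this
  by_contra hne
  set z := x / y with hz
  have hzn : z ^ n = 1 := by rw [hz, div_pow, hx, hy, div_one]
  have hz1 : z ≠ 1 := fun h => hne ((div_eq_one_iff_eq hy0).mp h)
  have hvz : P.valuation (z - 1) < 1 := by
    have : z - 1 = (x - y) / y := by rw [hz, sub_div, div_self hy0]
    rw [this, map_div₀, hvy, div_one]
    exact h
  -- the geometric sum vanishes
  have hgs : ∑ i ∈ Finset.range n, z ^ i = 0 := by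
    have h1 := mul_geom_sum z n
    rw [hzn, sub_self] at h1
    exact (mul_eq_zero.mp h1).resolve_left (sub_ne_zero.mpr hz1)
  have hzP : z ∈ P := by
    rw [← P.valuation_le_one_iff]
    have := congrArg P.valuation hzn
    rw [map_pow, map_one] at this
    exact ((pow_one_iff hn0.ne').mp this).le
  have h2 : P.valuation ((n : Qb)) < 1 := by
    have e : (n : Qb) = - ∑ i ∈ Finset.range n, (z ^ i - 1) := by
      rw [Finset.sum_sub_distrib, hgs, Finset.sum_const, Finset.card_range, nsmul_eq_mul, mul_one]
      ring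
    rw [e, Valuation.map_neg]
    refine Valuation.map_sum_lt _ one_ne_zero fun i _ => ?_
    have e2 : z ^ i - 1 = (z - 1) * ∑ j ∈ Finset.range i, z ^ j := (mul_geom_sum z i).symm
    rw [e2, map_mul]
    refine mul_lt_one_of_nonneg_of_lt_one_left zero_le hvz ?_
    exact (P.valuation_le_one_iff _).mpr (sum_mem fun j _ => pow_mem hzP j)
  rw [val_natCast_eq_one hp hP hn] at h2
  exact lt_irrefl _ h2

/-- The maximal unramified extension is dense modulo the maximal ideal. -/
theorem exists_approx (hp : p.Prime) (hP : P.LiesOverPrime p) {x : Qb} (hx : x ∈ P) :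
    ∃ y : Qb, (∀ g ∈ P.inertiaSubgroupIn ℚ, g y = y) ∧ P.valuation (x - y) < 1 := by
  rcases (P.valuation_le_one_iff x).mpr hx |>.lt_or_eq with h | h
  · exact ⟨0, fun g _ => map_zero g, by rwa [sub_zero]⟩
  · obtain ⟨n, hn0, hn, hxn⟩ := exists_pow_residue hp hP h
    -- the roots of unity
    have hsplit : x ^ n - 1 = ((Polynomial.nthRoots n (1 : Qb)).map (fun z => x - z)).prod := by
      have h1 : (Polynomial.X ^ n - Polynomial.C (1 : Qb)) =
          ((Polynomial.nthRoots n (1 : Qb)).map (fun z => Polynomial.X - Polynomial.C z)).prod := by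
        have hs := IsAlgClosed.splits (Polynomial.X ^ n - Polynomial.C (1 : Qb))
        exact (hs.eq_prod_roots_of_monic (Polynomial.monic_X_pow_sub_C (1 : Qb) hn0.ne'))
      have h2 := congrArg (Polynomial.eval x) h1
      rw [Polynomial.eval_multiset_prod, Multiset.map_map] at h2
      simpa using h2
    have hex : ∃ z ∈ Polynomial.nthRoots n (1 : Qb), P.valuation (x - z) < 1 := by
      by_contra hall
      push Not at hall
      have h3 : 1 ≤ P.valuation (x ^ n - 1) := by
        rw [hsplit, map_multiset_prod, Multiset.map_map]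
        apply Multiset.one_le_prod_of_one_le
        intro y hy
        obtain ⟨z, hz, rfl⟩ := Multiset.mem_map.mp hy
        exact hall z hz
      exact absurd hxn (not_lt.mpr h3)
    obtain ⟨z, hz, hxz⟩ := hex
    rw [Polynomial.mem_nthRoots hn0] at hz
    refine ⟨z, fun g hg => ?_, hxz⟩
    have hzP : z ∈ P := by
      rw [← P.valuation_le_one_iff]
      have := congrArg P.valuation hz
      rw [map_pow, map_one] at this
      exact ((pow_one_iff hn0.ne').mp this).le
    exact root_eq_of_val hp hP hn (by rw [← map_pow, hz, map_one]) hz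
      (TWP.Tame.val_sub_lt_one hg hzP)

end approx

end Fermat.Agent.TWKum
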