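import Mathlib
import Fermat.Agent.TWP.FlatLoc.KummerBasic

set_option autoImplicit false
set_option linter.unusedSectionVars false
set_option linter.style.haveILetI false
set_option linter.unusedSimpArgs false

/-!
# Kummer generators
-/

open Pointwise

namespace Fermat.Agent.TWKum

/-- invariance under a subgroup -/
def Fx (H : Subgroup Gal) (x : Qb) : Prop := ∀ g ∈ H, g x = x

section fx

variable {H : Subgroup Gal} {x y : Qb}

theorem Fx.mul (hx : Fx H x) (hy : Fx H y) : Fx H (x * y) := fun g hg => by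
  rw [map_mul, hx g hg, hy g hg]

theorem Fx.add (hx : Fx H x) (hy : Fx H y) : Fx H (x + y) := fun g hg => by
  rw [map_add, hx g hg, hy g hg]

theorem Fx.sub (hx : Fx H x) (hy : Fx H y) : Fx H (x - y) := fun g hg => by
  rw [map_sub, hx g hg, hy g hg]

theorem Fx.neg (hx : Fx H x) : Fx H (-x) := fun g hg => by rw [map_neg, hx g hg]

theorem Fx.inv (hx : Fx H x) : Fx H x⁻¹ := fun g hg => by rw [map_inv₀, hx g hg]

theorem Fx.div (hx : Fx H x) (hy : Fx H y) : Fx H (x / y) := fun g hg => by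
  rw [map_div₀, hx g hg, hy g hg]

theorem Fx.pow (hx : Fx H x) (n : ℕ) : Fx H (x ^ n) := fun g hg => by rw [map_pow, hx g hg]

theorem Fx.zpow (hx : Fx H x) (n : ℤ) : Fx H (x ^ n) := fun g hg => by rw [map_zpow₀, hx g hg]

theorem Fx.one : Fx H 1 := fun g _ => map_one g

theorem Fx.zero : Fx H 0 := fun g _ => map_zero g

theorem Fx.natCast (n : ℕ) : Fx H (n : Qb) := fun g _ => map_natCast g n

end fx

/-- The setting: `π` is a uniformizer of the fixed field of `H`, a tame extension of the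
maximal unramified extension. -/
structure KSet (P : ValuationSubring Qb) (p e₁ : ℕ) (H : Subgroup Gal) (π ζ : Qb) : Prop where
  prime : p.Prime
  lies : P.LiesOverPrime p
  e₁_pos : 0 < e₁
  inertia : H ≤ P.inertiaSubgroupIn ℚ
  fix_pi : Fx H π
  pi_pow : π ^ (e₁ * (p - 1)) = (p : Qb)
  zeta : IsPrimitiveRoot ζ p
  fix_zeta : Fx H ζ
  value : ∀ x : Qb, x ≠ 0 → Fx H x → ∃ n : ℤ, P.valuation x = P.valuation π ^ n


namespace KSet

variable {P : ValuationSubring Qb} {p e₁ : ℕ} {H : Subgroup Gal} {π ζ : Qb}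
  (S : KSet P p e₁ H π ζ)

include S

theorem zeta_pow : ζ ^ p = 1 := S.zeta.pow_eq_one

theorem pow_mod (n : ℕ) : ζ ^ n = ζ ^ (n % p) := by
  conv_lhs => rw [← Nat.mod_add_div n p]
  rw [pow_add, pow_mul, S.zeta_pow, one_pow, mul_one]

theorem pow_val_add (a b : ZMod p) : ζ ^ (a + b).val = ζ ^ a.val * ζ ^ b.val := by
  haveI := NeZero.mk S.prime.ne_zero
  rw [← pow_add, ZMod.val_add, ← S.pow_mod]

theorem pow_val_natCast_mul (n : ℕ) (a : ZMod p) : ζ ^ ((n : ZMod p) * a).val =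
    (ζ ^ a.val) ^ n := by
  haveI := NeZero.mk S.prime.ne_zero
  rw [← pow_mul, ZMod.val_mul, ZMod.val_natCast, ← S.pow_mod, mul_comm]
  rw [S.pow_mod (a.val * (n % p)), S.pow_mod (a.val * n), Nat.mul_mod, Nat.mod_mod,
    ← Nat.mul_mod]

theorem pow_val_eq_one_iff (a : ZMod p) : ζ ^ a.val = 1 ↔ a = 0 := by
  haveI := NeZero.mk S.prime.ne_zero
  rw [S.zeta.pow_eq_one_iff_dvd]
  constructor
  · intro h
    have := Nat.eq_zero_of_dvd_of_lt h (ZMod.val_lt a)
    exact (ZMod.val_eq_zero a).mp this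
  · rintro rfl; rw [ZMod.val_zero]; exact dvd_zero p

theorem p_ne_zero : (p : Qb) ≠ 0 := Nat.cast_ne_zero.mpr S.prime.ne_zero

theorem exp_ne_zero : e₁ * (p - 1) ≠ 0 := by
  have h1 := S.prime.two_le
  have h2 := S.e₁_pos
  have h3 : 0 < e₁ * (p - 1) := Nat.mul_pos h2 (by omega)
  omega

theorem pi_ne_zero : π ≠ 0 := by
  intro h
  have h1 := S.pi_pow
  rw [h, zero_pow S.exp_ne_zero] at h1
  exact S.p_ne_zero h1.symm

theorem val_p : P.valuation (p : Qb) = P.valuation π ^ (e₁ * (p - 1)) := by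
  rw [← S.pi_pow, map_pow]

theorem val_p_lt : P.valuation (p : Qb) < 1 := TWKum.val_p_lt S.lies

theorem r_pos : 0 < P.valuation π := by
  rw [zero_lt_iff]
  exact (Valuation.ne_zero_iff _).mpr S.pi_ne_zero

theorem r_lt : P.valuation π < 1 := by
  have h := S.val_p_lt
  rw [S.val_p] at h
  exact (pow_lt_one_iff_of_nonneg zero_le S.exp_ne_zero).mp h

theorem r_pow_le_iff {m n : ℕ} : P.valuation π ^ m ≤ P.valuation π ^ n ↔ n ≤ m :=
  pow_le_pow_iff_right_of_lt_one₀ S.r_pos S.r_lt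

theorem r_pow_lt_iff {m n : ℕ} : P.valuation π ^ m < P.valuation π ^ n ↔ n < m :=
  pow_lt_pow_iff_right_of_lt_one₀ S.r_pos S.r_lt

theorem r_zpow_le_iff {m n : ℤ} : P.valuation π ^ m ≤ P.valuation π ^ n ↔ n ≤ m :=
  zpow_le_zpow_iff_right_of_lt_one₀ S.r_pos S.r_lt

theorem r_zpow_lt_iff {m n : ℤ} : P.valuation π ^ m < P.valuation π ^ n ↔ n < m :=
  zpow_lt_zpow_iff_right_of_lt_one₀ S.r_pos S.r_lt

theorem r_pow_pos (n : ℕ) : 0 < P.valuation π ^ n := pow_pos S.r_pos n

theorem val_inv {g : Gal} (hg : g ∈ H) (x : Qb) : P.valuation (g x) = P.valuation x :=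
  TWP.Tame.val_inertia (S.inertia hg) x

/-- `H`-invariant elements have integral exponent -/
theorem val_le_succ {x : Qb} (hx : Fx H x) {n : ℕ} (h : P.valuation x < P.valuation π ^ n) :
    P.valuation x ≤ P.valuation π ^ (n + 1) := by
  by_cases h0 : x = 0
  · rw [h0, map_zero]; exact zero_le
  · obtain ⟨m, hm⟩ := S.value x h0 hx
    rw [hm] at h ⊢
    rw [← zpow_natCast, S.r_zpow_lt_iff] at h
    rw [← zpow_natCast, S.r_zpow_le_iff]
    push_cast
    omega

theorem exists_nat_val {x : Qb} (hx : Fx H x) (h0 : x ≠ 0) (h : P.valuation x ≤ 1) :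
    ∃ n : ℕ, P.valuation x = P.valuation π ^ n := by
  obtain ⟨m, hm⟩ := S.value x h0 hx
  rw [hm, ← zpow_zero (P.valuation π), S.r_zpow_le_iff] at h
  refine ⟨m.toNat, ?_⟩
  rw [hm, ← zpow_natCast, Int.toNat_of_nonneg h]

theorem val_zeta : P.valuation ζ = 1 := by
  have h := congrArg P.valuation S.zeta_pow
  rw [map_pow, map_one] at h
  exact (pow_one_iff S.prime.ne_zero).mp h

theorem val_zeta_pow (n : ℕ) : P.valuation (ζ ^ n) = 1 := by rw [map_pow, S.val_zeta, one_pow]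

theorem val_zeta_pow_sub {n : ℕ} (hn : ¬ p ∣ n) :
    P.valuation (ζ ^ n - 1) = P.valuation (ζ - 1) := by
  have key : ∀ (ξ : Qb) (_ : P.valuation ξ = 1) (m : ℕ),
      P.valuation (ξ ^ m - 1) ≤ P.valuation (ξ - 1) := by
    intro ξ hξ m
    rw [← mul_geom_sum, map_mul]
    refine mul_le_of_le_one_right zero_le ?_
    exact (P.valuation_le_one_iff _).mpr (sum_mem fun j _ =>
      pow_mem ((P.valuation_le_one_iff _).mp hξ.le) j)
  refine le_antisymm (key ζ S.val_zeta n) ?_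
  have hcop : Nat.Coprime n p := ((Nat.Prime.coprime_iff_not_dvd S.prime).mpr hn).symm
  obtain ⟨m, -, hm⟩ := Nat.exists_mul_mod_eq_one_of_coprime hcop S.prime.one_lt
  have h1 := key (ζ ^ n) (S.val_zeta_pow n) m
  rwa [← pow_mul, S.pow_mod, hm, pow_one] at h1

theorem val_zeta_sub : P.valuation (ζ - 1) = P.valuation π ^ e₁ := by
  -- product of the differences
  have hp1 : 1 < p := S.prime.one_lt
  obtain ⟨m, rfl⟩ : ∃ m, p = m + 1 := ⟨p - 1, by omega⟩
  have h1 := S.zeta.prod_one_sub_pow_eq_order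
  have h2 := congrArg P.valuation h1
  rw [map_prod] at h2
  have h3 : ∀ k ∈ Finset.range m, P.valuation (1 - ζ ^ (k + 1)) = P.valuation (ζ - 1) := by
    intro k hk
    rw [Finset.mem_range] at hk
    rw [← S.val_zeta_pow_sub (n := k + 1), ← Valuation.map_neg, neg_sub]
    intro h
    have := Nat.le_of_dvd (by omega) h
    omega
  rw [Finset.prod_congr rfl h3, Finset.prod_const, Finset.card_range] at h2
  have h4 : ((m : Qb) + 1) = ((m + 1 : ℕ) : Qb) := by push_cast; rfl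
  rw [h4, S.val_p, Nat.add_sub_cancel, pow_mul] at h2
  exact (pow_left_inj₀ zero_le zero_le (by omega)).mp h2

/-- raising `1 + y` to the `p`-th power -/
theorem one_add_pow {y : Qb} (hy : P.valuation y < 1) :
    ∃ w : Qb, P.valuation (w - 1) < 1 ∧ (1 + y) ^ p = 1 + y ^ p + p * y * w := by
  have h := add_pow_prime_eq S.prime (1 : Qb) y
  have hp1 : 1 < p := S.prime.one_lt
  set w := ∑ k ∈ Finset.Ioo 0 p, (1 : Qb) ^ (k - 1) * y ^ (p - k - 1) * ↑(p.choose k / p) with hw
  refine ⟨w, ?_, by rw [h]; ring⟩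
  have hmem : p - 1 ∈ Finset.Ioo 0 p := by rw [Finset.mem_Ioo]; omega
  rw [hw, ← Finset.add_sum_erase _ _ hmem]
  have e1 : p.choose (p - 1) = p := by
    rw [Nat.choose_symm_of_eq_add (show p = 1 + (p - 1) by omega) |>.symm, Nat.choose_one_right]
  have e2 : p - (p - 1) - 1 = 0 := by omega
  rw [e1, e2, Nat.div_self S.prime.pos, pow_zero, one_pow, Nat.cast_one, mul_one, mul_one,
    add_sub_cancel_left]
  refine Valuation.map_sum_lt _ one_ne_zero fun k hk => ?_
  rw [Finset.mem_erase, Finset.mem_Ioo] at hk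
  rw [one_pow, one_mul, map_mul, map_pow]
  refine mul_lt_one_of_nonneg_of_lt_one_left zero_le ?_ (val_natCast_le _)
  exact pow_lt_one_iff_of_nonneg zero_le (by omega) |>.mpr hy

omit S in
theorem val_eq_one_of_lt {x : Qb} (h : P.valuation (x - 1) < 1) : P.valuation x = 1 := by
  have e : x = 1 + (x - 1) := by ring
  rw [e, Valuation.map_one_add_of_lt _ h]

/-- comparison with the additive polynomial -/
theorem val_pow_sub {y : Qb} (hy : P.valuation y < 1) :
    P.valuation ((1 + y) ^ p - 1 - y ^ p) = P.valuation π ^ (e₁ * (p - 1)) * P.valuation y := by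
  obtain ⟨w, hw, h⟩ := S.one_add_pow hy
  have e : (1 + y) ^ p - 1 - y ^ p = p * y * w := by rw [h]; ring
  rw [e, map_mul, map_mul, val_eq_one_of_lt hw, mul_one, S.val_p]

omit S in
theorem val_pow_sub_pow_lt {x y : Qb} (hx : x ∈ P) (hy : y ∈ P) (h : P.valuation (x - y) < 1)
    (n : ℕ) : P.valuation (x ^ n - y ^ n) < 1 := by
  obtain ⟨w, hw⟩ := sub_dvd_pow_sub_pow (⟨x, hx⟩ : P) ⟨y, hy⟩ n
  have e : x ^ n - y ^ n = (x - y) * w := congrArg Subtype.val hw
  rw [e, map_mul]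
  exact mul_lt_one_of_nonneg_of_lt_one_left zero_le h ((P.valuation_le_one_iff _).mpr w.2)

end KSet

end Fermat.Agent.TWKum
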