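import Mathlib
import Fermat.Agent.TWP.FlatLoc.KummerGen

set_option autoImplicit false
set_option linter.unusedSectionVars false
set_option linter.style.haveILetI false
set_option linter.unusedSimpArgs false

/-!
# Kummer generators and the unit filtration
-/

open Pointwise

namespace Fermat.Agent.TWKum

/-- `β` is a Kummer generator for `f`. -/
def Gen (p : ℕ) (H : Subgroup Gal) (ζ : Qb) (f : Gal → ZMod p) (β : Qb) : Prop :=
  β ≠ 0 ∧ ∀ g ∈ H, g β = ζ ^ (f g).val * β

/-- The unit filtration. -/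
def Fil (P : ValuationSubring Qb) (p : ℕ) (H : Subgroup Gal) (π ζ : Qb) (i : ℕ)
    (f : Gal → ZMod p) : Prop :=
  ∃ β, Gen p H ζ f β ∧ P.valuation (β ^ p - 1) ≤ P.valuation π ^ i

namespace KSet

variable {P : ValuationSubring Qb} {p e₁ : ℕ} {H : Subgroup Gal} {π ζ : Qb}
  (S : KSet P p e₁ H π ζ)

include S

/-- Existence of Kummer generators. -/
theorem exists_gen (f : Gal → ZMod p) (hadd : ∀ g ∈ H, ∀ h ∈ H, f (g * h) = f g + f h)
    (hlev : ∃ L : IntermediateField ℚ Qb, FiniteDimensional ℚ L ∧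
      ∀ g ∈ H, (∀ x ∈ L, g x = x) → f g = 0) : ∃ β, Gen p H ζ f β := by
  classical
  obtain ⟨L, hL, hLf⟩ := hlev
  haveI := NeZero.mk S.prime.ne_zero
  -- restriction of elements of `H` to `L`
  let res : Gal → (L →ₐ[ℚ] Qb) := fun g => (g : Qb →ₐ[ℚ] Qb).comp L.val
  have hres : ∀ g h : Gal, res g = res h → ∀ x ∈ L, (g⁻¹ * h) x = x := by
    intro g h hgh x hx
    have h1 : g x = h x := DFunLike.congr_fun hgh ⟨x, hx⟩
    rw [AlgEquiv.mul_apply, ← h1]
    exact AlgEquiv.symm_apply_apply g x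
  have hf1 : f 1 = 0 := hLf 1 H.one_mem (fun x _ => rfl)
  have hinv : ∀ g ∈ H, f g⁻¹ = - f g := by
    intro g hg
    have h1 := hadd g hg g⁻¹ (H.inv_mem hg)
    rw [mul_inv_cancel, hf1] at h1
    exact (neg_eq_of_add_eq_zero_right h1.symm).symm
  let F : (L →ₐ[ℚ] Qb) → ZMod p := fun φ =>
    if h : ∃ g ∈ H, res g = φ then f h.choose else 0
  have hF : ∀ g ∈ H, F (res g) = f g := by
    intro g hg
    have hex : ∃ g' ∈ H, res g' = res g := ⟨g, hg, rfl⟩
    have h1 : F (res g) = f hex.choose := dif_pos hex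
    rw [h1]
    have h2 := hLf (hex.choose⁻¹ * g) (H.mul_mem (H.inv_mem hex.choose_spec.1) hg)
      (hres _ _ hex.choose_spec.2)
    rw [hadd _ (H.inv_mem hex.choose_spec.1) _ hg, hinv _ hex.choose_spec.1] at h2
    exact (neg_add_eq_zero.mp h2)
  let T : Finset (L →ₐ[ℚ] Qb) := Finset.univ.filter (fun φ => ∃ g ∈ H, res g = φ)
  -- linear independence of characters
  have hex : ∃ y : L, ∑ φ ∈ T, ζ ^ (-(F φ)).val * φ y ≠ 0 := by
    by_contra! hall
    have h1 := linearIndependent_iff'.mp (linearIndependent_toLinearMap ℚ L Qb) T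
      (fun φ => ζ ^ (-(F φ)).val) (by
        ext y
        have := hall y
        simpa [LinearMap.sum_apply] using this)
    have h2 := h1 (res 1) (by
      simp only [T, Finset.mem_filter, Finset.mem_univ, true_and]
      exact ⟨1, H.one_mem, rfl⟩)
    exact pow_ne_zero _ (S.zeta.ne_zero S.prime.ne_zero) h2
  obtain ⟨y, hy⟩ := hex
  refine ⟨_, hy, fun g hg => ?_⟩
  rw [map_sum, Finset.mul_sum]
  -- reindex
  refine Finset.sum_bij (fun φ _ => (g : Qb →ₐ[ℚ] Qb).comp φ) ?_ ?_ ?_ ?_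
  · intro φ hφ
    simp only [T, Finset.mem_filter, Finset.mem_univ, true_and] at hφ ⊢
    obtain ⟨h, hh, rfl⟩ := hφ
    exact ⟨g * h, H.mul_mem hg hh, rfl⟩
  · intro φ _ ψ _ h
    ext x
    have := DFunLike.congr_fun h x
    exact g.injective this
  · intro ψ hψ
    simp only [T, Finset.mem_filter, Finset.mem_univ, true_and] at hψ
    obtain ⟨h, hh, rfl⟩ := hψ
    refine ⟨res (g⁻¹ * h), ?_, ?_⟩
    · simp only [T, Finset.mem_filter, Finset.mem_univ, true_and]
      exact ⟨g⁻¹ * h, H.mul_mem (H.inv_mem hg) hh, rfl⟩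
    · ext x
      show g ((g⁻¹ * h) (x : Qb)) = h (x : Qb)
      rw [← AlgEquiv.mul_apply, mul_inv_cancel_left]
  · intro φ hφ
    simp only [T, Finset.mem_filter, Finset.mem_univ, true_and] at hφ
    obtain ⟨h, hh, rfl⟩ := hφ
    have h1 : (g : Qb →ₐ[ℚ] Qb).comp (res h) = res (g * h) := rfl
    rw [h1, hF _ hh, hF _ (H.mul_mem hg hh), map_mul, map_pow, S.fix_zeta g hg, ← mul_assoc,
      ← S.pow_val_add, hadd g hg h hh]
    have h2 : f g + -(f g + f h) = - f h := by ring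
    rw [h2]
    rfl

section gen

variable {f f' : Gal → ZMod p} {β β' : Qb}

theorem gen_mul (h : Gen p H ζ f β) (h' : Gen p H ζ f' β') : Gen p H ζ (f + f') (β * β') := by
  refine ⟨mul_ne_zero h.1 h'.1, fun g hg => ?_⟩
  rw [map_mul, h.2 g hg, h'.2 g hg, Pi.add_apply, S.pow_val_add]
  ring

theorem gen_fx (h : Gen p H ζ f β) {c : Qb} (hc : Fx H c) (hc0 : c ≠ 0) :
    Gen p H ζ f (β * c) := by
  refine ⟨mul_ne_zero h.1 hc0, fun g hg => ?_⟩
  rw [map_mul, h.2 g hg, hc g hg, mul_assoc]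

theorem gen_one : Gen p H ζ 0 1 := by
  refine ⟨one_ne_zero, fun g _ => ?_⟩
  rw [map_one, Pi.zero_apply, ZMod.val_zero, pow_zero, mul_one]

theorem gen_congr (h : Gen p H ζ f β) (hff' : ∀ g ∈ H, f g = f' g) : Gen p H ζ f' β :=
  ⟨h.1, fun g hg => by rw [h.2 g hg, hff' g hg]⟩

theorem gen_inv (h : Gen p H ζ f β) : Gen p H ζ (-f) β⁻¹ := by
  refine ⟨inv_ne_zero h.1, fun g hg => ?_⟩
  have hz : ζ ^ (f g).val * ζ ^ ((-f) g).val = 1 := by
    rw [← S.pow_val_add, Pi.neg_apply, add_neg_cancel, S.pow_val_eq_one_iff]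
  rw [map_inv₀, h.2 g hg, mul_inv, eq_comm]
  congr 1
  exact eq_inv_of_mul_eq_one_right hz

theorem gen_div_fx (h : Gen p H ζ f β) (h' : Gen p H ζ f β') : Fx H (β' / β) := by
  intro g hg
  have hz : ζ ^ (f g).val ≠ 0 := pow_ne_zero _ (S.zeta.ne_zero S.prime.ne_zero)
  rw [map_div₀, h.2 g hg, h'.2 g hg, mul_div_mul_left _ _ hz]

theorem gen_pow_fx (h : Gen p H ζ f β) : Fx H (β ^ p) := by
  intro g hg
  rw [map_pow, h.2 g hg, mul_pow, ← pow_mul, mul_comm _ p, pow_mul, S.zeta_pow, one_pow, one_mul]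

end gen

section fil

variable {f f' : Gal → ZMod p}

theorem fil_mono {i j : ℕ} (hij : i ≤ j) (h : Fil P p H π ζ j f) : Fil P p H π ζ i f := by
  obtain ⟨β, hβ, h1⟩ := h
  exact ⟨β, hβ, h1.trans (S.r_pow_le_iff.mpr hij)⟩

theorem fil_zero (i : ℕ) : Fil P p H π ζ i 0 :=
  ⟨1, S.gen_one, by rw [one_pow, sub_self, map_zero]; exact zero_le⟩

theorem r_pow_lt_one {i : ℕ} (hi : 0 < i) : P.valuation π ^ i < 1 := by
  rw [← pow_zero (P.valuation π), S.r_pow_lt_iff]; exact hi

theorem fil_add {i : ℕ} (hi : 0 < i) (h : Fil P p H π ζ i f) (h' : Fil P p H π ζ i f') :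
    Fil P p H π ζ i (f + f') := by
  obtain ⟨β, hβ, h1⟩ := h
  obtain ⟨β', hβ', h1'⟩ := h'
  refine ⟨β * β', S.gen_mul hβ hβ', ?_⟩
  have e : (β * β') ^ p - 1 = (β ^ p - 1) * β' ^ p + (β' ^ p - 1) := by ring
  have h2 : P.valuation (β' ^ p) = 1 := val_eq_one_of_lt (h1'.trans_lt (S.r_pow_lt_one hi))
  rw [e]
  refine Valuation.map_add_le _ ?_ h1'
  rw [map_mul, h2, mul_one]
  exact h1

theorem fil_neg {i : ℕ} (hi : 0 < i) (h : Fil P p H π ζ i f) : Fil P p H π ζ i (-f) := by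
  obtain ⟨β, hβ, h1⟩ := h
  refine ⟨β⁻¹, S.gen_inv hβ, ?_⟩
  have hb : β ^ p ≠ 0 := pow_ne_zero _ hβ.1
  have h2 : P.valuation (β ^ p) = 1 := val_eq_one_of_lt (h1.trans_lt (S.r_pow_lt_one hi))
  have e : β⁻¹ ^ p - 1 = - (β ^ p - 1) / β ^ p := by
    rw [inv_pow, eq_div_iff hb, sub_mul, inv_mul_cancel₀ hb]; ring
  rw [e, map_div₀, h2, div_one, Valuation.map_neg]
  exact h1

theorem fil_congr {i : ℕ} (h : Fil P p H π ζ i f) (hff' : ∀ g ∈ H, f g = f' g) :
    Fil P p H π ζ i f' := by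
  obtain ⟨β, hβ, h1⟩ := h
  exact ⟨β, S.gen_congr hβ hff', h1⟩

theorem fil_nsmul {i : ℕ} (hi : 0 < i) (h : Fil P p H π ζ i f) (n : ℕ) :
    Fil P p H π ζ i (n • f) := by
  induction n with
  | zero => rw [zero_smul]; exact S.fil_zero i
  | succ n ih => rw [succ_nsmul]; exact S.fil_add hi ih h

/-- A generator which is a unit can be normalised to a principal unit. -/
theorem fil_one_of_val {β : Qb} (hβ : Gen p H ζ f β) (n : ℤ)
    (h : P.valuation (β ^ p) = P.valuation π ^ ((p : ℤ) * n)) : Fil P p H π ζ 1 f := by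
  -- first make it a unit
  set β₁ := β * π ^ (-n) with hβ₁
  have hg₁ : Gen p H ζ f β₁ := S.gen_fx hβ (S.fix_pi.zpow _) (zpow_ne_zero _ S.pi_ne_zero)
  have hv₁ : P.valuation (β₁ ^ p) = 1 := by
    rw [hβ₁, mul_pow, map_mul, h, ← zpow_natCast, ← zpow_mul, map_zpow₀, ← zpow_add₀ S.r_pos.ne']
    have : (p : ℤ) * n + -n * (p : ℤ) = 0 := by ring
    rw [this, zpow_zero]
  have hb₁ : β₁ ∈ P := by
    rw [← P.valuation_le_one_iff]
    rw [map_pow] at hv₁
    exact ((pow_one_iff S.prime.ne_zero).mp hv₁).le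
  obtain ⟨c, hc, hcβ⟩ := exists_approx S.prime S.lies hb₁
  have hcH : Fx H c := fun g hg => hc g (S.inertia hg)
  have hvβ₁ : P.valuation β₁ = 1 := by
    rw [map_pow] at hv₁
    exact (pow_one_iff S.prime.ne_zero).mp hv₁
  have hvc : P.valuation c = 1 := by
    have e : c = (c - β₁) + β₁ := by ring
    have hlt : P.valuation (c - β₁) < P.valuation β₁ := by
      rw [hvβ₁, ← Valuation.map_neg, neg_sub]; exact hcβ
    rw [e, Valuation.map_add_eq_of_lt_right _ hlt, hvβ₁]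
  have hc0 : c ≠ 0 := by rintro rfl; rw [map_zero] at hvc; exact zero_ne_one hvc
  refine ⟨β₁ * c⁻¹, S.gen_fx hg₁ hcH.inv (inv_ne_zero hc0), ?_⟩
  have hlt : P.valuation ((β₁ * c⁻¹) ^ p - 1) < 1 := by
    set u := β₁ * c⁻¹ with hu
    have hu1 : P.valuation (u - 1) < 1 := by
      have e : u - 1 = (β₁ - c) * c⁻¹ := by rw [hu, sub_mul, mul_inv_cancel₀ hc0]
      rw [e, map_mul, map_inv₀, hvc, inv_one, mul_one]
      exact hcβ
    have hu2 : u ∈ P := by
      rw [← P.valuation_le_one_iff]; exact (val_eq_one_of_lt hu1).le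
    rw [← mul_geom_sum, map_mul]
    refine mul_lt_one_of_nonneg_of_lt_one_left zero_le hu1 ?_
    exact (P.valuation_le_one_iff _).mpr (sum_mem fun j _ => pow_mem hu2 j)
  have hfx : Fx H ((β₁ * c⁻¹) ^ p - 1) :=
    (S.gen_pow_fx (S.gen_fx hg₁ hcH.inv (inv_ne_zero hc0))).sub Fx.one
  have := S.val_le_succ hfx (n := 0) (by rwa [pow_zero])
  simpa using this

/-- Dichotomy for a generator. -/
theorem fil_one_or (hβ : ∃ β, Gen p H ζ f β) : Fil P p H π ζ 1 f ∨
    ∃ β, Gen p H ζ f β ∧ ∃ n : ℤ, ¬ (p : ℤ) ∣ n ∧ P.valuation (β ^ p) = P.valuation π ^ n := by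
  obtain ⟨β, hβ⟩ := hβ
  obtain ⟨n, hn⟩ := S.value (β ^ p) (pow_ne_zero _ hβ.1) (S.gen_pow_fx hβ)
  by_cases h : (p : ℤ) ∣ n
  · obtain ⟨m, rfl⟩ := h
    exact Or.inl (S.fil_one_of_val hβ m hn)
  · exact Or.inr ⟨β, hβ, n, h, hn⟩

/-- If `x` is fixed by `H` with `|x| ≤ |π|^i` then `x = a π^i + smaller` with a nice `a`;
`q` is any `H`-invariant approximation procedure. -/
theorem exists_coeff {x : Qb} {i : ℕ} (hxi : P.valuation x ≤ P.valuation π ^ i) :
    x / π ^ i ∈ P := by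
  rw [← P.valuation_le_one_iff, map_div₀, map_pow]
  exact div_le_one_of_le₀ hxi zero_le

/-- Raising the level when `p` divides the level. -/
theorem fil_succ_of_dvd {j : ℕ} (hj : j ≤ e₁) (hj0 : 0 < j) (h : Fil P p H π ζ (p * j) f) :
    Fil P p H π ζ (p * j + 1) f := by
  obtain ⟨β, hβ, hb⟩ := h
  set a := (β ^ p - 1) / π ^ (p * j) with ha
  have haP : a ∈ P := S.exists_coeff hb
  have hπ0 : π ^ (p * j) ≠ 0 := pow_ne_zero _ S.pi_ne_zero
  have hβa : β ^ p = 1 + a * π ^ (p * j) := by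
    rw [ha, div_mul_cancel₀ _ hπ0]; ring
  -- choose the correction
  obtain ⟨c₀, hc₀P, hc₀⟩ : ∃ c₀ ∈ P, c₀ ^ p + (if j = e₁ then c₀ else 0) = a := by
    by_cases hje : j = e₁
    · obtain ⟨c, hc⟩ := IsAlgClosed.exists_root
        (Polynomial.X ^ p + Polynomial.X - Polynomial.C a : Polynomial Qb) (by
          have h1 : (Polynomial.X ^ p + Polynomial.X - Polynomial.C a : Polynomial Qb) =
            Polynomial.X ^ p + (Polynomial.X - Polynomial.C a) := by ring
          rw [h1, Polynomial.degree_add_eq_left_of_degree_lt]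
          · rw [Polynomial.degree_X_pow]
            exact_mod_cast S.prime.ne_zero
          · rw [Polynomial.degree_X_sub_C, Polynomial.degree_X_pow]
            exact_mod_cast S.prime.one_lt)
      have hc' : c ^ p + c = a := by
        have : c ^ p + c - a = 0 := by simpa [Polynomial.IsRoot] using hc
        linear_combination this
      refine ⟨c, ?_, by rw [if_pos hje]; exact hc'⟩
      -- integrality
      rw [← P.valuation_le_one_iff]
      by_contra hcon
      rw [not_le] at hcon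
      have h2 : P.valuation c < P.valuation (c ^ p) := by
        rw [map_pow]
        exact lt_self_pow₀ hcon S.prime.one_lt
      have h3 : P.valuation (c ^ p + c) = P.valuation (c ^ p) :=
        Valuation.map_add_eq_of_lt_left _ h2
      rw [hc'] at h3
      have h4 : P.valuation a ≤ 1 := (P.valuation_le_one_iff a).mpr haP
      rw [h3] at h4
      exact absurd (hcon.trans h2) (not_lt.mpr h4)
    · obtain ⟨c, hc⟩ := IsAlgClosed.exists_pow_nat_eq a S.prime.pos
      refine ⟨c, ?_, by rw [if_neg hje, add_zero]; exact hc⟩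
      rw [← P.valuation_le_one_iff]
      have h4 : P.valuation a ≤ 1 := (P.valuation_le_one_iff a).mpr haP
      rw [← hc, map_pow] at h4
      exact (pow_le_one_iff_of_nonneg zero_le S.prime.ne_zero).mp h4
  obtain ⟨c, hc, hcc⟩ := exists_approx S.prime S.lies hc₀P
  have hcH : Fx H c := fun g hg => hc g (S.inertia hg)
  have hcP : c ∈ P := by
    have e : c = c₀ - (c₀ - c) := by ring
    rw [e]
    exact sub_mem hc₀P ((P.valuation_le_one_iff _).mp hcc.le)
  have hcle : P.valuation c ≤ 1 := (P.valuation_le_one_iff c).mpr hcP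
  -- the correction is good modulo the maximal ideal
  have hcpow : P.valuation (c₀ ^ p - c ^ p) < 1 := val_pow_sub_pow_lt hc₀P hcP hcc p
  set t := c * π ^ j with ht
  have hvt : P.valuation t < 1 := by
    rw [ht, map_mul, map_pow]
    exact mul_lt_one_of_nonneg_of_lt_one_right hcle zero_le (S.r_pow_lt_one hj0)
  have htH : Fx H t := hcH.mul (S.fix_pi.pow j)
  have hv1t : P.valuation (1 + t) = 1 := Valuation.map_one_add_of_lt _ hvt
  have h1t : 1 + t ≠ 0 := by
    intro h0; rw [h0, map_zero] at hv1t; exact zero_ne_one hv1t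
  obtain ⟨w, hw, hwt⟩ := S.one_add_pow hvt
  have hg : Gen p H ζ f (β * (1 + t)⁻¹) :=
    S.gen_fx hβ (Fx.one.add htH).inv (inv_ne_zero h1t)
  refine ⟨_, hg, S.val_le_succ ((S.gen_pow_fx hg).sub Fx.one) ?_⟩
  have e : (β * (1 + t)⁻¹) ^ p - 1 = (β ^ p - (1 + t) ^ p) / (1 + t) ^ p := by
    rw [mul_pow, inv_pow, eq_div_iff (pow_ne_zero _ h1t), sub_mul,
      mul_assoc, inv_mul_cancel₀ (pow_ne_zero _ h1t)]
    ring
  rw [e, map_div₀, map_pow P.valuation (1 + t), hv1t, one_pow, div_one, hβa, hwt]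
  by_cases hje : j = e₁
  · rw [if_pos hje] at hc₀
    have hexp : (p : Qb) * π ^ j = π ^ (p * j) := by
      rw [← S.pi_pow, ← pow_add, hje]
      congr 1
      obtain ⟨m, hm⟩ : ∃ m, p = m + 1 := ⟨p - 1, by have := S.prime.pos; omega⟩
      rw [hm, Nat.add_sub_cancel]; ring
    have e2 : 1 + a * π ^ (p * j) - (1 + t ^ p + p * t * w) =
        ((c₀ ^ p - c ^ p) + ((c₀ - c) - c * (w - 1))) * π ^ (p * j) := by
      have e3 : p * t * w = c * w * (p * π ^ j) := by rw [ht]; ring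
      rw [e3, hexp, ht, ← hc₀]; ring
    rw [e2, map_mul, map_pow]
    refine mul_lt_of_lt_one_left (S.r_pow_pos _) ?_
    refine Valuation.map_add_lt _ hcpow (Valuation.map_sub_lt _ hcc ?_)
    rw [map_mul]
    exact mul_lt_one_of_nonneg_of_lt_one_right hcle zero_le hw
  · rw [if_neg hje, add_zero] at hc₀
    have e2 : 1 + a * π ^ (p * j) - (1 + t ^ p + p * t * w) =
        (c₀ ^ p - c ^ p) * π ^ (p * j) - p * t * w := by
      rw [ht, ← hc₀]; ring
    rw [e2]
    refine Valuation.map_sub_lt _ ?_ ?_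
    · rw [map_mul, map_pow]
      exact mul_lt_of_lt_one_left (S.r_pow_pos _) hcpow
    · rw [map_mul, map_mul, val_eq_one_of_lt hw, mul_one, S.val_p, ht, map_mul, map_pow]
      have h5 : P.valuation π ^ (e₁ * (p - 1)) * (P.valuation c * P.valuation π ^ j) ≤
          P.valuation π ^ (e₁ * (p - 1) + j) := by
        rw [pow_add]
        refine mul_le_mul_right ?_ _
        exact mul_le_of_le_one_left zero_le hcle
      refine h5.trans_lt (S.r_pow_lt_iff.mpr ?_)
      obtain ⟨m, hm⟩ : ∃ m, p = m + 1 := ⟨p - 1, by have := S.prime.pos; omega⟩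
      have hm0 : 0 < m := by have := S.prime.one_lt; omega
      rw [hm, Nat.add_sub_cancel]
      have : m * j < m * e₁ := Nat.mul_lt_mul_of_pos_left (lt_of_le_of_ne hj hje) hm0
      nlinarith

end fil

end KSet

end Fermat.Agent.TWKum
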