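import Mathlib
import Fermat.Agent.TWP.FlatLoc.KummerFil

set_option autoImplicit false
set_option linter.unusedSectionVars false
set_option linter.style.haveILetI false
set_option linter.unusedSimpArgs false

/-!
# Levels and leading coefficients of Kummer classes
-/

open Pointwise IsLocalRing

namespace Fermat.Agent.TWKum

section resid

variable {P : ValuationSubring Qb}

open Classical in
/-- The residue of an element of the ambient field (zero if it is not integral). -/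
noncomputable def resid (P : ValuationSubring Qb) (x : Qb) : ResidueField P :=
  if h : x ∈ P then residue P ⟨x, h⟩ else 0

theorem resid_of_mem {x : Qb} (h : x ∈ P) : resid P x = residue P ⟨x, h⟩ := dif_pos h

theorem resid_add {x y : Qb} (hx : x ∈ P) (hy : y ∈ P) :
    resid P (x + y) = resid P x + resid P y := by
  rw [resid_of_mem hx, resid_of_mem hy, resid_of_mem (add_mem hx hy), ← map_add]; rfl

theorem resid_sub {x y : Qb} (hx : x ∈ P) (hy : y ∈ P) :
    resid P (x - y) = resid P x - resid P y := by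
  rw [resid_of_mem hx, resid_of_mem hy, resid_of_mem (sub_mem hx hy), ← map_sub]; rfl

theorem resid_neg {x : Qb} (hx : x ∈ P) : resid P (-x) = - resid P x := by
  rw [resid_of_mem hx, resid_of_mem (neg_mem hx), ← map_neg]; rfl

theorem resid_mul {x y : Qb} (hx : x ∈ P) (hy : y ∈ P) :
    resid P (x * y) = resid P x * resid P y := by
  rw [resid_of_mem hx, resid_of_mem hy, resid_of_mem (mul_mem hx hy), ← map_mul]; rfl

theorem resid_pow {x : Qb} (hx : x ∈ P) (n : ℕ) : resid P (x ^ n) = resid P x ^ n := by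
  rw [resid_of_mem hx, resid_of_mem (pow_mem hx n), ← map_pow]; rfl

theorem resid_one : resid P 1 = 1 := by
  rw [resid_of_mem (one_mem P)]; exact map_one _

theorem resid_zero : resid P 0 = 0 := by
  rw [resid_of_mem (zero_mem P)]; exact map_zero _

theorem resid_eq_iff {x y : Qb} (hx : x ∈ P) (hy : y ∈ P) :
    resid P x = resid P y ↔ P.valuation (x - y) < 1 := by
  rw [resid_of_mem hx, resid_of_mem hy, residue_eq_iff]

theorem resid_eq_zero_iff {x : Qb} (hx : x ∈ P) : resid P x = 0 ↔ P.valuation x < 1 := by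
  rw [← resid_zero, resid_eq_iff hx (zero_mem P), sub_zero]

theorem exists_resid (a : ResidueField P) : ∃ x ∈ P, resid P x = a := by
  obtain ⟨x, rfl⟩ := IsLocalRing.residue_surjective a
  exact ⟨x.1, x.2, resid_of_mem x.2⟩

end resid

open Classical in
/-- The leading coefficient at level `i`. -/
noncomputable def lc (P : ValuationSubring Qb) (p : ℕ) (H : Subgroup Gal) (π ζ : Qb) (i : ℕ)
    (f : Gal → ZMod p) : ResidueField P :=
  if h : Fil P p H π ζ i f then resid P ((h.choose ^ p - 1) / π ^ i) else 0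

namespace KSet

variable {P : ValuationSubring Qb} {p e₁ : ℕ} {H : Subgroup Gal} {π ζ : Qb}
  (S : KSet P p e₁ H π ζ)

include S

variable {f f' : Gal → ZMod p}

/-- Above the level `p e₁` every class is trivial. -/
theorem fil_top (h : Fil P p H π ζ (p * e₁ + 1) f) : ∀ g ∈ H, f g = 0 := by
  obtain ⟨β, hβ, hb⟩ := h
  haveI := NeZero.mk S.prime.ne_zero
  have h1 : β ^ p - 1 = ∏ z ∈ Polynomial.nthRootsFinset p (1 : Qb), (β - z) := by
    have := S.zeta.pow_sub_pow_eq_prod_sub_mul β 1 S.prime.pos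
    simpa using this
  have hcard : (Polynomial.nthRootsFinset p (1 : Qb)).card = p := S.zeta.card_nthRootsFinset
  have hex : ∃ z ∈ Polynomial.nthRootsFinset p (1 : Qb),
      P.valuation (β - z) < P.valuation π ^ e₁ := by
    by_contra! hall
    have h2 : P.valuation π ^ (p * e₁) ≤ P.valuation (β ^ p - 1) := by
      rw [h1, map_prod]
      calc P.valuation π ^ (p * e₁) = ∏ z ∈ Polynomial.nthRootsFinset p (1 : Qb),
            P.valuation π ^ e₁ := by
              rw [Finset.prod_const, hcard, ← pow_mul, mul_comm]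
        _ ≤ _ := Finset.prod_le_prod' hall
    have h3 := h2.trans hb
    rw [S.r_pow_le_iff] at h3
    omega
  obtain ⟨z, hz, hzβ⟩ := hex
  have hzp : z ^ p = 1 := (Polynomial.mem_nthRootsFinset S.prime.pos 1).mp hz
  obtain ⟨k, -, hk⟩ := S.zeta.eq_pow_of_pow_eq_one hzp
  have hzH : Fx H z := by rw [← hk]; exact S.fix_zeta.pow k
  have hvβ : P.valuation β = 1 := by
    have := val_eq_one_of_lt (hb.trans_lt (S.r_pow_lt_one (Nat.succ_pos _)))
    rw [map_pow] at this
    exact (pow_one_iff S.prime.ne_zero).mp this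
  intro g hg
  by_contra hfg
  have h2 : P.valuation (g β - z) < P.valuation π ^ e₁ := by
    have e : g β - z = g (β - z) := by rw [map_sub, hzH g hg]
    rw [e, S.val_inv hg]; exact hzβ
  have h3 : P.valuation (g β - β) < P.valuation π ^ e₁ := by
    have e : g β - β = (g β - z) - (β - z) := by ring
    rw [e]; exact Valuation.map_sub_lt _ h2 hzβ
  have h4 : g β - β = (ζ ^ (f g).val - 1) * β := by rw [hβ.2 g hg]; ring
  have h5 : ¬ p ∣ (f g).val := by
    intro hd
    exact hfg ((S.pow_val_eq_one_iff _).mp ((S.zeta.pow_eq_one_iff_dvd _).mpr hd))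
  rw [h4, map_mul, hvβ, mul_one, S.val_zeta_pow_sub h5, S.val_zeta_sub] at h3
  exact lt_irrefl _ h3

/-- The level of a nontrivial class. -/
theorem exists_level (hβ : ∃ β, Gen p H ζ f β) (hf : ∃ g ∈ H, f g ≠ 0) :
    (∃ i : ℕ, 0 < i ∧ i < p * e₁ ∧ ¬ p ∣ i ∧ Fil P p H π ζ i f ∧ ¬ Fil P p H π ζ (i + 1) f) ∨
    ∃ β, Gen p H ζ f β ∧ ∃ n : ℤ, ¬ (p : ℤ) ∣ n ∧ P.valuation (β ^ p) = P.valuation π ^ n := by
  rcases S.fil_one_or hβ with h | h
  · left
    have hnot : ¬ Fil P p H π ζ (p * e₁ + 1) f := by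
      intro h1
      obtain ⟨g, hg, hfg⟩ := hf
      exact hfg (S.fil_top h1 g hg)
    classical
    have hex : ∃ i : ℕ, ¬ Fil P p H π ζ i f := ⟨_, hnot⟩
    obtain ⟨m, hm1, hmin, hmle⟩ : ∃ m, (¬ Fil P p H π ζ m f) ∧ (∀ j < m, Fil P p H π ζ j f) ∧
        m ≤ p * e₁ + 1 := ⟨Nat.find hex, Nat.find_spec hex,
      fun j hj => not_not.mp (Nat.find_min hex hj), Nat.find_min' hex hnot⟩
    have hm2 : 2 ≤ m := by
      by_contra hlt
      exact hm1 (S.fil_mono (by omega) h)
    obtain ⟨i, rfl⟩ : ∃ i, m = i + 1 := ⟨m - 1, by omega⟩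
    have hFi := hmin i (Nat.lt_succ_self i)
    have hnd : ¬ p ∣ i := by
      rintro ⟨j, rfl⟩
      have hj0 : 0 < j := by
        rcases Nat.eq_zero_or_pos j with rfl | h0
        · omega
        · exact h0
      have hj : j ≤ e₁ := by
        have h2 : p * j ≤ p * e₁ := by omega
        exact Nat.le_of_mul_le_mul_left h2 S.prime.pos
      exact hm1 (S.fil_succ_of_dvd hj hj0 hFi)
    refine ⟨i, by omega, ?_, hnd, hFi, hm1⟩
    rcases Nat.lt_or_ge i (p * e₁) with h3 | h3
    · exact h3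
    · exact absurd (show p ∣ i from ⟨e₁, by omega⟩) hnd
  · exact Or.inr h

/-- The `p`-th powers of `H`-invariant elements jump only at multiples of `p`. -/
theorem val_pth_power {c : Qb} (hc : Fx H c) {i : ℕ} (hi0 : 0 < i) (hi : i < p * e₁)
    (hpi : ¬ p ∣ i) (h : P.valuation (c ^ p - 1) ≤ P.valuation π ^ i) :
    P.valuation (c ^ p - 1) < P.valuation π ^ i := by
  have hc1 : P.valuation (c ^ p) = 1 := val_eq_one_of_lt (h.trans_lt (S.r_pow_lt_one hi0))
  have hcv : P.valuation c = 1 := by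
    rw [map_pow] at hc1; exact (pow_one_iff S.prime.ne_zero).mp hc1
  have hcP : c ∈ P := (P.valuation_le_one_iff c).mp hcv.le
  haveI := Fact.mk S.prime
  haveI := charP_residue S.prime S.lies
  -- `c ≡ 1`
  have hy1 : P.valuation (c - 1) < 1 := by
    have h1 : resid P (c ^ p) = resid P 1 := by
      rw [resid_eq_iff (pow_mem hcP p) (one_mem P)]
      exact h.trans_lt (S.r_pow_lt_one hi0)
    rw [resid_pow hcP, resid_one] at h1
    have h2 : (resid P c - 1) ^ p = 0 := by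
      rw [sub_pow_char, h1, one_pow, sub_self]
    have h3 : resid P c = resid P 1 := by
      rw [resid_one]; exact sub_eq_zero.mp (pow_eq_zero_iff S.prime.ne_zero |>.mp h2)
    rwa [resid_eq_iff hcP (one_mem P)] at h3
  set y := c - 1 with hy
  have hcy : c = 1 + y := by rw [hy]; ring
  have hyH : Fx H y := hc.sub Fx.one
  by_cases hy0 : y = 0
  · rw [hcy, hy0, add_zero, one_pow, sub_self, map_zero]; exact S.r_pow_pos i
  obtain ⟨j, hj⟩ := S.exists_nat_val hyH hy0 hy1.le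
  have hj0 : 0 < j := by
    rcases Nat.eq_zero_or_pos j with rfl | h0
    · rw [pow_zero] at hj; rw [hj] at hy1; exact absurd hy1 (lt_irrefl _)
    · exact h0
  have h1 := S.val_pow_sub hy1
  rw [hj, ← pow_add] at h1
  have hyp : P.valuation (y ^ p) = P.valuation π ^ (p * j) := by
    rw [map_pow, hj, ← pow_mul, mul_comm]
  obtain ⟨m, hm⟩ : ∃ m, p = m + 1 := ⟨p - 1, by have := S.prime.pos; omega⟩
  have hm0 : 0 < m := by have := S.prime.one_lt; omega
  have e : c ^ p - 1 = ((1 + y) ^ p - 1 - y ^ p) + y ^ p := by rw [← hcy]; ring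
  have hpm : p - 1 = m := by omega
  rw [hpm] at h1
  have hpe : p * e₁ = e₁ * m + e₁ := by rw [hm]; ring
  have hpj : p * j = j * m + j := by rw [hm]; ring
  rcases Nat.lt_or_ge j e₁ with hlt | hge
  · have h2 : j * m < e₁ * m := Nat.mul_lt_mul_of_pos_right hlt hm0
    have h3 : P.valuation ((1 + y) ^ p - 1 - y ^ p) < P.valuation (y ^ p) := by
      rw [h1, hyp, S.r_pow_lt_iff]; omega
    have h4 : P.valuation (c ^ p - 1) = P.valuation π ^ (p * j) := by
      rw [e, Valuation.map_add_eq_of_lt_right _ h3, hyp]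
    rw [h4, S.r_pow_le_iff] at h
    rw [h4, S.r_pow_lt_iff]
    refine lt_of_le_of_ne h ?_
    rintro rfl
    exact hpi (dvd_mul_right p j)
  · have h2 : e₁ * m ≤ j * m := Nat.mul_le_mul_right m hge
    rw [e]
    refine Valuation.map_add_lt _ ?_ ?_
    · rw [h1, S.r_pow_lt_iff]; omega
    · rw [hyp, S.r_pow_lt_iff]; omega

/-- The leading term does not depend on the generator. -/
theorem leading_unique {β β' : Qb} (hβ : Gen p H ζ f β) (hβ' : Gen p H ζ f β') {i : ℕ}
    (hi0 : 0 < i) (hi : i < p * e₁) (hpi : ¬ p ∣ i)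
    (h : P.valuation (β ^ p - 1) ≤ P.valuation π ^ i)
    (h' : P.valuation (β' ^ p - 1) ≤ P.valuation π ^ i) :
    P.valuation (β' ^ p - β ^ p) < P.valuation π ^ i := by
  set c := β' / β with hc
  have hcH : Fx H c := S.gen_div_fx hβ hβ'
  have hβ'c : β' = β * c := by rw [hc, mul_div_cancel₀ _ hβ.1]
  have hv : P.valuation (β ^ p) = 1 := val_eq_one_of_lt (h.trans_lt (S.r_pow_lt_one hi0))
  have hcp : P.valuation (c ^ p - 1) ≤ P.valuation π ^ i := by
    have e : c ^ p - 1 = ((β' ^ p - 1) - (β ^ p - 1)) / β ^ p := by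
      rw [hβ'c, mul_pow, eq_div_iff (pow_ne_zero _ hβ.1)]; ring
    rw [e, map_div₀, hv, div_one]
    exact Valuation.map_sub_le _ h' h
  have h1 := S.val_pth_power hcH hi0 hi hpi hcp
  have e : β' ^ p - β ^ p = β ^ p * (c ^ p - 1) := by rw [hβ'c, mul_pow]; ring
  rw [e, map_mul, hv, one_mul]
  exact h1

section lc

variable {i : ℕ} (hi0 : 0 < i) (hi : i < p * e₁) (hpi : ¬ p ∣ i)

include hi0 hi hpi

theorem lc_eq {β : Qb} (hβ : Gen p H ζ f β) (h : P.valuation (β ^ p - 1) ≤ P.valuation π ^ i) :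
    lc P p H π ζ i f = resid P ((β ^ p - 1) / π ^ i) := by
  have hF : Fil P p H π ζ i f := ⟨β, hβ, h⟩
  have h1 : lc P p H π ζ i f = resid P ((hF.choose ^ p - 1) / π ^ i) := dif_pos hF
  rw [h1, resid_eq_iff (S.exists_coeff hF.choose_spec.2) (S.exists_coeff h)]
  have e : (hF.choose ^ p - 1) / π ^ i - (β ^ p - 1) / π ^ i =
      (hF.choose ^ p - β ^ p) / π ^ i := by ring
  rw [e, map_div₀, map_pow, div_lt_one₀ (S.r_pow_pos i)]
  exact S.leading_unique hβ hF.choose_spec.1 hi0 hi hpi h hF.choose_spec.2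

theorem lc_congr (h : Fil P p H π ζ i f) (hff' : ∀ g ∈ H, f g = f' g) :
    lc P p H π ζ i f = lc P p H π ζ i f' := by
  obtain ⟨β, hβ, hb⟩ := h
  rw [S.lc_eq hi0 hi hpi hβ hb, S.lc_eq hi0 hi hpi (S.gen_congr hβ hff') hb]

theorem lc_add (h : Fil P p H π ζ i f) (h' : Fil P p H π ζ i f') :
    lc P p H π ζ i (f + f') = lc P p H π ζ i f + lc P p H π ζ i f' := by
  obtain ⟨β, hβ, hb⟩ := h
  obtain ⟨β', hβ', hb'⟩ := h'
  have e : (β * β') ^ p - 1 = (β ^ p - 1) * β' ^ p + (β' ^ p - 1) := by ring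
  have h2 : P.valuation (β' ^ p) = 1 := val_eq_one_of_lt (hb'.trans_lt (S.r_pow_lt_one hi0))
  have hbb : P.valuation ((β * β') ^ p - 1) ≤ P.valuation π ^ i := by
    rw [e]
    refine Valuation.map_add_le _ ?_ hb'
    rw [map_mul, h2, mul_one]
    exact hb
  have hβ'P : β' ^ p ∈ P := (P.valuation_le_one_iff _).mp h2.le
  rw [S.lc_eq hi0 hi hpi hβ hb, S.lc_eq hi0 hi hpi hβ' hb',
    S.lc_eq hi0 hi hpi (S.gen_mul hβ hβ') hbb]
  have e2 : ((β * β') ^ p - 1) / π ^ i =
      (β ^ p - 1) / π ^ i * β' ^ p + (β' ^ p - 1) / π ^ i := by rw [e]; ring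
  rw [e2, resid_add (mul_mem (S.exists_coeff hb) hβ'P) (S.exists_coeff hb'),
    resid_mul (S.exists_coeff hb) hβ'P]
  have e3 : resid P (β' ^ p) = 1 := by
    rw [← resid_one, resid_eq_iff hβ'P (one_mem P)]
    exact hb'.trans_lt (S.r_pow_lt_one hi0)
  rw [e3, mul_one]

theorem lc_zero : lc P p H π ζ i 0 = 0 := by
  rw [S.lc_eq hi0 hi hpi S.gen_one (by rw [one_pow, sub_self, map_zero]; exact zero_le),
    one_pow, sub_self, zero_div, resid_zero]

theorem lc_neg (h : Fil P p H π ζ i f) : lc P p H π ζ i (-f) = - lc P p H π ζ i f := by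
  have h1 := S.lc_add hi0 hi hpi h (S.fil_neg hi0 h)
  rw [add_neg_cancel, S.lc_zero hi0 hi hpi] at h1
  exact (neg_eq_of_add_eq_zero_right h1.symm).symm

theorem lc_nsmul (h : Fil P p H π ζ i f) (n : ℕ) :
    lc P p H π ζ i (n • f) = n • lc P p H π ζ i f := by
  induction n with
  | zero => rw [zero_smul, zero_smul, S.lc_zero hi0 hi hpi]
  | succ n ih => rw [succ_nsmul, succ_nsmul, S.lc_add hi0 hi hpi (S.fil_nsmul hi0 h n) h, ih]

theorem lc_eq_zero_iff (h : Fil P p H π ζ i f) :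
    lc P p H π ζ i f = 0 ↔ Fil P p H π ζ (i + 1) f := by
  constructor
  · intro h1
    obtain ⟨β, hβ, hb⟩ := h
    rw [S.lc_eq hi0 hi hpi hβ hb, resid_eq_zero_iff (S.exists_coeff hb), map_div₀, map_pow,
      div_lt_one₀ (S.r_pow_pos i)] at h1
    exact ⟨β, hβ, S.val_le_succ ((S.gen_pow_fx hβ).sub Fx.one) h1⟩
  · rintro ⟨β, hβ, hb⟩
    have hb' : P.valuation (β ^ p - 1) ≤ P.valuation π ^ i :=
      hb.trans (S.r_pow_le_iff.mpr (Nat.le_succ i))
    rw [S.lc_eq hi0 hi hpi hβ hb', resid_eq_zero_iff (S.exists_coeff hb'), map_div₀, map_pow,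
      div_lt_one₀ (S.r_pow_pos i)]
    exact hb.trans_lt (S.r_pow_lt_iff.mpr (Nat.lt_succ_self i))

end lc

/-- The twisted conjugation action on classes. -/
noncomputable def tw {p : ℕ} (φ : Gal) (w : ℕ) (f : Gal → ZMod p) : Gal → ZMod p :=
  fun g => (w : ZMod p) * f (φ⁻¹ * g * φ)

section tw

variable {φ : Gal} {w : ℕ} {t : Qb} (hφD : ∀ x, P.valuation (φ x) = P.valuation x)
  (hφH : ∀ g ∈ H, φ⁻¹ * g * φ ∈ H) (hφπ : φ π = t * π) (hφζ : φ ζ = ζ ^ w)

include hφH hφζ in
theorem gen_tw {β : Qb} (hβ : Gen p H ζ f β) : Gen p H ζ (tw φ w f) (φ β) := by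
  refine ⟨(map_ne_zero φ).mpr hβ.1, fun g hg => ?_⟩
  have h1 := hβ.2 _ (hφH g hg)
  have h2 : g (φ β) = φ ((φ⁻¹ * g * φ) β) := by
    rw [← AlgEquiv.mul_apply, ← AlgEquiv.mul_apply]
    congr 1
    group
  rw [h2, h1, map_mul, map_pow, hφζ, tw, S.pow_val_natCast_mul, ← pow_mul, ← pow_mul, mul_comm w]

include hφD hφH hφζ in
theorem fil_tw {i : ℕ} (h : Fil P p H π ζ i f) : Fil P p H π ζ i (tw φ w f) := by
  obtain ⟨β, hβ, hb⟩ := h
  refine ⟨φ β, S.gen_tw hφH hφζ hβ, ?_⟩
  have e : φ β ^ p - 1 = φ (β ^ p - 1) := by rw [map_sub, map_pow, map_one]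
  rw [e, hφD]; exact hb

include hφD hφπ in
theorem val_t : P.valuation t = 1 := by
  have h1 := hφD π
  rw [hφπ, map_mul] at h1
  exact mul_eq_right₀ S.r_pos.ne' |>.mp h1

include hφD hφH hφπ hφζ in
theorem lc_tw {i : ℕ} (hi0 : 0 < i) (hi : i < p * e₁) (hpi : ¬ p ∣ i) {q : ℕ}
    (hq : ∀ x ∈ P, P.valuation (φ x - x ^ q) < 1) (h : Fil P p H π ζ i f) :
    lc P p H π ζ i (tw φ w f) = lc P p H π ζ i f ^ q * resid P t ^ i := by
  obtain ⟨β, hβ, hb⟩ := h
  have e : φ β ^ p - 1 = φ (β ^ p - 1) := by rw [map_sub, map_pow, map_one]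
  have hb' : P.valuation (φ β ^ p - 1) ≤ P.valuation π ^ i := by rw [e, hφD]; exact hb
  have ht1 := S.val_t hφD hφπ
  have htP : t ∈ P := (P.valuation_le_one_iff _).mp ht1.le
  rw [S.lc_eq hi0 hi hpi (S.gen_tw hφH hφζ hβ) hb', S.lc_eq hi0 hi hpi hβ hb]
  set a := (β ^ p - 1) / π ^ i with ha
  have haP : a ∈ P := S.exists_coeff hb
  have hφa : φ a ∈ P := by
    rw [← P.valuation_le_one_iff, hφD, P.valuation_le_one_iff]; exact haP
  have e2 : (φ β ^ p - 1) / π ^ i = φ a * t ^ i := by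
    have hπ0 : π ^ i ≠ 0 := pow_ne_zero _ S.pi_ne_zero
    have ht0 : t ≠ 0 := by rintro rfl; rw [map_zero] at ht1; exact zero_ne_one ht1
    rw [ha, map_div₀, map_pow, hφπ, e, mul_pow]
    field_simp
  rw [e2, resid_mul hφa (pow_mem htP i), resid_pow htP, ← resid_pow haP]
  congr 1
  rw [resid_eq_iff hφa (pow_mem haP q)]
  exact hq a haP

end tw

end KSet

end Fermat.Agent.TWKum
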