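import Fermat.Agent.TWP.FlatLoc.StrOf

set_option autoImplicit false
set_option linter.style.haveILetI false
set_option linter.unusedVariables false
set_option linter.unusedSectionVars false

/-!
# The flat local bound
-/

open Pointwise

namespace Fermat.Agent.TWFlat

open Module Matrix IsLocalRing Fermat.Agent.TWP.GW Fermat.Agent.CFT.LC ExtCitation Polynomial
open Fermat.Agent.TWP (SelFlat locConst_of_isModelR det_of_isModelR charpoly_of_isModelR)
open Fermat.Agent.CFT.PT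

/-- the bound in the irreducible case -/
def IrrBound (p : ℕ) (P : ValuationSubring Om) (k : Type) [Field k] : Prop :=
  ∀ (T : Tame p P) (φ : GQ) (M : GQ →* Matrix (Fin 2) (Fin 2) k) (χ₁ χ₂ : In P →* kˣ),
    IrrShape T φ M χ₁ χ₂ → φ T.π = T.π → IsLC₁ (krull ℚ Om) M →
    ∀ W : Submodule k (GQ → Matrix (Fin 2) (Fin 2) k),
      (∀ a ∈ W, a ∈ zAd M (krull ℚ Om) ∧ EpsOrd P M a) →
      finrank k (W.map (resD k (P.decompositionSubgroup ℚ))) ≤ 4

section

variable {P : ValuationSubring Om} {p : ℕ} {k : Type} [Field k]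
  {M : GQ →* Matrix (Fin 2) (Fin 2) k}

theorem zAd_conj {a : GQ → Matrix (Fin 2) (Fin 2) k}
    (ha : a ∈ zAd M (krull ℚ Om)) {Q Q' : Matrix (Fin 2) (Fin 2) k} (hQ : Q' * Q = 1) :
    (fun g => Q * a g * Q') ∈ zAd (conjRep M Q Q' hQ) (krull ℚ Om) := by
  have h := locCoc_conj ha hQ
  exact ⟨h.trace, fun g h' => h.coc g h', ha.2.2.comp (fun X => Q * X * Q')⟩

variable [Finite k] {ρbar : ResidualGaloisRep k}

theorem finrank_flatW_le (hp : p.Prime) (hp2 : p ≠ 2) (hP : P.LiesOverPrime p)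
    (hM : UDef.IsModelR ρbar M)
    (hdet : (GaloisRepAdic.ofResidualGaloisRep ρbar).DetIsCyclotomic p)
    (hsplit : ∀ σ : GQ, ∃ α β : k, LinearMap.charpoly (ρbar.ρ σ) = (X - C α) * (X - C β))
    (hflat : (GaloisRepAdic.ofResidualGaloisRep ρbar).IsFlatAt p)
    (hIrr : CharP k p → IrrBound p P k)
    (hex : ∃ p : ℕ, p.Prime ∧ P.LiesOverPrime p) (h0 : HasOrd (vecAct P M)) :
    finrank k ((flatW P M hex h0).map (resD k (P.decompositionSubgroup ℚ))) ≤ 4 := by
  have H := strHyp_of hp hp2 hP hM hdet hsplit hflat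
  haveI : Fact p.Prime := ⟨hp⟩
  haveI : CharP k p := charP_of_det hdet
  rcases H.dichotomy with ⟨Q, hQ⟩ | h
  · obtain ⟨T, he⟩ := exists_tame hp hp2 hP (e₁ := 1) one_pos (fun h => by
      have := Nat.le_of_dvd one_pos h
      have := hp.two_le
      omega)
    exact finrank_of_shape T he (Q := (↑Q⁻¹ : Matrix (Fin 2) (Fin 2) k))
      (Q' := (Q : Matrix (Fin 2) (Fin 2) k)) (Units.mul_inv Q)
      ⟨hQ.low, hQ.one, fun g hg c hc => hQ.cyc g hg T.ζ T.hζ c hc⟩ hex h0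
  · obtain ⟨T, he⟩ := exists_tame hp hp2 hP (e₁ := p + 1) (Nat.succ_pos p) (fun h => by
      have h1 : p ∣ 1 := (Nat.dvd_add_right (dvd_refl p)).mp h
      have := Nat.le_of_dvd one_pos h1
      have := hp.two_le
      omega)
    obtain ⟨φ, hφ, hφπ⟩ := T.exists_frob
    obtain ⟨Q, χ₁, χ₂, hS⟩ := h T he φ hφ
    have hQ : (Q : Matrix (Fin 2) (Fin 2) k) * (↑Q⁻¹ : Matrix (Fin 2) (Fin 2) k) = 1 :=
      Units.mul_inv Q
    obtain ⟨W', hW', h1⟩ := exists_conj_submodule hQ (P.decompositionSubgroup ℚ)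
      (flatW P M hex h0)
    rw [h1]
    have hcj : cj Q M = conjRep M (↑Q⁻¹ : Matrix (Fin 2) (Fin 2) k)
      (Q : Matrix (Fin 2) (Fin 2) k) hQ := MonoidHom.ext fun g => rfl
    rw [hcj] at hS
    refine hIrr inferInstance T φ _ χ₁ χ₂ hS hφπ ?_ W' ?_
    · exact (locConst_iff.mp (locConst_of_isModelR hM)).comp
        (fun X => (↑Q⁻¹ : Matrix (Fin 2) (Fin 2) k) * X * (Q : Matrix (Fin 2) (Fin 2) k))
    · intro a' ha'
      obtain ⟨a, ha, rfl⟩ := hW' a' ha'
      exact ⟨zAd_conj ha.1 hQ, ha.2.conj hQ (fun g => rfl)⟩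

end

section

variable {𝒪 : Type} [CommRing 𝒪] [IsLocalRing 𝒪] [Finite (ResidueField 𝒪)]
  {p : ℕ} [Fact p.Prime] {ρbar : ResidualGaloisRep (ResidueField 𝒪)}
  {M : GQ →* Matrix (Fin 2) (Fin 2) (ResidueField 𝒪)}

/-- **The flat local condition at `p` has dimension at most four.** -/
theorem hasLocal_flat_of (hp2 : p ≠ 2) (hM : UDef.IsModelR ρbar M)
    (hdet : (GaloisRepAdic.ofResidualGaloisRep ρbar).DetIsCyclotomic p)
    (hsplit : ∀ σ : GQ, ∃ α β : ResidueField 𝒪,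
      LinearMap.charpoly (ρbar.ρ σ) = (X - C α) * (X - C β))
    (hIrr : CharP (ResidueField 𝒪) p → IrrBound p (primeLocalPlace (pPrime p)) (ResidueField 𝒪))
    (hflat : (GaloisRepAdic.ofResidualGaloisRep ρbar).IsFlatAt p) :
    HasLocal M (pPrime p) 4 (SelFlat M p) := by
  have hp : p.Prime := Fact.out
  have hP : (primeLocalPlace (pPrime p)).LiesOverPrime p :=
    primeLocalPlace_liesOverPrime (pPrime p)
  have h0 : HasOrd (vecAct (primeLocalPlace (pPrime p)) M) :=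
    hasOrd_vecAct hp hP hM.toAdic hflat
  exact hasLocal_of_bound hM h0
    (finrank_flatW_le hp hp2 hP hM hdet hsplit hflat hIrr (hex_pPrime (p := p)) h0)

end

end Fermat.Agent.TWFlat
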