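import Mathlib
import Fermat.Agent.TWP.FlatLoc.Dist
import Fermat.Agent.TWP.FlatLoc.FrobDec

set_option autoImplicit false
set_option linter.style.haveILetI false
set_option linter.unusedVariables false
set_option linter.unusedSectionVars false
set_option linter.unusedSimpArgs false

/-!
# The ordinary case of the flat local bound: structure of flat cocycles
-/

open Pointwise Matrix

namespace Fermat.Agent.TWFlat

namespace Ord

variable {P : ValuationSubring Om} {p : ℕ}

section etale

variable {M : Type} [AddCommGroup M] [Finite M] {act : In P →* AddMonoid.End M}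

/-- Nonzero points moved to by inertia are not fixed by inertia (connected ∩ étale = 0). -/
theorem no_move (T : Tame p P) (h : HasOrd act) (hpM : ∀ z : M, p • z = 0) (g : In P) (x : M)
    (hfix : ∀ g' : In P, act g' (act g x - x) = act g x - x) : act g x = x := by
  by_contra hne
  have hz : act g x - x ≠ 0 := sub_ne_zero.mpr hne
  obtain ⟨A, hA⟩ := h
  set z := act g x - x with hzdef
  have h1 : dist A z < 1 := hA.dist_act_sub_lt g x
  have h2 : P.valuation (T.ζ - 1) ≤ dist A z := hA.zeta_le_dist T hz (hpM z)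
  obtain ⟨a, ha, h3⟩ := (hA.dist_spec z).2
  have h4 : ∀ g' ∈ P.inertiaSubgroupIn ℚ, g' (a z - a 0) = a z - a 0 := by
    intro g' hg'
    have e1 := hA.equiv a ha ⟨g', hg'⟩ z
    have e2 := hA.equiv a ha ⟨g', hg'⟩ 0
    rw [hfix] at e1
    rw [map_zero] at e2
    rw [map_sub, ← e1, ← e2]
  have h5 : a z - a 0 ≠ 0 := by
    intro h0
    rw [h0, map_zero] at h3
    exact (hA.dist_pos hz).ne h3
  obtain ⟨n, hn⟩ := exists_val_eq_zpow T.hp T.hP h5 h4
  rw [← h3, hn] at h1 h2
  have hv0 := T.v_pos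
  have hv1 := T.v_lt
  rw [← T.v_pow_e] at h1 h2
  have hpp : (T.v ^ T.e : P.ValueGroup) ^ n = T.v ^ ((T.e : ℤ) * n) := by
    rw [_root_.zpow_mul, zpow_natCast]
  rw [hpp] at h1 h2
  rw [T.val_zeta_sub, ← zpow_natCast, T.zle] at h2
  rw [← zpow_zero T.v, T.zlt] at h1
  have h6 : 0 < n := by
    have := T.e_pos
    by_contra hcon
    push Not at hcon
    have : (T.e : ℤ) * n ≤ 0 := mul_nonpos_of_nonneg_of_nonpos (by positivity) hcon
    omega
  have h7 : (T.e : ℤ) ≤ T.e₁ := by
    have : (T.e : ℤ) * 1 ≤ T.e * n := mul_le_mul_of_nonneg_left (by omega) (by positivity)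
    omega
  have h8 : T.e₁ < T.e := by
    rw [Tame.e]
    have := T.three_le
    have h9 := T.he₁
    calc T.e₁ = T.e₁ * 1 := (mul_one _).symm
      _ < T.e₁ * (p - 1) := Nat.mul_lt_mul_of_pos_left (by omega) h9
  omega

end etale

section subquot

variable {M : Type} [AddCommGroup M] [Finite M] {act : In P →* AddMonoid.End M}
  {Q : Type} [AddCommGroup Q]

/-- Orders on subquotients. -/
theorem subquot (T : Tame p P) (h : HasOrd act) (N : AddSubgroup M)
    (hN : ∀ g, ∀ x ∈ N, act g x ∈ N) (q : M →+ Q) (hq : ∀ y, ∃ x ∈ N, q x = y)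
    (F : In P → Q → Q) (hF : ∀ g, ∀ x ∈ N, q (act g x) = F g (q x)) :
    ∃ actQ : In P →* AddMonoid.End Q, (∀ g y, actQ g y = F g y) ∧ HasOrd actQ := by
  -- the action on the subgroup
  let actN : In P →* AddMonoid.End N :=
    { toFun := fun g => AddMonoidHom.mk' (fun x => ⟨act g x, hN g x x.2⟩)
        (fun x y => Subtype.ext (map_add (act g) (x : M) (y : M)))
      map_one' := by
        refine AddMonoidHom.ext fun x => Subtype.ext ?_
        change act 1 (x : M) = x
        rw [map_one]; rfl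
      map_mul' := fun g h => by
        refine AddMonoidHom.ext fun x => Subtype.ext ?_
        change act (g * h) (x : M) = act g (act h (x : M))
        rw [map_mul]; rfl }
  have hordN : HasOrd actN := h.of_injective N.subtype Subtype.val_injective (fun g x => rfl)
  have hFadd : ∀ g y z, F g (y + z) = F g y + F g z := by
    intro g y z
    obtain ⟨x, hx, rfl⟩ := hq y
    obtain ⟨x', hx', rfl⟩ := hq z
    rw [← map_add, ← hF g _ (N.add_mem hx hx'), ← hF g _ hx, ← hF g _ hx', map_add, map_add]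
  let actQ : In P →* AddMonoid.End Q :=
    { toFun := fun g => AddMonoidHom.mk' (F g) (hFadd g)
      map_one' := by
        refine AddMonoidHom.ext fun y => ?_
        obtain ⟨x, hx, rfl⟩ := hq y
        change F 1 (q x) = q x
        rw [← hF 1 x hx, map_one]; rfl
      map_mul' := fun g h => by
        refine AddMonoidHom.ext fun y => ?_
        obtain ⟨x, hx, rfl⟩ := hq y
        change F (g * h) (q x) = F g (F h (q x))
        rw [← hF h x hx, ← hF g _ (hN h x hx), ← hF (g * h) x hx, map_mul]; rfl }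
  refine ⟨actQ, fun g y => rfl, ?_⟩
  haveI : Finite N := Subtype.finite
  refine hordN.of_surjective ⟨p, T.hp, T.hP⟩ (q.comp N.subtype) ?_ ?_
  · intro y
    obtain ⟨x, hx, rfl⟩ := hq y
    exact ⟨⟨x, hx⟩, rfl⟩
  · intro g x
    exact hF g x x.2

end subquot

section vec

variable {k : Type} [Field k] [Finite k]

/-- The inertia action on the deformation to the dual numbers attached to a cocycle `a`. -/
def IsVAct (M : GQ →* Matrix (Fin 2) (Fin 2) k) (a : GQ → Matrix (Fin 2) (Fin 2) k)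
    (act : In P →* AddMonoid.End ((Fin 2 → k) × (Fin 2 → k))) : Prop :=
  ∀ (g : In P) (v : (Fin 2 → k) × (Fin 2 → k)),
    act g v = (M g *ᵥ v.1, M g *ᵥ v.2 + (a g * M g) *ᵥ v.1)

/-- `a` is flat: the corresponding inertia module has an order. -/
def FlatCoc (P : ValuationSubring Om) (M : GQ →* Matrix (Fin 2) (Fin 2) k)
    (a : GQ → Matrix (Fin 2) (Fin 2) k) : Prop :=
  ∃ act : In P →* AddMonoid.End ((Fin 2 → k) × (Fin 2 → k)), IsVAct M a act ∧ HasOrd act

/-- Two-dimensional actions `g (u, w) = (χ₁ g u + b g w, χ₂ g w)`. -/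
def IsExtAct (χ₁ b χ₂ : In P → k) (act : In P →* AddMonoid.End (k × k)) : Prop :=
  ∀ (g : In P) (v : k × k), act g v = (χ₁ g * v.1 + b g * v.2, χ₂ g * v.2)

variable {M : GQ →* Matrix (Fin 2) (Fin 2) k} {a : GQ → Matrix (Fin 2) (Fin 2) k}

/-- The lower left subquotient. -/
theorem flat_low (T : Tame p P) (hM : ∀ g ∈ P.inertiaSubgroupIn ℚ, M g 1 0 = 0)
    (h : FlatCoc P M a) : ∃ act : In P →* AddMonoid.End (k × k),
      IsExtAct (fun g => M g 1 1) (fun g => a g 1 0 * M g 0 0) (fun g => M g 0 0) act ∧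
        HasOrd act := by
  obtain ⟨act, hact, hord⟩ := h
  let N : AddSubgroup ((Fin 2 → k) × (Fin 2 → k)) :=
    { carrier := {v | v.1 1 = 0}
      zero_mem' := rfl
      add_mem' := fun {v w} hv hw => by
        change v.1 1 + w.1 1 = 0
        rw [show v.1 1 = 0 from hv, show w.1 1 = 0 from hw, add_zero]
      neg_mem' := fun {v} hv => by
        change -(v.1 1) = 0
        rw [show v.1 1 = 0 from hv, neg_zero] }
  let q : (Fin 2 → k) × (Fin 2 → k) →+ k × k :=
    { toFun := fun v => (v.2 1, v.1 0)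
      map_zero' := rfl
      map_add' := fun v w => rfl }
  obtain ⟨actQ, h1, h2⟩ := subquot T hord N
    (by
      intro g x hx
      have hx' : x.1 1 = 0 := hx
      change (act g x).1 1 = 0
      rw [hact]
      simp [Matrix.mulVec, dotProduct, Fin.sum_univ_two, hx', hM g g.2]) q
    (fun y => ⟨(![y.2, 0], ![0, y.1]), rfl, rfl⟩)
    (fun g v => (M g 1 1 * v.1 + (a g 1 0 * M g 0 0) * v.2, M g 0 0 * v.2))
    (by
      intro g x hx
      have hx' : x.1 1 = 0 := hx
      rw [hact]
      have hM' := hM g g.2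
      change ((M g *ᵥ x.2 + (a g * M g) *ᵥ x.1) 1, (M g *ᵥ x.1) 0) =
        (M g 1 1 * x.2 1 + (a g 1 0 * M g 0 0) * x.1 0, M g 0 0 * x.1 0)
      ext
      · simp [Matrix.mulVec, dotProduct, Fin.sum_univ_two, hx', hM', Matrix.mul_apply]
      · simp [Matrix.mulVec, dotProduct, Fin.sum_univ_two, hx', hM', Matrix.mul_apply])
  exact ⟨actQ, h1, h2⟩

/-- The quotient by the line. -/
theorem flat_diag (T : Tame p P) (hM : ∀ g ∈ P.inertiaSubgroupIn ℚ, M g 1 0 = 0)
    (ha : ∀ g ∈ P.inertiaSubgroupIn ℚ, a g 1 0 = 0)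
    (h : FlatCoc P M a) : ∃ act : In P →* AddMonoid.End (k × k),
      IsExtAct (fun g => M g 1 1) (fun g => a g 1 1 * M g 1 1) (fun g => M g 1 1) act ∧
        HasOrd act := by
  obtain ⟨act, hact, hord⟩ := h
  let q : (Fin 2 → k) × (Fin 2 → k) →+ k × k :=
    { toFun := fun v => (v.2 1, v.1 1)
      map_zero' := rfl
      map_add' := fun v w => rfl }
  obtain ⟨actQ, h1, h2⟩ := subquot T hord ⊤ (fun _ _ _ => trivial) q
    (fun y => ⟨(![0, y.2], ![0, y.1]), trivial, rfl⟩)
    (fun g v => (M g 1 1 * v.1 + (a g 1 1 * M g 1 1) * v.2, M g 1 1 * v.2))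
    (by
      intro g x _
      rw [hact]
      have hM' := hM g g.2
      have ha' := ha g g.2
      change ((M g *ᵥ x.2 + (a g * M g) *ᵥ x.1) 1, (M g *ᵥ x.1) 1) =
        (M g 1 1 * x.2 1 + (a g 1 1 * M g 1 1) * x.1 1, M g 1 1 * x.1 1)
      ext
      · simp [Matrix.mulVec, dotProduct, Fin.sum_univ_two, ha', hM', Matrix.mul_apply]
      · simp [Matrix.mulVec, dotProduct, Fin.sum_univ_two, ha', hM', Matrix.mul_apply])
  exact ⟨actQ, h1, h2⟩

/-- The upper right subquotient. -/
theorem flat_up (T : Tame p P) (hM : ∀ g ∈ P.inertiaSubgroupIn ℚ, M g 1 0 = 0)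
    (ha : ∀ g ∈ P.inertiaSubgroupIn ℚ, a g 1 0 = 0)
    (ha1 : ∀ g ∈ P.inertiaSubgroupIn ℚ, a g 1 1 = 0)
    (ha0 : ∀ g ∈ P.inertiaSubgroupIn ℚ, a g 0 0 = 0)
    (h : FlatCoc P M a) : ∃ act : In P →* AddMonoid.End (k × k),
      IsExtAct (fun g => M g 0 0) (fun g => a g 0 1 * M g 1 1) (fun g => M g 1 1) act ∧
        HasOrd act := by
  obtain ⟨act, hact, hord⟩ := h
  let N : AddSubgroup ((Fin 2 → k) × (Fin 2 → k)) :=
    { carrier := {v | v.2 1 = 0}
      zero_mem' := rfl
      add_mem' := fun {v w} hv hw => by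
        change v.2 1 + w.2 1 = 0
        rw [show v.2 1 = 0 from hv, show w.2 1 = 0 from hw, add_zero]
      neg_mem' := fun {v} hv => by
        change -(v.2 1) = 0
        rw [show v.2 1 = 0 from hv, neg_zero] }
  let q : (Fin 2 → k) × (Fin 2 → k) →+ k × k :=
    { toFun := fun v => (v.2 0, v.1 1)
      map_zero' := rfl
      map_add' := fun v w => rfl }
  obtain ⟨actQ, h1, h2⟩ := subquot T hord N
    (by
      intro g x hx
      have hx' : x.2 1 = 0 := hx
      change (act g x).2 1 = 0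
      rw [hact]
      simp [Matrix.mulVec, dotProduct, Fin.sum_univ_two, hx', hM g g.2, ha g g.2, ha1 g g.2,
        Matrix.mul_apply]) q
    (fun y => ⟨(![0, y.2], ![y.1, 0]), rfl, rfl⟩)
    (fun g v => (M g 0 0 * v.1 + (a g 0 1 * M g 1 1) * v.2, M g 1 1 * v.2))
    (by
      intro g x hx
      have hx' : x.2 1 = 0 := hx
      rw [hact]
      have hM' := hM g g.2
      have ha' := ha g g.2
      have ha0' := ha0 g g.2
      change ((M g *ᵥ x.2 + (a g * M g) *ᵥ x.1) 0, (M g *ᵥ x.1) 1) =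
        (M g 0 0 * x.2 0 + (a g 0 1 * M g 1 1) * x.1 1, M g 1 1 * x.1 1)
      ext
      · simp [Matrix.mulVec, dotProduct, Fin.sum_univ_two, hx', ha', ha0', hM', Matrix.mul_apply]
      · simp [Matrix.mulVec, dotProduct, Fin.sum_univ_two, hx', ha', hM', Matrix.mul_apply])
  exact ⟨actQ, h1, h2⟩

end vec

end Ord

end Fermat.Agent.TWFlat
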