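import Mathlib
import Fermat.Agent.TWP.FlatLoc.OrdA
import Fermat.Agent.TWP.FlatLoc.Data
import Fermat.Agent.TWP.FlatLoc.Count
import Fermat.Agent.TWP.Flat.KummerLc

set_option autoImplicit false
set_option linter.style.haveILetI false
set_option linter.unusedVariables false
set_option linter.unusedSectionVars false
set_option linter.unusedSimpArgs false

/-!
# The ordinary case of the flat local bound: cocycles
-/

open Pointwise Matrix

namespace Fermat.Agent.TWFlat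

namespace Ord

variable {P : ValuationSubring Om} {p : ℕ} {k : Type} [Field k] [Finite k]

/-- The shape of the residual representation in the ordinary case. -/
structure Shape (T : Tame p P) (M : GQ →* Matrix (Fin 2) (Fin 2) k) : Prop where
  low : ∀ g ∈ P.decompositionSubgroup ℚ, M g 1 0 = 0
  unr : ∀ g ∈ P.inertiaSubgroupIn ℚ, M g 1 1 = 1
  cyc : ∀ g ∈ P.inertiaSubgroupIn ℚ, ∀ c : ℕ, g T.ζ = T.ζ ^ c → M g 0 0 = c

/-- Level constant trace zero adjoint cocycles. -/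
structure LocCoc (M : GQ →* Matrix (Fin 2) (Fin 2) k) (a : GQ → Matrix (Fin 2) (Fin 2) k) :
    Prop where
  trace : ∀ σ, (a σ).trace = 0
  coc : ∀ σ τ, a (σ * τ) = a σ + M σ * a τ * M σ⁻¹
  level : ∃ L : IntermediateField ℚ Om, FiniteDimensional ℚ L ∧
    ∀ σ τ : GQ, (∀ x ∈ L, τ x = x) → a (σ * τ) = a σ

section entries

variable {T : Tame p P} {M : GQ →* Matrix (Fin 2) (Fin 2) k} (hS : Shape T M)

include hS

theorem mul00 {g h : GQ} (hg : g ∈ P.decompositionSubgroup ℚ) (hh : h ∈ P.decompositionSubgroup ℚ) :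
    M (g * h) 0 0 = M g 0 0 * M h 0 0 := by
  rw [map_mul, Matrix.mul_apply, Fin.sum_univ_two, hS.low h hh, mul_zero, add_zero]

theorem mul11 {g h : GQ} (hg : g ∈ P.decompositionSubgroup ℚ) (hh : h ∈ P.decompositionSubgroup ℚ) :
    M (g * h) 1 1 = M g 1 1 * M h 1 1 := by
  rw [map_mul, Matrix.mul_apply, Fin.sum_univ_two, hS.low g hg, zero_mul, zero_add]

theorem inv00 {g : GQ} (hg : g ∈ P.decompositionSubgroup ℚ) : M g 0 0 * M g⁻¹ 0 0 = 1 := by
  rw [← mul00 hS hg (inv_mem hg), mul_inv_cancel, map_one, Matrix.one_apply_eq]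

theorem inv11 {g : GQ} (hg : g ∈ P.decompositionSubgroup ℚ) : M g 1 1 * M g⁻¹ 1 1 = 1 := by
  rw [← mul11 hS hg (inv_mem hg), mul_inv_cancel, map_one, Matrix.one_apply_eq]

theorem conj10 {g : GQ} (hg : g ∈ P.decompositionSubgroup ℚ) (Y : Matrix (Fin 2) (Fin 2) k) :
    (M g * Y * M g⁻¹) 1 0 = M g 1 1 * M g⁻¹ 0 0 * Y 1 0 := by
  simp only [Matrix.mul_apply, Fin.sum_univ_two, hS.low g hg, hS.low g⁻¹ (inv_mem hg)]
  ring

theorem conj11 {g : GQ} (hg : g ∈ P.decompositionSubgroup ℚ) (Y : Matrix (Fin 2) (Fin 2) k)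
    (hY : Y 1 0 = 0) : (M g * Y * M g⁻¹) 1 1 = Y 1 1 := by
  have h := inv11 hS hg
  simp only [Matrix.mul_apply, Fin.sum_univ_two, hS.low g hg, hS.low g⁻¹ (inv_mem hg), hY]
  linear_combination Y 1 1 * h

theorem conj01 {g : GQ} (hg : g ∈ P.decompositionSubgroup ℚ) (Y : Matrix (Fin 2) (Fin 2) k)
    (hY : Y 1 0 = 0) (hY0 : Y 0 0 = 0) (hY1 : Y 1 1 = 0) :
    (M g * Y * M g⁻¹) 0 1 = M g 0 0 * M g⁻¹ 1 1 * Y 0 1 := by
  simp only [Matrix.mul_apply, Fin.sum_univ_two, hS.low g hg, hS.low g⁻¹ (inv_mem hg), hY, hY0,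
    hY1]
  ring

theorem conj_char00 {g τ : GQ} (hg : g ∈ P.decompositionSubgroup ℚ)
    (hτ : τ ∈ P.decompositionSubgroup ℚ) : M (g * τ * g⁻¹) 0 0 = M τ 0 0 := by
  rw [mul00 hS (mul_mem hg hτ) (inv_mem hg), mul00 hS hg hτ]
  linear_combination M τ 0 0 * inv00 hS hg

end entries

section tame

variable {T : Tame p P} {M : GQ →* Matrix (Fin 2) (Fin 2) k} (hS : Shape T M)

theorem natCast_eq_one_iff [CharP k p] (c : ℕ) : (c : k) = 1 ↔ (p : ℤ) ∣ (c : ℤ) - 1 := by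
  rw [← CharP.intCast_eq_zero_iff k p, Int.cast_sub, Int.cast_natCast, Int.cast_one, sub_eq_zero]

include hS

/-- the tame generator acts nontrivially on the line -/
theorem gen_ne_one [CharP k p] (he : T.e₁ = 1) {τ : GQ} (hτ : τ ∈ P.inertiaSubgroupIn ℚ)
    (hprim : IsPrimitiveRoot (T.th τ) T.e) : M τ 0 0 ≠ 1 := by
  obtain ⟨c, hc⟩ := T.exists_apply_zeta τ
  rw [hS.cyc τ hτ c hc, Ne, natCast_eq_one_iff (k := k) (p := p)]
  intro hdvd
  have h1 := T.cyc_eq hτ hc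
  rw [he, pow_one] at h1
  have h2 : P.valuation (T.th τ - 1) < 1 := by
    have e : T.th τ - 1 = ((c : Om) - 1) - ((c : Om) - T.th τ) := by ring
    rw [e]
    refine Valuation.map_sub_lt _ ?_ h1
    have h3 := (val_intCast_lt_iff T.hp T.hP (n := (c : ℤ) - 1)).mpr hdvd
    push_cast at h3
    exact h3
  have h3 := root_eq_one T.hp T.hP T.not_dvd_e (T.th_pow τ) h2
  rw [h3] at hprim
  have h4 := hprim.unique IsPrimitiveRoot.one
  rw [Tame.e, he] at h4
  have := T.three_le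
  omega

/-- `G` acts trivially on the line -/
theorem G_one {g : GQ} (hg : g ∈ T.G) : M g 0 0 = 1 := by
  have := hS.cyc g hg.1 1 (by rw [pow_one]; exact T.zeta_mem g hg)
  rw [this, Nat.cast_one]

end tame

section vanish

variable (T : Tame p P)

/-- vanishing of cocycles with values in a character which is nontrivial on tame inertia -/
theorem coc_vanish {τ : GQ} (hτ : τ ∈ P.inertiaSubgroupIn ℚ)
    (hprim : IsPrimitiveRoot (T.th τ) T.e) {χ c : GQ → k}
    (hc : ∀ g ∈ P.decompositionSubgroup ℚ, ∀ h ∈ P.decompositionSubgroup ℚ,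
      c (g * h) = c g + χ g * c h)
    (hG : ∀ g ∈ T.G, c g = 0) (h0 : c τ = 0)
    (hχ : ∀ h ∈ P.decompositionSubgroup ℚ, χ (h * τ * h⁻¹) ≠ 1) :
    ∀ g ∈ P.decompositionSubgroup ℚ, c g = 0 := by
  have hτD := mem_dec_of_inertia hτ
  have h1 : c 1 = 0 := hG 1 (one_mem _)
  have hpow : ∀ j : ℕ, c (τ ^ j) = 0 := by
    intro j
    induction j with
    | zero => rw [pow_zero]; exact h1
    | succ j ih => rw [pow_succ, hc _ (pow_mem hτD j) _ hτD, ih, h0, mul_zero, add_zero]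
  have hI : ∀ g ∈ P.inertiaSubgroupIn ℚ, c g = 0 := by
    intro g hg
    obtain ⟨j, h, hh, rfl⟩ := T.exists_decomp hτ hprim hg
    rw [hc _ (pow_mem hτD j) _ (mem_dec_of_inertia hh.1), hpow, hG h hh, mul_zero, add_zero]
  intro h hh
  have e1 : c (h * τ) = c h := by rw [hc h hh τ hτD, h0, mul_zero, add_zero]
  have hconj : h * τ * h⁻¹ ∈ P.inertiaSubgroupIn ℚ := conj_inertia hh hτ
  have e2 : c (h * τ) = χ (h * τ * h⁻¹) * c h := by
    have : h * τ = (h * τ * h⁻¹) * h := by group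
    rw [this, hc _ (mem_dec_of_inertia hconj) h hh, hI _ hconj, zero_add]
    rw [← this]
  rw [e1] at e2
  have h3 : c h * (1 - χ (h * τ * h⁻¹)) = 0 := by linear_combination e2
  rcases mul_eq_zero.mp h3 with h4 | h4
  · exact h4
  · exact absurd (sub_eq_zero.mp h4).symm (hχ h hh)

end vanish

section structure_

theorem smul_prod_eq_zero [CharP k p] (z : k × k) : p • z = 0 := by
  ext
  · simp
  · simp

/-- an extension of a character by the trivial one splits over the kernel of the character -/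
theorem ext_no_move [CharP k p] (T : Tame p P) {χ₁ b χ₂ : In P → k}
    {act : In P →* AddMonoid.End (k × k)}
    (hact : IsExtAct χ₁ b χ₂ act) (hord : HasOrd act) (h1 : ∀ g, χ₁ g = 1) {g : In P}
    (hg : χ₂ g = 1) : b g = 0 := by
  have e1 : act g ((0, 1) : k × k) = (b g, 1) := by
    rw [hact, hg]; simp
  have h2 := no_move T hord smul_prod_eq_zero g (0, 1) (by
    intro g'
    rw [e1]
    have e2 : ((b g, 1) - (0, 1) : k × k) = (b g, 0) := by ext <;> simp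
    rw [e2, hact, h1]
    ext <;> simp)
  rw [e1] at h2
  exact congrArg Prod.fst h2

variable {T : Tame p P} {M : GQ →* Matrix (Fin 2) (Fin 2) k} (hS : Shape T M)
  {a : GQ → Matrix (Fin 2) (Fin 2) k}

include hS

theorem coc10 (ha : LocCoc M a) {g : GQ} (hg : g ∈ P.decompositionSubgroup ℚ) (h : GQ) :
    a (g * h) 1 0 = a g 1 0 + M g 1 1 * M g⁻¹ 0 0 * a h 1 0 := by
  rw [ha.coc, Matrix.add_apply, conj10 hS hg]

theorem low_G [CharP k p] (hf : FlatCoc P M a) : ∀ g ∈ T.G, a g 1 0 = 0 := by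
  intro g hg
  obtain ⟨act, hact, hord⟩ := flat_low T (fun g hg => hS.low g (mem_dec_of_inertia hg)) hf
  have h1 := ext_no_move T hact hord (fun g => hS.unr g g.2) (g := ⟨g, hg.1⟩) (G_one hS hg)
  change a g 1 0 * M g 0 0 = 0 at h1
  rwa [G_one hS hg, mul_one] at h1

theorem inertia_char_inv {τ : GQ} (hτ : τ ∈ P.inertiaSubgroupIn ℚ) (h1 : M τ 0 0 ≠ 1) {h : GQ}
    (hh : h ∈ P.decompositionSubgroup ℚ) :
    M (h * τ * h⁻¹) 1 1 * M (h * τ * h⁻¹)⁻¹ 0 0 ≠ 1 := by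
  have hconj : h * τ * h⁻¹ ∈ P.inertiaSubgroupIn ℚ := conj_inertia hh hτ
  rw [hS.unr _ hconj, one_mul]
  intro h2
  have h3 := inv00 hS (mem_dec_of_inertia hconj)
  rw [h2, mul_one, conj_char00 hS hh (mem_dec_of_inertia hτ)] at h3
  exact h1 h3

theorem inertia_char {τ : GQ} (hτ : τ ∈ P.inertiaSubgroupIn ℚ) (h1 : M τ 0 0 ≠ 1) {h : GQ}
    (hh : h ∈ P.decompositionSubgroup ℚ) :
    M (h * τ * h⁻¹) 0 0 * M (h * τ * h⁻¹)⁻¹ 1 1 ≠ 1 := by
  have hconj : h * τ * h⁻¹ ∈ P.inertiaSubgroupIn ℚ := conj_inertia hh hτ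
  rw [hS.unr _ (inv_mem hconj), mul_one, conj_char00 hS hh (mem_dec_of_inertia hτ)]
  exact h1

/-- Flat cocycles are upper triangular up to coboundaries. -/
theorem low_D [CharP k p] (he : T.e₁ = 1) (ha : LocCoc M a) (hf : FlatCoc P M a) {τ : GQ}
    (hτ : τ ∈ P.inertiaSubgroupIn ℚ) (hprim : IsPrimitiveRoot (T.th τ) T.e)
    (h0 : a τ 1 0 = 0) : ∀ g ∈ P.decompositionSubgroup ℚ, a g 1 0 = 0 :=
  coc_vanish T hτ hprim (χ := fun g => M g 1 1 * M g⁻¹ 0 0) (c := fun g => a g 1 0)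
    (fun g hg h _ => coc10 hS ha hg h) (low_G hS hf) h0
    (fun h hh => inertia_char_inv hS hτ (gen_ne_one hS he hτ hprim) hh)

theorem coc11 (ha : LocCoc M a) (hlow : ∀ g ∈ P.decompositionSubgroup ℚ, a g 1 0 = 0)
    {g h : GQ} (hg : g ∈ P.decompositionSubgroup ℚ) (hh : h ∈ P.decompositionSubgroup ℚ) :
    a (g * h) 1 1 = a g 1 1 + a h 1 1 := by
  rw [ha.coc, Matrix.add_apply, conj11 hS hg _ (hlow h hh)]

theorem diag_I [CharP k p] (hf : FlatCoc P M a)
    (hlow : ∀ g ∈ P.decompositionSubgroup ℚ, a g 1 0 = 0) :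
    ∀ g ∈ P.inertiaSubgroupIn ℚ, a g 1 1 = 0 := by
  intro g hg
  obtain ⟨act, hact, hord⟩ := flat_diag T (fun g hg => hS.low g (mem_dec_of_inertia hg))
    (fun g hg => hlow g (mem_dec_of_inertia hg)) hf
  have h1 := ext_no_move T hact hord (fun g => hS.unr g g.2) (g := ⟨g, hg⟩) (hS.unr g hg)
  change a g 1 1 * M g 1 1 = 0 at h1
  rwa [hS.unr g hg, mul_one] at h1

theorem diag_D [CharP k p] (ha : LocCoc M a) (hf : FlatCoc P M a)
    (hlow : ∀ g ∈ P.decompositionSubgroup ℚ, a g 1 0 = 0) {φ : GQ} (hφ : P.IsFrobeniusAt φ p)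
    (h0 : a φ 1 1 = 0) : ∀ g ∈ P.decompositionSubgroup ℚ, a g 1 1 = 0 := by
  have hφD := (frob_iff.mp hφ).1
  have hpow : ∀ n : ℕ, a (φ ^ n) 1 1 = 0 := by
    intro n
    induction n with
    | zero =>
      have := coc11 hS ha hlow (one_mem (P.decompositionSubgroup ℚ)) (one_mem _)
      rw [mul_one] at this
      rw [pow_zero]
      linear_combination -this
    | succ n ih => rw [pow_succ, coc11 hS ha hlow (pow_mem hφD n) hφD, ih, h0, add_zero]
  intro g hg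
  obtain ⟨L, hL, hlev⟩ := ha.level
  obtain ⟨n, σ, hσ, h1⟩ := exists_frob_mul_inertia T.hp T.hP hφ hg L
  have h2 : a g = a (φ ^ n * σ) := by
    have e : g = (φ ^ n * σ) * ((φ ^ n * σ)⁻¹ * g) := by group
    rw [e]
    refine hlev _ _ fun x hx => ?_
    change (φ ^ n * σ)⁻¹ (g x) = x
    rw [h1 x hx]
    exact Tame.apply_inv _ _
  rw [h2, coc11 hS ha hlow (pow_mem hφD n) (mem_dec_of_inertia hσ), hpow,
    diag_I hS hf hlow σ hσ, add_zero]

omit hS in
theorem diag00 (ha : LocCoc M a) (g : GQ) (h : a g 1 1 = 0) : a g 0 0 = 0 := by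
  have := ha.trace g
  rw [Matrix.trace_fin_two, h, add_zero] at this
  exact this

theorem coc01 (ha : LocCoc M a) (hlow : ∀ g ∈ P.decompositionSubgroup ℚ, a g 1 0 = 0)
    (hdiag : ∀ g ∈ P.decompositionSubgroup ℚ, a g 1 1 = 0)
    {g h : GQ} (hg : g ∈ P.decompositionSubgroup ℚ) (hh : h ∈ P.decompositionSubgroup ℚ) :
    a (g * h) 0 1 = a g 0 1 + M g 0 0 * M g⁻¹ 1 1 * a h 0 1 := by
  rw [ha.coc, Matrix.add_apply, conj01 hS hg _ (hlow h hh) (diag00 ha h (hdiag h hh)) (hdiag h hh)]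

end structure_

end Ord

end Fermat.Agent.TWFlat
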