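import Mathlib
import Fermat.Agent.TWP.FlatLoc.OrdB

set_option autoImplicit false
set_option linter.style.haveILetI false
set_option linter.unusedVariables false
set_option linter.unusedSectionVars false
set_option linter.unusedSimpArgs false

/-!
# The ordinary case of the flat local bound: counting
-/

open Pointwise Matrix

namespace Fermat.Agent.TWFlat

namespace Ord

open TWP.Flat.Kummer TWP.FlatLoc

variable {P : ValuationSubring Om} {p : ℕ} {k : Type} [Field k] [Finite k]

/-- The input of the local analysis: extensions of the trivial character by the cyclotomic one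
with an order are peu ramifiées. -/
def BreakOrd (T : Tame p P) (k : Type) [Field k] : Prop :=
  ∀ (χ b : In P → k) (act : In P →* AddMonoid.End (k × k)), IsExtAct χ b (fun _ => 1) act →
    HasOrd act → (∀ g : In P, ∀ c : ℕ, (g : GQ) T.ζ = T.ζ ^ c → χ g = c) →
    ∀ (ℓ : k →+ ZMod p) (g₀ : T.G), ℓ (b (T.incl g₀)) ≠ 0 →
      ∃ s, BreakPos P.valuation T.G T.e₁ T.π T.ζ s (fun g => ℓ (b (T.incl g)))

/-- conjugation by an element of the decomposition group -/
noncomputable def conjG (T : Tame p P) {s : GQ} (hs : s ∈ P.decompositionSubgroup ℚ) : T.G ≃ T.G where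
  toFun g := ⟨s * g * s⁻¹, T.conj_mem hs g.2⟩
  invFun g := ⟨s⁻¹ * g * s, T.conj_mem' hs g.2⟩
  left_inv g := Subtype.ext (by show s⁻¹ * (s * g * s⁻¹) * s = (g : GQ); group)
  right_inv g := Subtype.ext (by show s * (s⁻¹ * g * s) * s⁻¹ = (g : GQ); group)

theorem conjG_smul (T : Tame p P) {s : GQ} (hs : s ∈ P.decompositionSubgroup ℚ) (g : T.G)
    (x : Om) : (s : Om ≃+* Om) (g • x) = conjG T hs g • (s : Om ≃+* Om) x := by
  change s ((g : GQ) x) = (s * g * s⁻¹) (s x)
  change s ((g : GQ) x) = s ((g : GQ) (s⁻¹ (s x)))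
  rw [Tame.apply_inv]

/-- Characters of `G` satisfying the local conditions. -/
structure GoodChar (T : Tame p P) (M : GQ →* Matrix (Fin 2) (Fin 2) k) (β : T.G → k) : Prop where
  add : ∀ g h, β (g * h) = β g + β h
  conj : ∀ (s : GQ) (hs : s ∈ P.decompositionSubgroup ℚ) (g : T.G),
    β (conjG T hs g) = M s 0 0 * M s⁻¹ 1 1 * β g
  brk : ∀ (ℓ : k →+ ZMod p) (g₀ : T.G), ℓ (β g₀) ≠ 0 →
      ∃ s, BreakPos P.valuation T.G T.e₁ T.π T.ζ s (fun g => ℓ (β g))

section good

variable {T : Tame p P} {M : GQ →* Matrix (Fin 2) (Fin 2) k} (hS : Shape T M)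
  {a : GQ → Matrix (Fin 2) (Fin 2) k}

include hS

theorem goodChar [CharP k p] (hB : BreakOrd T k) (ha : LocCoc M a) (hf : FlatCoc P M a)
    (hlow : ∀ g ∈ P.decompositionSubgroup ℚ, a g 1 0 = 0)
    (hdiag : ∀ g ∈ P.decompositionSubgroup ℚ, a g 1 1 = 0) :
    GoodChar T M (fun g => a g 0 1) where
  add g h := by
    have h1 := coc01 hS ha hlow hdiag (mem_dec_of_inertia g.2.1) (mem_dec_of_inertia h.2.1)
    rw [G_one hS g.2, hS.unr _ (inv_mem g.2.1), one_mul, one_mul] at h1
    exact h1
  conj s hs g := by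
    have hg := mem_dec_of_inertia g.2.1
    have h1 := coc01 hS ha hlow hdiag (mul_mem hs hg) (inv_mem hs)
    have h2 := coc01 hS ha hlow hdiag hs hg
    have h3 := coc01 hS ha hlow hdiag hs (inv_mem hs)
    have h4 := coc01 hS ha hlow hdiag (one_mem _) (one_mem _)
    rw [mul_one, inv_one, map_one, Matrix.one_apply_eq, Matrix.one_apply_eq] at h4
    rw [mul_inv_cancel] at h3
    change a (s * g * s⁻¹) 0 1 = M s 0 0 * M s⁻¹ 1 1 * a g 0 1
    rw [h1, h2, mul00 hS hs hg, G_one hS g.2, _root_.mul_inv_rev, mul11 hS (inv_mem hg) (inv_mem hs),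
      hS.unr _ (inv_mem g.2.1)]
    linear_combination (-1 : k) * h3 - h4
  brk ℓ g₀ h0 := by
    obtain ⟨act, hact, hord⟩ := flat_up T (fun g hg => hS.low g (mem_dec_of_inertia hg))
      (fun g hg => hlow g (mem_dec_of_inertia hg)) (fun g hg => hdiag g (mem_dec_of_inertia hg))
      (fun g hg => diag00 ha g (hdiag g (mem_dec_of_inertia hg))) hf
    have hact' : IsExtAct (fun g : In P => M g 0 0) (fun g : In P => a g 0 1) (fun _ => 1) act := by
      intro g v
      rw [hact]
      simp only [hS.unr g g.2, mul_one]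
    exact hB _ _ act hact' hord (fun g c hc => hS.cyc g g.2 c hc) ℓ g₀ h0

end good

section semi

variable {T : Tame p P} {M : GQ →* Matrix (Fin 2) (Fin 2) k} (hS : Shape T M)
  {β β' : T.G → k}

theorem ell_natCast [CharP k p] (ℓ : k →+ ZMod p) (n : ℕ) (x : k) :
    ℓ ((n : k) * x) = (n : ZMod p) * ℓ x := by
  rw [← nsmul_eq_mul, map_nsmul, nsmul_eq_mul]

include hS

/-- leading coefficients below `p - 1` vanish -/
theorem U_top [CharP k p] (he : T.e₁ = 1) (hβ : GoodChar T M β) (ℓ : k →+ ZMod p) :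
    U P.valuation T.G T.π T.ζ (p - 1) (fun g => ℓ (β g)) := by
  have D := T.data
  by_cases h0 : ∀ g₀, ℓ (β g₀) = 0
  · have : (fun g => ℓ (β g)) = fun _ => (0 : ZMod p) := funext h0
    rw [this]
    exact D.U_zero _
  · push Not at h0
    obtain ⟨g₀, hg₀⟩ := h0
    obtain ⟨s, hs⟩ := hβ.brk ℓ g₀ hg₀
    have hU := D.U_of_break hs
    refine D.U_mono ?_ hU
    by_contra hlt
    rw [not_le] at hlt
    obtain ⟨hs0, hs1, hs2, -⟩ := id hs
    -- the leading coefficient vanishes
    obtain ⟨τ, hτ, hprim⟩ := T.exists_tame_gen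
    have hτD := mem_dec_of_inertia hτ
    obtain ⟨w, hw⟩ := T.exists_apply_zeta τ
    have hlc := D.lc_conj (τ := (τ : Om ≃+* Om)) (c := conjG T hτD) (conjG_smul T hτD)
      (fun x => val_inertia hτ x) (w := w) hw (f := fun g => ℓ (β g)) (f' := fun g => ℓ (β g))
      (by
        intro g
        rw [hβ.conj, hS.cyc τ hτ w hw, hS.unr _ (inv_mem hτ), mul_one, ell_natCast])
      (q := 1) (fun x hx => by rw [pow_one]; exact val_sub_lt hτ hx) hs0 hs1 hs2 hU
    rw [pow_one] at hlc
    set L := lc P.valuation T.G T.π T.ζ s (fun g => ℓ (β g)) with hL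
    have hL0 : L ≠ 0 := by
      intro hL0
      exact D.not_U_of_break hs (Nat.lt_succ_self s) ((D.lc_eq_zero_iff hs0 hs1 hs2 hU).mp hL0)
    have hθ : Red P.valuation ((τ : Om ≃+* Om) T.π / T.π) ^ s = 1 := by
      have h1 : (Red P.valuation ((τ : Om ≃+* Om) T.π / T.π) ^ s - 1) * L = 0 := by
        linear_combination -hlc
      exact sub_eq_zero.mp ((mul_eq_zero.mp h1).resolve_right hL0)
    have hv1 : P.valuation (T.th τ) = 1 := T.val_th τ
    have h2 : P.valuation (T.th τ ^ s - 1) < 1 := by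
      have h3 : Red P.valuation (T.th τ ^ s) = Red P.valuation 1 := by
        rw [Red_pow _ hv1.le]
        have : Red P.valuation (1 : Om) = 1 := Data.red_one P.valuation
        rw [this]
        exact hθ
      exact (Red_eq_iff P.valuation (by rw [map_pow, hv1, one_pow]) (by rw [map_one])).mp h3
    have h4 : T.th τ ^ s = 1 := by
      refine root_eq_one T.hp T.hP T.not_dvd_e ?_ h2
      rw [← pow_mul, mul_comm, pow_mul, T.th_pow, one_pow]
    have h5 := (hprim.pow_eq_one_iff_dvd s).mp h4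
    have h6 := Nat.le_of_dvd hs0 h5
    rw [Tame.e, he, one_mul] at h6
    omega


omit hS in
theorem U_all_add [CharP k p] (ℓ ℓ' : k →+ ZMod p) : (fun g => (ℓ + ℓ') (β g)) =
    fun g => ℓ (β g) + ℓ' (β g) := rfl

/-- The trace functional `x ↦ tr (t x)`. -/
noncomputable def trFun (p : ℕ) [Fact p.Prime] (k : Type) [Field k] [Finite k] [CharP k p]
    (t : k) : k →+ ZMod p :=
  letI := ZMod.algebra k p
  ((Algebra.trace (ZMod p) k).toAddMonoidHom).comp (AddMonoidHom.mulLeft t)

omit hS in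
theorem trFun_apply [Fact p.Prime] [CharP k p] (t x : k) : trFun p k t x =
    (letI := ZMod.algebra k p; Algebra.trace (ZMod p) k (t * x)) := rfl

omit hS in
theorem trFun_add [Fact p.Prime] [CharP k p] (t t' x : k) :
    trFun p k (t + t') x = trFun p k t x + trFun p k t' x := by
  rw [trFun_apply, trFun_apply, trFun_apply, add_mul, map_add]

omit hS in
theorem trFun_mul [Fact p.Prime] [CharP k p] (t t' x : k) :
    trFun p k (t * t') x = trFun p k t (t' * x) := by
  rw [trFun_apply, trFun_apply, mul_assoc]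

omit hS in
theorem eq_zero_of_trFun [Fact p.Prime] [CharP k p] {x : k} (h : ∀ t, trFun p k t x = 0) :
    x = 0 := by
  letI := ZMod.algebra k p
  by_contra hx
  have h1 : Algebra.trace (ZMod p) k ≠ 0 := Algebra.trace_ne_zero (ZMod p) k
  apply h1
  ext y
  have h2 := h (y * x⁻¹)
  rw [trFun_apply, mul_assoc, inv_mul_cancel₀ hx, mul_one] at h2
  exact h2

/-- The residue field used for leading coefficients. -/
abbrev Kp (P : ValuationSubring Om) : Type := IsLocalRing.ResidueField P.valuation.valuationSubring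

omit hS in
theorem red_natCast' (P : ValuationSubring Om) (n : ℕ) : Red P.valuation (n : Om) = (n : Kp P) := by
  rw [Red_of _ (val_natCast_le n), ← map_natCast (IsLocalRing.residue _)]
  rfl

include T in
omit hS in
theorem charP_Kp : CharP (Kp P) p := by
  refine (CharP.charP_iff_prime_eq_zero T.hp).mpr ?_
  rw [← red_natCast', Red_eq_zero_iff _ (val_natCast_le p)]
  exact val_p_lt T.hP

/-- The leading coefficient function. -/
noncomputable def lead (T : Tame p P) [Fact p.Prime] [CharP k p] (β : T.G → k) (t : k) : Kp P :=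
  lc P.valuation T.G T.π T.ζ (p - 1) (fun g => trFun p k t (β g))

theorem lead_semi [Fact p.Prime] [CharP k p] [CharP (Kp P) p] (he : T.e₁ = 1)
    (hβ : GoodChar T M β) {φ : GQ} (hφ : P.IsFrobeniusAt φ p) (hφπ : φ T.π = T.π) {w : ℕ}
    (hw : φ T.ζ = T.ζ ^ w) :
    IsSemi (ZMod.castHom (dvd_refl p) k) (ZMod.castHom (dvd_refl p) (Kp P))
      ((w : k) * (M φ 0 0 * M φ⁻¹ 1 1)⁻¹) 1 (lead T β) := by
  have D := T.data
  have hφD := (frob_iff.mp hφ).1
  have h3 := T.three_le
  have hs0 : 0 < p - 1 := by omega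
  have hs1 : p - 1 < p * T.e₁ := by rw [he]; omega
  have hs2 : ¬ p ∣ p - 1 := fun h => by
    have := Nat.le_of_dvd hs0 h
    omega
  have hη : M φ 0 0 * M φ⁻¹ 1 1 ≠ 0 := by
    intro h0
    have e1 := inv00 hS hφD
    have e2 := inv11 hS hφD
    have : (M φ 0 0 * M φ⁻¹ 1 1) * (M φ⁻¹ 0 0 * M φ 1 1) = 1 := by
      linear_combination (M φ⁻¹ 1 1 * M φ 1 1) * e1 + e2
    rw [h0, zero_mul] at this
    exact zero_ne_one this
  refine ⟨fun s t => ?_, fun b t => ?_, fun t => ?_⟩
  · have h := D.lc_add hs0 hs1 hs2 (U_top hS he hβ (trFun p k s)) (U_top hS he hβ (trFun p k t))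
    rw [lead, lead, lead, ← h]
    congr 1
    funext g
    exact trFun_add s t (β g)
  · have h := D.lc_nsmul hs0 hs1 hs2 (U_top hS he hβ (trFun p k t)) b.val
    have e1 : (fun g => trFun p k (ZMod.castHom (dvd_refl p) k b * t) (β g)) =
        fun g => ((b.val : ℕ) : ZMod p) * trFun p k t (β g) := by
      funext g
      have e2 : ZMod.castHom (dvd_refl p) k b = (b.val : k) := by
        rw [ZMod.castHom_apply, ZMod.cast_eq_val]
      rw [e2, mul_comm, trFun_mul, ell_natCast]
    rw [lead, lead, e1, h, red_natCast', ZMod.castHom_apply, ZMod.cast_eq_val]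
  · have hlc := D.lc_conj (τ := (φ : Om ≃+* Om)) (c := conjG T hφD) (conjG_smul T hφD)
      (fun x => val_dec hφD x) (w := w) hw (f := fun g => trFun p k t (β g))
      (f' := fun g => trFun p k ((w : k) * (M φ 0 0 * M φ⁻¹ 1 1)⁻¹ * t) (β g))
      (by
        intro g
        change trFun p k ((w : k) * (M φ 0 0 * M φ⁻¹ 1 1)⁻¹ * t) (β (conjG T hφD g)) =
          w * trFun p k t (β g)
        rw [hβ.conj, ← ell_natCast, ← trFun_mul, ← trFun_mul]
        have e : (w : k) * (M φ 0 0 * M φ⁻¹ 1 1)⁻¹ * t * (M φ 0 0 * M φ⁻¹ 1 1) = t * w := by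
          rw [show ∀ a b c d : k, a * b * c * d = a * c * (b * d) from
            fun a b c d => by ring, inv_mul_cancel₀ hη]
          ring
        rw [e])
      (q := p) (fun x hx => (frob_iff.mp hφ).2 x hx) hs0 hs1 hs2 (U_top hS he hβ (trFun p k t))
    rw [lead, lead, hlc, Nat.card_zmod, one_mul]
    have e1 : (φ : Om ≃+* Om) T.π / T.π = 1 := by
      change φ T.π / T.π = 1
      rw [hφπ, div_self T.pi_ne]
    rw [e1, Data.red_one, one_pow, one_mul]

theorem lead_injective [Fact p.Prime] [CharP k p] (he : T.e₁ = 1)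
    (hβ : GoodChar T M β) (hβ' : GoodChar T M β') (h : lead T β = lead T β') : β = β' := by
  have D := T.data
  have h3 := T.three_le
  have hs0 : 0 < p - 1 := by omega
  have hs1 : p - 1 < p * T.e₁ := by rw [he]; omega
  have hs2 : ¬ p ∣ p - 1 := fun h => by
    have := Nat.le_of_dvd hs0 h
    omega
  funext g
  rw [← sub_eq_zero]
  refine eq_zero_of_trFun (p := p) fun t => ?_
  have hU := U_top hS he hβ (trFun p k t)
  have hU' := U_top hS he hβ' (trFun p k t)
  have hsub := D.U_sub hs0 hU hU'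
  have e0 : (fun g => trFun p k t (β g) - trFun p k t (β' g)) =
      fun g => trFun p k t (β g - β' g) := by
    funext g; rw [map_sub]
  rw [e0] at hsub
  refine D.eq_zero_of_forall_lc hs0 (by rw [he]; omega) hsub ?_ g
  intro r hr1 hr2 hr3 hr4
  have hr : r = p - 1 := by rw [he] at hr2; omega
  subst hr
  have h4 := D.lc_add hs0 hs1 hs2 hsub hU'
  have e1 : (fun g => trFun p k t (β g - β' g) + trFun p k t (β' g)) =
      fun g => trFun p k t (β g) := by
    funext g; rw [map_sub]; ring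
  rw [e1] at h4
  have h5 : lead T β t = lead T β' t := congrFun h t
  rw [lead, lead, h4] at h5
  linear_combination h5

end semi

section final

/-- Dimension bound through a linear map. -/
theorem finrank_le_add {V W : Type*} [AddCommGroup V] [Module k V] [AddCommGroup W] [Module k W]
    [Module.Finite k W] (f : V →ₗ[k] W) (hker : Module.Finite k (LinearMap.ker f)) :
    Module.Finite k V ∧
      Module.finrank k V ≤ Module.finrank k W + Module.finrank k (LinearMap.ker f) := by
  haveI := hker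
  haveI : Module.Finite k (V ⧸ LinearMap.ker f) :=
    Module.Finite.equiv f.quotKerEquivRange.symm
  haveI : Module.Finite k V := Module.Finite.of_submodule_quotient (LinearMap.ker f)
  refine ⟨inferInstance, ?_⟩
  have h1 := LinearMap.finrank_range_add_finrank_ker f
  have h2 := Submodule.finrank_le (LinearMap.range f)
  omega

/-- restriction of functions to the decomposition group -/
def resD (P : ValuationSubring Om) (k : Type) [Field k] :
    (GQ → Matrix (Fin 2) (Fin 2) k) →ₗ[k]
      (P.decompositionSubgroup ℚ → Matrix (Fin 2) (Fin 2) k) where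
  toFun a := fun g => a g
  map_add' _ _ := rfl
  map_smul' _ _ := rfl

/-- **The flat local bound in the ordinary case** (up to the input `BreakOrd`). -/
theorem finrank_le_four [CharP k p] (T : Tame p P) (he : T.e₁ = 1) (hB : BreakOrd T k)
    {M : GQ →* Matrix (Fin 2) (Fin 2) k} (hS : Shape T M)
    (W : Submodule k (GQ → Matrix (Fin 2) (Fin 2) k))
    (hW : ∀ a ∈ W, LocCoc M a ∧ FlatCoc P M a) :
    Module.Finite k (W.map (resD P k)) ∧ Module.finrank k (W.map (resD P k)) ≤ 4 := by
  haveI : Fact p.Prime := ⟨T.hp⟩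
  haveI : CharP (Kp P) p := charP_Kp (T := T)
  obtain ⟨τ, hτ, hprim⟩ := T.exists_tame_gen
  have hτD := mem_dec_of_inertia hτ
  obtain ⟨φ, hφ, hφπ⟩ := T.exists_frob
  have hφD := (frob_iff.mp hφ).1
  obtain ⟨w, hw⟩ := T.exists_apply_zeta φ
  set F := W.map (resD P k) with hF
  -- the three functionals
  let ev : ∀ (g : P.decompositionSubgroup ℚ) (i j : Fin 2), F →ₗ[k] k := fun g i j =>
    { toFun := fun f => f.1 g i j
      map_add' := fun _ _ => rfl
      map_smul' := fun _ _ => rfl }
  let Λ : F →ₗ[k] k × k × k :=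
    (ev ⟨τ, hτD⟩ 1 0).prod ((ev ⟨φ, hφD⟩ 1 1).prod (ev ⟨τ, hτD⟩ 0 1))
  -- elements of the kernel
  have key : ∀ x : LinearMap.ker Λ, ∃ a ∈ W, resD P k a = (x : F).1 ∧
      (∀ g ∈ P.decompositionSubgroup ℚ, a g 1 0 = 0) ∧
      (∀ g ∈ P.decompositionSubgroup ℚ, a g 1 1 = 0) ∧ a τ 0 1 = 0 := by
    intro x
    obtain ⟨a, ha, hax⟩ := (x : F).2
    have hx := x.2
    rw [LinearMap.mem_ker] at hx
    have h1 : a τ 1 0 = 0 := by
      have := congrArg Prod.fst hx
      change (x : F).1 ⟨τ, hτD⟩ 1 0 = 0 at this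
      rwa [← hax] at this
    have h2 : a φ 1 1 = 0 := by
      have := congrArg (fun y => y.2.1) hx
      change (x : F).1 ⟨φ, hφD⟩ 1 1 = 0 at this
      rwa [← hax] at this
    have h3 : a τ 0 1 = 0 := by
      have := congrArg (fun y => y.2.2) hx
      change (x : F).1 ⟨τ, hτD⟩ 0 1 = 0 at this
      rwa [← hax] at this
    obtain ⟨hc, hf⟩ := hW a ha
    have hlow := low_D hS he hc hf hτ hprim h1
    exact ⟨a, ha, hax, hlow, diag_D hS hc hf hlow hφ h2, h3⟩
  -- the characters
  let β : LinearMap.ker Λ → T.G → k := fun x g =>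
    (x : F).1 ⟨(g : GQ), mem_dec_of_inertia g.2.1⟩ 0 1
  have hβ : ∀ x, GoodChar T M (β x) := by
    intro x
    obtain ⟨a, ha, hax, hlow, hdiag, -⟩ := key x
    obtain ⟨hc, hf⟩ := hW a ha
    have h1 := goodChar hS hB hc hf hlow hdiag
    have h2 : β x = fun g : T.G => a g 0 1 := by
      funext g
      change (x : F).1 ⟨(g : GQ), mem_dec_of_inertia g.2.1⟩ 0 1 = a g 0 1
      rw [← hax]; rfl
    rw [h2]; exact h1
  have hinj : ∀ x y : LinearMap.ker Λ, β x = β y → x = y := by
    intro x y hxy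
    rw [← sub_eq_zero]
    obtain ⟨a, ha, hax, hlow, hdiag, hτ0⟩ := key (x - y)
    obtain ⟨hc, hf⟩ := hW a ha
    have hG : ∀ g ∈ T.G, a g 0 1 = 0 := by
      intro g hg
      have h1 : β (x - y) ⟨g, hg⟩ = β x ⟨g, hg⟩ - β y ⟨g, hg⟩ := rfl
      rw [hxy, sub_self] at h1
      change ((x - y : LinearMap.ker Λ) : F).1 ⟨g, mem_dec_of_inertia hg.1⟩ 0 1 = 0 at h1
      rw [← hax] at h1
      exact h1
    have h0 := coc_vanish T hτ hprim (χ := fun g => M g 0 0 * M g⁻¹ 1 1) (c := fun g => a g 0 1)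
      (fun g hg h hh => coc01 hS hc hlow hdiag hg hh) hG hτ0
      (fun h hh => inertia_char hS hτ (gen_ne_one hS he hτ hprim) hh)
    apply Subtype.ext
    apply Subtype.ext
    rw [← hax]
    funext g
    ext i j
    fin_cases i <;> fin_cases j
    · exact diag00 hc g (hdiag g g.2)
    · exact h0 g g.2
    · exact hlow g g.2
    · exact hdiag g g.2
  have hη : ((w : k) * (M φ 0 0 * M φ⁻¹ 1 1)⁻¹) ≠ 0 := by
    refine mul_ne_zero ?_ (inv_ne_zero ?_)
    · intro h0
      have h1 := (CharP.cast_eq_zero_iff k p w).mp h0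
      have h2 : φ T.ζ = 1 := by
        rw [hw]; exact (T.hζ.pow_eq_one_iff_dvd w).mpr h1
      have h3 : T.ζ = 1 := φ.injective (by rw [h2, map_one])
      have h4 := T.hζ.ne_one T.hp.one_lt
      exact h4 h3
    · intro h0
      have e1 := inv00 hS hφD
      have e2 := inv11 hS hφD
      have : (M φ 0 0 * M φ⁻¹ 1 1) * (M φ⁻¹ 0 0 * M φ 1 1) = 1 := by
        linear_combination (M φ⁻¹ 1 1 * M φ 1 1) * e1 + e2
      rw [h0, zero_mul] at this
      exact zero_ne_one this
  obtain ⟨hfin, hrank⟩ := finrank_le_one_of_semi (ZMod.castHom (dvd_refl p) k)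
    (ZMod.castHom (dvd_refl p) (Kp P)) hη (fun x : LinearMap.ker Λ => lead T (β x))
    (fun x y hxy => hinj x y (lead_injective hS he (hβ x) (hβ y) hxy))
    (fun x => lead_semi hS he (hβ x) hφ hφπ hw)
  obtain ⟨h1, h2⟩ := finrank_le_add Λ hfin
  refine ⟨h1, h2.trans ?_⟩
  have h3 : Module.finrank k (k × k × k) = 3 := by
    rw [Module.finrank_prod, Module.finrank_prod, Module.finrank_self]
  rw [h3]
  omega

end final

end Ord

end Fermat.Agent.TWFlat
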