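import Mathlib
import Fermat.Agent.TWP.FlatLoc.OrdC
import Fermat.Agent.TWP.FlatLoc.Ext

set_option autoImplicit false
set_option linter.style.haveILetI false
set_option linter.unusedVariables false
set_option linter.unusedSectionVars false
set_option linter.unusedSimpArgs false

/-!
# The ordinary case of the flat local bound: conclusion
-/

open Pointwise Matrix

namespace Fermat.Agent.TWFlat

namespace Ord

open TWP.Flat.Kummer TWP.FlatLoc

variable {P : ValuationSubring Om} {p : ℕ} {k : Type} [Field k] [Finite k]

theorem breakOrd [CharP k p] (T : Tame p P) (he : T.e₁ = 1) : BreakOrd T k := by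
  intro χ b act hact hord hχ ℓ g₀ h0
  have h1 : ∀ g h : In P, χ (g * h) = χ g * χ h := by
    intro g h
    have e1 := hact (g * h) (1, 0)
    have e2 : act (g * h) ((1, 0) : k × k) = act g (act h (1, 0)) := by rw [map_mul]; rfl
    rw [e1, hact h, hact g] at e2
    have := congrArg Prod.fst e2
    simpa using this
  have h2 : χ 1 = 1 := by
    have e1 := hact 1 (1, 0)
    rw [map_one] at e1
    have := congrArg Prod.fst e1
    simp only [mul_one, mul_zero, add_zero] at this
    exact this.symm
  have h3 : ∀ g h : In P, b (g * h) = χ g * b h + b g := by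
    intro g h
    have e1 := hact (g * h) (0, 1)
    have e2 : act (g * h) ((0, 1) : k × k) = act g (act h (0, 1)) := by rw [map_mul]; rfl
    rw [e1, hact h, hact g] at e2
    have := congrArg Prod.fst e2
    simpa using this
  let χm : In P →* k := { toFun := χ, map_one' := h2, map_mul' := h1 }
  let χ₁ : In P →* kˣ := χm.toHomUnits
  have hb : ∀ g h, b (g * h) = χ₁ g * b h + b g * ((1 : In P →* kˣ) h : k) := by
    intro g h
    rw [h3 g h, MonoidHom.one_apply, Units.val_one, mul_one]
    rfl
  have hE : extAct χ₁ 1 b hb = act := by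
    refine MonoidHom.ext fun g => AddMonoidHom.ext fun x => ?_
    exact (hact g x).symm
  exact break_ord T he (χ₁ := χ₁) (χ₂ := 1) (b := b) (hb := hb) (fun g a ha => hχ g a ha)
    (fun g => rfl) (by rw [hE]; exact hord) ℓ g₀ h0

/-- **The flat local bound in the ordinary case.** -/
theorem finrank_flat_ord [CharP k p] (T : Tame p P) (he : T.e₁ = 1)
    {M : GQ →* Matrix (Fin 2) (Fin 2) k} (hS : Shape T M)
    (W : Submodule k (GQ → Matrix (Fin 2) (Fin 2) k))
    (hW : ∀ a ∈ W, LocCoc M a ∧ FlatCoc P M a) :
    Module.Finite k (W.map (resD P k)) ∧ Module.finrank k (W.map (resD P k)) ≤ 4 :=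
  finrank_le_four T he (breakOrd T he) hS W hW

end Ord

end Fermat.Agent.TWFlat
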