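import Fermat.Agent.TWP.FlatLoc.Wfl
import Fermat.Agent.TWP.FlatLoc.OrdD

set_option autoImplicit false
set_option linter.style.haveILetI false
set_option linter.unusedVariables false
set_option linter.unusedSectionVars false

/-!
# The flat local bound: base change and the ordinary case
-/

open Pointwise

namespace Fermat.Agent.TWFlat

open Module Matrix IsLocalRing Fermat.Agent.TWP.GW Fermat.Agent.CFT.LC ExtCitation
open Fermat.Agent.TWP (SelFlat locConst_of_isModelR)
open Fermat.Agent.CFT.PT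

section

variable {P : ValuationSubring Om} {p : ℕ} {k : Type} [Field k]

/-- conjugation by an invertible matrix -/
noncomputable def conjRep (M : GQ →* Matrix (Fin 2) (Fin 2) k) (Q Q' : Matrix (Fin 2) (Fin 2) k)
    (hQ : Q' * Q = 1) : GQ →* Matrix (Fin 2) (Fin 2) k where
  toFun g := Q * M g * Q'
  map_one' := by rw [map_one, mul_one]; exact mul_eq_one_comm.mp hQ
  map_mul' g h := by
    calc Q * M (g * h) * Q' = Q * M g * M h * Q' := by rw [map_mul, ← mul_assoc Q]
      _ = Q * M g * (Q' * Q) * M h * Q' := by rw [hQ, mul_one]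
      _ = Q * M g * Q' * (Q * M h * Q') := by simp only [mul_assoc]

theorem conjRep_apply (M : GQ →* Matrix (Fin 2) (Fin 2) k) (Q Q' : Matrix (Fin 2) (Fin 2) k)
    (hQ : Q' * Q = 1) (g : GQ) : conjRep M Q Q' hQ g = Q * M g * Q' := rfl

/-- conjugation of functions -/
noncomputable def conjFun (k : Type) [Field k] (D : Type) (Q Q' : Matrix (Fin 2) (Fin 2) k)
    (hQ : Q' * Q = 1) : (D → Matrix (Fin 2) (Fin 2) k) ≃ₗ[k] (D → Matrix (Fin 2) (Fin 2) k) where
  toFun a := fun g => Q * a g * Q'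
  invFun a := fun g => Q' * a g * Q
  map_add' a b := by
    funext g
    show Q * (a g + b g) * Q' = Q * a g * Q' + Q * b g * Q'
    rw [mul_add, add_mul]
  map_smul' c a := by
    funext g
    show Q * (c • a g) * Q' = c • (Q * a g * Q')
    rw [mul_smul_comm, smul_mul_assoc]
  left_inv a := by
    funext g
    show Q' * (Q * a g * Q') * Q = a g
    calc _ = (Q' * Q) * a g * (Q' * Q) := by simp only [mul_assoc]
      _ = a g := by rw [hQ, one_mul, mul_one]
  right_inv a := by
    funext g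
    have hQ' : Q * Q' = 1 := mul_eq_one_comm.mp hQ
    show Q * (Q' * a g * Q) * Q' = a g
    calc _ = (Q * Q') * a g * (Q * Q') := by simp only [mul_assoc]
      _ = a g := by rw [hQ', one_mul, mul_one]

theorem exists_conj_submodule {Q Q' : Matrix (Fin 2) (Fin 2) k} (hQ : Q' * Q = 1)
    (D : Subgroup GQ) (W : Submodule k (GQ → Matrix (Fin 2) (Fin 2) k)) :
    ∃ W' : Submodule k (GQ → Matrix (Fin 2) (Fin 2) k),
      (∀ a' ∈ W', ∃ a ∈ W, a' = fun g => Q * a g * Q') ∧
      finrank k (W.map (resD k D)) = finrank k (W'.map (resD k D)) := by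
  refine ⟨W.map (conjFun k GQ Q Q' hQ).toLinearMap, ?_, ?_⟩
  · rintro _ ⟨a, ha, rfl⟩
    exact ⟨a, ha, rfl⟩
  · have h1 : (W.map (conjFun k GQ Q Q' hQ).toLinearMap).map (resD k D) =
        (W.map (resD k D)).map (conjFun k D Q Q' hQ).toLinearMap := by
      rw [← Submodule.map_comp, ← Submodule.map_comp]
      rfl
    rw [h1]
    exact (LinearEquiv.finrank_map_eq (conjFun k D Q Q' hQ) (W.map (resD k D))).symm

theorem locCoc_conj {M : GQ →* Matrix (Fin 2) (Fin 2) k} {a : GQ → Matrix (Fin 2) (Fin 2) k}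
    (ha : a ∈ zAd M (krull ℚ Om)) {Q Q' : Matrix (Fin 2) (Fin 2) k} (hQ : Q' * Q = 1) :
    Ord.LocCoc (conjRep M Q Q' hQ) (fun g => Q * a g * Q') where
  trace g := by rw [Matrix.trace_mul_comm, ← mul_assoc, hQ, one_mul]; exact ha.1 g
  coc g h := by
    rw [conjRep_apply, conjRep_apply, ha.2.1, adj, mul_add, add_mul]
    congr 1
    calc Q * (M g * a h * M g⁻¹) * Q' = Q * M g * (a h * (M g⁻¹ * Q')) := by
          simp only [mul_assoc]
      _ = Q * M g * (Q' * Q) * (a h * (Q' * Q) * (M g⁻¹ * Q')) := by rw [hQ, mul_one, mul_one]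
      _ = _ := by simp only [mul_assoc]
  level := by
    obtain ⟨L, hL, h⟩ := locConst_iff.mpr ha.2.2
    exact ⟨L, hL, fun σ τ hτ => by rw [h σ τ hτ]⟩

/-- the bound in the ordinary case -/
theorem finrank_of_shape [Finite k] [CharP k p] (T : Tame p P) (he : T.e₁ = 1)
    {M : GQ →* Matrix (Fin 2) (Fin 2) k} {Q Q' : Matrix (Fin 2) (Fin 2) k} (hQ : Q' * Q = 1)
    (hS : Ord.Shape T (conjRep M Q Q' hQ))
    (hex : ∃ p : ℕ, p.Prime ∧ P.LiesOverPrime p) (h0 : HasOrd (vecAct P M)) :
    finrank k ((flatW P M hex h0).map (resD k (P.decompositionSubgroup ℚ))) ≤ 4 := by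
  obtain ⟨W', hW', h1⟩ := exists_conj_submodule hQ (P.decompositionSubgroup ℚ)
    (flatW P M hex h0)
  rw [h1]
  have h2 := Ord.finrank_flat_ord T he hS W' (fun a' ha' => by
    obtain ⟨a, ha, rfl⟩ := hW' a' ha'
    refine ⟨locCoc_conj ha.1 hQ, ?_⟩
    have h3 := ha.2.conj hQ (M' := conjRep M Q Q' hQ) (fun g => rfl)
    obtain ⟨act, h4, h5⟩ := h3.exists_act
    exact ⟨act, h4, h5⟩)
  exact h2.2

end

end Fermat.Agent.TWFlat
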