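import Fermat.Agent.TWP.FlatLoc.Ext
import Fermat.Agent.TWP.SelmerCond

set_option autoImplicit false
set_option linter.style.haveILetI false
set_option linter.unusedVariables false
set_option linter.unusedSectionVars false

/-!
# Orders attached to flat cocycles
-/

open Pointwise

namespace Fermat.Agent.TWFlat

open FlatOrd.Unramified (inertiaRing)
open Matrix IsLocalRing
open Fermat.Agent.UDef (IsModel IsModelR Dual dmk dfst dsnd dual_ext)
open Fermat.FlatModel (levelAct HasFlatModel isFlatAt_iff)

variable {P : ValuationSubring Om} {p : ℕ}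

section prod

variable {M : Type} [AddCommGroup M] {act : In P →* AddMonoid.End M}
  {N : Type} [AddCommGroup N] {actN : In P →* AddMonoid.End N}

/-- the product action -/
noncomputable def prodAct (act : In P →* AddMonoid.End M) (actN : In P →* AddMonoid.End N) :
    In P →* AddMonoid.End (M × N) where
  toFun g := AddMonoidHom.prodMap (act g) (actN g)
  map_one' := by
    refine AddMonoidHom.ext fun x => ?_
    show (act 1 x.1, actN 1 x.2) = x
    rw [map_one, map_one]; rfl
  map_mul' g h := by
    refine AddMonoidHom.ext fun x => ?_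
    show (act (g * h) x.1, actN (g * h) x.2) = (act g (act h x.1), actN g (actN h x.2))
    rw [map_mul, map_mul]; rfl

theorem prodAct_apply (g : In P) (x : M × N) : prodAct act actN g x = (act g x.1, actN g x.2) :=
  rfl

/-- product of orders -/
theorem IsOrd.prod {A : Submodule (inertiaRing P) (M → Om)} {B : Submodule (inertiaRing P) (N → Om)}
    [Finite M] [Finite N] (hA : IsOrd act A) (hB : IsOrd actN B) :
    IsOrd (prodAct act actN) (Submodule.span (inertiaRing P)
      {f : M × N → Om | ∃ a ∈ A, ∃ b ∈ B, ∀ x, f x = a x.1 * b x.2}) := by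
  classical
  set S : Set (M × N → Om) := {f : M × N → Om | ∃ a ∈ A, ∃ b ∈ B, ∀ x, f x = a x.1 * b x.2} with hS
  refine ⟨?_, ?_, ?_, ?_, ?_, ?_⟩
  · obtain ⟨TA, hTA⟩ := hA.fg
    obtain ⟨TB, hTB⟩ := hB.fg
    refine ⟨(TA ×ˢ TB).image (fun ab => fun x : M × N => ab.1 x.1 * ab.2 x.2), ?_⟩
    refine le_antisymm (Submodule.span_le.mpr ?_) (Submodule.span_le.mpr ?_)
    · intro f hf
      rw [Finset.coe_image] at hf
      obtain ⟨⟨a, b⟩, hab, rfl⟩ := hf
      rw [Finset.mem_coe, Finset.mem_product] at hab
      refine Submodule.subset_span ⟨a, ?_, b, ?_, fun x => rfl⟩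
      · rw [← hTA]; exact Submodule.subset_span hab.1
      · rw [← hTB]; exact Submodule.subset_span hab.2
    · rintro f ⟨a, ha, b, hb, hf⟩
      have hf' : f = fun x => a x.1 * b x.2 := funext hf
      rw [hf']
      clear hf hf' f
      rw [← hTA] at ha
      rw [← hTB] at hb
      show _ ∈ Submodule.span (inertiaRing P) _
      induction ha using Submodule.span_induction with
      | mem a ha =>
        induction hb using Submodule.span_induction with
        | mem b hb =>
          refine Submodule.subset_span ?_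
          rw [Finset.coe_image]
          exact ⟨(a, b), by rw [Finset.mem_coe, Finset.mem_product]; exact ⟨ha, hb⟩, rfl⟩
        | zero =>
          have : (fun x : M × N => a x.1 * (0 : N → Om) x.2) = 0 := by
            funext x; show _ * (0 : Om) = 0; rw [mul_zero]
          rw [this]; exact Submodule.zero_mem _
        | add b b' _ _ ih ih' =>
          have : (fun x : M × N => a x.1 * (b + b') x.2) =
            (fun x : M × N => a x.1 * b x.2) + (fun x : M × N => a x.1 * b' x.2) := by
            funext x; show _ * (b _ + b' _) = _ + _; rw [mul_add]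
          rw [this]; exact Submodule.add_mem _ ih ih'
        | smul s b _ ih =>
          have : (fun x : M × N => a x.1 * (s • b) x.2) = s • (fun x : M × N => a x.1 * b x.2) := by
            funext x
            rw [smul_apply_ring, smul_apply_ring]; ring
          rw [this]; exact Submodule.smul_mem _ _ ih
      | zero =>
        have : (fun x : M × N => (0 : M → Om) x.1 * b x.2) = 0 := by
          funext x; show (0 : Om) * _ = 0; rw [zero_mul]
        rw [this]; exact Submodule.zero_mem _
      | add a a' _ _ ih ih' =>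
        have : (fun x : M × N => (a + a') x.1 * b x.2) =
          (fun x : M × N => a x.1 * b x.2) + (fun x : M × N => a' x.1 * b x.2) := by
          funext x; show (a _ + a' _) * _ = _ + _; rw [add_mul]
        rw [this]; exact Submodule.add_mem _ ih ih'
      | smul s a _ ih =>
        have : (fun x : M × N => (s • a) x.1 * b x.2) = s • (fun x : M × N => a x.1 * b x.2) := by
          funext x
          rw [smul_apply_ring, smul_apply_ring]; ring
        rw [this]; exact Submodule.smul_mem _ _ ih
  · exact Submodule.subset_span ⟨_, hA.one_mem, _, hB.one_mem, fun x => (one_mul _).symm⟩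
  · intro a ha
    induction ha using Submodule.span_induction with
    | mem f hf =>
      obtain ⟨a, ha, b, hb, hf⟩ := hf
      intro m
      rw [hf, map_mul]
      exact mul_le_one₀ (hA.val_le a ha _) zero_le (hB.val_le b hb _)
    | zero => intro m; simp
    | add a b _ _ ha hb => intro m; exact (P.valuation.map_add _ _).trans (max_le (ha m) (hb m))
    | smul s a _ ha =>
      intro m
      rw [smul_apply_ring, map_mul]
      exact mul_le_one₀ (ring_val s) zero_le (ha m)
  · intro a ha
    induction ha using Submodule.span_induction with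
    | mem f hf =>
      obtain ⟨a, ha, b, hb, hf⟩ := hf
      intro g m
      rw [hf, hf, map_mul]
      exact congrArg₂ (· * ·) (hA.equiv a ha g m.1) (hB.equiv b hb g m.2)
    | zero => intro g m; simp
    | add a b _ _ ha hb => intro g m; rw [Pi.add_apply, Pi.add_apply, ha, hb, map_add]
    | smul s a _ ha =>
      intro g m
      rw [smul_apply_ring, smul_apply_ring, ha, map_mul, ring_fixed s g.2]
  · rw [eq_top_iff]
    intro F _
    haveI : Fintype (M × N) := Fintype.ofFinite _
    have hsingle : ∀ x : M × N, (Pi.single x 1 : M × N → Om) ∈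
        Submodule.span Om ((Submodule.span (inertiaRing P) S : Submodule _ (M × N → Om)) :
          Set (M × N → Om)) := by
      intro x
      have h1 : (Pi.single x.1 1 : M → Om) ∈ Submodule.span Om (A : Set (M → Om)) := by
        rw [hA.span_top]; trivial
      have h2 : (Pi.single x.2 1 : N → Om) ∈ Submodule.span Om (B : Set (N → Om)) := by
        rw [hB.span_top]; trivial
      have key : ∀ a ∈ Submodule.span Om (A : Set (M → Om)),
          ∀ b ∈ Submodule.span Om (B : Set (N → Om)), (fun x : M × N => a x.1 * b x.2) ∈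
          Submodule.span Om ((Submodule.span (inertiaRing P) S : Submodule _ (M × N → Om)) :
          Set (M × N → Om)) := by
        intro a ha b hb
        induction ha using Submodule.span_induction with
        | mem a ha =>
          induction hb using Submodule.span_induction with
          | mem b hb =>
            exact Submodule.subset_span (Submodule.subset_span ⟨a, ha, b, hb, fun x => rfl⟩)
          | zero =>
            have : (fun x : M × N => a x.1 * (0 : N → Om) x.2) = 0 := by
              funext x; show _ * (0 : Om) = 0; rw [mul_zero]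
            rw [this]; exact Submodule.zero_mem _
          | add b b' _ _ ih ih' =>
            have : (fun x : M × N => a x.1 * (b + b') x.2) =
              (fun x : M × N => a x.1 * b x.2) + (fun x : M × N => a x.1 * b' x.2) := by
              funext x; show _ * (b _ + b' _) = _ + _; rw [mul_add]
            rw [this]; exact Submodule.add_mem _ ih ih'
          | smul s b _ ih =>
            have : (fun x : M × N => a x.1 * (s • b) x.2) =
                s • (fun x : M × N => a x.1 * b x.2) := by
              funext x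
              show _ * (s * _) = s * _
              ring
            rw [this]; exact Submodule.smul_mem _ _ ih
        | zero =>
          have : (fun x : M × N => (0 : M → Om) x.1 * b x.2) = 0 := by
            funext x; show (0 : Om) * _ = 0; rw [zero_mul]
          rw [this]; exact Submodule.zero_mem _
        | add a a' _ _ ih ih' =>
          have : (fun x : M × N => (a + a') x.1 * b x.2) =
            (fun x : M × N => a x.1 * b x.2) + (fun x : M × N => a' x.1 * b x.2) := by
            funext x; show (a _ + a' _) * _ = _ + _; rw [add_mul]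
          rw [this]; exact Submodule.add_mem _ ih ih'
        | smul s a _ ih =>
          have : (fun x : M × N => (s • a) x.1 * b x.2) = s • (fun x : M × N => a x.1 * b x.2) := by
            funext x
            show (s * _) * _ = s * _
            ring
          rw [this]; exact Submodule.smul_mem _ _ ih
      have h3 := key _ h1 _ h2
      have h4 : (fun y : M × N => (Pi.single x.1 1 : M → Om) y.1 * (Pi.single x.2 1 : N → Om) y.2) =
          Pi.single x 1 := by
        funext y
        by_cases hy : y = x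
        · subst hy; simp
        · rw [Pi.single_eq_of_ne hy]
          by_cases h1 : y.1 = x.1
          · have h2 : y.2 ≠ x.2 := fun h2 => hy (Prod.ext h1 h2)
            rw [Pi.single_eq_of_ne h2, mul_zero]
          · rw [Pi.single_eq_of_ne h1, zero_mul]
      rwa [h4] at h3
    have hF : F = ∑ x, F x • (Pi.single x 1 : M × N → Om) := by
      funext y
      rw [Finset.sum_apply, Finset.sum_eq_single y]
      · simp
      · intro x _ hx
        rw [Pi.smul_apply, Pi.single_eq_of_ne hx.symm, smul_zero]
      · intro h; exact absurd (Finset.mem_univ _) h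
    rw [hF]
    exact Submodule.sum_mem _ fun x _ => Submodule.smul_mem _ _ (hsingle x)
  · intro f hf
    induction hf using Submodule.span_induction with
    | mem f hf =>
      obtain ⟨a, ha, b, hb, hf⟩ := hf
      obtain ⟨n, c, d, hc, hd, h⟩ := hA.comul a ha
      obtain ⟨n', c', d', hc', hd', h'⟩ := hB.comul b hb
      refine ⟨n * n', fun i x => c (finProdFinEquiv.symm i).1 x.1 * c' (finProdFinEquiv.symm i).2 x.2,
        fun i x => d (finProdFinEquiv.symm i).1 x.1 * d' (finProdFinEquiv.symm i).2 x.2,
        fun i => Submodule.subset_span ⟨_, hc _, _, hc' _, fun x => rfl⟩,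
        fun i => Submodule.subset_span ⟨_, hd _, _, hd' _, fun x => rfl⟩, fun x y => ?_⟩
      rw [hf]
      show a (x.1 + y.1) * b (x.2 + y.2) = _
      rw [h, h', Finset.sum_mul_sum, ← Finset.sum_product', Finset.univ_product_univ,
        ← Equiv.sum_comp finProdFinEquiv.symm]
      exact Finset.sum_congr rfl fun i _ => by ring
    | zero => exact ⟨0, Fin.elim0, Fin.elim0, fun i => i.elim0, fun i => i.elim0, by simp⟩
    | add a a' _ _ h h' =>
      obtain ⟨n, b, c, hb, hc, h⟩ := h
      obtain ⟨n', b', c', hb', hc', h'⟩ := h'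
      refine ⟨n + n', Fin.append b b', Fin.append c c', ?_, ?_, ?_⟩
      · intro i
        refine Fin.addCases (fun j => ?_) (fun j => ?_) i
        · rw [Fin.append_left]; exact hb j
        · rw [Fin.append_right]; exact hb' j
      · intro i
        refine Fin.addCases (fun j => ?_) (fun j => ?_) i
        · rw [Fin.append_left]; exact hc j
        · rw [Fin.append_right]; exact hc' j
      · intro x y
        rw [Pi.add_apply, h, h', Fin.sum_univ_add]
        congr 1
        · exact Finset.sum_congr rfl fun i _ => by rw [Fin.append_left, Fin.append_left]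
        · exact Finset.sum_congr rfl fun i _ => by rw [Fin.append_right, Fin.append_right]
    | smul s a _ h =>
      obtain ⟨n, b, c, hb, hc, h⟩ := h
      refine ⟨n, fun i => s • b i, c, fun i => Submodule.smul_mem _ _ (hb i), hc, fun x y => ?_⟩
      rw [smul_apply_ring, h, Finset.mul_sum]
      refine Finset.sum_congr rfl fun i _ => ?_
      show _ = ((s : Om) * b i x) * c i y
      rw [mul_assoc]

theorem HasOrd.prod [Finite M] [Finite N] (h : HasOrd act) (h' : HasOrd actN) :
    HasOrd (prodAct act actN) := by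
  obtain ⟨A, hA⟩ := h
  obtain ⟨B, hB⟩ := h'
  exact ⟨_, hA.prod hB⟩

end prod

section subquot

variable {M : Type} [AddCommGroup M] {act : In P →* AddMonoid.End M}
  {S : Type} [AddCommGroup S] [Finite S] {Q : Type} [AddCommGroup Q]
  {actQ : In P →* AddMonoid.End Q}

/-- orders on subquotients -/
theorem HasOrd.subquot (hex : ∃ p : ℕ, p.Prime ∧ P.LiesOverPrime p) (h : HasOrd act)
    (i : S →+ M) (hi : Function.Injective i) (q : S →+ Q) (hq : Function.Surjective q)
    (H : ∀ g s, ∃ s', i s' = act g (i s) ∧ q s' = actQ g (q s)) : HasOrd actQ := by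
  choose f hf1 hf2 using H
  let actS : In P →* AddMonoid.End S :=
    { toFun := fun g =>
        { toFun := f g
          map_zero' := hi (by rw [hf1, map_zero, map_zero])
          map_add' := fun x y => hi (by
            rw [map_add, hf1, hf1, hf1, map_add, map_add]) }
      map_one' := AddMonoidHom.ext fun x => hi (by
        show i (f 1 x) = i x
        rw [hf1, map_one]; rfl)
      map_mul' := fun g h => AddMonoidHom.ext fun x => hi (by
        show i (f (g * h) x) = i (f g (f h x))
        rw [hf1, hf1, hf1, map_mul]; rfl) }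
  have h1 : HasOrd actS := h.of_injective i hi (fun g x => hf1 g x)
  exact h1.of_surjective hex q hq (fun g x => hf2 g x)

end subquot

section mat

/-- the action on column vectors -/
noncomputable def vecAct {A : Type} [CommRing A] (P : ValuationSubring Om)
    (M : GQ →* Matrix (Fin 2) (Fin 2) A) : In P →* AddMonoid.End (Fin 2 → A) where
  toFun g :=
    { toFun := fun v => M g *ᵥ v
      map_zero' := Matrix.mulVec_zero _
      map_add' := Matrix.mulVec_add _ }
  map_one' := AddMonoidHom.ext fun x => by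
    show M ((1 : In P) : GQ) *ᵥ x = x
    rw [OneMemClass.coe_one, map_one, Matrix.one_mulVec]
  map_mul' g h := AddMonoidHom.ext fun x => by
    show M ((g * h : In P) : GQ) *ᵥ x = M g *ᵥ (M h *ᵥ x)
    rw [Subgroup.coe_mul, map_mul, Matrix.mulVec_mulVec]

theorem vecAct_apply {A : Type} [CommRing A] (M : GQ →* Matrix (Fin 2) (Fin 2) A) (g : In P)
    (v : Fin 2 → A) : vecAct P M g v = M g *ᵥ v := rfl

theorem hasOrd_vecAct {A : Type} [CommRing A] [IsLocalRing A] [Finite A] (hp : p.Prime)
    (hP : P.LiesOverPrime p) {ρ : GaloisRepAdic A} {M : GQ →* Matrix (Fin 2) (Fin 2) A}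
    (hM : IsModel ρ M) (hfl : ρ.IsFlatAt p) : HasOrd (vecAct P M) := by
  obtain ⟨b, hb⟩ := hM
  haveI hAq : Finite (A ⧸ (⊥ : Ideal A)) :=
    Finite.of_surjective _ (Ideal.Quotient.mk_surjective (I := (⊥ : Ideal A)))
  have h1 : HasFlatModel p (levelAct ρ ⊥) := ((isFlatAt_iff ρ p).mp hfl).2 ⊥ hAq
  haveI : Finite ρ.V := Module.finite_of_finite A
  haveI : Finite (ρ.V ⧸ ((⊥ : Ideal A) • (⊤ : Submodule A ρ.V))) :=
    Finite.of_surjective _ (Submodule.mkQ_surjective _)
  have h2 := hasOrd_of_hasFlatModel hp hP h1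
  let i : (Fin 2 → A) →+ ρ.V ⧸ ((⊥ : Ideal A) • (⊤ : Submodule A ρ.V)) :=
    (Submodule.mkQ _).toAddMonoidHom.comp b.equivFun.symm.toLinearMap.toAddMonoidHom
  refine h2.of_injective i ?_ ?_
  · rw [injective_iff_map_eq_zero]
    intro x hx
    have h3 : Submodule.Quotient.mk (p := (⊥ : Ideal A) • (⊤ : Submodule A ρ.V))
      (b.equivFun.symm x) = 0 := hx
    rw [Submodule.Quotient.mk_eq_zero, Submodule.bot_smul, Submodule.mem_bot] at h3
    exact (LinearEquiv.map_eq_zero_iff _).mp h3
  · intro g x
    show Submodule.Quotient.mk (b.equivFun.symm (M g *ᵥ x)) =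
      Submodule.Quotient.mk (ρ.ρ g (b.equivFun.symm x))
    congr 1
    apply b.equivFun.injective
    rw [LinearEquiv.apply_symm_apply, ← hb]
    have h3 := LinearMap.toMatrix_mulVec_repr b b (ρ.ρ g) (b.equivFun.symm x)
    have h4 : (b.repr (b.equivFun.symm x) : Fin 2 → A) = x := by
      rw [← Module.Basis.equivFun_apply, LinearEquiv.apply_symm_apply]
    rw [h4] at h3
    rw [h3]
    rfl

variable {k : Type} [Field k]

/-- the action on `k² ⊕ ε k²` -/
noncomputable def epsAct (M : GQ →* Matrix (Fin 2) (Fin 2) k) (d : In P → Matrix (Fin 2) (Fin 2) k)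
    (hd : ∀ g h : In P, d (g * h) = M g * d h + d g * M h) :
    In P →* AddMonoid.End ((Fin 2 → k) × (Fin 2 → k)) where
  toFun g :=
    { toFun := fun v => (M g *ᵥ v.1, M g *ᵥ v.2 + d g *ᵥ v.1)
      map_zero' := by simp
      map_add' := fun x y => by
        refine Prod.ext ?_ ?_
        · show M g *ᵥ (x.1 + y.1) = M g *ᵥ x.1 + M g *ᵥ y.1
          rw [Matrix.mulVec_add]
        · show M g *ᵥ (x.2 + y.2) + d g *ᵥ (x.1 + y.1) =
            (M g *ᵥ x.2 + d g *ᵥ x.1) + (M g *ᵥ y.2 + d g *ᵥ y.1)
          rw [Matrix.mulVec_add, Matrix.mulVec_add]; abel }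
  map_one' := AddMonoidHom.ext fun x => by
    have h1 : d 1 = 0 := by
      have := hd 1 1
      rw [mul_one, OneMemClass.coe_one, map_one, one_mul, mul_one] at this
      exact left_eq_add.mp this
    refine Prod.ext ?_ ?_
    · show M ((1 : In P) : GQ) *ᵥ x.1 = x.1
      rw [OneMemClass.coe_one, map_one, Matrix.one_mulVec]
    · show M ((1 : In P) : GQ) *ᵥ x.2 + d 1 *ᵥ x.1 = x.2
      rw [OneMemClass.coe_one, map_one, Matrix.one_mulVec, h1, Matrix.zero_mulVec, add_zero]
  map_mul' g h := AddMonoidHom.ext fun x => by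
    refine Prod.ext ?_ ?_
    · show M ((g * h : In P) : GQ) *ᵥ x.1 = M g *ᵥ (M h *ᵥ x.1)
      rw [Subgroup.coe_mul, map_mul, Matrix.mulVec_mulVec]
    · show M ((g * h : In P) : GQ) *ᵥ x.2 + d (g * h) *ᵥ x.1 =
        M g *ᵥ (M h *ᵥ x.2 + d h *ᵥ x.1) + d g *ᵥ (M h *ᵥ x.1)
      rw [Subgroup.coe_mul, map_mul, hd, Matrix.mulVec_add, Matrix.mulVec_mulVec,
        Matrix.mulVec_mulVec, Matrix.mulVec_mulVec, Matrix.add_mulVec]
      abel

theorem epsAct_apply (M : GQ →* Matrix (Fin 2) (Fin 2) k) (d : In P → Matrix (Fin 2) (Fin 2) k)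
    (hd : ∀ g h : In P, d (g * h) = M g * d h + d g * M h) (g : In P)
    (v : (Fin 2 → k) × (Fin 2 → k)) :
    epsAct M d hd g v = (M g *ᵥ v.1, M g *ᵥ v.2 + d g *ᵥ v.1) := rfl

/-- the representation on `k[ε]²` attached to the cocycle `a` has an order -/
def EpsOrd (P : ValuationSubring Om) (M : GQ →* Matrix (Fin 2) (Fin 2) k)
    (a : GQ → Matrix (Fin 2) (Fin 2) k) : Prop :=
  ∃ hd : (∀ g h : In P, a ((g * h : In P) : GQ) * M ((g * h : In P) : GQ) =
      M g * (a h * M h) + a g * M g * M h),
    HasOrd (epsAct M (fun g : In P => a g * M g) hd)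

theorem EpsOrd.exists_act {M : GQ →* Matrix (Fin 2) (Fin 2) k}
    {a : GQ → Matrix (Fin 2) (Fin 2) k} (h : EpsOrd P M a) :
    ∃ act : In P →* AddMonoid.End ((Fin 2 → k) × (Fin 2 → k)),
      (∀ (g : In P) v, act g v = (M g *ᵥ v.1, M g *ᵥ v.2 + (a g * M g) *ᵥ v.1)) ∧ HasOrd act := by
  obtain ⟨hd, h⟩ := h
  exact ⟨_, fun g v => rfl, h⟩

variable [Finite k] {M : GQ →* Matrix (Fin 2) (Fin 2) k} {a a' : GQ → Matrix (Fin 2) (Fin 2) k}

theorem EpsOrd.add (hex : ∃ p : ℕ, p.Prime ∧ P.LiesOverPrime p) (h : EpsOrd P M a)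
    (h' : EpsOrd P M a') : EpsOrd P M (a + a') := by
  obtain ⟨hd, h⟩ := h
  obtain ⟨hd', h'⟩ := h'
  refine ⟨fun g h => ?_, ?_⟩
  · rw [Pi.add_apply, Pi.add_apply, Pi.add_apply, add_mul, add_mul, add_mul, hd, hd', mul_add,
      add_mul]
    abel
  · have h1 := h.prod h'
    let V := Fin 2 → k
    let i : V × V × V →+ (V × V) × (V × V) :=
      { toFun := fun x => ((x.1, x.2.1), (x.1, x.2.2))
        map_zero' := rfl
        map_add' := fun x y => rfl }
    let q : V × V × V →+ V × V :=
      { toFun := fun x => (x.1, x.2.1 + x.2.2)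
        map_zero' := by simp
        map_add' := fun x y => by
          refine Prod.ext rfl ?_
          show (x.2.1 + y.2.1) + (x.2.2 + y.2.2) = (x.2.1 + x.2.2) + (y.2.1 + y.2.2)
          abel }
    refine h1.subquot hex i ?_ q ?_ ?_
    · rintro ⟨x, y, z⟩ ⟨x', y', z'⟩ hxy
      have e1 : x = x' := congrArg (fun t : (V × V) × (V × V) => t.1.1) hxy
      have e2 : y = y' := congrArg (fun t : (V × V) × (V × V) => t.1.2) hxy
      have e3 : z = z' := congrArg (fun t : (V × V) × (V × V) => t.2.2) hxy
      rw [e1, e2, e3]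
    · rintro ⟨x, y⟩
      exact ⟨(x, y, 0), Prod.ext rfl (add_zero _)⟩
    · rintro g ⟨w, u, u'⟩
      refine ⟨(M g *ᵥ w, M g *ᵥ u + (a g * M g) *ᵥ w, M g *ᵥ u' + (a' g * M g) *ᵥ w), rfl, ?_⟩
      refine Prod.ext rfl ?_
      show (M g *ᵥ u + (a g * M g) *ᵥ w) + (M g *ᵥ u' + (a' g * M g) *ᵥ w) =
        M g *ᵥ (u + u') + ((a g + a' g) * M g) *ᵥ w
      rw [Matrix.mulVec_add, add_mul, Matrix.add_mulVec]
      abel

/-- coboundaries -/
theorem EpsOrd.cob (hex : ∃ p : ℕ, p.Prime ∧ P.LiesOverPrime p) (h : HasOrd (vecAct P M))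
    (X : Matrix (Fin 2) (Fin 2) k) : EpsOrd P M (fun g => M g * X * M g⁻¹ - X) := by
  have hMM : ∀ g : GQ, M g⁻¹ * M g = 1 := fun g => by rw [← map_mul, inv_mul_cancel, map_one]
  have hX : ∀ g : GQ, (M g * X * M g⁻¹ - X) * M g = M g * X - X * M g := by
    intro g
    rw [sub_mul, mul_assoc (M g * X), hMM, mul_one]
  refine ⟨fun g h => ?_, ?_⟩
  · rw [hX, hX, hX, Subgroup.coe_mul, map_mul, mul_sub, sub_mul]
    simp only [mul_assoc]
    abel
  · have h1 := h.prod h
    let V := Fin 2 → k
    let i : V × V →+ V × V :=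
      { toFun := fun x => (x.1, x.2 + X *ᵥ x.1)
        map_zero' := by simp
        map_add' := fun x y => by
          refine Prod.ext rfl ?_
          show (x.2 + y.2) + X *ᵥ (x.1 + y.1) = (x.2 + X *ᵥ x.1) + (y.2 + X *ᵥ y.1)
          rw [Matrix.mulVec_add]; abel }
    refine h1.of_injective i ?_ ?_
    · rintro ⟨x, y⟩ ⟨x', y'⟩ hxy
      have e1 : x = x' := congrArg Prod.fst hxy
      have e2 : y + X *ᵥ x = y' + X *ᵥ x' := congrArg Prod.snd hxy
      rw [e1] at e2
      rw [e1, add_right_cancel e2]
    · rintro g ⟨w, u⟩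
      refine Prod.ext rfl ?_
      show M g *ᵥ u + ((M g * X * M (g : GQ)⁻¹ - X) * M g) *ᵥ w + X *ᵥ (M g *ᵥ w) =
        M g *ᵥ (u + X *ᵥ w)
      rw [hX, Matrix.sub_mulVec, Matrix.mulVec_add, Matrix.mulVec_mulVec, Matrix.mulVec_mulVec]
      abel

theorem EpsOrd.zero (hex : ∃ p : ℕ, p.Prime ∧ P.LiesOverPrime p) (h : HasOrd (vecAct P M)) :
    EpsOrd P M 0 := by
  have h1 := EpsOrd.cob hex h (0 : Matrix (Fin 2) (Fin 2) k)
  have h2 : (fun g => M g * 0 * M g⁻¹ - 0 : GQ → Matrix (Fin 2) (Fin 2) k) = 0 := by
    funext g; simp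
  rwa [h2] at h1

theorem EpsOrd.smul (hex : ∃ p : ℕ, p.Prime ∧ P.LiesOverPrime p) (h0 : HasOrd (vecAct P M))
    (h : EpsOrd P M a) (c : k) : EpsOrd P M (c • a) := by
  by_cases hc : c = 0
  · rw [hc, zero_smul]
    exact EpsOrd.zero hex h0
  obtain ⟨hd, h⟩ := h
  refine ⟨fun g h => ?_, ?_⟩
  · rw [Pi.smul_apply, Pi.smul_apply, Pi.smul_apply, smul_mul_assoc, smul_mul_assoc,
      smul_mul_assoc, hd, smul_add, mul_smul_comm, smul_mul_assoc]
  · let V := Fin 2 → k
    let i : V × V →+ V × V :=
      { toFun := fun x => (c • x.1, x.2)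
        map_zero' := by simp
        map_add' := fun x y => by
          refine Prod.ext ?_ rfl
          show c • (x.1 + y.1) = c • x.1 + c • y.1
          rw [smul_add] }
    refine h.of_injective i ?_ ?_
    · rintro ⟨x, y⟩ ⟨x', y'⟩ hxy
      have e1 : c • x = c • x' := congrArg Prod.fst hxy
      have e2 : y = y' := congrArg Prod.snd hxy
      have e3 : x = x' := smul_right_injective _ hc e1
      rw [e2, e3]
    · rintro g ⟨w, u⟩
      refine Prod.ext ?_ ?_
      · show c • (M g *ᵥ w) = M g *ᵥ (c • w)
        rw [Matrix.mulVec_smul]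
      · show M g *ᵥ u + ((c • a g) * M g) *ᵥ w = M g *ᵥ u + (a g * M g) *ᵥ (c • w)
        rw [Matrix.mulVec_smul, smul_mul_assoc, Matrix.smul_mulVec]

/-- conjugation -/
theorem EpsOrd.conj (h : EpsOrd P M a) {Q Q' : Matrix (Fin 2) (Fin 2) k} (hQ : Q' * Q = 1)
    {M' : GQ →* Matrix (Fin 2) (Fin 2) k} (hM' : ∀ g, M' g = Q * M g * Q') :
    EpsOrd P M' (fun g => Q * a g * Q') := by
  obtain ⟨hd, h⟩ := h
  have hQ' : Q * Q' = 1 := mul_eq_one_comm.mp hQ
  have hd2 : ∀ g : GQ, (Q * a g * Q') * M' g = Q * (a g * M g) * Q' := by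
    intro g
    rw [hM']
    calc Q * a g * Q' * (Q * M g * Q') = Q * a g * (Q' * Q) * M g * Q' := by
          simp only [mul_assoc]
      _ = _ := by rw [hQ, mul_one]; simp only [mul_assoc]
  have hcomm : ∀ g : GQ, Q' * M' g = M g * Q' := by
    intro g
    rw [hM']
    calc Q' * (Q * M g * Q') = (Q' * Q) * M g * Q' := by simp only [mul_assoc]
      _ = _ := by rw [hQ, one_mul]
  refine ⟨fun g h => ?_, ?_⟩
  · rw [hd2, hd2, hd2, hd, hM', hM']
    have e1 : Q * M g * Q' * (Q * (a h * M h) * Q') = Q * (M g * (a h * M h)) * Q' := by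
      calc _ = Q * M g * (Q' * Q) * (a h * M h) * Q' := by simp only [mul_assoc]
        _ = _ := by rw [hQ, mul_one]; simp only [mul_assoc]
    have e2 : Q * (a g * M g) * Q' * (Q * M h * Q') = Q * (a g * M g * M h) * Q' := by
      calc _ = Q * (a g * M g) * (Q' * Q) * M h * Q' := by simp only [mul_assoc]
        _ = _ := by rw [hQ, mul_one]; simp only [mul_assoc]
    rw [e1, e2, mul_add, add_mul]
  · let V := Fin 2 → k
    let i : V × V →+ V × V :=
      { toFun := fun x => (Q' *ᵥ x.1, Q' *ᵥ x.2)
        map_zero' := by simp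
        map_add' := fun x y => by
          refine Prod.ext ?_ ?_
          · show Q' *ᵥ (x.1 + y.1) = Q' *ᵥ x.1 + Q' *ᵥ y.1
            exact Matrix.mulVec_add _ _ _
          · show Q' *ᵥ (x.2 + y.2) = Q' *ᵥ x.2 + Q' *ᵥ y.2
            exact Matrix.mulVec_add _ _ _ }
    have hinj : Function.Injective (fun v : V => Q' *ᵥ v) := by
      intro v v' hv
      have := congrArg (fun t => Q *ᵥ t) hv
      simp only [Matrix.mulVec_mulVec, hQ', Matrix.one_mulVec] at this
      exact this
    refine h.of_injective i ?_ ?_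
    · rintro ⟨x, y⟩ ⟨x', y'⟩ hxy
      have e1 : Q' *ᵥ x = Q' *ᵥ x' := congrArg Prod.fst hxy
      have e2 : Q' *ᵥ y = Q' *ᵥ y' := congrArg Prod.snd hxy
      rw [hinj e1, hinj e2]
    · rintro g ⟨w, u⟩
      refine Prod.ext ?_ ?_
      · show Q' *ᵥ (M' g *ᵥ w) = M g *ᵥ (Q' *ᵥ w)
        rw [Matrix.mulVec_mulVec, Matrix.mulVec_mulVec, hcomm]
      · show Q' *ᵥ (M' g *ᵥ u + ((Q * a g * Q') * M' g) *ᵥ w) =
          M g *ᵥ (Q' *ᵥ u) + (a g * M g) *ᵥ (Q' *ᵥ w)
        rw [hd2, Matrix.mulVec_add, Matrix.mulVec_mulVec, Matrix.mulVec_mulVec,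
          Matrix.mulVec_mulVec, Matrix.mulVec_mulVec, hcomm]
        congr 2
        calc Q' * (Q * (a g * M g) * Q') = (Q' * Q) * (a g * M g) * Q' := by
              simp only [mul_assoc]
          _ = _ := by rw [hQ, one_mul]

/-- matrix entries, in a basis in which `M` is diagonal on inertia -/
theorem EpsOrd.entry (hex : ∃ p : ℕ, p.Prime ∧ P.LiesOverPrime p) (h : EpsOrd P M a)
    (χ : Fin 2 → In P →* kˣ) (hχ : ∀ (g : In P) (i j : Fin 2), M g i j =
      if i = j then (χ i g : k) else 0) (i j : Fin 2) :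
    ∃ hb : (∀ g h : In P, a ((g * h : In P) : GQ) i j * (χ j (g * h) : k) =
      χ i g * (a h i j * χ j h) + a g i j * χ j g * χ j h),
    HasOrd (extAct (χ i) (χ j) (fun g => a g i j * χ j g) hb) := by
  classical
  obtain ⟨hd, h⟩ := h
  have hent : ∀ g : In P, (a g * M g) i j = a g i j * χ j g := by
    intro g
    rw [Matrix.mul_apply, Finset.sum_eq_single j]
    · rw [hχ, if_pos rfl]
    · intro l _ hl
      rw [hχ, if_neg hl, mul_zero]
    · intro hj; exact absurd (Finset.mem_univ _) hj
  have hvec : ∀ (g : In P) (u : Fin 2 → k) (i : Fin 2), (M g *ᵥ u) i = χ i g * u i := by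
    intro g u i
    rw [Matrix.mulVec, dotProduct, Finset.sum_eq_single i]
    · rw [hχ, if_pos rfl]
    · intro l _ hl
      rw [hχ, if_neg (Ne.symm hl), zero_mul]
    · intro hj; exact absurd (Finset.mem_univ _) hj
  refine ⟨fun g h => ?_, ?_⟩
  · rw [← hent, ← hent, ← hent, hd, Matrix.add_apply]
    congr 1
    · rw [Matrix.mul_apply, Finset.sum_eq_single i]
      · rw [hχ, if_pos rfl]
      · intro l _ hl
        rw [hχ, if_neg (Ne.symm hl), zero_mul]
      · intro hj; exact absurd (Finset.mem_univ _) hj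
    · rw [Matrix.mul_apply, Finset.sum_eq_single j]
      · rw [hχ, if_pos rfl]
      · intro l _ hl
        rw [hχ, if_neg hl, mul_zero]
      · intro hj; exact absurd (Finset.mem_univ _) hj
  · let V := Fin 2 → k
    let ι : k × V →+ V × V :=
      { toFun := fun x => (Pi.single j x.1, x.2)
        map_zero' := by simp
        map_add' := fun x y => by
          refine Prod.ext ?_ rfl
          show (Pi.single j (x.1 + y.1) : Fin 2 → k) = Pi.single j x.1 + Pi.single j y.1
          exact Pi.single_add (f := fun _ : Fin 2 => k) j x.1 y.1 }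
    let q : k × V →+ k × k :=
      { toFun := fun x => (x.2 i, x.1)
        map_zero' := rfl
        map_add' := fun x y => rfl }
    refine h.subquot hex ι ?_ q ?_ ?_
    · rintro ⟨x, y⟩ ⟨x', y'⟩ hxy
      have e1 : (Pi.single j x : Fin 2 → k) = Pi.single j x' := congrArg Prod.fst hxy
      have e2 : y = y' := congrArg Prod.snd hxy
      rw [e2, Pi.single_injective j e1]
    · rintro ⟨u, w⟩
      refine ⟨(w, Pi.single i u), Prod.ext ?_ rfl⟩
      show (Pi.single i u : Fin 2 → k) i = u
      rw [Pi.single_eq_same]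
    · rintro g ⟨w, u⟩
      refine ⟨(χ j g * w, M g *ᵥ u + (a g * M g) *ᵥ Pi.single j w), ?_, ?_⟩
      · refine Prod.ext ?_ rfl
        show (Pi.single j ((χ j g : k) * w) : Fin 2 → k) = M g *ᵥ Pi.single j w
        funext l
        rw [hvec]
        by_cases hl : l = j
        · subst hl
          rw [Pi.single_eq_same, Pi.single_eq_same]
        · rw [Pi.single_eq_of_ne hl, Pi.single_eq_of_ne hl, mul_zero]
      · refine Prod.ext ?_ rfl
        show (M g *ᵥ u + (a g * M g) *ᵥ Pi.single j w) i = χ i g * u i + (a g i j * χ j g) * w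
        rw [Pi.add_apply, hvec, Matrix.mulVec_single, ← hent]
        simp

end mat

section flat

variable {𝒪 : Type} [CommRing 𝒪] [IsLocalRing 𝒪] [Finite (ResidueField 𝒪)]

theorem epsOrd_of_selFlat (hp : p.Prime) (hP : P.LiesOverPrime p)
    {M : GQ →* Matrix (Fin 2) (Fin 2) (ResidueField 𝒪)}
    {a : GQ → Matrix (Fin 2) (Fin 2) (ResidueField 𝒪)} (h : TWP.SelFlat M p a) :
    EpsOrd P M a := by
  obtain ⟨ha, ρ, hM, hfl⟩ := h
  have h1 := hasOrd_vecAct hp hP hM hfl
  have hMM : ∀ g : GQ, M g⁻¹ * M g = 1 := fun g => by rw [← map_mul, inv_mul_cancel, map_one]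
  refine ⟨fun g h => ?_, ?_⟩
  · rw [Subgroup.coe_mul, ha, map_mul, add_mul]
    have e1 : M g * a h * M (g : GQ)⁻¹ * (M g * M h) = M g * (a h * M h) := by
      calc _ = M g * a h * (M (g : GQ)⁻¹ * M g) * M h := by simp only [mul_assoc]
        _ = _ := by rw [hMM, mul_one, mul_assoc]
    rw [e1, add_comm, mul_assoc]
  · let V := Fin 2 → ResidueField 𝒪
    let i : V × V →+ (Fin 2 → Dual 𝒪) :=
      { toFun := fun x => fun j => dmk (x.1 j) (x.2 j)
        map_zero' := by
          funext j
          show dmk ((0 : Fin 2 → ResidueField 𝒪) j) ((0 : Fin 2 → ResidueField 𝒪) j) = 0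
          exact dual_ext (by rw [UDef.dfst_dmk]; rfl) (by rw [UDef.dsnd_dmk]; rfl)
        map_add' := fun x y => by
          funext j
          show dmk (x.1 j + y.1 j) (x.2 j + y.2 j) = dmk (x.1 j) (x.2 j) + dmk (y.1 j) (y.2 j)
          exact dual_ext (by simp) (by simp) }
    refine h1.of_injective i ?_ ?_
    · rintro ⟨x, y⟩ ⟨x', y'⟩ hxy
      have e1 : x = x' := by
        funext j
        have := congrArg (fun t : Fin 2 → Dual 𝒪 => dfst (t j)) hxy
        simpa [i] using this
      have e2 : y = y' := by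
        funext j
        have := congrArg (fun t : Fin 2 → Dual 𝒪 => dsnd (t j)) hxy
        simpa [i] using this
      rw [e1, e2]
    · rintro g ⟨w, u⟩
      funext j
      show dmk ((M g *ᵥ w) j) ((M g *ᵥ u + (a g * M g) *ᵥ w) j) =
        (TWP.dualRep M ⟨a, ha⟩ g *ᵥ fun l => dmk (w l) (u l)) j
      rw [TWP.dualRep_apply]
      simp only [Matrix.mulVec, dotProduct, Fin.sum_univ_two, TWP.matMk, Matrix.of_apply,
        Pi.add_apply]
      exact dual_ext (by simp) (by simp; ring)

end flat

end Fermat.Agent.TWFlat
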