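import Fermat.Agent.TWP.FlatLoc.Val
import Fermat.Agent.FlatModel.Adic
import Fermat.Agent.FlatOrd.Model

set_option autoImplicit false
set_option linter.style.haveILetI false
set_option linter.unusedVariables false
set_option linter.unusedSectionVars false

/-!
# Orders in rings of inertia-equivariant functions
-/

open Pointwise

namespace Fermat.Agent.TWFlat

open FlatOrd.Unramified (inertiaRing)

/-- the inertia group as a type -/
abbrev In (P : ValuationSubring Om) : Type := ↥(P.inertiaSubgroupIn ℚ)

variable {P : ValuationSubring Om}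

/-- A finite flat order of inertia-equivariant functions on the finite inertia-module `M`. -/
structure IsOrd {M : Type} [AddCommGroup M] (act : In P →* AddMonoid.End M)
    (A : Submodule (inertiaRing P) (M → Om)) : Prop where
  fg : A.FG
  one_mem : (fun _ => 1 : M → Om) ∈ A
  val_le : ∀ a ∈ A, ∀ m, P.valuation (a m) ≤ 1
  equiv : ∀ a ∈ A, ∀ (g : In P) (m : M), a (act g m) = (g : GQ) (a m)
  span_top : Submodule.span Om (A : Set (M → Om)) = ⊤
  comul : ∀ a ∈ A, ∃ (n : ℕ) (b c : Fin n → M → Om), (∀ i, b i ∈ A) ∧ (∀ i, c i ∈ A) ∧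
    ∀ x y, a (x + y) = ∑ i, b i x * c i y

/-- existence of an order -/
def HasOrd {M : Type} [AddCommGroup M] (act : In P →* AddMonoid.End M) : Prop :=
  ∃ A, IsOrd act A

theorem smul_apply_ring (s : inertiaRing P) {M : Type} (a : M → Om) (m : M) :
    (s • a) m = (s : Om) * a m := rfl

theorem ring_val (s : inertiaRing P) : P.valuation (s : Om) ≤ 1 :=
  (P.valuation_le_one_iff _).mpr s.2.1

theorem ring_fixed (s : inertiaRing P) {g : GQ} (hg : g ∈ P.inertiaSubgroupIn ℚ) :
    g (s : Om) = s := s.2.2 ⟨g, hg⟩

/-- make an element of the inertia ring -/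
def mkRing (x : Om) (h : P.valuation x ≤ 1) (hx : ∀ g ∈ P.inertiaSubgroupIn ℚ, g x = x) :
    inertiaRing P := ⟨x, (P.valuation_le_one_iff _).mp h, fun g => hx g g.2⟩

section basis

variable {M : Type} [AddCommGroup M] {act : In P →* AddMonoid.End M}

theorem act_inv_apply (act : In P →* AddMonoid.End M) (g : In P) (m : M) :
    act g (act g⁻¹ m) = m := by
  have : act g (act g⁻¹ m) = (act (g * g⁻¹)) m := by rw [map_mul]; rfl
  rw [this, mul_inv_cancel, map_one]
  rfl

theorem act_inv_apply' (act : In P →* AddMonoid.End M) (g : In P) (m : M) :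
    act g⁻¹ (act g m) = m := by
  have := act_inv_apply act g⁻¹ m
  rwa [inv_inv] at this

/-- Common denominators. -/
theorem exists_denom (hp : ∃ p : ℕ, p.Prime ∧ P.LiesOverPrime p) {ι : Type} (s : Finset ι) (d : ι → Om)
    (hd : ∀ i ∈ s, ∀ g ∈ P.inertiaSubgroupIn ℚ, g (d i) = d i) :
    ∃ s0 : inertiaRing P, (s0 : Om) ≠ 0 ∧ ∀ i ∈ s, ∃ r : inertiaRing P, (r : Om) = s0 * d i := by
  classical
  induction s using Finset.induction_on with
  | empty => exact ⟨1, one_ne_zero, by simp⟩
  | insert i0 s hi0 ih =>
    obtain ⟨s0, hs0', hs⟩ := ih fun i hi => hd i (Finset.mem_insert_of_mem hi)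
    have hfix := hd i0 (Finset.mem_insert_self _ _)
    obtain ⟨t, ht0, r, hr⟩ : ∃ t : inertiaRing P, (t : Om) ≠ 0 ∧ ∃ r : inertiaRing P,
        (r : Om) = t * d i0 := by
      rcases le_total (P.valuation (d i0)) 1 with h | h
      · exact ⟨1, one_ne_zero, mkRing (d i0) h hfix, (one_mul _).symm⟩
      · have h0 : d i0 ≠ 0 := by
          intro h0
          rw [h0, map_zero] at h
          exact absurd h (not_le.mpr zero_lt_one)
        refine ⟨mkRing (d i0)⁻¹ ?_ (fun g hg => by rw [map_inv₀, hfix g hg]), inv_ne_zero h0, 1, ?_⟩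
        · rw [map_inv₀]
          exact inv_le_one_of_one_le₀ h
        · exact (inv_mul_cancel₀ h0).symm
    refine ⟨s0 * t, mul_ne_zero hs0' ht0, fun i hi => ?_⟩
    rcases Finset.mem_insert.mp hi with rfl | hi
    · refine ⟨s0 * r, ?_⟩
      rw [Subring.coe_mul, Subring.coe_mul, hr]; ring
    · obtain ⟨r', hr'⟩ := hs i hi
      refine ⟨r' * t, ?_⟩
      rw [Subring.coe_mul, Subring.coe_mul, hr']; ring

/-- equivariant functions linearly independent over the inertia ring are so over `ℚ̄` -/
theorem linInd_of_equiv (hp : ∃ p : ℕ, p.Prime ∧ P.LiesOverPrime p) {ι : Type} (a : ι → M → Om)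
    (ha : ∀ i (g : In P) m, a i (act g m) = (g : GQ) (a i m))
    (hli : LinearIndependent (inertiaRing P) a) : LinearIndependent Om a := by
  classical
  rw [linearIndependent_iff']
  intro s
  induction s using Finset.induction_on with
  | empty => simp
  | insert i0 s hi0 ih =>
    intro c hc
    by_cases h0 : c i0 = 0
    · rw [Finset.sum_insert hi0, h0, zero_smul, zero_add] at hc
      intro i hi
      rcases Finset.mem_insert.mp hi with rfl | hi
      · exact h0
      · exact ih c hc i hi
    · exfalso
      set d : ι → Om := fun i => (c i0)⁻¹ * c i with hd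
      have hd0 : d i0 = 1 := inv_mul_cancel₀ h0
      have hdc : ∑ i ∈ insert i0 s, d i • a i = 0 := by
        have := congrArg (fun f => (c i0)⁻¹ • f) hc
        simp only [Finset.smul_sum, smul_smul, smul_zero] at this
        exact this
      have hfix : ∀ i ∈ insert i0 s, ∀ g ∈ P.inertiaSubgroupIn ℚ, g (d i) = d i := by
        intro i hi g hg
        have hτ : ∑ i ∈ insert i0 s, (g (d i)) • a i = 0 := by
          funext m
          have h1 := congrFun hdc (act (⟨g, hg⟩ : In P)⁻¹ m)
          have h2 := congrArg g h1
          simp only [Finset.sum_apply, Pi.smul_apply, smul_eq_mul, Pi.zero_apply, map_sum, map_mul,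
            map_zero] at h2 ⊢
          rw [← h2]
          refine Finset.sum_congr rfl fun j _ => ?_
          congr 1
          have h3 := ha j ⟨g, hg⟩ (act (⟨g, hg⟩ : In P)⁻¹ m)
          rw [act_inv_apply] at h3
          exact h3
        have hsub : ∑ i ∈ s, (g (d i) - d i) • a i = 0 := by
          have h3 : ∑ i ∈ insert i0 s, (g (d i) - d i) • a i = 0 := by
            simp only [sub_smul, Finset.sum_sub_distrib]
            rw [hτ, hdc, sub_zero]
          rw [Finset.sum_insert hi0, hd0, map_one, sub_self, zero_smul, zero_add] at h3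
          exact h3
        rcases Finset.mem_insert.mp hi with rfl | hi
        · rw [hd0, map_one]
        · exact sub_eq_zero.mp (ih _ hsub i hi)
      obtain ⟨s0, hs0, hs⟩ := exists_denom hp (insert i0 s) d hfix
      choose! r hr using hs
      have hrel : ∑ i ∈ insert i0 s, r i • a i = 0 := by
        funext x
        have h1 := congrFun hdc x
        simp only [Finset.sum_apply, Pi.smul_apply, smul_eq_mul, Pi.zero_apply] at h1 ⊢
        have h2 : ∀ i ∈ insert i0 s, ((r i) • a i x : Om) = s0 * (d i * a i x) := fun i hi => by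
          show (r i : Om) * a i x = _
          rw [hr i hi]
          ring
        rw [Finset.sum_congr rfl h2, ← Finset.mul_sum, h1, mul_zero]
      rw [linearIndependent_iff'] at hli
      have h4 := hli (insert i0 s) r hrel i0 (Finset.mem_insert_self _ _)
      have h5 := hr i0 (Finset.mem_insert_self _ _)
      rw [h4, hd0, mul_one] at h5
      exact hs0 h5.symm

theorem isTorsionFree_pi (M : Type) : Module.IsTorsionFree (inertiaRing P) (M → Om) := by
  constructor
  intro r hr f g hfg
  funext x
  have h1 : (r : Om) * f x = (r : Om) * g x := congrFun hfg x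
  have hr0 : (r : Om) ≠ 0 := fun h => hr.ne_zero (Subtype.ext h)
  exact mul_left_cancel₀ hr0 h1

variable {A : Submodule (inertiaRing P) (M → Om)}

/-- an `S`-basis of an order, which is a `ℚ̄`-basis of the space of functions -/
theorem IsOrd.exists_basis (hA : IsOrd act A) (hp : ∃ p : ℕ, p.Prime ∧ P.LiesOverPrime p) :
    ∃ (n : ℕ) (b : Module.Basis (Fin n) (inertiaRing P) A) (B : Module.Basis (Fin n) Om (M → Om)),
      ∀ i, B i = (b i : M → Om) := by
  obtain ⟨p, hp1, hp2⟩ := hp
  haveI := FlatOrd.Unramified.inertiaRing_isDiscreteValuationRing P hp1 hp2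
  haveI : Module.Finite (inertiaRing P) A := Module.Finite.iff_fg.mpr hA.fg
  haveI := isTorsionFree_pi (P := P) M
  haveI : Module.IsTorsionFree (inertiaRing P) A := inferInstance
  haveI : Module.Free (inertiaRing P) A := Module.free_of_finite_type_torsion_free'
  let b := Module.finBasis (inertiaRing P) A
  have hli : LinearIndependent Om (fun i => (b i : M → Om)) := by
    refine linInd_of_equiv (act := act) ⟨p, hp1, hp2⟩ _ (fun i => hA.equiv _ (b i).2) ?_
    exact b.linearIndependent.map' A.subtype (Submodule.ker_subtype A)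
  have hsp : ⊤ ≤ Submodule.span Om (Set.range (fun i => (b i : M → Om))) := by
    rw [← hA.span_top, Submodule.span_le]
    intro a ha
    have h1 : (⟨a, ha⟩ : A) = ∑ i, b.repr ⟨a, ha⟩ i • b i := (b.sum_repr _).symm
    have h2 : a = ∑ i, ((b.repr ⟨a, ha⟩ i : inertiaRing P) : Om) • (b i : M → Om) := by
      have := congrArg A.subtype h1
      rw [map_sum] at this
      simp only [map_smul] at this
      exact this
    rw [h2]
    exact Submodule.sum_mem _ fun i _ => Submodule.smul_mem _ _ (Submodule.subset_span ⟨i, rfl⟩)
  exact ⟨_, b, Module.Basis.mk hli hsp, fun i => by rw [Module.Basis.mk_apply]⟩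

/-- coordinates of elements of the order -/
theorem basis_repr_coe {n : ℕ} (b : Module.Basis (Fin n) (inertiaRing P) A)
    (B : Module.Basis (Fin n) Om (M → Om)) (hB : ∀ i, B i = (b i : M → Om)) (a : A) (i : Fin n) :
    B.repr (a : M → Om) i = (b.repr a i : inertiaRing P) := by
  have h1 : (a : M → Om) = ∑ i, ((b.repr a i : inertiaRing P) : Om) • B i := by
    have := congrArg A.subtype (b.sum_repr a).symm
    rw [map_sum] at this
    simp only [map_smul] at this
    refine this.trans (Finset.sum_congr rfl fun j _ => ?_)
    rw [hB]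
    rfl
  rw [h1, Module.Basis.repr_sum_self]

end basis

section restrict

variable {M : Type} [AddCommGroup M] {act : In P →* AddMonoid.End M}
  {N : Type} [AddCommGroup N] {actN : In P →* AddMonoid.End N}
  {A : Submodule (inertiaRing P) (M → Om)}

/-- pull back of functions -/
def pull (f : N → M) : (M → Om) →ₗ[inertiaRing P] (N → Om) where
  toFun a := a ∘ f
  map_add' _ _ := rfl
  map_smul' _ _ := rfl

theorem pull_apply (f : N → M) (a : M → Om) (x : N) : pull (P := P) f a x = a (f x) := rfl

/-- restriction of an order to a submodule -/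
theorem IsOrd.restrict (hA : IsOrd act A) (i : N →+ M) (hi : Function.Injective i)
    (hact : ∀ g x, i (actN g x) = act g (i x)) : IsOrd actN (A.map (pull (P := P) i)) := by
  refine ⟨hA.fg.map _, ⟨_, hA.one_mem, rfl⟩, ?_, ?_, ?_, ?_⟩
  · rintro _ ⟨a, ha, rfl⟩ m
    exact hA.val_le a ha _
  · rintro _ ⟨a, ha, rfl⟩ g m
    show a (i (actN g m)) = _
    rw [hact, hA.equiv a ha]
    rfl
  · rw [eq_top_iff]
    intro f _
    let F : M → Om := Function.extend i f 0
    have hF : F ∈ Submodule.span Om (A : Set (M → Om)) := by rw [hA.span_top]; trivial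
    let L : (M → Om) →ₗ[Om] (N → Om) := LinearMap.funLeft Om Om i
    have h1 : L F = f := by
      funext x
      exact hi.extend_apply f 0 x
    rw [← h1]
    have h2 : L F ∈ (Submodule.span Om (A : Set (M → Om))).map L := ⟨F, hF, rfl⟩
    rw [Submodule.map_span] at h2
    refine Submodule.span_mono ?_ h2
    rintro _ ⟨a, ha, rfl⟩
    exact ⟨a, ha, rfl⟩
  · rintro _ ⟨a, ha, rfl⟩
    obtain ⟨n, b, c, hb, hc, h⟩ := hA.comul a ha
    refine ⟨n, fun j => pull (P := P) i (b j), fun j => pull (P := P) i (c j), fun j => ⟨_, hb j, rfl⟩,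
      fun j => ⟨_, hc j, rfl⟩, fun x y => ?_⟩
    show a (i (x + y)) = _
    rw [map_add, h]
    rfl

theorem HasOrd.of_injective (h : HasOrd act) (i : N →+ M) (hi : Function.Injective i)
    (hact : ∀ g x, i (actN g x) = act g (i x)) : HasOrd actN := by
  obtain ⟨A, hA⟩ := h
  exact ⟨_, hA.restrict i hi hact⟩

end restrict

section quot

variable {M : Type} [AddCommGroup M] {act : In P →* AddMonoid.End M}
  {Q : Type} [AddCommGroup Q] {actQ : In P →* AddMonoid.End Q}
  {A : Submodule (inertiaRing P) (M → Om)}

theorem pull_injective {q : M →+ Q} (hq : Function.Surjective q) :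
    Function.Injective (pull (P := P) q) := by
  intro f g h
  funext u
  obtain ⟨m, rfl⟩ := hq u
  exact congrFun h m

theorem IsOrd.quot [Finite M] (hA : IsOrd act A) (hp : ∃ p : ℕ, p.Prime ∧ P.LiesOverPrime p)
    (q : M →+ Q) (hq : Function.Surjective q)
    (hact : ∀ g x, q (act g x) = actQ g (q x)) : IsOrd actQ (A.comap (pull (P := P) q)) := by
  classical
  have hp' := hp
  obtain ⟨p, hp1, hp2⟩ := hp'
  haveI := FlatOrd.Unramified.inertiaRing_isDiscreteValuationRing P hp1 hp2
  haveI hAfin : Module.Finite (inertiaRing P) A := Module.Finite.iff_fg.mpr hA.fg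
  haveI := isTorsionFree_pi (P := P) M
  let f : (A.comap (pull (P := P) q)) →ₗ[inertiaRing P] A :=
    ((pull (P := P) q).domRestrict (A.comap (pull (P := P) q))).codRestrict A (fun x => x.2)
  have hf : Function.Injective f := by
    intro x y hxy
    apply Subtype.ext
    exact pull_injective (P := P) hq (congrArg Subtype.val hxy)
  haveI hnoeth : IsNoetherian (inertiaRing P) A := isNoetherian_of_isNoetherianRing_of_finite _ A
  have hequiv : ∀ φ ∈ A.comap (pull (P := P) q), ∀ (g : In P) (u : Q),
      φ (actQ g u) = (g : GQ) (φ u) := by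
    intro φ hφ g u
    obtain ⟨m, rfl⟩ := hq u
    rw [← hact]
    exact hA.equiv _ hφ g m
  -- traces
  let _ := Fintype.ofFinite M
  let ker : Finset M := Finset.univ.filter (fun x => q x = 0)
  have hker : ∀ x, x ∈ ker ↔ q x = 0 := fun x => by simp [ker]
  obtain ⟨sec, hsec⟩ := hq.hasRightInverse
  let tr : (M → Om) →ₗ[Om] (Q → Om) :=
    { toFun := fun a u => ∑ x ∈ ker, a (sec u + x)
      map_add' := fun a b => by funext u; simp [Finset.sum_add_distrib]
      map_smul' := fun c a => by funext u; simp [Finset.mul_sum] }
  have htr : ∀ a m, tr a (q m) = ∑ x ∈ ker, a (m + x) := by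
    intro a m
    show ∑ x ∈ ker, a (sec (q m) + x) = _
    refine Finset.sum_bij (fun x _ => sec (q m) - m + x) ?_ ?_ ?_ ?_
    · intro x hx
      rw [hker] at hx ⊢
      rw [map_add, map_sub, hsec, hx, sub_self, zero_add]
    · intro x _ y _ h
      exact add_left_cancel h
    · intro y hy
      rw [hker] at hy
      refine ⟨y - (sec (q m) - m), ?_, by abel⟩
      rw [hker, map_sub, map_sub, hsec, hy, sub_self, sub_self]
    · intro x _
      congr 1
      abel
  have htrA : ∀ a ∈ A, tr a ∈ A.comap (pull (P := P) q) := by
    intro a ha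
    obtain ⟨n, b, c, hb, hc, h⟩ := hA.comul a ha
    have hs : ∀ i, ∃ s : inertiaRing P, (s : Om) = ∑ x ∈ ker, c i x := by
      intro i
      refine ⟨mkRing (∑ x ∈ ker, c i x) ?_ ?_, rfl⟩
      · exact Valuation.map_sum_le _ fun x _ => hA.val_le _ (hc i) x
      · intro g hg
        rw [map_sum]
        refine Finset.sum_bij (fun x _ => act ⟨g, hg⟩ x) ?_ ?_ ?_ ?_
        · intro x hx
          rw [hker] at hx ⊢
          rw [hact, hx, map_zero]
        · intro x _ y _ hxy
          have := congrArg (act (⟨g, hg⟩ : In P)⁻¹) hxy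
          rwa [act_inv_apply', act_inv_apply'] at this
        · intro y hy
          refine ⟨act (⟨g, hg⟩ : In P)⁻¹ y, ?_, act_inv_apply _ _ _⟩
          rw [hker] at hy ⊢
          rw [hact, hy, map_zero]
        · intro x _
          exact (hA.equiv _ (hc i) ⟨g, hg⟩ x).symm
    choose s hs using hs
    have h1 : pull (P := P) q (tr a) = ∑ i, s i • b i := by
      funext m
      rw [pull_apply, htr, Finset.sum_apply]
      simp only [h]
      rw [Finset.sum_comm]
      refine Finset.sum_congr rfl fun i _ => ?_
      rw [← Finset.mul_sum, ← hs, smul_apply_ring, mul_comm]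
    show pull (P := P) q (tr a) ∈ A
    rw [h1]
    exact A.sum_mem fun i _ => A.smul_mem _ (hb i)
  have hspan : Submodule.span Om ((A.comap (pull (P := P) q) : Submodule (inertiaRing P) (Q → Om)) :
      Set (Q → Om)) = ⊤ := by
    rw [eq_top_iff]
    intro φ _
    -- preimage of φ under the trace
    let F : M → Om := fun m => if sec (q m) = m then φ (q m) else 0
    have hF : tr F = φ := by
      funext u
      show ∑ x ∈ ker, F (sec u + x) = φ u
      have hz : (0 : M) ∈ ker := by rw [hker, map_zero]
      rw [Finset.sum_eq_single_of_mem 0 hz]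
      · show (if sec (q (sec u + 0)) = sec u + 0 then φ (q (sec u + 0)) else 0) = _
        rw [add_zero, hsec, if_pos rfl]
      · intro x hx hx0
        show (if sec (q (sec u + x)) = sec u + x then φ (q (sec u + x)) else 0) = 0
        rw [if_neg]
        intro h
        apply hx0
        rw [hker] at hx
        rw [map_add, hx, add_zero, hsec] at h
        exact (left_eq_add.mp h)
    have hF' : F ∈ Submodule.span Om (A : Set (M → Om)) := by rw [hA.span_top]; trivial
    have h2 : tr F ∈ (Submodule.span Om (A : Set (M → Om))).map tr := ⟨F, hF', rfl⟩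
    rw [Submodule.map_span, hF] at h2
    refine Submodule.span_mono ?_ h2
    rintro _ ⟨a, ha, rfl⟩
    exact htrA a ha
  refine ⟨?_, ?_, ?_, hequiv, hspan, ?_⟩
  · exact Module.Finite.iff_fg.mp (Module.Finite.of_injective f hf)
  · exact hA.one_mem
  · intro φ hφ u
    obtain ⟨m, rfl⟩ := hq u
    exact hA.val_le _ hφ m
  · -- comultiplication
    let N := LinearMap.range f
    have htf : Module.IsTorsionFree (inertiaRing P) (A ⧸ N) := by
      refine Module.IsTorsionFree.of_smul_eq_zero fun r x => ?_
      obtain ⟨a, rfl⟩ := N.mkQ_surjective x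
      intro hra
      by_cases hr : r = 0
      · exact Or.inl hr
      right
      rw [← map_smul, Submodule.mkQ_apply, Submodule.Quotient.mk_eq_zero] at hra
      rw [Submodule.mkQ_apply, Submodule.Quotient.mk_eq_zero]
      obtain ⟨φ, hφ⟩ := hra
      have hr' : (r : Om) ≠ 0 := fun h => hr (Subtype.ext h)
      let ψ : Q → Om := fun u => (r : Om)⁻¹ * (φ : Q → Om) u
      have hψ : pull (P := P) q ψ = (a : M → Om) := by
        funext m
        have h1 : (φ : Q → Om) (q m) = (r : Om) * (a : M → Om) m :=
          congrFun (congrArg (Subtype.val) hφ) m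
        show (r : Om)⁻¹ * (φ : Q → Om) (q m) = (a : M → Om) m
        rw [h1, inv_mul_cancel_left₀ hr']
      refine ⟨⟨ψ, ?_⟩, Subtype.ext hψ⟩
      show pull (P := P) q ψ ∈ A
      rw [hψ]
      exact a.2
    have hfree : Module.Free (inertiaRing P) (A ⧸ N) := Module.free_of_finite_type_torsion_free'
    have hproj : Module.Projective (inertiaRing P) (A ⧸ N) := Module.Projective.of_free
    obtain ⟨s, hs⟩ := Module.projective_lifting_property N.mkQ LinearMap.id N.mkQ_surjective
    have hmem : ∀ a : A, (LinearMap.id - s ∘ₗ N.mkQ : A →ₗ[inertiaRing P] A) a ∈ N := by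
      intro a
      have h1 := LinearMap.congr_fun hs (N.mkQ a)
      simp only [LinearMap.coe_comp, Function.comp_apply, LinearMap.id_coe, id_eq] at h1
      rw [← Submodule.Quotient.mk_eq_zero, ← Submodule.mkQ_apply]
      simp only [LinearMap.sub_apply, LinearMap.id_coe, id_eq, LinearMap.coe_comp,
        Function.comp_apply, map_sub, h1, sub_self]
    let g : A →ₗ[inertiaRing P] N := (LinearMap.id - s ∘ₗ N.mkQ).codRestrict N hmem
    let e : (A.comap (pull (P := P) q)) ≃ₗ[inertiaRing P] N := LinearEquiv.ofInjective f hf
    let r : A →ₗ[inertiaRing P] (A.comap (pull (P := P) q)) := e.symm.toLinearMap ∘ₗ g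
    have hr : ∀ φ : A.comap (pull (P := P) q), r ⟨pull (P := P) q φ, φ.2⟩ = φ := by
      intro φ
      have h1 : g ⟨pull (P := P) q φ, φ.2⟩ = e φ := by
        apply Subtype.ext
        show (LinearMap.id - s ∘ₗ N.mkQ : A →ₗ[inertiaRing P] A) (f φ) = f φ
        have h2 : N.mkQ (f φ) = 0 := by
          rw [Submodule.mkQ_apply, Submodule.Quotient.mk_eq_zero]
          exact ⟨φ, rfl⟩
        simp only [LinearMap.sub_apply, LinearMap.id_coe, id_eq, LinearMap.coe_comp,
          Function.comp_apply, h2, map_zero, sub_zero]
      show e.symm (g ⟨pull (P := P) q φ, φ.2⟩) = φ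
      rw [h1, LinearEquiv.symm_apply_apply]
    obtain ⟨n, b, B, hB⟩ := hA.exists_basis hp
    let rK : (M → Om) →ₗ[Om] (Q → Om) := B.constr Om (fun i => (r (b i) : Q → Om))
    have hrK : ∀ a : A, rK (a : M → Om) = (r a : Q → Om) := by
      intro a
      have h : (rK.restrictScalars (inertiaRing P)) ∘ₗ A.subtype =
          (A.comap (pull (P := P) q)).subtype ∘ₗ r := by
        refine b.ext fun i => ?_
        simp only [LinearMap.coe_comp, Function.comp_apply, LinearMap.coe_restrictScalars]
        have h5 : A.subtype (b i) = B i := (hB i).symm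
        rw [h5]
        exact B.constr_basis Om _ i
      exact LinearMap.congr_fun h a
    have hrKq : ∀ F : Q → Om, rK (fun m => F (q m)) = F := by
      intro F
      let qK : (Q → Om) →ₗ[Om] (M → Om) := LinearMap.funLeft Om Om q
      have h1 : rK ∘ₗ qK = LinearMap.id := by
        refine LinearMap.ext_on hspan ?_
        intro φ hφ
        show rK (qK φ) = φ
        have h2 : qK φ = ((⟨pull (P := P) q φ, hφ⟩ : A) : M → Om) := rfl
        rw [h2, hrK]
        exact congrArg Subtype.val (hr ⟨φ, hφ⟩)
      exact LinearMap.congr_fun h1 F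
    intro φ hφ
    obtain ⟨k, b', c', hb', hc', h⟩ := hA.comul _ hφ
    refine ⟨k, fun i => (r ⟨b' i, hb' i⟩ : Q → Om), fun i => (r ⟨c' i, hc' i⟩ : Q → Om),
      fun i => (r ⟨b' i, hb' i⟩).2, fun i => (r ⟨c' i, hc' i⟩).2, ?_⟩
    have h1 : ∀ (u : Q) (y : M), φ (u + q y) = ∑ i, (r ⟨b' i, hb' i⟩ : Q → Om) u * c' i y := by
      intro u y
      have h2 := hrKq (fun u => φ (u + q y))
      have h3 : (fun m => φ (q m + q y)) = ∑ i, (c' i y) • (b' i) := by
        funext m
        have := h m y
        rw [pull_apply, map_add] at this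
        rw [this, Finset.sum_apply]
        refine Finset.sum_congr rfl fun i _ => mul_comm _ _
      rw [h3, map_sum] at h2
      have h4 := congrFun h2 u
      rw [Finset.sum_apply] at h4
      rw [← h4]
      refine Finset.sum_congr rfl fun i _ => ?_
      rw [map_smul, Pi.smul_apply, smul_eq_mul, mul_comm]
      congr 1
      exact congrFun (hrK ⟨b' i, hb' i⟩) u
    intro u v
    have h2 := hrKq (fun v => φ (u + v))
    have h3 : (fun m => φ (u + q m)) = ∑ i, ((r ⟨b' i, hb' i⟩ : Q → Om) u) • (c' i) := by
      funext m
      rw [h1, Finset.sum_apply]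
      rfl
    rw [h3, map_sum] at h2
    have h4 := congrFun h2 v
    rw [Finset.sum_apply] at h4
    rw [← h4]
    refine Finset.sum_congr rfl fun i _ => ?_
    rw [map_smul, Pi.smul_apply, smul_eq_mul]
    congr 1
    exact congrFun (hrK ⟨c' i, hc' i⟩) v

theorem HasOrd.of_surjective [Finite M] (h : HasOrd act)
    (hp : ∃ p : ℕ, p.Prime ∧ P.LiesOverPrime p) (q : M →+ Q) (hq : Function.Surjective q)
    (hact : ∀ g x, q (act g x) = actQ g (q x)) : HasOrd actQ := by
  obtain ⟨A, hA⟩ := h
  exact ⟨_, hA.quot hp q hq hact⟩

end quot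

section flat

open Fermat.FlatModel GaloisRep

variable {M : Type} [AddCommGroup M] {act : GQ →* AddMonoid.End M} {p : ℕ}

/-- a finite flat model gives an order -/
theorem hasOrd_of_hasFlatModel [Finite M] (hp : p.Prime) (hP : P.LiesOverPrime p)
    (h : HasFlatModel p act) :
    HasOrd (act.comp (P.inertiaSubgroupIn ℚ).subtype) := by
  obtain ⟨A0, hA0⟩ := h.exists_order
  have hrat : ∀ r : ratLocalizedAt p, ∃ s : inertiaRing P,
      (s : Om) = algebraMap (ratLocalizedAt p) (AlgebraicClosure ℚ) r := by
    intro r
    refine ⟨mkRing (algebraMap (ratLocalizedAt p) (AlgebraicClosure ℚ) r) ?_ ?_, rfl⟩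
    · have h1 : algebraMap (ratLocalizedAt p) (AlgebraicClosure ℚ) r = (((r : ℚ)) : Om) :=
        eq_ratCast (algebraMap ℚ Qb) (r : ℚ)
      rw [h1]
      exact (P.valuation_le_one_iff _).mpr (FlatOrd.Model.ratCast_mem P hP r)
    · intro g _
      exact g.commutes (r : ℚ)
  refine ⟨Submodule.span (inertiaRing P) (A0 : Set (M → Om)), ?_, ?_, ?_, ?_, ?_, ?_⟩
  · obtain ⟨T, hT⟩ := hA0.fg
    have : Submodule.span (inertiaRing P) (A0 : Set (M → Om)) =
        Submodule.span (inertiaRing P) (T : Set (M → Om)) := by
      refine le_antisymm (Submodule.span_le.mpr ?_) (Submodule.span_mono ?_)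
      · intro a ha
        have ha' : a ∈ Submodule.span (ratLocalizedAt p) (T : Set (M → Qb)) := by
          rw [hT]; exact ha
        clear ha
        show a ∈ Submodule.span (inertiaRing P) (T : Set (M → Om))
        induction ha' using Submodule.span_induction with
        | mem a ha => exact Submodule.subset_span ha
        | zero => exact Submodule.zero_mem _
        | add a b _ _ iha ihb => exact Submodule.add_mem _ iha ihb
        | smul r a _ iha =>
          obtain ⟨s, hs⟩ := hrat r
          have : (r • a : M → Om) = s • a := by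
            funext m
            rw [Pi.smul_apply, Algebra.smul_def, smul_apply_ring, hs]
          rw [this]
          exact Submodule.smul_mem _ _ iha
      · intro a ha
        have : a ∈ A0.toSubmodule := by rw [← hT]; exact Submodule.subset_span ha
        exact this
    rw [this]
    exact Submodule.fg_span T.finite_toSet
  · exact Submodule.subset_span A0.one_mem
  · intro a ha
    induction ha using Submodule.span_induction with
    | mem a ha =>
      intro m
      rw [P.valuation_le_one_iff]
      refine FlatOrd.Model.mem_of_isIntegral_ratLocalizedAt P hP ?_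
      haveI := hA0.moduleFinite
      have hi : IsIntegral (ratLocalizedAt p) (⟨a, ha⟩ : A0) := Algebra.IsIntegral.isIntegral _
      exact hi.map ((ev p m).comp A0.val)
    | zero => intro m; simp
    | add a b _ _ ha hb =>
      intro m
      exact (P.valuation.map_add _ _).trans (max_le (ha m) (hb m))
    | smul s a _ ha =>
      intro m
      rw [smul_apply_ring, map_mul]
      exact mul_le_one₀ (ring_val s) zero_le (ha m)
  · intro a ha
    induction ha using Submodule.span_induction with
    | mem a ha => exact fun g m => hA0.equivariant a ha g m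
    | zero => intro g m; simp
    | add a b _ _ ha hb =>
      intro g m
      rw [Pi.add_apply, Pi.add_apply, ha, hb, map_add]
    | smul s a _ ha =>
      intro g m
      rw [smul_apply_ring, smul_apply_ring, ha, map_mul, ring_fixed s g.2]
  · rw [eq_top_iff, ← span_eq_top hA0.separates, Submodule.span_le]
    intro a ha
    exact Submodule.subset_span (Submodule.subset_span ha)
  · intro a ha
    induction ha using Submodule.span_induction with
    | mem a ha =>
      have h1 := hA0.comul ⟨a, ha, rfl⟩
      rw [← Subalgebra.range_val A0] at h1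
      rw [← range_mu₂ (R := ratLocalizedAt p) (K := Qb) A0.val] at h1
      obtain ⟨t, ht⟩ := h1
      have key : ∀ t : TensorProduct (ratLocalizedAt p) A0 A0,
          ∃ (n : ℕ) (b c : Fin n → M → Om),
          (∀ i, b i ∈ Submodule.span (inertiaRing P) (A0 : Set (M → Om))) ∧
          (∀ i, c i ∈ Submodule.span (inertiaRing P) (A0 : Set (M → Om))) ∧
          ∀ x y, mu₂ (R := ratLocalizedAt p) (K := Qb) A0.val t (x, y) = ∑ i, b i x * c i y := by
        intro t
        induction t using TensorProduct.induction_on with
        | zero => exact ⟨0, Fin.elim0, Fin.elim0, fun i => i.elim0, fun i => i.elim0, by simp⟩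
        | tmul a b =>
          refine ⟨1, fun _ => a, fun _ => b, fun _ => Submodule.subset_span a.2,
            fun _ => Submodule.subset_span b.2, fun x y => ?_⟩
          rw [mu₂_tmul]
          simp
        | add t t' h h' =>
          obtain ⟨n, b, c, hb, hc, h⟩ := h
          obtain ⟨n', b', c', hb', hc', h'⟩ := h'
          refine ⟨n + n', Fin.append b b', Fin.append c c', ?_, ?_, ?_⟩
          · intro i
            refine Fin.addCases (fun j => ?_) (fun j => ?_) i
            · rw [Fin.append_left]; exact hb j
            · rw [Fin.append_right]; exact hb' j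
          · intro i
            refine Fin.addCases (fun j => ?_) (fun j => ?_) i
            · rw [Fin.append_left]; exact hc j
            · rw [Fin.append_right]; exact hc' j
          · intro x y
            rw [map_add, Pi.add_apply, h, h', Fin.sum_univ_add]
            congr 1
            · exact Finset.sum_congr rfl fun i _ => by rw [Fin.append_left, Fin.append_left]
            · exact Finset.sum_congr rfl fun i _ => by rw [Fin.append_right, Fin.append_right]
      obtain ⟨n, b, c, hb, hc, h⟩ := key t
      refine ⟨n, b, c, hb, hc, fun x y => ?_⟩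
      rw [← h x y]
      exact (congrFun ht (x, y)).symm
    | zero => exact ⟨0, Fin.elim0, Fin.elim0, fun i => i.elim0, fun i => i.elim0, by simp⟩
    | add a a' _ _ h h' =>
      obtain ⟨n, b, c, hb, hc, h⟩ := h
      obtain ⟨n', b', c', hb', hc', h'⟩ := h'
      refine ⟨n + n', Fin.append b b', Fin.append c c', ?_, ?_, ?_⟩
      · intro i
        refine Fin.addCases (fun j => ?_) (fun j => ?_) i
        · rw [Fin.append_left]; exact hb j
        · rw [Fin.append_right]; exact hb' j
      · intro i
        refine Fin.addCases (fun j => ?_) (fun j => ?_) i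
        · rw [Fin.append_left]; exact hc j
        · rw [Fin.append_right]; exact hc' j
      · intro x y
        rw [Pi.add_apply, h, h', Fin.sum_univ_add]
        congr 1
        · exact Finset.sum_congr rfl fun i _ => by rw [Fin.append_left, Fin.append_left]
        · exact Finset.sum_congr rfl fun i _ => by rw [Fin.append_right, Fin.append_right]
    | smul s a _ h =>
      obtain ⟨n, b, c, hb, hc, h⟩ := h
      refine ⟨n, fun i => s • b i, c, fun i => Submodule.smul_mem _ _ (hb i), hc, fun x y => ?_⟩
      rw [smul_apply_ring, h, Finset.mul_sum]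
      refine Finset.sum_congr rfl fun i _ => ?_
      show _ = ((s : Om) * b i x) * c i y
      rw [mul_assoc]

end flat

end Fermat.Agent.TWFlat
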