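import Fermat.Agent.TWP.FlatLoc.MainOrd
import Fermat.Agent.TWP.FlatLoc.Struct3

set_option autoImplicit false
set_option linter.style.haveILetI false
set_option linter.unusedVariables false
set_option linter.unusedSectionVars false

/-!
# The standing hypotheses for the structure theorem
-/

open Pointwise

namespace Fermat.Agent.TWFlat

open Module Matrix IsLocalRing Fermat.Agent.TWP.GW Fermat.Agent.CFT.LC ExtCitation Polynomial
open Fermat.Agent.TWP (SelFlat locConst_of_isModelR det_of_isModelR charpoly_of_isModelR)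
open Fermat.Agent.CFT.PT

section

variable {P : ValuationSubring Om} {p : ℕ} {k : Type} [Field k] [Finite k]
  {ρbar : ResidualGaloisRep k} {M : GQ →* Matrix (Fin 2) (Fin 2) k}

theorem vecAct_eq_matAct (P : ValuationSubring Om) (M : GQ →* Matrix (Fin 2) (Fin 2) k) :
    vecAct P M = matAct P M :=
  MonoidHom.ext fun g => AddMonoidHom.ext fun v => rfl

theorem strHyp_of (hp : p.Prime) (hp2 : p ≠ 2) (hP : P.LiesOverPrime p) (hM : UDef.IsModelR ρbar M)
    (hdet : (GaloisRepAdic.ofResidualGaloisRep ρbar).DetIsCyclotomic p)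
    (hsplit : ∀ σ : GQ, ∃ α β : k, LinearMap.charpoly (ρbar.ρ σ) = (X - C α) * (X - C β))
    (hflat : (GaloisRepAdic.ofResidualGaloisRep ρbar).IsFlatAt p) : StrHyp p P M where
  hp := hp
  hp2 := hp2
  hP := hP
  ord := by
    rw [← vecAct_eq_matAct]
    exact hasOrd_vecAct hp hP hM.toAdic hflat
  split g := by
    obtain ⟨α, β, h⟩ := hsplit g
    rw [charpoly_of_isModelR hM] at h
    refine ⟨α, ?_⟩
    have h1 := congrArg (Polynomial.eval α) h
    rw [Matrix.charpoly_fin_two] at h1
    simp only [eval_add, eval_sub, eval_pow, eval_X, eval_mul, eval_C, sub_self, zero_mul] at h1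
    rw [Matrix.trace_fin_two, Matrix.det_fin_two] at h1
    rw [Matrix.det_fin_two]
    simp only [Matrix.sub_apply, Matrix.smul_apply, smul_eq_mul, Matrix.one_apply_eq, mul_one]
    rw [Matrix.one_apply_ne (by decide), Matrix.one_apply_ne (by decide), mul_zero, sub_zero,
      sub_zero]
    linear_combination h1
  det g ζ hζ a ha := by
    have hspec : ∀ μ : Om, μ ^ p ^ 1 = 1 → g μ = μ ^ a := by
      intro μ hμ
      rw [pow_one] at hμ
      haveI : NeZero p := ⟨hp.ne_zero⟩
      obtain ⟨i, -, rfl⟩ := hζ.eq_pow_of_pow_eq_one hμ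
      rw [map_pow, ha, ← pow_mul, ← pow_mul, mul_comm]
    have h1 := hdet.2 1 g a hspec
    have hpk : (p : k) = 0 := by
      have := hdet.1
      rwa [IsLocalRing.maximalIdeal_eq_bot, Ideal.mem_bot] at this
    rw [pow_one, hpk, Ideal.span_singleton_eq_bot.mpr rfl, Ideal.mem_bot, sub_eq_zero] at h1
    rw [← det_of_isModelR hM]
    exact h1
  dens g hg φ hφ := by
    obtain ⟨L, hL, h⟩ := locConst_of_isModelR hM
    haveI := hL
    obtain ⟨n, σ, hσ, h1⟩ := exists_frob_mul_inertia hp hP hφ hg L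
    refine ⟨n, σ, hσ, ?_⟩
    have h2 := h (φ ^ n * σ) ((φ ^ n * σ)⁻¹ * g) (fun x hx => by
      show (φ ^ n * σ)⁻¹ (g x) = x
      rw [h1 x hx]
      exact Tame.apply_inv _ _)
    rw [mul_inv_cancel_left] at h2
    exact h2

end

end Fermat.Agent.TWFlat
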